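import Fermat.Agent.S24.FFGen
import Mathlib.FieldTheory.IntermediateField.Adjoin.Algebra
import Mathlib.RingTheory.Localization.FractionRing
import Mathlib.RingTheory.MvPolynomial.Basic
import Mathlib.RingTheory.Adjoin.Polynomial.Basic

/-!
# S24 piece P6b, algebraic half

* `FF_eq_adjoin` : `FF N` is generated over `ℚ̄` by the `j(q^d)`, `d ∣ N` (`jdF N d hd` of `FFGen.lean`).
* `br_exists_algHom_adjoin_of_relations` (generic): a family `y_i` in a field `M` satisfying exactly
  the same polynomial relations over `K` as the family `x_i` in `L` defines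
  `φ : K(x_i) →ₐ[K] M` with `φ x_i = y_i`.
* `exists_algHom_FF_of_relations` : the same for `FF N` and the family `j(q^d)`.
-/

set_option autoImplicit false

noncomputable section

open ModularCurve IntermediateField
open scoped IntermediateField.algebraAdjoinAdjoin

namespace Fermat.Agent.S24

/-- The index type: divisors of `N`. -/
abbrev Dv (N : ℕ) : Type := {d : ℕ // d ∣ N}

/-- The family `d ↦ j(q^d)` in `FF N`. -/
def jFfam (N : ℕ) [NeZero N] : Dv N → FF N := fun d => jdF N d.1 d.2

/-- The family `d ↦ j(q^d)` in `ℚ̄((q))`. -/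
def jBfam (N : ℕ) [NeZero N] : Dv N → LaurentSeries Kb := fun d => (jFfam N d : FF N)

theorem jBfam_apply (N : ℕ) [NeZero N] (d : Dv N) :
    jBfam N d = ((jdF N d.1 d.2 : FF N) : LaurentSeries Kb) := rfl

theorem jBfam_eq (N : ℕ) [NeZero N] (d : ℕ) [NeZero d] (hd : d ∣ N) :
    jBfam N ⟨d, hd⟩ = coeffEmb Kb (qExpand ℚ d jq) := rfl

theorem br_coeffEmb_mem_adjoin_jBfam (N : ℕ) [NeZero N] {x : LaurentSeries ℚ}
    (hx : x ∈ IntermediateField.adjoin ℚ (divisorExpansions N)) :
    coeffEmb Kb x ∈ IntermediateField.adjoin Kb (Set.range (jBfam N)) := by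
  induction hx using IntermediateField.adjoin_induction with
  | mem x hx =>
    obtain ⟨d, hne, hd, rfl⟩ := hx
    exact IntermediateField.subset_adjoin Kb _ ⟨⟨d, hd⟩, rfl⟩
  | algebraMap r =>
    rw [coeffEmb_algebraMap_rat]
    exact IntermediateField.algebraMap_mem _ _
  | add x y _ _ hx hy =>
    rw [map_add]
    exact add_mem hx hy
  | inv x _ hx =>
    rw [map_inv₀]
    exact inv_mem hx
  | mul x y _ _ hx hy =>
    rw [map_mul]
    exact mul_mem hx hy

theorem br_modularFunctionFieldBar_eq_adjoin (N : ℕ) [NeZero N] :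
    ModularCurve.modularFunctionFieldBar N = IntermediateField.adjoin Kb (Set.range (jBfam N)) := by
  apply le_antisymm
  · show laurentBaseChange Kb (modularFunctionFieldFull N) ≤ _
    rw [laurentBaseChange, IntermediateField.adjoin_le_iff]
    rintro _ ⟨x, hx, rfl⟩
    exact br_coeffEmb_mem_adjoin_jBfam N hx
  · rw [IntermediateField.adjoin_le_iff]
    rintro _ ⟨d, rfl⟩
    exact (jdF N d.1 d.2).2

theorem FF_eq_adjoin_range (N : ℕ) [NeZero N] :
    (⊤ : IntermediateField Kb (FF N)) = IntermediateField.adjoin Kb (Set.range (jFfam N)) := by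
  apply IntermediateField.lift_injective
  rw [IntermediateField.lift_top, IntermediateField.lift_adjoin]
  refine (br_modularFunctionFieldBar_eq_adjoin N).trans ?_
  congr 1
  ext x
  constructor
  · rintro ⟨d, rfl⟩
    exact ⟨jFfam N d, ⟨d, rfl⟩, rfl⟩
  · rintro ⟨_, ⟨d, rfl⟩, rfl⟩
    exact ⟨d, rfl⟩

/-- `FF N` is generated, as a field over `ℚ̄`, by the `j(q^d)`, `d ∣ N`. -/
theorem FF_eq_adjoin (N : ℕ) [NeZero N] :
    (⊤ : IntermediateField Kb (FF N)) =
      IntermediateField.adjoin Kb {x | ∃ d hd, x = jdF N d hd} := by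
  rw [FF_eq_adjoin_range]
  congr 1
  ext x
  constructor
  · rintro ⟨d, rfl⟩
    exact ⟨d.1, d.2, rfl⟩
  · rintro ⟨d, hd, rfl⟩
    exact ⟨⟨d, hd⟩, rfl⟩

section generic

variable {K L M ι : Type*} [Field K] [Field L] [Algebra K L] [Field M] [Algebra K M]

/-- If the families `x : ι → L` and `y : ι → M` satisfy the same polynomial relations over `K`,
there is a `K`-algebra map `K(x) → M` sending `x i` to `y i`. -/
theorem br_exists_algHom_adjoin_of_relations (x : ι → L) (y : ι → M)
    (h : ∀ P : MvPolynomial ι K, MvPolynomial.aeval x P = 0 ↔ MvPolynomial.aeval y P = 0) :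
    ∃ φ : IntermediateField.adjoin K (Set.range x) →ₐ[K] M,
      ∀ i, φ ⟨x i, IntermediateField.subset_adjoin K _ ⟨i, rfl⟩⟩ = y i := by
  classical
  have hA : ∀ P : MvPolynomial ι K,
      MvPolynomial.aeval x P ∈ Algebra.adjoin K (Set.range x) := fun P => by
    rw [Algebra.adjoin_range_eq_range_aeval]; exact ⟨P, rfl⟩
  let ax : MvPolynomial ι K →ₐ[K] Algebra.adjoin K (Set.range x) :=
    (MvPolynomial.aeval x).codRestrict _ hA
  have hax : Function.Surjective ax := by
    rintro ⟨a, ha⟩
    have ha' : a ∈ (MvPolynomial.aeval x : MvPolynomial ι K →ₐ[K] L).range := by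
      rw [← Algebra.adjoin_range_eq_range_aeval]; exact ha
    obtain ⟨P, rfl⟩ := ha'
    exact ⟨P, rfl⟩
  have hker : RingHom.ker ax.toRingHom ≤
      RingHom.ker (MvPolynomial.aeval y : MvPolynomial ι K →ₐ[K] M).toRingHom := by
    intro P hP
    rw [RingHom.mem_ker] at hP ⊢
    have h1 : MvPolynomial.aeval x P = 0 := congrArg Subtype.val hP
    exact (h P).mp h1
  let ψ : Algebra.adjoin K (Set.range x) →ₐ[K] M :=
    AlgHom.liftOfSurjective ax hax (MvPolynomial.aeval y) hker
  have hψ : ∀ P, ψ (ax P) = MvPolynomial.aeval y P :=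
    AlgHom.liftOfSurjective_apply ax hax _ hker
  have hψinj : Function.Injective ψ := by
    rw [injective_iff_map_eq_zero]
    intro a ha
    obtain ⟨P, rfl⟩ := hax a
    rw [hψ] at ha
    exact Subtype.ext ((h P).mpr ha)
  let φ : IntermediateField.adjoin K (Set.range x) →ₐ[K] M :=
    IsFractionRing.liftAlgHom (K := IntermediateField.adjoin K (Set.range x)) hψinj
  refine ⟨φ, fun i => ?_⟩
  have h2 : (⟨x i, IntermediateField.subset_adjoin K _ ⟨i, rfl⟩⟩ :
      IntermediateField.adjoin K (Set.range x)) =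
      algebraMap (Algebra.adjoin K (Set.range x)) _ (ax (MvPolynomial.X i)) := by
    apply Subtype.ext
    show x i = ((ax (MvPolynomial.X i) : Algebra.adjoin K (Set.range x)) : L)
    show x i = MvPolynomial.aeval x (MvPolynomial.X i)
    rw [MvPolynomial.aeval_X]
  rw [h2]
  show IsFractionRing.lift hψinj _ = _
  rw [IsFractionRing.lift_algebraMap]
  exact (hψ _).trans (MvPolynomial.aeval_X y i)

/-- Transport of an algebra map along an equality of intermediate fields. -/
theorem br_exists_algHom_of_eq_adjoin (S : IntermediateField K L) (x : ι → L)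
    (hS : S = IntermediateField.adjoin K (Set.range x)) (y : ι → M)
    (h : ∀ P : MvPolynomial ι K, MvPolynomial.aeval x P = 0 ↔ MvPolynomial.aeval y P = 0) :
    ∃ φ : S →ₐ[K] M, ∀ (i : ι) (hi : x i ∈ S), φ ⟨x i, hi⟩ = y i := by
  subst hS
  obtain ⟨φ, hφ⟩ := br_exists_algHom_adjoin_of_relations x y h
  exact ⟨φ, fun i _ => hφ i⟩

end generic

/-- A family `y_d` (`d ∣ N`) in a field `M` satisfying exactly the same polynomial relations over
`ℚ̄` as the `j(q^d)` defines `φ : FF N →ₐ[ℚ̄] M` with `φ (j(q^d)) = y_d`. -/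
theorem exists_algHom_FF_of_relations (N : ℕ) [NeZero N] {M : Type*} [Field M] [Algebra Kb M]
    (y : Dv N → M)
    (h : ∀ P : MvPolynomial (Dv N) Kb,
      MvPolynomial.aeval (jBfam N) P = 0 ↔ MvPolynomial.aeval y P = 0) :
    ∃ φ : FF N →ₐ[Kb] M, ∀ (d : ℕ) (hd : d ∣ N), φ (jdF N d hd) = y ⟨d, hd⟩ := by
  obtain ⟨φ, hφ⟩ := br_exists_algHom_of_eq_adjoin (ModularCurve.modularFunctionFieldBar N)
    (jBfam N) (br_modularFunctionFieldBar_eq_adjoin N) y h
  exact ⟨φ, fun d hd => hφ ⟨d, hd⟩ (jdF N d hd).2⟩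

end Fermat.Agent.S24
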