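import Fermat.Statements.S24

/-!
# S24 — basic definitions and the top-level reduction

`K = ℚ̄`, `F = modularFunctionFieldBar N ⊂ ℚ̄((q))`, `jF N : F` the element `j(q)`.
-/

set_option autoImplicit false

noncomputable section

open AlgebraicCurve ModularCurve KaehlerDifferential

namespace Fermat.Agent.S24

/-- The base field `ℚ̄`. -/
abbrev Kb : Type := AlgebraicClosure ℚ

/-- The function field of `X₀(N)` over `ℚ̄` (as a type). -/
abbrev FF (N : ℕ) : Type := ↥(ModularCurve.modularFunctionFieldBar N)

/-- `j(q)` with coefficients in `ℚ̄`. -/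
def jBar : LaurentSeries Kb := coeffEmb Kb jq

theorem jBar_mem (N : ℕ) [NeZero N] : jBar ∈ ModularCurve.modularFunctionFieldBar N := by
  refine coeffEmb_mem_laurentBaseChange Kb ?_
  have h := jqd_mem_full N (one_dvd N)
  rwa [qExpand_one_apply] at h

/-- `j` as an element of the function field. -/
def jF (N : ℕ) [NeZero N] : FF N := ⟨jBar, jBar_mem N⟩

end Fermat.Agent.S24
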