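import Fermat.Agent.S24.Defs
import Fermat.Prelude.Def_ModularForm_HeckeOperator

/-!
# S24 — shared analytic definitions (used by P4, P5, P6, P7)

* `embC : ℚ̄ →+* ℂ` a fixed embedding, `algKbC : Algebra ℚ̄ ℂ` (NOT a global instance; use
  `attribute [local instance] Fermat.Agent.S24.algKbC`).
* `Jfun : ℍ → ℂ`, the analytic `j = E₄³/Δ` (so `Jfun = q⁻¹ + 744 + …`).
* `IsLevelMatrix N g`: `g : GL (Fin 2) ℝ` is an integer matrix with positive determinant dividing `N`.
* `gens N`: the functions `τ ↦ Jfun (g • τ)`, `g` a level matrix.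
* `Ban N = ℚ̄[gens N] ⊂ (ℍ → ℂ)`, `Man N = FractionRing (Ban N)`.
-/

set_option autoImplicit false

noncomputable section

open UpperHalfPlane
open scoped MatrixGroups

namespace Fermat.Agent.S24

/-- A fixed embedding `ℚ̄ → ℂ`. -/
def embC : Kb →+* ℂ :=
  letI : Algebra ℚ Kb := AlgebraicClosure.instAlgebra (k := ℚ) (R := ℚ)
  haveI : Algebra.IsAlgebraic ℚ Kb := AlgebraicClosure.isAlgebraic ℚ
  (IsAlgClosed.lift (R := ℚ) (S := Kb) (M := ℂ)).toRingHom

/-- The `ℚ̄`-algebra structure on `ℂ` given by `embC`. Not a global instance. -/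
@[reducible] def algKbC : Algebra Kb ℂ := embC.toAlgebra

attribute [local instance] algKbC

theorem algebraMap_Kb_C (a : Kb) : algebraMap Kb ℂ a = embC a := rfl

/-- The analytic `j`-function `E₄³/Δ` on the upper half plane. -/
def Jfun (τ : ℍ) : ℂ := (ModularForm.E₄ τ) ^ 3 / ModularForm.discriminant τ

/-- `g` is (the image in `GL₂(ℝ)` of) an integer matrix with positive determinant dividing `N`. -/
def IsLevelMatrix (N : ℕ) (g : GL (Fin 2) ℝ) : Prop :=
  ∃ A : Matrix (Fin 2) (Fin 2) ℤ, 0 < A.det ∧ A.det.natAbs ∣ N ∧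
    (g : Matrix (Fin 2) (Fin 2) ℝ) = A.map (Int.cast : ℤ → ℝ)

/-- The function `τ ↦ J(g τ)`. -/
def Jcomp (g : GL (Fin 2) ℝ) : ℍ → ℂ := fun τ => Jfun (g • τ)

/-- The generators `J ∘ g`, `g` an integer matrix of positive determinant dividing `N`. -/
def gens (N : ℕ) : Set (ℍ → ℂ) := {f | ∃ g, IsLevelMatrix N g ∧ f = Jcomp g}

/-- The `ℚ̄`-algebra generated by the `J ∘ g`. -/
def Ban (N : ℕ) : Subalgebra Kb (ℍ → ℂ) := Algebra.adjoin Kb (gens N)

/-- `J(dτ)` for `d : ℕ`, as a function on `ℍ` (junk `Jfun` if `d = 0`). -/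
def Jd (d : ℕ) : ℍ → ℂ := Jcomp (ModularForm.heckeDiagMatrix d)

/-- The field `M` of the realization: the fraction field of `Ban N`
(`Ban N` is a domain: its elements are holomorphic on the connected `ℍ`; to be proved in P5a). -/
abbrev Man (N : ℕ) : Type := FractionRing (Ban N)

end Fermat.Agent.S24
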