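import Mathlib

/-!
# S24 piece P4 (part 1): the analytic `j`-function `J = E₄³ / Δ` on the upper half plane

* `Fermat.Agent.S24.J : ℍ → ℂ`
* `J_mdifferentiable`, `J_differentiableOn` : holomorphy
* `J_smul` : invariance under `SL(2, ℤ)`
-/

set_option autoImplicit false

noncomputable section

open UpperHalfPlane ModularForm ModularFormClass MatrixGroups EisensteinSeries
open scoped Manifold

namespace Fermat.Agent.S24

/-- The analytic `j`-function `E₄³ / Δ` (so `J = q⁻¹ + 744 + …`, `J(i) = 1728`, `J(ρ) = 0`). -/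
def J (τ : ℍ) : ℂ := E₄ τ ^ 3 / ModularForm.discriminant τ

lemma J_def (τ : ℍ) : J τ = E₄ τ ^ 3 / ModularForm.discriminant τ := rfl

lemma J_mul_discriminant (τ : ℍ) : J τ * ModularForm.discriminant τ = E₄ τ ^ 3 := by
  rw [J_def, div_mul_cancel₀ _ (discriminant_ne_zero τ)]

lemma J_eq_iff (τ : ℍ) (c : ℂ) : J τ = c ↔ E₄ τ ^ 3 = c * ModularForm.discriminant τ := by
  rw [J_def, div_eq_iff (discriminant_ne_zero τ)]

lemma J_eq_zero_iff (τ : ℍ) : J τ = 0 ↔ E₄ τ = 0 := by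
  rw [J_eq_iff, zero_mul, pow_eq_zero_iff (by norm_num)]

/-- `J - 1728 = E₆² / Δ`. -/
lemma J_sub (τ : ℍ) : J τ - 1728 = E₆ τ ^ 2 / ModularForm.discriminant τ := by
  rw [J_def, eq_div_iff (discriminant_ne_zero τ), sub_mul,
    div_mul_cancel₀ _ (discriminant_ne_zero τ), discriminant_eq_E₄_cube_sub_E₆_sq]
  ring

lemma J_eq_1728_iff (τ : ℍ) : J τ = 1728 ↔ E₆ τ = 0 := by
  rw [← sub_eq_zero, J_sub, div_eq_zero_iff, pow_eq_zero_iff (by norm_num)]
  simp [discriminant_ne_zero τ]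

lemma discriminant_mdifferentiable : MDiff ModularForm.discriminant :=
  CuspForm.discriminant.holo'

/-- `J` is holomorphic on `ℍ`. -/
theorem J_mdifferentiable : MDiff J := by
  have h4 : MDiff (fun τ : ℍ => E₄ τ ^ 3) := (E₄.holo').pow 3
  have hΔ : MDiff ModularForm.discriminant := discriminant_mdifferentiable
  rw [UpperHalfPlane.mdifferentiable_iff] at h4 hΔ ⊢
  refine (h4.div hΔ ?_).congr ?_
  · intro z hz
    simp only [Function.comp_apply]
    exact discriminant_ne_zero _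
  · intro z hz
    simp [J_def, Function.comp_apply]

theorem J_differentiableOn : DifferentiableOn ℂ (J ∘ ofComplex) {z | 0 < z.im} :=
  UpperHalfPlane.mdifferentiable_iff.mp J_mdifferentiable

lemma mem_SL_range (γ : SL(2, ℤ)) :
    ((γ : GL (Fin 2) ℝ)) ∈ (Matrix.SpecialLinearGroup.mapGL ℝ : SL(2, ℤ) →* GL (Fin 2) ℝ).range :=
  ⟨γ, rfl⟩

/-- Transformation law of a level one form under `SL(2, ℤ)`. -/
lemma levelOne_smul {F : Type*} [FunLike F ℍ ℂ] {k : ℤ}
    [SlashInvariantFormClass F (Matrix.SpecialLinearGroup.mapGL ℝ : SL(2, ℤ) →* GL (Fin 2) ℝ).range k]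
    (f : F) (γ : SL(2, ℤ)) (τ : ℍ) :
    f (γ • τ) = (denom (γ : GL (Fin 2) ℝ) τ) ^ k * f τ := by
  exact SlashInvariantForm.slash_action_eqn'' f (mem_SL_range γ) τ

/-- `J` is invariant under `SL(2, ℤ)`. -/
theorem J_smul (γ : SL(2, ℤ)) (τ : ℍ) : J (γ • τ) = J τ := by
  have h4 := levelOne_smul E₄ γ τ
  have hΔ := levelOne_smul CuspForm.discriminant γ τ
  rw [CuspForm.coe_discriminant] at hΔ
  have hd : denom (γ : GL (Fin 2) ℝ) τ ≠ 0 := denom_ne_zero _ _
  rw [J_def, J_def, h4, hΔ]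
  generalize denom (γ : GL (Fin 2) ℝ) τ = d at hd
  have h1 : (d ^ (4 : ℤ)) ^ 3 = d ^ (12 : ℤ) := by
    rw [← zpow_natCast, ← zpow_mul]; norm_num
  rw [mul_pow, h1, mul_div_mul_left _ _ (zpow_ne_zero _ hd)]

end Fermat.Agent.S24
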