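import Fermat.Agent.S24.EtaExp
import Fermat.Agent.S24.AnalyticDefs
import Fermat.Agent.S24.JDef

/-!
# S24 / P6a — the `q`-expansion of `J(dτ)` is the formal series `qExpand ℚ d jq`

Main results (interface of `NOTES/S24-P6a.md`):

* `JdShift d τ = q^d · J(dτ)`;
* `JdShift_periodic`, `JdShift_mdifferentiable`, `JdShift_isBoundedAtImInfty`,
  `analyticAt_cuspFunction_JdShift`;
* `qExpansion_JdShift_coeff`, `hasSum_JdShift`: the `q`-expansion of `q^d · J(dτ)` has
  `n`-th coefficient `(qExpand ℚ d jq).coeff (n - d)`.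

By-products: `qExpansion_E₄_eq`, `qExpansion_discriminant_eq`, `qExpansion_gJ`.
-/

set_option autoImplicit false

noncomputable section

open UpperHalfPlane Function Filter Complex ModularForm EisensteinSeries
open scoped Manifold Topology MatrixGroups

namespace Fermat.Agent.S24

local notation "𝕢" => Function.Periodic.qParam

/-! ### `E₄` -/

/-- The `q`-expansion of `E₄` is the formal series `eisenstein4`. -/
theorem qExpansion_E₄_eq :
    qExpansion (1 : ℝ) E₄ = ModularCurve.eisenstein4.map (Int.castRingHom ℂ) := by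
  ext m
  rw [E_qExpansion_coeff _ ⟨2, rfl⟩, PowerSeries.coeff_map, ModularCurve.eisenstein4,
    PowerSeries.coeff_mk]
  split_ifs with h
  · simp
  · norm_num [show bernoulli 4 = -1 / 30 by decide +kernel, ArithmeticFunction.sigma_apply]

/-- The cusp function of `E₄` (a holomorphic function on the unit disc). -/
def gE4 : ℂ → ℂ := cuspFunction 1 E₄

lemma differentiableOn_gE4 : DifferentiableOn ℂ gE4 (Metric.ball 0 1) := by
  intro q hq
  have hq' : ‖q‖ < 1 := by simpa using hq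
  exact (ModularFormClass.differentiableAt_cuspFunction E₄ one_pos one_mem_strictPeriods_SL
    hq').differentiableWithinAt

lemma E₄_periodic : Function.Periodic ((E₄ : ℍ → ℂ) ∘ ofComplex) (1 : ℝ) :=
  SlashInvariantFormClass.periodic_comp_ofComplex E₄ one_mem_strictPeriods_SL

lemma discriminant_periodic :
    Function.Periodic ((ModularForm.discriminant : ℍ → ℂ) ∘ ofComplex) (1 : ℝ) := by
  have := SlashInvariantFormClass.periodic_comp_ofComplex CuspForm.discriminant
    one_mem_strictPeriods_SL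
  rwa [CuspForm.coe_discriminant] at this

lemma E₄_eq_ofDisc : (E₄ : ℍ → ℂ) = ofDisc gE4 :=
  eq_ofDisc_cuspFunction E₄_periodic

lemma gE4_qParam (τ : ℍ) : gE4 (𝕢 1 τ) = E₄ τ := by
  have := congrFun E₄_eq_ofDisc τ
  rw [ofDisc_apply] at this
  exact this.symm

/-! ### `q · J` as a function of `q` -/

/-- `q · J` as a function of `q` on the unit disc. -/
def gJ : ℂ → ℂ := fun q => gE4 q ^ 3 / etaDisc q ^ 24

lemma differentiableOn_gJ : DifferentiableOn ℂ gJ (Metric.ball 0 1) := by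
  refine (differentiableOn_gE4.pow 3).div (differentiableOn_etaDisc.pow 24) ?_
  intro q hq
  exact pow_ne_zero _ (etaDisc_ne_zero (by simpa using hq))

lemma gJ_mul_etaDisc {q : ℂ} (hq : ‖q‖ < 1) : gJ q * etaDisc q ^ 24 = gE4 q ^ 3 := by
  rw [gJ, div_mul_cancel₀ _ (pow_ne_zero _ (etaDisc_ne_zero hq))]

lemma qParam_ne_zero' (z : ℂ) : 𝕢 1 z ≠ 0 := by
  simp [Function.Periodic.qParam]

/-- `q · J(τ) = gJ(q)`. -/
lemma qParam_mul_Jfun (τ : ℍ) : 𝕢 1 τ * Jfun τ = gJ (𝕢 1 τ) := by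
  have hq : 𝕢 1 (τ : ℂ) ≠ 0 := qParam_ne_zero' _
  have he : etaDisc (𝕢 1 τ) ≠ 0 := etaDisc_ne_zero (norm_qParam_lt_one' τ)
  rw [Jfun, discriminant_eq_qParam_mul_etaDisc, gJ, gE4_qParam]
  field_simp

/-- The `q`-expansion of `q · J` is `jNum`. -/
theorem qExpansion_gJ :
    qExpansion (1 : ℝ) (ofDisc gJ) = ModularCurve.jNum.map (Int.castRingHom ℂ) := by
  have h1 : ofDisc (gJ * etaDisc ^ 24) = ofDisc (gE4 ^ 3) := by
    funext τ
    simp only [ofDisc_apply, Pi.mul_apply, Pi.pow_apply]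
    exact gJ_mul_etaDisc (norm_qParam_lt_one' τ)
  have h2 : qExpansion (1 : ℝ) (ofDisc gJ) *
      ModularCurve.dedekindEtaUnit.map (Int.castRingHom ℂ) =
      (ModularCurve.eisenstein4.map (Int.castRingHom ℂ)) ^ 3 := by
    rw [← qExpansion_etaDisc_pow24,
      ← qExpansion_ofDisc_mul differentiableOn_gJ (differentiableOn_etaDisc.pow 24), h1,
      qExpansion_ofDisc_pow differentiableOn_gE4, ← E₄_eq_ofDisc, qExpansion_E₄_eq]
  have h3 : ModularCurve.dedekindEtaUnit.map (Int.castRingHom ℂ) *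
      ModularCurve.dedekindEtaUnitInv.map (Int.castRingHom ℂ) = 1 := by
    rw [← map_mul, ModularCurve.dedekindEtaUnit_mul_inv, map_one]
  calc qExpansion (1 : ℝ) (ofDisc gJ)
      = qExpansion (1 : ℝ) (ofDisc gJ) * (ModularCurve.dedekindEtaUnit.map (Int.castRingHom ℂ) *
          ModularCurve.dedekindEtaUnitInv.map (Int.castRingHom ℂ)) := by rw [h3, mul_one]
    _ = (ModularCurve.eisenstein4.map (Int.castRingHom ℂ)) ^ 3 *
          ModularCurve.dedekindEtaUnitInv.map (Int.castRingHom ℂ) := by rw [← mul_assoc, h2]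
    _ = ModularCurve.jNum.map (Int.castRingHom ℂ) := by
        rw [ModularCurve.jNum, map_mul, map_pow]

/-- The `q`-expansion of `Δ` is `q · dedekindEtaUnit`. -/
theorem qExpansion_discriminant_eq :
    qExpansion (1 : ℝ) ModularForm.discriminant =
      PowerSeries.X * ModularCurve.dedekindEtaUnit.map (Int.castRingHom ℂ) := by
  have hfun : (ModularForm.discriminant : ℍ → ℂ) = ofDisc ((fun q => q) * etaDisc ^ 24) := by
    funext τ
    simp only [ofDisc_apply, Pi.mul_apply, Pi.pow_apply]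
    exact discriminant_eq_qParam_mul_etaDisc τ
  have hid : DifferentiableOn ℂ (fun q : ℂ => q) (Metric.ball 0 1) := differentiableOn_id
  have hX : qExpansion (1 : ℝ) (ofDisc (fun q : ℂ => q)) = PowerSeries.X := by
    have := qExpansion_ofDisc_polynomial (Polynomial.X)
    simpa using this
  rw [hfun, qExpansion_ofDisc_mul hid (differentiableOn_etaDisc.pow 24), hX,
    qExpansion_etaDisc_pow24]

/-! ### `J(dτ)` -/

/-- `q^d · J(dτ)` -/
def JdShift (d : ℕ) : ℍ → ℂ := fun τ => 𝕢 1 τ ^ d * Jd d τ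

lemma JdShift_apply (d : ℕ) (τ : ℍ) : JdShift d τ = 𝕢 1 τ ^ d * Jd d τ := rfl

/-- `q^d · J(dτ)` as a function of `q`. -/
def gJd (d : ℕ) : ℂ → ℂ := fun q => gJ (q ^ d)

lemma differentiableOn_gJd (d : ℕ) [NeZero d] : DifferentiableOn ℂ (gJd d) (Metric.ball 0 1) := by
  have hmaps : Set.MapsTo (fun q : ℂ => q ^ d) (Metric.ball 0 1) (Metric.ball 0 1) := by
    intro q hq
    have hq' : ‖q‖ < 1 := by simpa using hq
    have : ‖q ^ d‖ < 1 := by
      rw [norm_pow]
      exact pow_lt_one₀ (norm_nonneg q) hq' (NeZero.ne d)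
    simpa using this
  exact differentiableOn_gJ.comp (differentiableOn_id.pow d) hmaps

lemma qParam_heckeDiagMatrix_smul (d : ℕ) [NeZero d] (τ : ℍ) :
    𝕢 1 ((ModularForm.heckeDiagMatrix d • τ : ℍ) : ℂ) = 𝕢 1 τ ^ d := by
  rw [ModularForm.coe_heckeDiagMatrix_smul (NeZero.ne d)]
  simp only [Function.Periodic.qParam, ofReal_one, div_one]
  rw [← Complex.exp_nat_mul]
  congr 1
  ring

lemma JdShift_eq_ofDisc (d : ℕ) [NeZero d] : JdShift d = ofDisc (gJd d) := by
  funext τ
  rw [JdShift_apply, ofDisc_apply, gJd, Jd, Jcomp, ← qParam_heckeDiagMatrix_smul,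
    qParam_mul_Jfun]

lemma JdShift_zero : JdShift 0 = Jfun := by
  funext τ
  simp [JdShift_apply, Jd, Jcomp]

lemma Jfun_periodic : Function.Periodic (Jfun ∘ ofComplex) (1 : ℝ) := by
  intro w
  have h4 := E₄_periodic w
  have hΔ := discriminant_periodic w
  simp only [Function.comp_apply] at h4 hΔ ⊢
  rw [Jfun, Jfun, h4, hΔ]

theorem JdShift_periodic (d : ℕ) : Function.Periodic (JdShift d ∘ ofComplex) (1 : ℝ) := by
  rcases Nat.eq_zero_or_pos d with rfl | hd
  · rw [JdShift_zero]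
    exact Jfun_periodic
  · have : NeZero d := ⟨hd.ne'⟩
    rw [JdShift_eq_ofDisc]
    exact ofDisc_periodic _

theorem JdShift_mdifferentiable (d : ℕ) : MDiff (JdShift d) := by
  rcases Nat.eq_zero_or_pos d with rfl | hd
  · rw [JdShift_zero]
    exact J_mdifferentiable
  · have : NeZero d := ⟨hd.ne'⟩
    rw [JdShift_eq_ofDisc]
    exact ofDisc_mdifferentiable (differentiableOn_gJd d)

theorem JdShift_isBoundedAtImInfty (d : ℕ) [NeZero d] : IsBoundedAtImInfty (JdShift d) := by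
  rw [JdShift_eq_ofDisc]
  exact ofDisc_isBoundedAtImInfty (continuousAt_zero_of_differentiableOn (differentiableOn_gJd d))

theorem analyticAt_cuspFunction_JdShift (d : ℕ) [NeZero d] :
    AnalyticAt ℂ (cuspFunction 1 (JdShift d)) 0 := by
  rw [JdShift_eq_ofDisc]
  exact analyticAt_cuspFunction_ofDisc (differentiableOn_gJd d)

/-- The coefficients of the formal series `qExpand ℚ d jq`, shifted by `d`. -/
lemma qExpand_jq_coeff (d : ℕ) [NeZero d] (n : ℕ) :
    (ModularCurve.qExpand ℚ d ModularCurve.jq).coeff ((n : ℤ) - d) =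
      if d ∣ n then ((ModularCurve.jNum.coeff (n / d) : ℤ) : ℚ) else 0 := by
  have hd : d ≠ 0 := NeZero.ne d
  split_ifs with h
  · obtain ⟨k, rfl⟩ := h
    rw [Nat.mul_div_cancel_left _ (Nat.pos_of_ne_zero hd)]
    have : ((d * k : ℕ) : ℤ) - d = (d : ℤ) * ((k : ℤ) - 1) := by push_cast; ring
    rw [this, ModularCurve.qExpand_coeff_mul, ModularCurve.jq, HahnSeries.coeff_single_mul,
      one_mul, show (k : ℤ) - 1 - (-1) = (k : ℤ) by ring, HahnSeries.ofPowerSeries_apply_coeff,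
      ModularCurve.jNumQ, PowerSeries.coeff_map]
    rfl
  · refine ModularCurve.qExpand_coeff_of_not_dvd d _ ?_
    intro hdvd
    apply h
    have h2 : (d : ℤ) ∣ (n : ℤ) := by
      have := dvd_add hdvd (dvd_refl (d : ℤ))
      simpa using this
    exact_mod_cast h2

/-- Power series expansion of `q^d · J(dτ)` with explicit coefficients. -/
lemma hasSum_gJd (d : ℕ) [NeZero d] (τ : ℍ) :
    HasSum (fun n : ℕ => (if d ∣ n then ((ModularCurve.jNum.coeff (n / d) : ℤ) : ℂ) else 0) *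
      𝕢 1 τ ^ n) (gJd d (𝕢 1 τ)) := by
  have hd : d ≠ 0 := NeZero.ne d
  have h := hasSum_qExpansion_ofDisc differentiableOn_gJ (ModularForm.heckeDiagMatrix d • τ)
  rw [qParam_heckeDiagMatrix_smul, qExpansion_gJ] at h
  have hinj : Function.Injective (fun k : ℕ => d * k) :=
    fun a b hab => Nat.eq_of_mul_eq_mul_left (Nat.pos_of_ne_zero hd) hab
  refine (hinj.hasSum_iff ?_).mp ?_
  · intro n hn
    have : ¬ d ∣ n := by
      rintro ⟨k, rfl⟩
      exact hn ⟨k, rfl⟩
    simp [this]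
  · have hfun : ((fun n : ℕ =>
        (if d ∣ n then ((ModularCurve.jNum.coeff (n / d) : ℤ) : ℂ) else 0) * 𝕢 1 τ ^ n) ∘
        fun k : ℕ => d * k) = fun m : ℕ => (PowerSeries.coeff m)
          ((PowerSeries.map (Int.castRingHom ℂ)) ModularCurve.jNum) * (𝕢 1 ↑τ ^ d) ^ m := by
      funext k
      simp only [Function.comp_apply, dvd_mul_right, if_true,
        Nat.mul_div_cancel_left _ (Nat.pos_of_ne_zero hd), PowerSeries.coeff_map, pow_mul]
      rfl
    rw [hfun]
    exact h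

/-- The `n`-th `q`-expansion coefficient of `q^d · J(dτ)` is the `(n - d)`-th coefficient of
the formal series `qExpand ℚ d jq = j(q^d)`. -/
theorem qExpansion_JdShift_coeff (d : ℕ) [NeZero d] (n : ℕ) :
    (qExpansion (1 : ℝ) (JdShift d)).coeff n =
      (((ModularCurve.qExpand ℚ d ModularCurve.jq).coeff ((n : ℤ) - d) : ℚ) : ℂ) := by
  rw [JdShift_eq_ofDisc, qExpand_jq_coeff,
    qExpansion_coeff_unique_fun one_pos (analyticAt_cuspFunction_ofDisc (differentiableOn_gJd d))
      (fun τ => hasSum_gJd d τ) n]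
  split_ifs <;> simp

/-- The convergent `q`-expansion of `q^d · J(dτ)`. -/
theorem hasSum_JdShift (d : ℕ) [NeZero d] (τ : ℍ) :
    HasSum (fun n : ℕ =>
      (((ModularCurve.qExpand ℚ d ModularCurve.jq).coeff ((n : ℤ) - d) : ℚ) : ℂ) * 𝕢 1 τ ^ n)
      (𝕢 1 τ ^ d * Jd d τ) := by
  have h := hasSum_gJd d τ
  have hval : gJd d (𝕢 1 τ) = 𝕢 1 τ ^ d * Jd d τ := by
    rw [← JdShift_apply, JdShift_eq_ofDisc, ofDisc_apply]
  rw [hval] at h
  convert h using 2 with n
  rw [qExpand_jq_coeff]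
  split_ifs <;> simp

/-- Special case `d = 1`: `q · J(τ) = ∑ c_n q^n` with `c_n = jq.coeff (n - 1) ∈ ℚ`. -/
theorem hasSum_qParam_mul_Jfun (τ : ℍ) :
    HasSum (fun n : ℕ => ((ModularCurve.jq.coeff ((n : ℤ) - 1) : ℚ) : ℂ) * 𝕢 1 τ ^ n)
      (𝕢 1 τ * Jfun τ) := by
  have h := hasSum_JdShift 1 τ
  simp only [ModularCurve.qExpand_one_apply, pow_one, Nat.cast_one] at h
  have hJ : Jd 1 τ = Jfun τ := by
    have hcoe : ((ModularForm.heckeDiagMatrix 1 • τ : ℍ) : ℂ) = (τ : ℂ) := by
      rw [ModularForm.coe_heckeDiagMatrix_smul one_ne_zero]; simp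
    rw [Jd, Jcomp, UpperHalfPlane.ext hcoe]
  rwa [hJ] at h

/-- The coefficients of `q · J` are integers: `jq.coeff (n - 1) = jNum.coeff n`. -/
theorem jq_coeff_sub_one (n : ℕ) :
    ModularCurve.jq.coeff ((n : ℤ) - 1) = ((ModularCurve.jNum.coeff n : ℤ) : ℚ) := by
  have h := qExpand_jq_coeff 1 n
  simpa [ModularCurve.qExpand_one_apply] using h

end Fermat.Agent.S24
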