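import Fermat.Agent.S24.QDisc
import Fermat.Prelude.Def_ModularCurve_X0

/-!
# S24 / P6a — the analytic eta product has the formal eta product as Taylor series

* `qExpansion_coeff_unique_fun` : uniqueness of `q`-expansion coefficients for plain functions.
* `etaDisc q = ∏' n, (1 - q^(n+1))` on the unit disc; `qExpansion_etaDisc` identifies the
  `q`-expansion of `etaDisc ∘ q` with the image of the formal product `ModularCurve.etaProd`.
* `qExpansion_etaDisc_pow24` : the same for the 24-th power and `ModularCurve.dedekindEtaUnit`.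
-/

set_option autoImplicit false

noncomputable section

open UpperHalfPlane Function Filter Complex
open scoped Manifold Topology PowerSeries.WithPiTopology

namespace Fermat.Agent.S24

local notation "𝕢" => Function.Periodic.qParam

/-- `UpperHalfPlane.qExpansion_coeff_unique` for plain functions. -/
lemma qExpansion_coeff_unique_fun {h : ℝ} {f : ℍ → ℂ} {c : ℕ → ℂ} (hh : 0 < h)
    (han : AnalyticAt ℂ (cuspFunction h f) 0)
    (hf : ∀ τ : ℍ, HasSum (fun m => c m * 𝕢 h τ ^ m) (f τ)) (m : ℕ) :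
    (qExpansion h f).coeff m = c m := by
  let _i : FunLike (ℍ → ℂ) ℍ ℂ := ⟨fun f => f, fun _ _ h => h⟩
  exact (UpperHalfPlane.qExpansion_coeff_unique (F := ℍ → ℂ) f hh han hf m).symm

/-- The `q`-expansion of `g ∘ q` converges to `g ∘ q`. -/
lemma hasSum_qExpansion_ofDisc {g : ℂ → ℂ} (hg : DifferentiableOn ℂ g (Metric.ball 0 1))
    (τ : ℍ) :
    HasSum (fun m : ℕ => (qExpansion (1 : ℝ) (ofDisc g)).coeff m * 𝕢 1 τ ^ m) (g (𝕢 1 τ)) := by
  have := UpperHalfPlane.hasSum_qExpansion (h := 1) (f := ofDisc g) one_pos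
    (by simpa using ofDisc_periodic g) (ofDisc_mdifferentiable hg)
    (ofDisc_isBoundedAtImInfty (continuousAt_zero_of_differentiableOn hg)) τ
  simpa [smul_eq_mul] using this

lemma ofDisc_mul (g₁ g₂ : ℂ → ℂ) : ofDisc (g₁ * g₂) = ofDisc g₁ * ofDisc g₂ := rfl

lemma ofDisc_pow (g : ℂ → ℂ) (n : ℕ) : ofDisc (g ^ n) = ofDisc g ^ n := rfl

lemma ofDisc_one : ofDisc (1 : ℂ → ℂ) = 1 := rfl

lemma qExpansion_ofDisc_mul {g₁ g₂ : ℂ → ℂ} (h₁ : DifferentiableOn ℂ g₁ (Metric.ball 0 1))
    (h₂ : DifferentiableOn ℂ g₂ (Metric.ball 0 1)) :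
    qExpansion (1 : ℝ) (ofDisc (g₁ * g₂)) =
      qExpansion (1 : ℝ) (ofDisc g₁) * qExpansion (1 : ℝ) (ofDisc g₂) := by
  rw [ofDisc_mul]
  exact UpperHalfPlane.qExpansion_mul (analyticAt_cuspFunction_ofDisc h₁)
    (analyticAt_cuspFunction_ofDisc h₂)

lemma qExpansion_ofDisc_pow {g : ℂ → ℂ} (hg : DifferentiableOn ℂ g (Metric.ball 0 1)) (n : ℕ) :
    qExpansion (1 : ℝ) (ofDisc (g ^ n)) = qExpansion (1 : ℝ) (ofDisc g) ^ n := by
  induction n with
  | zero =>
    rw [pow_zero, pow_zero, ofDisc_one]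
    exact UpperHalfPlane.qExpansion_one 1
  | succ n ih =>
    rw [pow_succ, pow_succ, qExpansion_ofDisc_mul (hg.pow n) hg, ih]

lemma hasSum_polynomial_eval (p : Polynomial ℂ) (q : ℂ) :
    HasSum (fun m : ℕ => p.coeff m * q ^ m) (p.eval q) := by
  rw [Polynomial.eval_eq_sum_range]
  refine hasSum_sum_of_ne_finset_zero ?_
  intro b hb
  have : p.natDegree < b := by
    simpa [Finset.mem_range, Nat.lt_succ_iff] using hb
  rw [Polynomial.coeff_eq_zero_of_natDegree_lt this, zero_mul]

/-- `q`-expansion of a polynomial in `q`. -/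
lemma qExpansion_ofDisc_polynomial (p : Polynomial ℂ) :
    qExpansion (1 : ℝ) (ofDisc (fun q : ℂ => Polynomial.eval q p)) =
      Polynomial.toPowerSeries p := by
  have hdiff : DifferentiableOn ℂ (fun q : ℂ => Polynomial.eval q p) (Metric.ball 0 1) :=
    p.differentiable.differentiableOn
  ext m
  rw [Polynomial.coeff_coe]
  exact qExpansion_coeff_unique_fun one_pos (analyticAt_cuspFunction_ofDisc hdiff)
    (fun τ => hasSum_polynomial_eval p _) m

/-- Taylor coefficients of a polynomial function. -/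
lemma iteratedDeriv_polynomial (p : Polynomial ℂ) (m : ℕ) :
    (↑m.factorial : ℂ)⁻¹ * iteratedDeriv m (fun q : ℂ => Polynomial.eval q p) 0 = p.coeff m := by
  rw [← qExpansion_ofDisc_coeff p.differentiable.differentiableOn, qExpansion_ofDisc_polynomial,
    Polynomial.coeff_coe]

/-- The analytic eta product `∏ (1 - q^(n+1))` on the unit disc. -/
def etaDisc (q : ℂ) : ℂ := ∏' n : ℕ, (1 - q ^ (n + 1))

lemma differentiableOn_etaDisc : DifferentiableOn ℂ etaDisc (Metric.ball 0 1) :=
  ModularForm.differentiableOn_tprod_one_sub_pow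

lemma etaDisc_ne_zero {q : ℂ} (hq : ‖q‖ < 1) : etaDisc q ≠ 0 := by
  have hsum : Summable fun n : ℕ => ‖-q ^ (n + 1)‖ := by
    simpa using (summable_nat_add_iff 1).mpr
      (summable_geometric_of_lt_one (norm_nonneg q) hq)
  have := tprod_one_add_ne_zero_of_summable (f := fun n : ℕ => -q ^ (n + 1)) ?_ hsum
  · simpa [etaDisc, sub_eq_add_neg] using this
  · intro n h0
    have h1 : q ^ (n + 1) = 1 := by
      have : 1 + -q ^ (n + 1) = 0 := h0
      linear_combination -this
    have h2 : ‖q‖ ^ (n + 1) = 1 := by rw [← norm_pow, h1, norm_one]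
    have h3 : ‖q‖ ^ (n + 1) < 1 := pow_lt_one₀ (norm_nonneg q) hq (Nat.succ_ne_zero n)
    exact absurd h2 h3.ne

/-- Finite partial products of the eta product, as integer polynomials. -/
def etaPolyZ (N : ℕ) : Polynomial ℤ := ∏ n ∈ Finset.range N, (1 - Polynomial.X ^ (n + 1))

lemma etaPolyZ_toPowerSeries (N : ℕ) :
    ((etaPolyZ N : Polynomial ℤ) : PowerSeries ℤ) =
      ∏ n ∈ Finset.range N, (1 - PowerSeries.X ^ (n + 1)) := by
  rw [etaPolyZ, ← Polynomial.coeToPowerSeries.ringHom_apply, map_prod]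
  simp

lemma etaPolyZ_map_eval (N : ℕ) (q : ℂ) :
    ((etaPolyZ N).map (Int.castRingHom ℂ)).eval q = ∏ n ∈ Finset.range N, (1 - q ^ (n + 1)) := by
  simp [etaPolyZ, Polynomial.map_prod, Polynomial.eval_prod]

lemma tendsto_coeff_etaPolyZ (m : ℕ) :
    Tendsto (fun N : ℕ => (etaPolyZ N).coeff m) atTop
      (𝓝 (ModularCurve.etaProd.coeff m)) := by
  have h := (PowerSeries.WithPiTopology.multipliable_one_sub_X_pow ℤ).hasProd.tendsto_prod_nat
  have h2 := ((PowerSeries.WithPiTopology.continuous_coeff ℤ m).tendsto _).comp h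
  refine h2.congr ?_
  intro s
  simp only [Function.comp_apply]
  rw [← etaPolyZ_toPowerSeries, Polynomial.coeff_coe]

lemma tendsto_taylor_etaPoly (m : ℕ) :
    Tendsto (fun N : ℕ => (((etaPolyZ N).coeff m : ℤ) : ℂ)) atTop
      (𝓝 ((↑m.factorial : ℂ)⁻¹ * iteratedDeriv m etaDisc 0)) := by
  have hloc : TendstoLocallyUniformlyOn
      (fun (N : ℕ) (q : ℂ) => ∏ n ∈ Finset.range N, (1 - q ^ (n + 1))) etaDisc atTop
      (Metric.ball (0 : ℂ) 1) :=
    ModularForm.multipliableLocallyUniformlyOn_one_sub_pow.hasProdLocallyUniformlyOn.tendstoLocallyUniformlyOn_finsetRange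
  have hW := tendsto_iteratedDeriv_of_tendstoLocallyUniformlyOn Metric.isOpen_ball
    (Metric.mem_ball_self one_pos) m hloc
    (Eventually.of_forall fun N => by
      have := ((etaPolyZ N).map (Int.castRingHom ℂ)).differentiable.differentiableOn
        (s := Metric.ball (0 : ℂ) 1)
      simpa only [etaPolyZ_map_eval] using this)
  have hW2 := hW.const_mul ((↑m.factorial : ℂ)⁻¹)
  refine hW2.congr ?_
  intro N
  have := iteratedDeriv_polynomial ((etaPolyZ N).map (Int.castRingHom ℂ)) m
  simp only [etaPolyZ_map_eval] at this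
  rw [this, Polynomial.coeff_map]
  simp

/-- The Taylor coefficients of the analytic eta product are those of the formal one. -/
lemma qExpansion_etaDisc_coeff (m : ℕ) :
    (qExpansion (1 : ℝ) (ofDisc etaDisc)).coeff m = ((ModularCurve.etaProd.coeff m : ℤ) : ℂ) := by
  rw [qExpansion_ofDisc_coeff differentiableOn_etaDisc]
  refine tendsto_nhds_unique (tendsto_taylor_etaPoly m) ?_
  exact ((continuous_of_discreteTopology (f := fun z : ℤ => (z : ℂ))).tendsto _).comp
    (tendsto_coeff_etaPolyZ m)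

/-- The `q`-expansion of the analytic eta product is the formal eta product. -/
theorem qExpansion_etaDisc :
    qExpansion (1 : ℝ) (ofDisc etaDisc) = ModularCurve.etaProd.map (Int.castRingHom ℂ) := by
  ext m
  rw [qExpansion_etaDisc_coeff, PowerSeries.coeff_map]
  rfl

/-- The `q`-expansion of `∏ (1 - q^n)^24` is the formal `dedekindEtaUnit`. -/
theorem qExpansion_etaDisc_pow24 :
    qExpansion (1 : ℝ) (ofDisc (etaDisc ^ 24)) =
      ModularCurve.dedekindEtaUnit.map (Int.castRingHom ℂ) := by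
  rw [qExpansion_ofDisc_pow differentiableOn_etaDisc, qExpansion_etaDisc,
    ModularCurve.dedekindEtaUnit, map_pow]

/-- `Δ = q · etaDisc(q)^24`. -/
theorem discriminant_eq_qParam_mul_etaDisc (τ : ℍ) :
    ModularForm.discriminant τ = 𝕢 1 τ * etaDisc (𝕢 1 τ) ^ 24 := by
  rw [ModularForm.discriminant_eq_q_prod, etaDisc]
  congr 1
  exact (ModularForm.multipliable_one_sub_pow (norm_qParam_lt_one' τ)).tprod_pow 24

end Fermat.Agent.S24
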