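import Fermat.Prelude.Def_AlgebraicCurve_DivisorClassGroup

/-!
# S24 / P1 — basic lemmas on `AlgebraicCurve.Place.ord`
-/

set_option autoImplicit false

open AlgebraicCurve IsDedekindDomain WithZero

namespace Fermat.Agent.S24

variable {K F : Type*} [Field K] [Field F] [Algebra K F]

namespace PlaceAux

variable (v : Place K F)

theorem mem_iff_adicValuation_le_one (f : F) :
    f ∈ v.toValuationSubring ↔ v.adicValuation f ≤ 1 := by
  constructor
  · intro hf
    have := v.heightOneSpectrum.valuation_le_one (K := F) (⟨f, hf⟩ : v.toValuationSubring)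
    simpa [Place.adicValuation] using this
  · intro h
    obtain ⟨a, ha⟩ := IsDiscreteValuationRing.exists_lift_of_le_one
      (A := v.toValuationSubring) (K := F) h
    rw [← ha]; exact a.2

theorem adicValuation_eq_exp_neg_ord {f : F} (hf : f ≠ 0) :
    v.adicValuation f = exp (-(v.ord f)) := by
  have h := v.adicValuation_ne_zero hf
  rw [Place.ord, neg_neg, WithZero.exp_log h]

theorem ord_nonneg_iff {f : F} (hf : f ≠ 0) : 0 ≤ v.ord f ↔ f ∈ v.toValuationSubring := by
  rw [mem_iff_adicValuation_le_one, adicValuation_eq_exp_neg_ord v hf, ← WithZero.exp_zero,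
    WithZero.exp_le_exp]
  omega

theorem mem_of_ord_nonneg {f : F} (h : 0 ≤ v.ord f) : f ∈ v.toValuationSubring := by
  rcases eq_or_ne f 0 with rfl | hf
  · exact zero_mem _
  · exact (ord_nonneg_iff v hf).mp h

theorem ord_pos_iff {f : F} (hf : f ≠ 0) :
    0 < v.ord f ↔ f ∈ v.toValuationSubring ∧ f⁻¹ ∉ v.toValuationSubring := by
  rw [← ord_nonneg_iff v hf, ← ord_nonneg_iff v (inv_ne_zero hf), v.ord_inv]
  omega

theorem ord_pos_iff_mem_nonunits {f : F} (hf : f ≠ 0) :
    0 < v.ord f ↔ f ∈ v.toValuationSubring.nonunits := by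
  rw [ord_pos_iff v hf]
  constructor
  · rintro ⟨h1, h2⟩
    rw [ValuationSubring.mem_nonunits_iff_exists_mem_maximalIdeal]
    refine ⟨h1, ?_⟩
    rw [IsLocalRing.mem_maximalIdeal, mem_nonunits_iff]
    intro hu
    apply h2
    obtain ⟨u, hu⟩ := hu
    have h3 : (f : F) * ((u⁻¹ : (v.toValuationSubring)ˣ) : v.toValuationSubring) = 1 := by
      have : ((u : v.toValuationSubring) : F) = f := by rw [hu]
      rw [← this]
      exact_mod_cast congrArg Subtype.val (u.mul_inv)
    have : f⁻¹ = ((u⁻¹ : (v.toValuationSubring)ˣ) : v.toValuationSubring) :=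
      (eq_inv_of_mul_eq_one_right h3).symm
    rw [this]; exact Subtype.mem _
  · intro h
    rw [ValuationSubring.mem_nonunits_iff_exists_mem_maximalIdeal] at h
    obtain ⟨h1, h2⟩ := h
    refine ⟨h1, fun h3 => ?_⟩
    rw [IsLocalRing.mem_maximalIdeal, mem_nonunits_iff] at h2
    apply h2
    refine isUnit_iff_exists_inv.mpr ⟨⟨f⁻¹, h3⟩, ?_⟩
    ext
    simp [hf]

theorem ord_algebraMap (a : K) : v.ord (algebraMap K F a) = 0 := by
  rcases eq_or_ne a 0 with rfl | ha
  · simp
  · have h0 : algebraMap K F a ≠ 0 := by simpa using ha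
    have h1 : 0 ≤ v.ord (algebraMap K F a) := (ord_nonneg_iff v h0).mpr (v.algebraMap_mem' a)
    have h2 : 0 ≤ v.ord (algebraMap K F a)⁻¹ := by
      rw [← map_inv₀]
      exact (ord_nonneg_iff v (by simpa using ha)).mpr (v.algebraMap_mem' a⁻¹)
    rw [v.ord_inv] at h2
    omega

theorem ord_neg (f : F) : v.ord (-f) = v.ord f := by
  simp [Place.ord]

theorem le_ord_add {f g : F} (hf : f ≠ 0) (hg : g ≠ 0) (hfg : f + g ≠ 0) :
    min (v.ord f) (v.ord g) ≤ v.ord (f + g) := by
  have h := v.adicValuation.map_add f g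
  rw [adicValuation_eq_exp_neg_ord v hf, adicValuation_eq_exp_neg_ord v hg,
    adicValuation_eq_exp_neg_ord v hfg] at h
  rcases le_max_iff.mp h with h | h <;> rw [WithZero.exp_le_exp] at h <;> omega

/-- If `ord f < ord g` then `ord (f + g) = ord f`. -/
theorem ord_add_eq_of_lt {f g : F} (hf : f ≠ 0) (hg : g ≠ 0) (h : v.ord f < v.ord g) :
    v.ord (f + g) = v.ord f := by
  have hfg : f + g ≠ 0 := by
    intro h0
    have : f = -g := eq_neg_of_add_eq_zero_left h0
    rw [this, ord_neg] at h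
    exact lt_irrefl _ h
  have h1 := le_ord_add v hf hg hfg
  have h2 : min (v.ord (f + g)) (v.ord (-g)) ≤ v.ord (f + g + -g) :=
    le_ord_add v hfg (neg_ne_zero.mpr hg) (by simpa using hf)
  rw [ord_neg, add_neg_cancel_right] at h2
  rcases min_le_iff.mp h2 with h3 | h3
  · rw [min_eq_left h.le] at h1; omega
  · omega

/-- **Characterisation of `ord`**: a multiplicative `ℤ`-valued function whose nonnegative locus is
the valuation ring and which takes the value `1` coincides with `ord`. -/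
theorem ord_eq_of_hom (ν : F → ℤ)
    (hmul : ∀ f g : F, f ≠ 0 → g ≠ 0 → ν (f * g) = ν f + ν g)
    (hmem : ∀ f : F, f ≠ 0 → (f ∈ v.toValuationSubring ↔ 0 ≤ ν f))
    (hone : ∃ f : F, f ≠ 0 ∧ ν f = 1) : ∀ f : F, f ≠ 0 → v.ord f = ν f := by
  have hν1 : ν 1 = 0 := by
    have := hmul 1 1 one_ne_zero one_ne_zero
    rw [mul_one] at this; omega
  have hνinv : ∀ f : F, f ≠ 0 → ν f⁻¹ = -ν f := by
    intro f hf
    have := hmul f f⁻¹ hf (inv_ne_zero hf)
    rw [mul_inv_cancel₀ hf, hν1] at this; omega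
  have hνpow : ∀ (f : F), f ≠ 0 → ∀ n : ℕ, ν (f ^ n) = n * ν f := by
    intro f hf n
    induction n with
    | zero => simp [hν1]
    | succ n ih => rw [pow_succ, hmul _ _ (pow_ne_zero n hf) hf, ih]; push_cast; ring
  have hνzpow : ∀ (f : F), f ≠ 0 → ∀ n : ℤ, ν (f ^ n) = n * ν f := by
    intro f hf n
    cases n with
    | ofNat n => simpa using hνpow f hf n
    | negSucc n =>
      rw [zpow_negSucc, hνinv _ (pow_ne_zero _ hf), hνpow f hf, Int.negSucc_eq]
      push_cast; ring
  -- units have ν = 0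
  have hunit : ∀ u : (v.toValuationSubring)ˣ, ν ((u : v.toValuationSubring) : F) = 0 := by
    intro u
    have hu0 : ((u : v.toValuationSubring) : F) ≠ 0 := by
      simp [ne_eq, ZeroMemClass.coe_eq_zero]
    have h1 := (hmem _ hu0).mp (u : v.toValuationSubring).2
    have h2 : (((u : v.toValuationSubring) : F))⁻¹ ∈ v.toValuationSubring := by
      have : (((u : v.toValuationSubring) : F))⁻¹
          = ((u⁻¹ : (v.toValuationSubring)ˣ) : v.toValuationSubring) := by
        refine (eq_inv_of_mul_eq_one_right ?_).symm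
        exact_mod_cast congrArg Subtype.val (u.mul_inv)
      rw [this]; exact Subtype.mem _
    have h3 := (hmem _ (inv_ne_zero hu0)).mp h2
    rw [hνinv _ hu0] at h3
    omega
  obtain ⟨π, hπ⟩ := IsDiscreteValuationRing.exists_irreducible v.toValuationSubring
  have hπ0 : (π : F) ≠ 0 := by
    simpa [ne_eq, ZeroMemClass.coe_eq_zero] using hπ.ne_zero
  have key : ∀ f : F, f ≠ 0 → ν f = v.ord f * ν (π : F) := by
    intro f hf
    obtain ⟨u, hu⟩ := v.exists_unit_mul_zpow hf hπ
    have hu0 : ((u : v.toValuationSubring) : F) ≠ 0 := by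
      simp [ne_eq, ZeroMemClass.coe_eq_zero]
    conv_lhs => rw [hu]
    rw [hmul _ _ hu0 (zpow_ne_zero _ hπ0), hunit u, hνzpow _ hπ0, zero_add]
  have hπpos : 0 ≤ ν (π : F) := (hmem _ hπ0).mp π.2
  obtain ⟨g, hg0, hg1⟩ := hone
  have h1 := key g hg0
  rw [hg1] at h1
  have hπ1 : ν (π : F) = 1 := by
    have : ν (π : F) ∣ 1 := ⟨v.ord g, by rw [h1]; ring⟩
    rcases Int.isUnit_iff.mp (isUnit_of_dvd_one this) with h | h
    · exact h
    · omega
  intro f hf
  rw [key f hf, hπ1, mul_one]

end PlaceAux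

end Fermat.Agent.S24
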