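import Fermat.Prelude.Def_AlgebraicCurve_CanonicalDivisor
import Fermat.Agent.S24.PlaceBasic

/-!
# S24 piece F2 — principal divisors have degree zero

For `K` algebraically closed, `F/K(x)` finite with `x` transcendental, all places of degree one and
"`Σ_{zeros of y} ord y = [F : K(y)]`" for every transcendental `y`: the divisor of a nonzero `g : F`
has degree `0`.
-/

set_option autoImplicit false

noncomputable section

open AlgebraicCurve IntermediateField
open scoped IntermediateField.algebraAdjoinAdjoin

namespace Fermat.Agent.S24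

universe u v

variable {K : Type u} {F : Type v} [Field K] [Field F] [Algebra K F]

/-- If `F/K(x)` is algebraic with `x` transcendental, then `F/K(g)` is algebraic for every
transcendental `g` (transcendence degree one). -/
theorem pd_isAlgebraic_adjoin_of_transcendental (x : F) (hx : Transcendental K x)
    [Algebra.IsAlgebraic K⟮x⟯ F] (g : F) (hg : Transcendental K g) :
    Algebra.IsAlgebraic K⟮g⟯ F := by
  have hxi : AlgebraicIndependent K (fun _ : PUnit.{v + 1} => x) :=
    algebraicIndependent_unique_type_iff.mpr hx
  have hgi : AlgebraicIndependent K (fun _ : PUnit.{v + 1} => g) :=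
    algebraicIndependent_unique_type_iff.mpr hg
  have hrx : Set.range (fun _ : PUnit.{v + 1} => x) = {x} := Set.range_const
  have hrg : Set.range (fun _ : PUnit.{v + 1} => g) = {g} := Set.range_const
  have hxalg : Algebra.IsAlgebraic (Algebra.adjoin K (Set.range (fun _ : PUnit.{v + 1} => x))) F := by
    rw [hrx]
    exact IsFractionRing.comap_isAlgebraic_iff.mpr (inferInstance : Algebra.IsAlgebraic K⟮x⟯ F)
  have hxb : IsTranscendenceBasis K (fun _ : PUnit.{v + 1} => x) :=
    hxi.isTranscendenceBasis_iff_isAlgebraic.mpr hxalg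
  have htr : Algebra.trdeg K F = 1 := by
    rw [← hxb.cardinalMk_eq_trdeg]; simp
  have hgb : IsTranscendenceBasis K (fun _ : PUnit.{v + 1} => g) :=
    hgi.isTranscendenceBasis_of_trdeg_le_of_finite (by rw [htr]; simp)
  have := hgb.isAlgebraic_field
  rwa [hrg] at this

/-- If `F/K(x)` is finite with `x` transcendental, then `F/K(g)` is finite for every
transcendental `g`. -/
theorem pd_finiteDimensional_adjoin_of_transcendental (x : F) (hx : Transcendental K x)
    [FiniteDimensional K⟮x⟯ F] (g : F) (hg : Transcendental K g) :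
    FiniteDimensional K⟮g⟯ F := by
  have : Algebra.IsAlgebraic K⟮x⟯ F := Algebra.IsAlgebraic.of_finite _ _
  have hgalg : Algebra.IsAlgebraic K⟮g⟯ F := pd_isAlgebraic_adjoin_of_transcendental x hx g hg
  -- `F = K(x)(b₁, …, bₙ) = K(g)(x, b₁, …, bₙ)` is finitely generated and algebraic over `K(g)`
  obtain ⟨s, hs⟩ := (Module.finite_def (R := K⟮x⟯) (M := F)).mp inferInstance
  -- the intermediate field of `F/K(g)` generated by `x` and `s`
  set T : Set F := insert x (s : Set F) with hT
  have hTfin : T.Finite := (Finset.finite_toSet s).insert x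
  have hfd : FiniteDimensional K⟮g⟯ (IntermediateField.adjoin K⟮g⟯ T) :=
    IntermediateField.finiteDimensional_adjoin (K := K⟮g⟯) (L := F) (S := T)
      (fun y _ => (hgalg.isAlgebraic y).isIntegral)
  have htop : IntermediateField.adjoin K⟮g⟯ T = ⊤ := by
    rw [eq_top_iff]
    intro y hy'
    clear hy'
    have hxE : K⟮x⟯ ≤ (IntermediateField.adjoin K⟮g⟯ T).restrictScalars K := by
      rw [IntermediateField.adjoin_simple_le_iff]
      exact IntermediateField.subset_adjoin _ _ (Set.mem_insert _ _)
    have hy : y ∈ Submodule.span K⟮x⟯ (s : Set F) := by rw [hs]; trivial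
    induction hy using Submodule.span_induction with
    | mem z hz => exact IntermediateField.subset_adjoin _ _ (Set.mem_insert_of_mem _ hz)
    | zero => exact zero_mem _
    | add a b _ _ ha hb => exact add_mem ha hb
    | smul a b _ hb =>
      rw [Algebra.smul_def]
      exact mul_mem (hxE a.2) hb
  rw [htop] at hfd
  exact (IntermediateField.topEquiv (F := K⟮g⟯) (E := F)).toLinearEquiv.finiteDimensional

/-- Equal intermediate fields give equal degrees. -/
theorem pd_finrank_eq_of_eq {E₁ E₂ : IntermediateField K F} (h : E₁ = E₂) :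
    Module.finrank E₁ F = Module.finrank E₂ F := by
  subst h; rfl

theorem pd_adjoin_inv_eq (g : F) : K⟮g⁻¹⟯ = K⟮g⟯ := by
  apply le_antisymm
  · rw [IntermediateField.adjoin_simple_le_iff]
    exact inv_mem (IntermediateField.mem_adjoin_simple_self K g)
  · rw [IntermediateField.adjoin_simple_le_iff]
    have := inv_mem (IntermediateField.mem_adjoin_simple_self K g⁻¹)
    rwa [inv_inv] at this

theorem pd_transcendental_inv {g : F} (hg : Transcendental K g) : Transcendental K g⁻¹ := by
  intro h
  exact hg (by simpa using h.inv)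

/-- F2: principal divisors have degree zero. -/
theorem degree_principal_eq_zero [IsAlgClosed K] [CharZero K] (x : F) (hx : Transcendental K x)
    [FiniteDimensional (IntermediateField.adjoin K {x}) F]
    (hdeg : ∀ v : Place K F, v.deg = 1)
    (hsum : ∀ y : F, Transcendental K y → FiniteDimensional (IntermediateField.adjoin K {y}) F →
      ∃ V : Finset (Place K F), (∀ v, v ∈ V ↔ 0 < v.ord y) ∧
        ∑ v ∈ V, v.ord y = (Module.finrank (IntermediateField.adjoin K {y}) F : ℤ))
    (g : F) (hg : g ≠ 0) (D : Divisor K F) (hD : ∀ v, D v = v.ord g) :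
    Divisor.degree D = 0 := by
  classical
  have _ := hg
  have hdegD : Divisor.degree D = ∑ v ∈ D.support, D v := by
    rw [Divisor.degree, Finsupp.liftAddHom_apply, Finsupp.sum]
    refine Finset.sum_congr rfl fun v _ => ?_
    simp [hdeg v]
  by_cases halg : IsAlgebraic K g
  · -- `g` is a constant
    have hint : IsIntegral K g := halg.isIntegral
    have h1 : (minpoly K g).degree = 1 :=
      IsAlgClosed.degree_eq_one_of_irreducible K (minpoly.irreducible hint)
    obtain ⟨a, ha⟩ := minpoly.mem_range_of_degree_eq_one K g h1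
    have hD0 : D = 0 := by
      ext v
      rw [hD v, ← ha]
      exact PlaceAux.ord_algebraMap v a
    rw [hD0, map_zero]
  · -- `g` is transcendental
    have hgt : Transcendental K g := halg
    have hgt' : Transcendental K g⁻¹ := pd_transcendental_inv hgt
    have hfd : FiniteDimensional K⟮g⟯ F := pd_finiteDimensional_adjoin_of_transcendental x hx g hgt
    have hfd' : FiniteDimensional K⟮g⁻¹⟯ F :=
      pd_finiteDimensional_adjoin_of_transcendental x hx g⁻¹ hgt'
    obtain ⟨Vp, hVp, hsp⟩ := hsum g hgt hfd
    obtain ⟨Vm, hVm, hsm⟩ := hsum g⁻¹ hgt' hfd'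
    rw [pd_finrank_eq_of_eq (pd_adjoin_inv_eq (K := K) g)] at hsm
    have hdisj : Disjoint Vp Vm := by
      rw [Finset.disjoint_left]
      intro v hv hv'
      have h1 := (hVp v).mp hv
      have h2 := (hVm v).mp hv'
      rw [v.ord_inv] at h2
      omega
    have hsupp : D.support = Vp ∪ Vm := by
      ext v
      rw [Finsupp.mem_support_iff, Finset.mem_union, hVp, hVm, hD v, v.ord_inv]
      omega
    rw [hdegD, hsupp, Finset.sum_union hdisj]
    have e1 : ∑ v ∈ Vp, D v = ∑ v ∈ Vp, v.ord g := Finset.sum_congr rfl fun v _ => hD v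
    have e2 : ∑ v ∈ Vm, D v = -∑ v ∈ Vm, v.ord g⁻¹ := by
      rw [← Finset.sum_neg_distrib]
      exact Finset.sum_congr rfl fun v _ => by rw [hD v, v.ord_inv, neg_neg]
    rw [e1, e2, hsp, hsm]
    ring

end Fermat.Agent.S24
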