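/-
S24 / P1-res: the residue field of every place of a function field of one variable over an
algebraically closed field `K` is `K` itself; in particular every place has degree one.
-/
import Fermat.Prelude.Def_AlgebraicCurve_DivisorClassGroup
import Fermat.Agent.S24.PlaceBasic
import Mathlib.RingTheory.AlgebraicIndependent.TranscendenceBasis
import Mathlib.FieldTheory.IntermediateField.Adjoin.Algebra
import Mathlib.FieldTheory.IsAlgClosed.Basic

set_option autoImplicit false
set_option linter.unusedVariables false

open AlgebraicCurve Polynomial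

namespace Fermat.Agent.S24

variable {K F : Type*} [Field K] [Field F] [Algebra K F]

namespace ResidueAux

/-- If `F` is algebraic over `K(x)`, then the transcendence degree of `F/K` is at most one. -/
theorem trdeg_le_one (x : F)
    (halg : Algebra.IsAlgebraic (IntermediateField.adjoin K {x}) F) :
    Algebra.trdeg K F ≤ 1 := by
  open scoped IntermediateField.algebraAdjoinAdjoin in
  have : Algebra.IsAlgebraic (Algebra.adjoin K ({x} : Set F)) F :=
    (IsFractionRing.comap_isAlgebraic_iff (A := Algebra.adjoin K ({x} : Set F))
      (K := IntermediateField.adjoin K ({x} : Set F)) (C := F)).mpr halg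
  have h := Algebra.IsAlgebraic.trdeg_le_cardinalMk K ({x} : Set F)
  simpa using h

/-- Exchange: if `F` is algebraic over `K(x)` and `a` is transcendental over `K`, then `F` is
algebraic over `K(a)`. -/
theorem isAlgebraic_adjoin_of_transcendental (x : F)
    (halg : Algebra.IsAlgebraic (IntermediateField.adjoin K {x}) F)
    (a : F) (ha : Transcendental K a) :
    Algebra.IsAlgebraic (IntermediateField.adjoin K {a}) F := by
  have hind : AlgebraicIndependent K (fun _ : PUnit.{_ + 1} => a) := by
    rw [algebraicIndependent_unique_type_iff]; exact ha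
  have hle : Algebra.trdeg K F ≤ Cardinal.mk PUnit := by
    simpa using trdeg_le_one x halg
  have hB := hind.isTranscendenceBasis_of_trdeg_le_of_finite hle
  have h := hB.isAlgebraic_field
  have hr : Set.range (fun _ : PUnit.{_ + 1} => a) = {a} := by
    ext y; simp [eq_comm]
  rwa [hr] at h

end ResidueAux

variable [IsAlgClosed K]

/-- The residue class of every `a ∈ O_v` is represented by a constant. -/
theorem exists_sub_mem_maximalIdeal (x : F) (hx : Transcendental K x)
    (halg : Algebra.IsAlgebraic (IntermediateField.adjoin K {x}) F)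
    (v : AlgebraicCurve.Place K F) (a : v.toValuationSubring) :
    ∃ c : K, a - algebraMap K v.toValuationSubring c ∈
      IsLocalRing.maximalIdeal v.toValuationSubring := by
  classical
  set abar : v.ResidueField := IsLocalRing.residue v.toValuationSubring a with habar
  -- the residue class is algebraic over `K`
  have halgbar : IsAlgebraic K abar := by
    by_contra htr
    have htr' : Transcendental K abar := htr
    -- every nonzero polynomial in `a` is a unit of `O`
    have hunit : ∀ s : K[X], s ≠ 0 → IsUnit (aeval a s) := by
      intro s hs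
      rw [← IsLocalRing.residue_ne_zero_iff_isUnit]
      have h1 : IsLocalRing.residue v.toValuationSubring (aeval a s) = aeval abar s := by
        rw [habar, ← IsLocalRing.ResidueField.algebraMap_eq, aeval_algebraMap_apply]
      rw [h1]
      intro h0
      exact htr' ⟨s, hs, h0⟩
    -- `a` itself is transcendental
    have hatr : Transcendental K (a : F) := by
      intro ⟨s, hs, h0⟩
      have h1 : (aeval (a : F) s) = ((aeval a s : v.toValuationSubring) : F) := by
        have := aeval_algebraMap_apply (R := K) (A := v.toValuationSubring) F a s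
        exact this
      have h2 : (aeval a s : v.toValuationSubring) = 0 := by
        apply Subtype.ext
        rw [← h1, h0]; rfl
      exact (hunit s hs).ne_zero h2
    -- `K(a) ⊆ O`
    have hsub : ∀ y ∈ IntermediateField.adjoin K {(a : F)}, y ∈ v.toValuationSubring := by
      intro y hy
      obtain ⟨r, s, rfl⟩ := (IntermediateField.mem_adjoin_simple_iff K y).mp hy
      have hr : aeval (a : F) r = ((aeval a r : v.toValuationSubring) : F) :=
        aeval_algebraMap_apply (R := K) (A := v.toValuationSubring) F a r
      have hs : aeval (a : F) s = ((aeval a s : v.toValuationSubring) : F) :=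
        aeval_algebraMap_apply (R := K) (A := v.toValuationSubring) F a s
      rcases eq_or_ne s 0 with rfl | hs0
      · simp
      · obtain ⟨u, hu⟩ := hunit s hs0
        have hinv : (aeval (a : F) s)⁻¹ = ((u⁻¹ : v.toValuationSubringˣ) : v.toValuationSubring) := by
          rw [hs, ← hu]
          have h3 : ((u : v.toValuationSubring) : F) * (((u⁻¹ : v.toValuationSubringˣ) : v.toValuationSubring) : F) = 1 := by
            exact_mod_cast congrArg Subtype.val u.mul_inv
          exact (eq_inv_of_mul_eq_one_right h3).symm ▸ rfl
        rw [div_eq_mul_inv, hr, hinv]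
        exact mul_mem (Subtype.mem _) (Subtype.mem _)
    -- `F` is algebraic over `K(a)`, hence integral over `O`
    have hFalg := ResidueAux.isAlgebraic_adjoin_of_transcendental x halg (a : F) hatr
    apply v.ne_top'
    refine SetLike.ext fun f => ⟨fun _ => ValuationSubring.mem_top f, fun _ => ?_⟩
    have hint : IsIntegral (IntermediateField.adjoin K {(a : F)}) f :=
      (hFalg.isAlgebraic f).isIntegral
    obtain ⟨p, hp, hpf⟩ := hint
    let φ : IntermediateField.adjoin K {(a : F)} →+* v.toValuationSubring :=
      { toFun := fun y => ⟨y.1, hsub y.1 y.2⟩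
        map_one' := rfl
        map_mul' := fun _ _ => rfl
        map_zero' := rfl
        map_add' := fun _ _ => rfl }
    have hintO : IsIntegral v.toValuationSubring f := by
      refine ⟨p.map φ, hp.map φ, ?_⟩
      rw [eval₂_map]
      exact hpf
    obtain ⟨y, hy⟩ := IsIntegrallyClosed.isIntegral_iff.mp hintO
    rw [← hy]
    exact y.2
  -- an algebraic element over an algebraically closed field is a constant
  have hint : IsIntegral K abar := halgbar.isIntegral
  have hdeg : (minpoly K abar).degree = 1 :=
    IsAlgClosed.degree_eq_one_of_irreducible K (minpoly.irreducible hint)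
  obtain ⟨c, hc⟩ := (minpoly.degree_eq_one_iff).mp hdeg
  refine ⟨c, ?_⟩
  rw [← Ideal.Quotient.eq_zero_iff_mem]
  change IsLocalRing.residue v.toValuationSubring (a - algebraMap K v.toValuationSubring c) = 0
  rw [map_sub, ← habar, ← hc, sub_eq_zero]
  rfl

theorem exists_sub_mem_nonunits (x : F) (hx : Transcendental K x)
    (halg : Algebra.IsAlgebraic (IntermediateField.adjoin K {x}) F)
    (v : AlgebraicCurve.Place K F) (a : F) (ha : a ∈ v.toValuationSubring) :
    ∃ c : K, a - algebraMap K F c ∈ v.toValuationSubring.nonunits := by
  obtain ⟨c, hc⟩ := exists_sub_mem_maximalIdeal x hx halg v ⟨a, ha⟩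
  refine ⟨c, ?_⟩
  rw [ValuationSubring.mem_nonunits_iff_exists_mem_maximalIdeal]
  exact ⟨v.toValuationSubring.sub_mem ha (v.algebraMap_mem' c), hc⟩

theorem algebraMap_residueField_bijective (x : F) (hx : Transcendental K x)
    (halg : Algebra.IsAlgebraic (IntermediateField.adjoin K {x}) F)
    (v : AlgebraicCurve.Place K F) :
    Function.Bijective (algebraMap K v.ResidueField) := by
  refine ⟨(algebraMap K v.ResidueField).injective, fun y => ?_⟩
  obtain ⟨a, rfl⟩ := IsLocalRing.residue_surjective y
  obtain ⟨c, hc⟩ := exists_sub_mem_maximalIdeal x hx halg v a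
  refine ⟨c, ?_⟩
  have h0 : IsLocalRing.residue v.toValuationSubring (a - algebraMap K v.toValuationSubring c)
      = 0 := by
    rw [IsLocalRing.residue]; exact Ideal.Quotient.eq_zero_iff_mem.mpr hc
  rw [map_sub, sub_eq_zero] at h0
  rw [h0]
  rfl

theorem deg_eq_one (x : F) (hx : Transcendental K x)
    (halg : Algebra.IsAlgebraic (IntermediateField.adjoin K {x}) F)
    (v : AlgebraicCurve.Place K F) : v.deg = 1 := by
  have hb := algebraMap_residueField_bijective x hx halg v
  let e : K ≃ₗ[K] v.ResidueField :=
    LinearEquiv.ofBijective (Algebra.linearMap K v.ResidueField) hb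
  unfold AlgebraicCurve.Place.deg
  rw [← e.finrank_eq, Module.finrank_self]

/-- `ord` version.  NB: `v.ord 0 = 0` in the prelude, so constants have to be excluded. -/
theorem exists_ord_sub_pos (x : F) (hx : Transcendental K x)
    (halg : Algebra.IsAlgebraic (IntermediateField.adjoin K {x}) F)
    (v : AlgebraicCurve.Place K F) (a : F) (ha : 0 ≤ v.ord a)
    (hna : a ∉ Set.range (algebraMap K F)) :
    ∃ c : K, 0 < v.ord (a - algebraMap K F c) := by
  obtain ⟨c, hc⟩ := exists_sub_mem_nonunits x hx halg v a (PlaceAux.mem_of_ord_nonneg v ha)
  refine ⟨c, ?_⟩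
  have hne : a - algebraMap K F c ≠ 0 := fun h => hna ⟨c, (sub_eq_zero.mp h).symm⟩
  exact (PlaceAux.ord_pos_iff_mem_nonunits v hne).mpr hc

/-- `ord` version with the constant case as an alternative. -/
theorem exists_eq_or_ord_sub_pos (x : F) (hx : Transcendental K x)
    (halg : Algebra.IsAlgebraic (IntermediateField.adjoin K {x}) F)
    (v : AlgebraicCurve.Place K F) (a : F) (ha : 0 ≤ v.ord a) :
    ∃ c : K, a = algebraMap K F c ∨ 0 < v.ord (a - algebraMap K F c) := by
  obtain ⟨c, hc⟩ := exists_sub_mem_nonunits x hx halg v a (PlaceAux.mem_of_ord_nonneg v ha)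
  refine ⟨c, ?_⟩
  rcases eq_or_ne (a - algebraMap K F c) 0 with h | hne
  · exact Or.inl (sub_eq_zero.mp h)
  · exact Or.inr ((PlaceAux.ord_pos_iff_mem_nonunits v hne).mpr hc)

end Fermat.Agent.S24
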