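import Fermat.Agent.S24.Defs

/-!
# S24 piece P1-fin — transcendence of `j`, adjoin / finrank equalities, Artin finiteness

* `transcendental_jF` : `j` is transcendental over `ℚ̄`; also `j - c` and `j⁻¹`.
* `adjoin_jF_sub_eq`, `adjoin_jF_inv_eq` : `ℚ̄(j - c) = ℚ̄(j) = ℚ̄(j⁻¹)`, with the `finrank` and
  `FiniteDimensional` transfers.
* `finiteDimensional_adjoin_of_fixed` : generic Artin lemma — if a finite group acts on a field
  `M ⊇ φ(F)` with fixed field inside `K(φ j)` then `F` is finite over `K(j)`.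
-/

set_option autoImplicit false

noncomputable section

open IntermediateField

namespace Fermat.Agent.S24

/-! ### (a) transcendence -/

theorem jBar_coeff_neg_one : jBar.coeff (-1 : ℤ) = 1 := by
  rw [jBar, ModularCurve.coeffEmb_coeff, ModularCurve.coeff_jq_neg_one, map_one]

theorem jBar_coeff_of_lt {k : ℤ} (hk : k < -1) : jBar.coeff k = 0 := by
  rw [jBar, ModularCurve.coeffEmb_coeff, ModularCurve.coeff_jq_of_lt hk, map_zero]

theorem jBar_ne_zero : jBar ≠ 0 := fun h => by
  have := jBar_coeff_neg_one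
  rw [h] at this
  simp at this

/-- An element of a field extension of an algebraically closed field `k` that is algebraic
over `k` lies in `k`. -/
theorem mem_range_algebraMap_of_isAlgebraic {k L : Type*} [Field k] [IsAlgClosed k] [Field L]
    [Algebra k L] {x : L} (hx : IsAlgebraic k x) : x ∈ (algebraMap k L).range := by
  have hint : IsIntegral k x := hx.isIntegral
  exact minpoly.mem_range_of_degree_eq_one k x
    (IsAlgClosed.degree_eq_one_of_irreducible k (minpoly.irreducible hint))

theorem transcendental_jBar : Transcendental Kb jBar := by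
  intro halg
  obtain ⟨c, hc⟩ := mem_range_algebraMap_of_isAlgebraic halg
  have h1 := jBar_coeff_neg_one
  rw [← hc, ModularCurve.algebraMap_laurentSeries_eq_single] at h1
  rw [HahnSeries.coeff_single_of_ne (by decide)] at h1
  exact zero_ne_one h1

theorem coe_jF (N : ℕ) [NeZero N] : ((jF N : FF N) : LaurentSeries Kb) = jBar := rfl

theorem jF_ne_zero (N : ℕ) [NeZero N] : jF N ≠ 0 := fun h => by
  apply jBar_ne_zero
  rw [← coe_jF N, h]
  rfl

/-- (a) `j` is transcendental over `ℚ̄`. -/
theorem transcendental_jF (N : ℕ) [NeZero N] : Transcendental Kb (jF N) := by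
  intro halg
  apply transcendental_jBar
  have := (isAlgebraic_algHom_iff (ModularCurve.modularFunctionFieldBar N).val
    (Subtype.val_injective)).mpr halg
  exact this

/-- Generic: `x` transcendental ⇒ `x - c` transcendental. -/
theorem transcendental_sub_algebraMap {K F : Type*} [Field K] [Field F] [Algebra K F] {x : F}
    (hx : Transcendental K x) (c : K) : Transcendental K (x - algebraMap K F c) := by
  intro halg
  apply hx
  have := halg.add (isAlgebraic_algebraMap (R := K) (A := F) c)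
  simpa using this

/-- Generic: `x` transcendental ⇒ `x⁻¹` transcendental. -/
theorem transcendental_inv {K F : Type*} [Field K] [Field F] [Algebra K F] {x : F}
    (hx : Transcendental K x) : Transcendental K x⁻¹ := by
  intro halg
  apply hx
  simpa using halg.inv

/-- (a') `j - c` is transcendental over `ℚ̄`. -/
theorem transcendental_jF_sub (N : ℕ) [NeZero N] (c : Kb) :
    Transcendental Kb (jF N - algebraMap Kb (FF N) c) :=
  transcendental_sub_algebraMap (transcendental_jF N) c

/-- (a') `j⁻¹` is transcendental over `ℚ̄`. -/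
theorem transcendental_jF_inv (N : ℕ) [NeZero N] : Transcendental Kb (jF N)⁻¹ :=
  transcendental_inv (transcendental_jF N)

theorem jF_sub_ne_zero (N : ℕ) [NeZero N] (c : Kb) : jF N - algebraMap Kb (FF N) c ≠ 0 :=
  fun h => transcendental_jF_sub N c (h ▸ isAlgebraic_zero)

theorem jF_inv_ne_zero (N : ℕ) [NeZero N] : (jF N)⁻¹ ≠ 0 :=
  inv_ne_zero (jF_ne_zero N)

/-! ### (b) adjoin equalities -/

section Adjoin

variable {K F : Type*} [Field K] [Field F] [Algebra K F]

theorem sub_algebraMap_mem_adjoin (x : F) (c : K) : x - algebraMap K F c ∈ K⟮x⟯ :=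
  sub_mem (mem_adjoin_simple_self K x) (K⟮x⟯.algebraMap_mem c)

theorem mem_adjoin_sub_algebraMap (x : F) (c : K) : x ∈ K⟮x - algebraMap K F c⟯ := by
  have h := add_mem (mem_adjoin_simple_self K (x - algebraMap K F c))
    (K⟮x - algebraMap K F c⟯.algebraMap_mem c)
  simpa using h

theorem inv_mem_adjoin (x : F) : x⁻¹ ∈ K⟮x⟯ :=
  inv_mem (mem_adjoin_simple_self K x)

theorem mem_adjoin_inv (x : F) : x ∈ K⟮x⁻¹⟯ := by
  have h := inv_mem (mem_adjoin_simple_self K x⁻¹)
  simpa using h

theorem adjoin_sub_algebraMap_eq (x : F) (c : K) : K⟮x - algebraMap K F c⟯ = K⟮x⟯ :=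
  le_antisymm (adjoin_simple_le_iff.mpr (sub_algebraMap_mem_adjoin x c))
    (adjoin_simple_le_iff.mpr (mem_adjoin_sub_algebraMap x c))

theorem adjoin_inv_eq (x : F) : K⟮x⁻¹⟯ = K⟮x⟯ :=
  le_antisymm (adjoin_simple_le_iff.mpr (inv_mem_adjoin x))
    (adjoin_simple_le_iff.mpr (mem_adjoin_inv x))

theorem finrank_eq_of_intermediateField_eq {A B : IntermediateField K F} (h : A = B) :
    Module.finrank A F = Module.finrank B F := by
  subst h; rfl

theorem finiteDimensional_of_intermediateField_eq {A B : IntermediateField K F} (h : A = B)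
    (hA : FiniteDimensional A F) : FiniteDimensional B F := by
  subst h; exact hA

theorem finrank_adjoin_sub_algebraMap (x : F) (c : K) :
    Module.finrank K⟮x - algebraMap K F c⟯ F = Module.finrank K⟮x⟯ F :=
  finrank_eq_of_intermediateField_eq (adjoin_sub_algebraMap_eq x c)

theorem finrank_adjoin_inv (x : F) :
    Module.finrank K⟮x⁻¹⟯ F = Module.finrank K⟮x⟯ F :=
  finrank_eq_of_intermediateField_eq (adjoin_inv_eq x)

theorem finiteDimensional_adjoin_sub_algebraMap (x : F) (c : K)
    (h : FiniteDimensional K⟮x⟯ F) : FiniteDimensional K⟮x - algebraMap K F c⟯ F :=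
  finiteDimensional_of_intermediateField_eq (adjoin_sub_algebraMap_eq x c).symm h

theorem finiteDimensional_adjoin_inv (x : F)
    (h : FiniteDimensional K⟮x⟯ F) : FiniteDimensional K⟮x⁻¹⟯ F :=
  finiteDimensional_of_intermediateField_eq (adjoin_inv_eq x).symm h

end Adjoin

/-! Specialisations to `jF N`. -/

theorem jF_sub_mem_adjoin (N : ℕ) [NeZero N] (c : Kb) :
    jF N - algebraMap Kb (FF N) c ∈ Kb⟮jF N⟯ := sub_algebraMap_mem_adjoin _ c

theorem jF_mem_adjoin_sub (N : ℕ) [NeZero N] (c : Kb) :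
    jF N ∈ Kb⟮jF N - algebraMap Kb (FF N) c⟯ := mem_adjoin_sub_algebraMap _ c

theorem jF_inv_mem_adjoin (N : ℕ) [NeZero N] : (jF N)⁻¹ ∈ Kb⟮jF N⟯ := inv_mem_adjoin _

theorem jF_mem_adjoin_inv (N : ℕ) [NeZero N] : jF N ∈ Kb⟮(jF N)⁻¹⟯ := mem_adjoin_inv _

theorem adjoin_jF_sub_eq (N : ℕ) [NeZero N] (c : Kb) :
    Kb⟮jF N - algebraMap Kb (FF N) c⟯ = Kb⟮jF N⟯ := adjoin_sub_algebraMap_eq _ c

theorem adjoin_jF_inv_eq (N : ℕ) [NeZero N] : Kb⟮(jF N)⁻¹⟯ = Kb⟮jF N⟯ := adjoin_inv_eq _

theorem finrank_adjoin_jF_sub (N : ℕ) [NeZero N] (c : Kb) :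
    Module.finrank Kb⟮jF N - algebraMap Kb (FF N) c⟯ (FF N) = Module.finrank Kb⟮jF N⟯ (FF N) :=
  finrank_adjoin_sub_algebraMap _ c

theorem finrank_adjoin_jF_inv (N : ℕ) [NeZero N] :
    Module.finrank Kb⟮(jF N)⁻¹⟯ (FF N) = Module.finrank Kb⟮jF N⟯ (FF N) :=
  finrank_adjoin_inv _

theorem finiteDimensional_adjoin_jF_sub (N : ℕ) [NeZero N] (c : Kb)
    (h : FiniteDimensional Kb⟮jF N⟯ (FF N)) :
    FiniteDimensional Kb⟮jF N - algebraMap Kb (FF N) c⟯ (FF N) :=
  finiteDimensional_adjoin_sub_algebraMap _ c h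

theorem finiteDimensional_adjoin_jF_inv (N : ℕ) [NeZero N]
    (h : FiniteDimensional Kb⟮jF N⟯ (FF N)) :
    FiniteDimensional Kb⟮(jF N)⁻¹⟯ (FF N) :=
  finiteDimensional_adjoin_inv _ h

/-! ### (c) Artin finiteness -/

section Artin

variable {K F M Γ : Type*} [Field K] [Field F] [Field M] [Algebra K F] [Algebra K M] [Group Γ]

/-- If `E₀ ≤ E₁` are intermediate fields and `M` is finite over `E₀` then it is finite over
`E₁`. -/
theorem finiteDimensional_of_intermediateField_le {E₀ E₁ : IntermediateField K M} (h : E₀ ≤ E₁)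
    (hfin : FiniteDimensional E₀ M) : FiniteDimensional E₁ M := by
  let _ : Algebra E₀ E₁ := (IntermediateField.inclusion h).toRingHom.toAlgebra
  have : IsScalarTower E₀ E₁ M := IsScalarTower.of_algebraMap_eq (fun x => rfl)
  exact Module.Finite.of_restrictScalars_finite E₀ E₁ M

/-- `M` is finite over the fixed field of a finite subgroup of `M ≃ₐ[K] M`. -/
theorem finiteDimensional_fixedField (H : Subgroup (M ≃ₐ[K] M)) [Finite H] :
    FiniteDimensional (IntermediateField.fixedField H) M := by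
  have h : FiniteDimensional (FixedPoints.subfield H M) M := inferInstance
  exact h

/-- Generic Artin lemma: a finite group acting on `M ⊇ φ(F)` with fixed field inside `K(φ j)`
forces `[F : K(j)] < ∞`. -/
theorem finiteDimensional_adjoin_of_fixed (φ : F →ₐ[K] M) (act : Γ →* (M ≃ₐ[K] M))
    [Finite act.range] (j : F)
    (fixed : ∀ m : M, (∀ γ, act γ m = m) → m ∈ K⟮φ j⟯) :
    FiniteDimensional K⟮j⟯ F := by
  -- Step 1: `M` is finite over `K(φ j)`.
  have hle : IntermediateField.fixedField act.range ≤ K⟮φ j⟯ := by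
    intro m hm
    rw [IntermediateField.mem_fixedField_iff] at hm
    exact fixed m (fun γ => hm (act γ) ⟨γ, rfl⟩)
  have hM : FiniteDimensional K⟮φ j⟯ M :=
    finiteDimensional_of_intermediateField_le hle (finiteDimensional_fixedField act.range)
  -- Step 2: transfer along `φ`.
  have hmap : (K⟮j⟯).map φ = K⟮φ j⟯ := by
    rw [IntermediateField.adjoin_map, Set.image_singleton]
  have hmem : ∀ x : K⟮j⟯, φ x ∈ K⟮φ j⟯ := fun x => by
    rw [← hmap]
    exact ⟨x, x.2, rfl⟩
  let g : K⟮j⟯ →+* K⟮φ j⟯ :=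
    { toFun := fun x => ⟨φ x, hmem x⟩
      map_one' := by ext; simp
      map_mul' := fun x y => by ext; simp
      map_zero' := by ext; simp
      map_add' := fun x y => by ext; simp }
  have hg : Function.Surjective g := by
    rintro ⟨y, hy⟩
    rw [← hmap] at hy
    obtain ⟨x, hx, rfl⟩ := hy
    exact ⟨⟨x, hx⟩, rfl⟩
  let _ : Algebra K⟮j⟯ K⟮φ j⟯ := g.toAlgebra
  let _ : Algebra K⟮j⟯ M := ((algebraMap K⟮φ j⟯ M).comp g).toAlgebra
  have : IsScalarTower K⟮j⟯ K⟮φ j⟯ M := IsScalarTower.of_algebraMap_eq (fun x => rfl)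
  have : Module.Finite K⟮j⟯ K⟮φ j⟯ :=
    Module.Finite.of_surjective (Algebra.linearMap K⟮j⟯ K⟮φ j⟯) hg
  have : Module.Finite K⟮j⟯ M := Module.Finite.trans K⟮φ j⟯ M
  let ψ : F →ₗ[K⟮j⟯] M :=
    { toFun := φ
      map_add' := map_add φ
      map_smul' := fun r f => by
        show φ (r • f) = (φ (r : F)) * φ f
        rw [IntermediateField.smul_def, smul_eq_mul, map_mul] }
  exact FiniteDimensional.of_injective ψ φ.injective

end Artin

end Fermat.Agent.S24
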