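import Fermat.Agent.S24.Model

/-!
# S24 piece P5a, part 2 — `Γ(N)` acts trivially on `Ban N` and `Man N`; `finite_range`; `act_j`.
-/

set_option autoImplicit false

noncomputable section

open UpperHalfPlane
open scoped MatrixGroups Manifold ModularForm

namespace Fermat.Agent.S24

attribute [local instance] algKbC

/-! ### Conjugating `Γ(N)` by a level matrix -/

/-- For `γ ∈ Γ(N)` there is an integer matrix `X` with `γ = 1 + N • X`. -/
theorem exists_eq_one_add_of_mem_Gamma {N : ℕ} {γ : SL(2, ℤ)}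
    (hγ : γ ∈ CongruenceSubgroup.Gamma N) :
    ∃ X : Matrix (Fin 2) (Fin 2) ℤ, (γ : Matrix (Fin 2) (Fin 2) ℤ) = 1 + (N : ℤ) • X := by
  rw [CongruenceSubgroup.Gamma_mem] at hγ
  obtain ⟨h00, h01, h10, h11⟩ := hγ
  have d00 : (N : ℤ) ∣ γ 0 0 - 1 := by
    rw [← ZMod.intCast_zmod_eq_zero_iff_dvd]; push_cast; rw [h00]; ring
  have d01 : (N : ℤ) ∣ γ 0 1 := by
    rw [← ZMod.intCast_zmod_eq_zero_iff_dvd]; exact h01
  have d10 : (N : ℤ) ∣ γ 1 0 := by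
    rw [← ZMod.intCast_zmod_eq_zero_iff_dvd]; exact h10
  have d11 : (N : ℤ) ∣ γ 1 1 - 1 := by
    rw [← ZMod.intCast_zmod_eq_zero_iff_dvd]; push_cast; rw [h11]; ring
  obtain ⟨a, ha⟩ := d00
  obtain ⟨b, hb⟩ := d01
  obtain ⟨c, hc⟩ := d10
  obtain ⟨d, hd⟩ := d11
  refine ⟨!![a, b; c, d], ?_⟩
  ext i j
  fin_cases i <;> fin_cases j <;> simp <;> linarith

/-- For a level matrix `A` (`det A ∣ N`, `det A > 0`) and `γ ∈ Γ(N)`, `A γ = γ' A` for some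
`γ' ∈ SL(2,ℤ)`. -/
theorem exists_SL_mul_eq_mul_of_mem_Gamma {N : ℕ} {γ : SL(2, ℤ)}
    (hγ : γ ∈ CongruenceSubgroup.Gamma N) (A : Matrix (Fin 2) (Fin 2) ℤ) (hA : 0 < A.det)
    (hAN : A.det.natAbs ∣ N) :
    ∃ γ' : SL(2, ℤ), A * (γ : Matrix (Fin 2) (Fin 2) ℤ) = (γ' : Matrix (Fin 2) (Fin 2) ℤ) * A := by
  obtain ⟨X, hX⟩ := exists_eq_one_add_of_mem_Gamma hγ
  obtain ⟨k, hk⟩ := hAN
  have hdet : (A.det.natAbs : ℤ) = A.det := Int.natAbs_of_nonneg hA.le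
  have hN : (N : ℤ) = A.det * k := by rw [hk]; push_cast; rw [abs_of_pos hA]
  set B : Matrix (Fin 2) (Fin 2) ℤ := 1 + (k : ℤ) • (A * X * A.adjugate) with hB
  have hBA : B * A = A * (γ : Matrix (Fin 2) (Fin 2) ℤ) := by
    rw [hB, hX, add_mul, one_mul, mul_add, mul_one, Matrix.smul_mul, Matrix.mul_assoc (A * X),
      Matrix.adjugate_mul, Matrix.mul_smul, Matrix.mul_smul, Matrix.mul_one, smul_smul, hN,
      mul_comm (k : ℤ)]
  have hdetB : B.det = 1 := by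
    have h1 : B.det * A.det = A.det := by
      rw [← Matrix.det_mul, hBA, Matrix.det_mul, γ.det_coe, mul_one]
    have h2 : A.det ≠ 0 := hA.ne'
    exact mul_right_cancel₀ h2 (by rw [h1, one_mul])
  exact ⟨⟨B, hdetB⟩, hBA.symm⟩

/-- For a level matrix `g` and `γ ∈ Γ(N)`: `g γ = γ' g` in `GL₂(ℝ)` for some `γ' ∈ SL(2,ℤ)`. -/
theorem IsLevelMatrix.exists_SL_mul_eq {N : ℕ} {g : GL (Fin 2) ℝ} (hg : IsLevelMatrix N g)
    {γ : SL(2, ℤ)} (hγ : γ ∈ CongruenceSubgroup.Gamma N) :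
    ∃ γ' : SL(2, ℤ), g * (γ : GL (Fin 2) ℝ) = (γ' : GL (Fin 2) ℝ) * g := by
  obtain ⟨A, hA, hAN, hgA⟩ := hg
  obtain ⟨γ', h⟩ := exists_SL_mul_eq_mul_of_mem_Gamma hγ A hA hAN
  refine ⟨γ', ?_⟩
  apply Matrix.GeneralLinearGroup.ext
  intro i j
  have e1 : ((g * (γ : GL (Fin 2) ℝ) : GL (Fin 2) ℝ) : Matrix (Fin 2) (Fin 2) ℝ) =
      (A * (γ : Matrix (Fin 2) (Fin 2) ℤ)).map (Int.cast : ℤ → ℝ) := by
    rw [Matrix.GeneralLinearGroup.coe_mul, hgA, Matrix.map_mul_intCast]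
    congr 1
  have e2 : (((γ' : GL (Fin 2) ℝ) * g : GL (Fin 2) ℝ) : Matrix (Fin 2) (Fin 2) ℝ) =
      ((γ' : Matrix (Fin 2) (Fin 2) ℤ) * A).map (Int.cast : ℤ → ℝ) := by
    rw [Matrix.GeneralLinearGroup.coe_mul, hgA, Matrix.map_mul_intCast]
    congr 1
  rw [e1, e2, h]

/-! ### `Γ(N)`-invariance -/

/-- `Jcomp g` is `Γ(N)`-invariant for every level matrix `g`. -/
theorem Jcomp_smul_of_mem_Gamma {N : ℕ} {g : GL (Fin 2) ℝ} (hg : IsLevelMatrix N g)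
    {γ : SL(2, ℤ)} (hγ : γ ∈ CongruenceSubgroup.Gamma N) (τ : ℍ) :
    Jcomp g (γ • τ) = Jcomp g τ := by
  obtain ⟨γ', h⟩ := hg.exists_SL_mul_eq hγ
  have : g • (γ • τ) = γ' • (g • τ) := by
    change g • ((γ : GL (Fin 2) ℝ) • τ) = (γ' : GL (Fin 2) ℝ) • (g • τ)
    rw [← mul_smul, ← mul_smul, h]
  simp only [Jcomp, this, Jfun_smul_SL]

/-- Every element of `Ban N` is `Γ(N)`-invariant. -/
theorem smul_of_mem_Ban_of_mem_Gamma {N : ℕ} {f : ℍ → ℂ} (hf : f ∈ Ban N)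
    {γ : SL(2, ℤ)} (hγ : γ ∈ CongruenceSubgroup.Gamma N) (τ : ℍ) :
    f (γ • τ) = f τ := by
  induction hf using Algebra.adjoin_induction with
  | mem x hx =>
    obtain ⟨g, hg, rfl⟩ := hx
    exact Jcomp_smul_of_mem_Gamma hg hγ τ
  | algebraMap r => rfl
  | add x y _ _ hx hy => simp only [Pi.add_apply, hx, hy]
  | mul x y _ _ hx hy => simp only [Pi.mul_apply, hx, hy]

theorem precomp_of_mem_Ban_of_mem_Gamma {N : ℕ} {f : ℍ → ℂ} (hf : f ∈ Ban N)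
    {γ : SL(2, ℤ)} (hγ : γ ∈ CongruenceSubgroup.Gamma N) : precomp γ f = f := by
  funext τ
  exact smul_of_mem_Ban_of_mem_Gamma hf (inv_mem hγ) τ

theorem actBan_of_mem_Gamma {N : ℕ} {γ : SL(2, ℤ)} (hγ : γ ∈ CongruenceSubgroup.Gamma N) :
    actBan N γ = AlgEquiv.refl := by
  ext f : 1
  exact Subtype.ext (precomp_of_mem_Ban_of_mem_Gamma f.2 hγ)

/-- `Γ(N)` acts trivially on `Man N`. -/
theorem act_of_mem_Gamma {N : ℕ} {γ : SL(2, ℤ)} (hγ : γ ∈ CongruenceSubgroup.Gamma N) :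
    act N γ = 1 := by
  have h1 : act N γ = act N 1 := by
    ext x
    obtain ⟨a, b, hb, rfl⟩ := IsFractionRing.div_surjective (A := Ban N) x
    simp only [map_div₀, act_algebraMap, actBan_of_mem_Gamma hγ, actBan_one]
  rw [h1, map_one]

theorem Gamma_le_ker_act (N : ℕ) : CongruenceSubgroup.Gamma N ≤ (act N).ker :=
  fun _ hγ => MonoidHom.mem_ker.mpr (act_of_mem_Gamma hγ)

/-- `finite_range` of the realization. -/
theorem finite_range_act (N : ℕ) [NeZero N] : Finite (act N).range := by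
  have : (act N).ker.FiniteIndex := Subgroup.finiteIndex_of_le (Gamma_le_ker_act N)
  have : Finite (SL(2, ℤ) ⧸ (act N).ker) := Subgroup.finite_quotient_of_finiteIndex
  exact Finite.of_equiv _ (QuotientGroup.quotientKerEquivRange (act N)).toEquiv

/-! ### `j` is fixed -/

/-- The element `j` of `Ban N`. -/
def jBan (N : ℕ) : Ban N := ⟨Jfun, Jfun_mem_Ban N⟩

/-- The element `j` of `Man N`. -/
def jMan (N : ℕ) : Man N := algebraMap (Ban N) (Man N) (jBan N)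

@[simp] theorem jBan_coe (N : ℕ) : ((jBan N : Ban N) : ℍ → ℂ) = Jfun := rfl

theorem actBan_jBan (N : ℕ) (γ : SL(2, ℤ)) : actBan N γ (jBan N) = jBan N := by
  apply Subtype.ext
  funext τ
  exact Jfun_smul_SL γ⁻¹ τ

/-- `act_j` of the realization (with `φ (jF N) = jMan N`). -/
theorem act_jMan (N : ℕ) (γ : SL(2, ℤ)) : act N γ (jMan N) = jMan N := by
  rw [jMan, act_algebraMap, actBan_jBan]

/-! ### The elements `Jd d` -/

theorem isLevelMatrix_heckeDiagMatrix {N d : ℕ} (hd : d ∣ N) (hd0 : 0 < d) :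
    IsLevelMatrix N (ModularForm.heckeDiagMatrix d) := by
  refine ⟨!![(d : ℤ), 0; 0, 1], ?_, ?_, ?_⟩
  · simp [Matrix.det_fin_two_of]; exact hd0
  · simpa [Matrix.det_fin_two_of] using hd
  · rw [ModularForm.val_heckeDiagMatrix hd0.ne']
    ext i j
    fin_cases i <;> fin_cases j <;> simp

theorem Jd_mem_Ban {N d : ℕ} (hd : d ∣ N) (hd0 : 0 < d) : Jd d ∈ Ban N :=
  Jcomp_mem_Ban (isLevelMatrix_heckeDiagMatrix hd hd0)

theorem Jd_one : Jd 1 = Jfun := by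
  funext τ
  have : ModularForm.heckeDiagMatrix 1 • τ = τ := by
    apply UpperHalfPlane.ext
    rw [ModularForm.coe_heckeDiagMatrix_smul one_ne_zero]; simp
  simp [Jd, Jcomp, this]

/-- `Jd d` as an element of `Ban N` (for `d ∣ N`, `N ≠ 0`). -/
def JdBan (N : ℕ) [NeZero N] (d : ℕ) (hd : d ∣ N) : Ban N :=
  ⟨Jd d, Jd_mem_Ban hd (Nat.pos_of_dvd_of_pos hd (NeZero.pos N))⟩

/-- `Jd d` as an element of `Man N`. -/
def JdMan (N : ℕ) [NeZero N] (d : ℕ) (hd : d ∣ N) : Man N :=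
  algebraMap (Ban N) (Man N) (JdBan N d hd)

theorem JdMan_one (N : ℕ) [NeZero N] : JdMan N 1 (one_dvd N) = jMan N := by
  simp only [JdMan, jMan]
  congr 1
  exact Subtype.ext Jd_one

end Fermat.Agent.S24
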