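import Fermat.Agent.S24.BridgeAn
import Fermat.Agent.S24.BridgeAlg
import Fermat.Agent.S24.ModelGamma
import Fermat.Agent.S24.QExpJ

/-!
# S24 piece P6b — the bridge `phi N : FF N →ₐ[ℚ̄] Man N`

`phi N` sends the formal `j(q^d)` (`jdF N d hd`) to the analytic `J(dτ)` (`JdMan N d hd`), `d ∣ N`.

* `lrel_Jd` : the Laurent expansion of `J(dτ)` at `i∞` is `j(q^d)` (from P6a).
* `bridge_iff` : `P(j(q^d))_d = 0` in `ℚ̄((q))` iff `P(J(dτ))_d = 0` on `ℍ`, for
  `P : MvPolynomial (Dv N) ℚ̄`.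
* `phi`, `phi_jdF`, `phi_jF`, `phi_fieldRange`.
-/

set_option autoImplicit false

noncomputable section

open UpperHalfPlane ModularCurve
open scoped Manifold

namespace Fermat.Agent.S24

attribute [local instance] algKbC

local notation "𝕢" => Function.Periodic.qParam

/-! ### The Laurent expansion of `J(dτ)` -/

/-- `j(q^d)` with complex coefficients. -/
def jCd (d : ℕ) [NeZero d] : LaurentSeries ℂ := coeffMap (algebraMap ℚ ℂ) (qExpand ℚ d jq)

theorem br_qExpand_jq_coeff_of_neg (d : ℕ) [NeZero d] {k : ℤ} (hk : k < 0) :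
    (qExpand ℚ d jq).coeff (k - d) = 0 := by
  by_cases hdvd : (d : ℤ) ∣ k - d
  · obtain ⟨m, hm⟩ := hdvd
    rw [hm, qExpand_coeff_mul]
    apply coeff_jq_of_lt
    have hd : (0 : ℤ) < d := by exact_mod_cast Nat.pos_of_ne_zero (NeZero.ne d)
    by_contra hcon
    have hcon := not_lt.mp hcon
    have h1 : (d : ℤ) * (-1) ≤ d * m := mul_le_mul_of_nonneg_left hcon hd.le
    rw [← hm] at h1
    linarith
  · exact qExpand_coeff_of_not_dvd d jq hdvd

theorem brHPB_JdShift (d : ℕ) [NeZero d] : BrHPB (JdShift d) where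
  mdiff := JdShift_mdifferentiable d
  periodic := JdShift_periodic d
  bdd := JdShift_isBoundedAtImInfty d

theorem qpowFun_mul_Jd (d : ℕ) : qpowFun d * Jd d = JdShift d := rfl

theorem lrel_Jd (d : ℕ) [NeZero d] : Lrel (Jd d) (jCd d) := by
  refine ⟨d, qpowFun_mul_Jd d ▸ brHPB_JdShift d, ?_⟩
  rw [qpowFun_mul_Jd]
  ext k
  rw [HahnSeries.coeff_single_mul, one_mul, jCd, coeffMap_coeff]
  rcases lt_or_ge k 0 with hk | hk
  · rw [ofPowerSeries_coeff_of_neg _ hk, br_qExpand_jq_coeff_of_neg d hk, map_zero]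
  · obtain ⟨n, rfl⟩ := Int.eq_ofNat_of_zero_le hk
    rw [HahnSeries.ofPowerSeries_apply_coeff, qExpansion_JdShift_coeff, eq_ratCast]

/-! ### Polynomial relations -/

/-- The family `d ↦ J(dτ)` of functions on `ℍ`. -/
def Jdfam (N : ℕ) : Dv N → (ℍ → ℂ) := fun d => Jd d.1

/-- The family `d ↦ j(q^d)` with complex coefficients. -/
def jCfam (N : ℕ) [NeZero N] : Dv N → LaurentSeries ℂ := fun d => coeffMap embC (jBfam N d)

theorem jCfam_eq (N : ℕ) [NeZero N] (d : ℕ) [NeZero d] (hd : d ∣ N) :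
    jCfam N ⟨d, hd⟩ = jCd d := by
  rw [jCfam, jBfam_eq, coeffEmb, coeffMap_coeffMap, jCd]
  exact coeffMap_congr (Subsingleton.elim _ _) _

theorem lrel_fam (N : ℕ) [NeZero N] (d : Dv N) : Lrel (Jdfam N d) (jCfam N d) := by
  obtain ⟨d, hd⟩ := d
  have : NeZero d := ⟨ne_zero_of_dvd_ne_zero (NeZero.ne N) hd⟩
  rw [jCfam_eq]
  exact lrel_Jd d

theorem lrel_aeval (N : ℕ) [NeZero N] (P : MvPolynomial (Dv N) ℂ) :
    Lrel (MvPolynomial.aeval (Jdfam N) P) (MvPolynomial.aeval (jCfam N) P) := by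
  induction P using MvPolynomial.induction_on with
  | C a =>
    rw [MvPolynomial.aeval_C, MvPolynomial.aeval_C, algebraMap_laurentSeries_eq_single]
    exact Lrel.const a
  | add p q hp hq =>
    rw [map_add, map_add]
    exact hp.add hq
  | mul_X p i hp =>
    rw [map_mul, map_mul, MvPolynomial.aeval_X, MvPolynomial.aeval_X]
    exact hp.mul (lrel_fam N i)

theorem br_aeval_Jdfam_map (N : ℕ) (P : MvPolynomial (Dv N) Kb) :
    MvPolynomial.aeval (R := ℂ) (Jdfam N) (MvPolynomial.map embC P) =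
      MvPolynomial.aeval (R := Kb) (Jdfam N) P := by
  rw [MvPolynomial.aeval_def, MvPolynomial.eval₂_map, MvPolynomial.aeval_def]
  rfl

theorem br_coeffMap_aeval_jBfam (N : ℕ) [NeZero N] (P : MvPolynomial (Dv N) Kb) :
    coeffMap embC (MvPolynomial.aeval (jBfam N) P) =
      MvPolynomial.aeval (jCfam N) (MvPolynomial.map embC P) := by
  rw [MvPolynomial.aeval_def, MvPolynomial.aeval_def, MvPolynomial.eval₂_map,
    MvPolynomial.hom_eval₂]
  congr 1
  ext c : 1
  simp only [RingHom.comp_apply, algebraMap_laurentSeries_eq_single, coeffMap_single]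

theorem br_coeffMap_embC_injective : Function.Injective (coeffMap embC) := by
  intro x y h
  ext k
  have h1 := congrArg (fun z => z.coeff k) h
  simp only [coeffMap_coeff] at h1
  exact embC.injective h1

/-- **Bridge**: a polynomial relation between the formal `j(q^d)` over `ℚ̄` holds iff it holds
between the analytic functions `J(dτ)`. -/
theorem bridge_iff (N : ℕ) [NeZero N] (P : MvPolynomial (Dv N) Kb) :
    MvPolynomial.aeval (jBfam N) P = 0 ↔ MvPolynomial.aeval (R := Kb) (Jdfam N) P = 0 := by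
  rw [← br_aeval_Jdfam_map, (lrel_aeval N (MvPolynomial.map embC P)).eq_zero_iff,
    ← br_coeffMap_aeval_jBfam]
  constructor
  · intro h
    rw [h, map_zero]
  · intro h
    exact br_coeffMap_embC_injective (h.trans (map_zero _).symm)

/-! ### The map `phi` -/

/-- The family `d ↦ J(dτ)` in `Ban N`. -/
def JdBanfam (N : ℕ) [NeZero N] : Dv N → Ban N := fun d => JdBan N d.1 d.2

/-- The family `d ↦ J(dτ)` in `Man N`. -/
def JdManfam (N : ℕ) [NeZero N] : Dv N → Man N := fun d => JdMan N d.1 d.2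

theorem coe_aeval_JdBanfam (N : ℕ) [NeZero N] (P : MvPolynomial (Dv N) Kb) :
    ((MvPolynomial.aeval (JdBanfam N) P : Ban N) : ℍ → ℂ) =
      MvPolynomial.aeval (R := Kb) (Jdfam N) P := by
  have h := MvPolynomial.comp_aeval_apply (JdBanfam N) (Ban N).val P
  exact h

theorem aeval_JdManfam (N : ℕ) [NeZero N] (P : MvPolynomial (Dv N) Kb) :
    MvPolynomial.aeval (JdManfam N) P =
      algebraMap (Ban N) (Man N) (MvPolynomial.aeval (JdBanfam N) P) := by
  have h := MvPolynomial.comp_aeval_apply (JdBanfam N) (IsScalarTower.toAlgHom Kb (Ban N) (Man N)) P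
  exact h.symm

theorem aeval_JdManfam_eq_zero_iff (N : ℕ) [NeZero N] (P : MvPolynomial (Dv N) Kb) :
    MvPolynomial.aeval (JdManfam N) P = 0 ↔ MvPolynomial.aeval (R := Kb) (Jdfam N) P = 0 := by
  rw [aeval_JdManfam, map_eq_zero_iff _ (IsFractionRing.injective (Ban N) (Man N)),
    ← coe_aeval_JdBanfam, ZeroMemClass.coe_eq_zero]

theorem exists_phi (N : ℕ) [NeZero N] :
    ∃ φ : FF N →ₐ[Kb] Man N, ∀ (d : ℕ) (hd : d ∣ N), φ (jdF N d hd) = JdMan N d hd :=
  exists_algHom_FF_of_relations N (JdManfam N) fun P =>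
    (bridge_iff N P).trans (aeval_JdManfam_eq_zero_iff N P).symm

/-- **The bridge**: the embedding of the function field `FF N = ℚ̄(j(q^d) : d ∣ N)` into the
analytic model `Man N`, sending `j(q^d)` to `J(dτ)`. -/
def phi (N : ℕ) [NeZero N] : FF N →ₐ[Kb] Man N := (exists_phi N).choose

theorem phi_jdF (N : ℕ) [NeZero N] (d : ℕ) (hd : d ∣ N) : phi N (jdF N d hd) = JdMan N d hd :=
  (exists_phi N).choose_spec d hd

theorem phi_jF (N : ℕ) [NeZero N] : phi N (jF N) = jMan N := by
  rw [← jdF_one, phi_jdF, JdMan_one]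

theorem phi_injective (N : ℕ) [NeZero N] : Function.Injective (phi N) :=
  (phi N).toRingHom.injective

/-- The image of `phi N` is the subfield of `Man N` generated by the `J(dτ)`, `d ∣ N`. -/
theorem phi_fieldRange (N : ℕ) [NeZero N] :
    (phi N).fieldRange = IntermediateField.adjoin Kb {y | ∃ d hd, y = JdMan N d hd} := by
  rw [AlgHom.fieldRange_eq_map, FF_eq_adjoin, IntermediateField.adjoin_map]
  congr 1
  ext y
  constructor
  · rintro ⟨_, ⟨d, hd, rfl⟩, rfl⟩
    exact ⟨d, hd, phi_jdF N d hd⟩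
  · rintro ⟨d, hd, rfl⟩
    exact ⟨jdF N d hd, ⟨d, hd, rfl⟩, (phi_jdF N d hd)⟩

end Fermat.Agent.S24
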