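import Fermat.Agent.S24.KExp
import Fermat.Agent.S24.ModelGamma

/-!
# S24 piece P7a (part 3): the field of `SL(2,ℤ)`-invariants of `Man N` is `ℚ̄(j)`

* `actBan_fixed_eq_aeval`: an element of `Ban N` fixed by all `actBan N γ` is a polynomial in
  `jBan N` with coefficients in `ℚ̄`.
* `fixed_mem_adjoin_jMan`: an element of `Man N` fixed by all `act N γ` lies in `ℚ̄(jMan N)`.
  This is the field `fixed` of `Realization N` (see `realization_of_pieces`).
-/

set_option autoImplicit false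

noncomputable section

open UpperHalfPlane IntermediateField
open scoped MatrixGroups Polynomial

namespace Fermat.Agent.S24

attribute [local instance] algKbC

/-- Evaluation at `τ`, as a `ℚ̄`-algebra homomorphism `Ban N → ℂ`. -/
def evalBan (N : ℕ) (τ : ℍ) : Ban N →ₐ[Kb] ℂ :=
  (Pi.evalAlgHom Kb (fun _ : ℍ => ℂ) τ).comp (Ban N).val

theorem evalBan_apply (N : ℕ) (τ : ℍ) (f : Ban N) : evalBan N τ f = (f : ℍ → ℂ) τ := rfl

theorem aeval_jBan_apply (N : ℕ) (p : Kb[X]) (τ : ℍ) :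
    ((Polynomial.aeval (jBan N) p : Ban N) : ℍ → ℂ) τ = (p.map embC).eval (Jfun τ) := by
  rw [← evalBan_apply, ← Polynomial.aeval_algHom_apply, evalBan_apply, jBan_coe,
    Polynomial.aeval_def, Polynomial.eval_map]
  rfl

/-- An element of `Ban N` fixed by `SL(2,ℤ)` is a polynomial in `j` over `ℚ̄`. -/
theorem actBan_fixed_eq_aeval (N : ℕ) [NeZero N] (f : Ban N) (hf : ∀ γ, actBan N γ f = f) :
    ∃ p : Kb[X], f = Polynomial.aeval (jBan N) p := by
  have hinv : ∀ γ : SL(2, ℤ), ∀ τ : ℍ, (f : ℍ → ℂ) (γ • τ) = (f : ℍ → ℂ) τ := by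
    intro γ τ
    have h := congrArg (fun g : Ban N => (g : ℍ → ℂ) τ) (hf γ⁻¹)
    simp only [actBan_apply_apply, inv_inv] at h
    exact h
  obtain ⟨p, hp⟩ := KExp.exists_poly_of_mem_Ban_of_invariant f.2 hinv
  refine ⟨p, Subtype.ext (funext fun τ => ?_)⟩
  rw [aeval_jBan_apply]
  exact hp τ

theorem algebraMap_aeval_jBan (N : ℕ) (p : Kb[X]) :
    algebraMap (Ban N) (Man N) (Polynomial.aeval (jBan N) p) = Polynomial.aeval (jMan N) p := by
  rw [jMan, ← Polynomial.aeval_algebraMap_apply]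

/-- The field of invariants of `SL(2,ℤ)` on `Man N` is `ℚ̄(j)`. -/
theorem fixed_mem_adjoin_jMan (N : ℕ) [NeZero N] (m : Man N) (hm : ∀ γ, act N γ m = m) :
    m ∈ Kb⟮jMan N⟯ := by
  classical
  have : Finite (act N).range := finite_range_act N
  have : Fintype (act N).range := Fintype.ofFinite _
  obtain ⟨a, b, hb, rfl⟩ := IsFractionRing.div_surjective (A := Ban N) m
  have hb0 : b ≠ 0 := nonZeroDivisors.ne_zero hb
  have hbM : algebraMap (Ban N) (Man N) b ≠ 0 := by
    rwa [Ne, IsFractionRing.to_map_eq_zero_iff]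
  -- the image of `Ban N` in `Man N`
  set B' : Subring (Man N) := (algebraMap (Ban N) (Man N)).range with hB'
  have hstable : ∀ σ : (act N).range, ∀ x ∈ B', (σ : Man N ≃ₐ[Kb] Man N) x ∈ B' := by
    rintro ⟨_, γ, rfl⟩ _ ⟨y, rfl⟩
    exact ⟨actBan N γ y, (act_algebraMap N γ y).symm⟩
  set bM := algebraMap (Ban N) (Man N) b with hbMdef
  set P : Man N := ∏ σ : (act N).range, (σ : Man N ≃ₐ[Kb] Man N) bM with hP
  set Q : Man N := ∏ σ ∈ (Finset.univ.erase (1 : (act N).range)),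
    (σ : Man N ≃ₐ[Kb] Man N) bM with hQ
  have hPQ : bM * Q = P := by
    have := Finset.mul_prod_erase (Finset.univ : Finset (act N).range)
      (fun σ => (σ : Man N ≃ₐ[Kb] Man N) bM) (Finset.mem_univ 1)
    simpa using this
  have hQmem : Q ∈ B' :=
    Subring.prod_mem _ fun σ _ => hstable σ _ ⟨b, rfl⟩
  have hPmem : P ∈ B' := by
    rw [← hPQ]; exact Subring.mul_mem _ ⟨b, rfl⟩ hQmem
  have hP0 : P ≠ 0 := by
    rw [hP, Finset.prod_ne_zero_iff]
    intro σ _
    exact (map_ne_zero_iff _ (AlgEquiv.injective _)).mpr hbM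
  have hPinv : ∀ γ, act N γ P = P := by
    intro γ
    rw [hP, map_prod]
    let τ : (act N).range := ⟨act N γ, γ, rfl⟩
    refine Fintype.prod_equiv (Equiv.mulLeft τ) _ _ fun σ => ?_
    rfl
  -- numerator
  set n : Man N := algebraMap (Ban N) (Man N) a * Q with hn
  have hnmem : n ∈ B' := Subring.mul_mem _ ⟨a, rfl⟩ hQmem
  have hmn : algebraMap (Ban N) (Man N) a / bM = n / P := by
    rw [hn, ← hPQ]
    have hQ0 : Q ≠ 0 := by
      intro h
      rw [← hPQ, h, mul_zero] at hP0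
      exact hP0 rfl
    field_simp
  have hninv : ∀ γ, act N γ n = n := by
    intro γ
    have h1 : n = (algebraMap (Ban N) (Man N) a / bM) * P := by
      rw [hmn]; field_simp
    rw [h1, map_mul, hm γ, hPinv γ]
  obtain ⟨n₀, hn₀⟩ := hnmem
  obtain ⟨P₀, hP₀⟩ := hPmem
  have hinj : Function.Injective (algebraMap (Ban N) (Man N)) := IsFractionRing.injective _ _
  have hn₀inv : ∀ γ, actBan N γ n₀ = n₀ := fun γ => hinj <| by
    rw [← act_algebraMap, hn₀, hninv γ]
  have hP₀inv : ∀ γ, actBan N γ P₀ = P₀ := fun γ => hinj <| by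
    rw [← act_algebraMap, hP₀, hPinv γ]
  obtain ⟨p, hp⟩ := actBan_fixed_eq_aeval N n₀ hn₀inv
  obtain ⟨q, hq⟩ := actBan_fixed_eq_aeval N P₀ hP₀inv
  rw [hmn, ← hn₀, ← hP₀, hp, hq, algebraMap_aeval_jBan, algebraMap_aeval_jBan]
  have hj : jMan N ∈ Kb⟮jMan N⟯ := IntermediateField.mem_adjoin_simple_self Kb (jMan N)
  have haeval : ∀ r : Kb[X], Polynomial.aeval (jMan N) r ∈ Kb⟮jMan N⟯ := fun r => by
    have := Polynomial.aeval_mem_adjoin_singleton Kb (jMan N) (p := r)
    exact IntermediateField.algebra_adjoin_le_adjoin Kb _ this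
  exact div_mem (haeval p) (haeval q)

end Fermat.Agent.S24
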