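import Fermat.Agent.S24.AnalyticDefs
import Fermat.Agent.S24.JDef

/-!
# S24 piece P4a: `Jfun` is holomorphic, `SL(2, ℤ)`-invariant, `q · Jfun → 1` at `i∞`, surjective
-/

set_option autoImplicit false

noncomputable section

open UpperHalfPlane ModularForm ModularFormClass MatrixGroups EisensteinSeries Filter Topology
open scoped Manifold

namespace Fermat.Agent.S24

theorem Jfun_eq_J : Jfun = J := rfl

theorem Jfun_mdifferentiable : MDiff Jfun := J_mdifferentiable

theorem Jfun_differentiableOn : DifferentiableOn ℂ (Jfun ∘ ofComplex) {z | 0 < z.im} :=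
  J_differentiableOn

theorem Jfun_smul (γ : SL(2, ℤ)) (τ : ℍ) : Jfun (γ • τ) = Jfun τ := J_smul γ τ

/-- `E₄ → 1` at `i∞`. -/
theorem E₄_tendsto_atImInfty : Tendsto (fun τ : ℍ => E₄ τ) atImInfty (𝓝 1) := by
  have hper : Function.Periodic (⇑E₄ ∘ ofComplex) 1 :=
    SlashInvariantFormClass.periodic_comp_ofComplex E₄ one_mem_strictPeriods_SL
  have han : AnalyticAt ℂ (cuspFunction 1 ⇑E₄) 0 :=
    ModularFormClass.analyticAt_cuspFunction_zero E₄ one_pos one_mem_strictPeriods_SL
  have h0 : cuspFunction 1 ⇑E₄ 0 = 1 := by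
    have := E_qExpansion_coeff_zero (k := 4) (by norm_num) ⟨2, rfl⟩
    simpa [qExpansion_coeff] using this
  have : (cuspFunction 1 ⇑E₄ ∘ fun τ : ℍ ↦ Function.Periodic.qParam 1 τ : ℍ → ℂ) = ⇑E₄ := by
    funext τ
    simpa using UpperHalfPlane.eq_cuspFunction (f := ⇑E₄) τ one_ne_zero hper
  have h := han.continuousAt.tendsto.comp (qParam_tendsto_atImInfty (h := 1) one_pos)
  rw [this, h0] at h
  exact h

/-- `q · J → 1` at `i∞`. -/
theorem tendsto_qParam_mul_Jfun :
    Tendsto (fun τ : ℍ => Function.Periodic.qParam 1 τ * Jfun τ) atImInfty (𝓝 1) := by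
  have h1 : Tendsto (fun τ : ℍ => E₄ τ ^ 3 / ∏' n, (1 - eta_q n τ) ^ 24) atImInfty (𝓝 (1 ^ 3 / 1)) :=
    (E₄_tendsto_atImInfty.pow 3).div tendsto_atImInfty_tprod_one_sub_eta_q_pow one_ne_zero
  simp only [one_pow, div_one] at h1
  refine h1.congr fun τ => ?_
  have hq : Function.Periodic.qParam 1 (τ : ℂ) ≠ 0 := by
    simp [Function.Periodic.qParam]
  rw [Jfun, discriminant_eq_q_prod]
  field_simp

/-- `Δ → 0` at `i∞`. -/
theorem discriminant_tendsto_atImInfty :
    Tendsto (fun τ : ℍ => ModularForm.discriminant τ) atImInfty (𝓝 0) :=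
  discriminant_isZeroAtImInfty

/-- The level one form `E₄³ - cΔ` transforms with weight 12. -/
lemma E₄_cube_sub_smul (c : ℂ) (γ : SL(2, ℤ)) (τ : ℍ) :
    E₄ (γ • τ) ^ 3 - c * ModularForm.discriminant (γ • τ) =
      (denom (γ : GL (Fin 2) ℝ) τ) ^ (12 : ℤ) * (E₄ τ ^ 3 - c * ModularForm.discriminant τ) := by
  have h4 := levelOne_smul E₄ γ τ
  have hΔ := levelOne_smul CuspForm.discriminant γ τ
  rw [CuspForm.coe_discriminant] at hΔ
  rw [h4, hΔ]
  generalize denom (γ : GL (Fin 2) ℝ) τ = d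
  have h1 : (d ^ (4 : ℤ)) ^ 3 = d ^ (12 : ℤ) := by
    rw [← zpow_natCast, ← zpow_mul]; norm_num
  rw [mul_pow, h1]
  ring

/-- `Jfun` is surjective: otherwise `1 / (E₄³ - cΔ)` would be a nonzero modular form of
weight `-12`. -/
theorem Jfun_surjective : Function.Surjective Jfun := by
  intro c
  by_contra hne
  simp only [not_exists] at hne
  have hnz : ∀ τ : ℍ, E₄ τ ^ 3 - c * ModularForm.discriminant τ ≠ 0 := by
    intro τ h
    apply hne τ
    rw [Jfun_eq_J, J_eq_iff]
    exact sub_eq_zero.mp h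
  set g : ℍ → ℂ := fun τ => (E₄ τ ^ 3 - c * ModularForm.discriminant τ)⁻¹ with hg
  -- invariance of weight -12
  have hinv : ∀ γ : SL(2, ℤ), g ∣[(-12 : ℤ)] γ = g := by
    intro γ
    ext τ
    rw [ModularForm.SL_slash_apply]
    simp only [hg]
    rw [E₄_cube_sub_smul c γ τ, mul_inv, neg_neg]
    have hd : denom (γ : GL (Fin 2) ℝ) τ ≠ 0 := denom_ne_zero _ _
    rw [mul_comm, ← mul_assoc, mul_inv_cancel₀ (zpow_ne_zero _ hd), one_mul]
  -- holomorphy
  have hholo : MDiff g := by
    have h4 : MDiff (fun τ : ℍ => E₄ τ ^ 3) := (E₄.holo').pow 3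
    have hΔ : MDiff ModularForm.discriminant := discriminant_mdifferentiable
    rw [UpperHalfPlane.mdifferentiable_iff] at h4 hΔ ⊢
    refine ((h4.sub (hΔ.const_mul c)).inv ?_).congr ?_
    · intro z hz
      simp only [Function.comp_apply]
      exact hnz _
    · intro z hz
      simp [hg, Function.comp_apply]
  -- boundedness at `i∞`
  have htend : Tendsto g atImInfty (𝓝 1) := by
    have h1 : Tendsto (fun τ : ℍ => E₄ τ ^ 3 - c * ModularForm.discriminant τ) atImInfty
        (𝓝 (1 ^ 3 - c * 0)) :=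
      (E₄_tendsto_atImInfty.pow 3).sub (discriminant_tendsto_atImInfty.const_mul c)
    have h2 := h1.inv₀ (by norm_num)
    simpa using h2
  have hbdd : IsBoundedAtImInfty g := htend.isBigO_one ℝ
  let G : ModularForm (Matrix.SpecialLinearGroup.mapGL ℝ : SL(2, ℤ) →* GL (Fin 2) ℝ).range (-12) :=
    { toFun := g
      slash_action_eq' := by
        rintro _ ⟨γ, rfl⟩
        exact hinv γ
      holo' := hholo
      bdd_at_cusps' := by
        intro c hc
        rw [OnePoint.isBoundedAt_iff_forall_SL2Z hc]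
        intro γ _
        rw [hinv γ]
        exact hbdd }
  have hG : (⇑G : ℍ → ℂ) = 0 := levelOne_neg_weight_eq_zero (by norm_num) G
  have := congrFun hG UpperHalfPlane.I
  exact inv_ne_zero (hnz UpperHalfPlane.I) this

end Fermat.Agent.S24
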