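import Fermat.Agent.S24.JDef
import Fermat.Agent.S24.LevelOneA

/-!
# S24 piece P4b: analytic order of `J - c`

* `isZeroAtImInfty_D` : the normalised derivative of a holomorphic function with a limit at `i∞`
  tends to `0` at `i∞` (Cauchy estimate).
* `bracket_eq` : `2 E₄ D E₆ - 3 D E₄ E₆ = c Δ` with `c ≠ 0`.
* orders of `J - c`.
-/

set_option autoImplicit false

noncomputable section

open UpperHalfPlane ModularForm ModularFormClass MatrixGroups EisensteinSeries Derivative Filter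
open scoped Manifold Topology

namespace Fermat.Agent.S24

/-- **Cauchy estimate at `i∞`.** If `f` is holomorphic on `ℍ` and tends to a limit at `i∞`, then
its normalised derivative tends to `0` at `i∞`. -/
theorem isZeroAtImInfty_D {f : ℍ → ℂ} (hf : MDiff f) {a : ℂ} (ha : Tendsto f atImInfty (𝓝 a)) :
    IsZeroAtImInfty (D f) := by
  rw [IsZeroAtImInfty, ZeroAtFilter, Metric.tendsto_nhds]
  intro ε hε
  have h1 := (Metric.tendsto_nhds.mp ha) ε hε
  rw [Filter.Eventually, atImInfty_mem] at h1 ⊢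
  obtain ⟨A, hA⟩ := h1
  refine ⟨max A 0 + 1, fun τ hτ => ?_⟩
  have hτA : A + 1 ≤ τ.im := le_trans (by gcongr; exact le_max_left _ _) hτ
  have hτ0 : 1 ≤ τ.im := le_trans (by linarith [le_max_right A 0]) hτ
  -- the function `g = f ∘ ofComplex - a` on the ball of radius 1/2 around τ
  have hdiff : DifferentiableOn ℂ (f ∘ ofComplex) {z | 0 < z.im} :=
    UpperHalfPlane.mdifferentiable_iff.mp hf
  have hsub : Metric.closedBall (τ : ℂ) (1 / 2) ⊆ {z : ℂ | 0 < z.im} := by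
    intro z hz
    rw [Metric.mem_closedBall, Complex.dist_eq] at hz
    have h2 : |(z - τ).im| ≤ ‖z - (τ : ℂ)‖ := Complex.abs_im_le_norm _
    have h3 : (z - (τ : ℂ)).im = z.im - τ.im := by simp
    rw [h3] at h2
    have := abs_le.mp (h2.trans hz)
    simp only [Set.mem_ofPred_eq]
    linarith [this.1]
  have hg : DiffContOnCl ℂ (fun z => (f ∘ ofComplex) z - a) (Metric.ball (τ : ℂ) (1 / 2)) := by
    have hd : DifferentiableOn ℂ (fun z => (f ∘ ofComplex) z - a)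
        (Metric.closedBall (τ : ℂ) (1 / 2)) :=
      (hdiff.mono hsub).sub_const a
    exact hd.diffContOnCl_ball (subset_refl _)
  have hbound : ∀ z ∈ Metric.sphere (τ : ℂ) (1 / 2), ‖(f ∘ ofComplex) z - a‖ ≤ ε := by
    intro z hz
    have hzmem : z ∈ Metric.closedBall (τ : ℂ) (1 / 2) := Metric.sphere_subset_closedBall hz
    have hzpos : 0 < z.im := hsub hzmem
    rw [Metric.mem_closedBall, Complex.dist_eq] at hzmem
    have h2 : |(z - τ).im| ≤ ‖z - (τ : ℂ)‖ := Complex.abs_im_le_norm _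
    have h3 : (z - (τ : ℂ)).im = z.im - τ.im := by simp
    rw [h3] at h2
    have h4 := abs_le.mp (h2.trans hzmem)
    have hzA : A ≤ (⟨z, hzpos⟩ : ℍ).im := by
      change A ≤ z.im
      linarith [h4.1]
    have := hA ⟨z, hzpos⟩ hzA
    simp only [Set.mem_ofPred_eq, dist_eq_norm] at this
    rw [Function.comp_apply, ofComplex_apply_of_im_pos hzpos]
    exact this.le
  have hC := Complex.norm_deriv_le_of_forall_mem_sphere_norm_le (by norm_num : (0:ℝ) < 1 / 2)
    hg hbound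
  have hderiv : deriv (fun z => (f ∘ ofComplex) z - a) (τ : ℂ) = deriv (f ∘ ofComplex) (τ : ℂ) := by
    rw [deriv_sub_const]
  rw [hderiv] at hC
  have h2pi : ‖(2 * (Real.pi : ℂ) * Complex.I)‖ = 2 * Real.pi := by
    simp [abs_of_pos Real.pi_pos]
  simp only [Set.mem_ofPred_eq, dist_zero_right, normalizedDerivOfComplex]
  rw [norm_mul, norm_inv, h2pi]
  have hpi : (3 : ℝ) < Real.pi := Real.pi_gt_three
  calc (2 * Real.pi)⁻¹ * ‖deriv (f ∘ ofComplex) (τ : ℂ)‖
      ≤ (2 * Real.pi)⁻¹ * (ε / (1 / 2)) := by gcongr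
    _ = ε / Real.pi := by field_simp
    _ < ε := by
        rw [div_lt_iff₀ Real.pi_pos]
        nlinarith

/-- A level one modular form tends to the constant term of its `q`-expansion at `i∞`. -/
theorem tendsto_levelOne_atImInfty {k : ℤ} (f : ModularForm 𝒮ℒ k) :
    Tendsto f atImInfty (𝓝 ((qExpansion 1 f).coeff 0)) := by
  have hanal := ModularFormClass.analyticAt_cuspFunction_zero f one_pos one_mem_strictPeriods_SL
  have hper := SlashInvariantFormClass.periodic_comp_ofComplex f one_mem_strictPeriods_SL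
  rw [qExpansion_coeff_zero one_pos hanal hper, ← cuspFunction_apply_zero one_pos hanal hper]
  exact (hanal.continuousAt.tendsto.comp (qParam_tendsto_atImInfty one_pos)).congr
    (fun τ ↦ SlashInvariantFormClass.eq_cuspFunction f τ one_mem_strictPeriods_SL one_ne_zero)

theorem tendsto_E₄_atImInfty : Tendsto E₄ atImInfty (𝓝 1) := by
  have h := tendsto_levelOne_atImInfty E₄
  rwa [E_qExpansion_coeff_zero _ ⟨2, rfl⟩] at h

theorem tendsto_E₆_atImInfty : Tendsto E₆ atImInfty (𝓝 1) := by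
  have h := tendsto_levelOne_atImInfty E₆
  rwa [E_qExpansion_coeff_zero _ ⟨3, rfl⟩] at h

/-- The bracket `2 E₄ · D E₆ - 3 D E₄ · E₆` as a function on `ℍ`. -/
def bracketFun (τ : ℍ) : ℂ := 2 * E₄ τ * D E₆ τ - 3 * D E₄ τ * E₆ τ

/-- Transformation of `D f` for a level one form `f` of weight `k`. -/
theorem D_levelOne_smul {k : ℤ} (f : ModularForm 𝒮ℒ k) (γ : SL(2, ℤ)) (τ : ℍ) :
    D f (γ • τ) = (denom (γ : GL (Fin 2) ℝ) τ) ^ (k + 2) *
      (D f τ + (k : ℂ) * (2 * Real.pi * Complex.I)⁻¹ *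
        ((γ 1 0 : ℂ) / denom (γ : GL (Fin 2) ℝ) τ) * f τ) := by
  have hinv : (⇑f) ∣[k] γ = ⇑f := by
    have := SlashInvariantForm.slash_action_eqn f (γ : GL (Fin 2) ℝ) (mem_SL_range γ)
    rwa [← ModularForm.SL_slash] at this
  have h := congrFun (normalizedDerivOfComplex_SL_slash (k := k) (F := ⇑f) f.holo' (γ := γ)) τ
  rw [hinv] at h
  simp only [Pi.sub_apply, ModularForm.SL_slash_apply] at h
  have hd : denom (γ : GL (Fin 2) ℝ) τ ≠ 0 := denom_ne_zero _ _
  have hd' : denom (Matrix.SpecialLinearGroup.toGL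
      ((Matrix.SpecialLinearGroup.map (Int.castRingHom ℝ)) γ)) ↑τ ≠ 0 := hd
  have hz : (denom (γ : GL (Fin 2) ℝ) τ) ^ (k + 2) * (denom (γ : GL (Fin 2) ℝ) τ) ^ (-(k + 2)) = 1 := by
    rw [← zpow_add₀ hd]; simp
  have h' : D f (γ • τ) * (denom (γ : GL (Fin 2) ℝ) τ) ^ (-(k + 2)) =
      D f τ + (k : ℂ) * (2 * Real.pi * Complex.I)⁻¹ *
        ((γ 1 0 : ℂ) / denom (γ : GL (Fin 2) ℝ) τ) * f τ := by
    have h2 : D (⇑f) τ = D (⇑f) (γ • τ) * (denom (γ : GL (Fin 2) ℝ) τ) ^ (-(k + 2)) -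
        (k : ℂ) * (2 * Real.pi * Complex.I)⁻¹ *
          ((γ 1 0 : ℂ) / denom (γ : GL (Fin 2) ℝ) τ) * f τ := by
      convert h using 2
    rw [h2]; ring
  calc D f (γ • τ) = D f (γ • τ) * ((denom (γ : GL (Fin 2) ℝ) τ) ^ (k + 2) *
        (denom (γ : GL (Fin 2) ℝ) τ) ^ (-(k + 2))) := by rw [hz, mul_one]
    _ = (denom (γ : GL (Fin 2) ℝ) τ) ^ (k + 2) *
        (D f (γ • τ) * (denom (γ : GL (Fin 2) ℝ) τ) ^ (-(k + 2))) := by ring
    _ = _ := by rw [h']

theorem bracketFun_smul (γ : SL(2, ℤ)) (τ : ℍ) :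
    bracketFun (γ • τ) = (denom (γ : GL (Fin 2) ℝ) τ) ^ (12 : ℤ) * bracketFun τ := by
  have h4 := levelOne_smul E₄ γ τ
  have h6 := levelOne_smul E₆ γ τ
  have hD4 := D_levelOne_smul E₄ γ τ
  have hD6 := D_levelOne_smul E₆ γ τ
  have hd : denom (γ : GL (Fin 2) ℝ) τ ≠ 0 := denom_ne_zero _ _
  simp only [bracketFun]
  rw [h4, h6, hD4, hD6]
  generalize denom (γ : GL (Fin 2) ℝ) τ = d at hd
  have e12 : d ^ (12 : ℤ) = d ^ 12 := by norm_cast
  have e4 : d ^ (4 : ℤ) = d ^ 4 := by norm_cast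
  have e6 : d ^ (6 : ℤ) = d ^ 6 := by norm_cast
  have e8 : d ^ ((6 : ℤ) + 2) = d ^ 8 := by norm_cast
  have e6' : d ^ ((4 : ℤ) + 2) = d ^ 6 := by norm_cast
  rw [e12, e4, e6, e8, e6']
  push_cast
  field_simp
  ring

theorem bracketFun_mdifferentiable : MDiff bracketFun := by
  have h4 : MDiff (⇑E₄) := E₄.holo'
  have h6 : MDiff (⇑E₆) := E₆.holo'
  have hD4 : MDiff (D (⇑E₄)) := normalizedDerivOfComplex_mdifferentiable h4
  have hD6 : MDiff (D (⇑E₆)) := normalizedDerivOfComplex_mdifferentiable h6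
  have : bracketFun = (fun _ => (2 : ℂ)) * ⇑E₄ * D (⇑E₆) - (fun _ => (3 : ℂ)) * D (⇑E₄) * ⇑E₆ := by
    funext τ; simp [bracketFun]
  rw [this]
  exact ((mdifferentiable_const.mul h4).mul hD6).sub ((mdifferentiable_const.mul hD4).mul h6)

theorem bracketFun_isZeroAtImInfty : IsZeroAtImInfty bracketFun := by
  have hD4 : Tendsto (D (⇑E₄)) atImInfty (𝓝 0) := isZeroAtImInfty_D E₄.holo' tendsto_E₄_atImInfty
  have hD6 : Tendsto (D (⇑E₆)) atImInfty (𝓝 0) := isZeroAtImInfty_D E₆.holo' tendsto_E₆_atImInfty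
  have h := ((tendsto_const_nhds (x := (2 : ℂ))).mul tendsto_E₄_atImInfty |>.mul hD6).sub
    ((tendsto_const_nhds (x := (3 : ℂ))).mul hD4 |>.mul tendsto_E₆_atImInfty)
  simp only [mul_zero, mul_one, sub_zero] at h
  exact h

theorem bracketFun_slash (γ : SL(2, ℤ)) : bracketFun ∣[(12 : ℤ)] γ = bracketFun := by
  funext τ
  rw [ModularForm.SL_slash_apply]
  have h := bracketFun_smul γ τ
  have hd : denom (γ : GL (Fin 2) ℝ) τ ≠ 0 := denom_ne_zero _ _
  change bracketFun (γ • τ) * (denom (γ : GL (Fin 2) ℝ) τ) ^ (-(12 : ℤ)) = bracketFun τ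
  rw [h, mul_comm, ← mul_assoc, ← zpow_add₀ hd]
  simp

/-- The bracket `2 E₄ · D E₆ - 3 D E₄ · E₆` as a cusp form of weight 12. -/
def bracketForm : CuspForm 𝒮ℒ 12 where
  toFun := bracketFun
  slash_action_eq' A hA := by
    obtain ⟨γ, rfl⟩ := hA
    exact bracketFun_slash γ
  holo' := bracketFun_mdifferentiable
  zero_at_cusps' hc := by
    rw [Subgroup.IsArithmetic.isCusp_iff_isCusp_SL2Z] at hc
    rw [OnePoint.isZeroAt_iff_forall_SL2Z hc]
    intro γ _
    rw [bracketFun_slash]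
    exact bracketFun_isZeroAtImInfty

theorem bracketForm_apply (τ : ℍ) : bracketForm τ = bracketFun τ := rfl

/-- `D (1728 Δ) = 3 E₄² D E₄ - 2 E₆ D E₆`. -/
theorem D_discriminant (τ : ℍ) :
    1728 * D ModularForm.discriminant τ = 3 * E₄ τ ^ 2 * D E₄ τ - 2 * E₆ τ * D E₆ τ := by
  have h4 : MDiff (⇑E₄) := E₄.holo'
  have h6 : MDiff (⇑E₆) := E₆.holo'
  have hΔ : (ModularForm.discriminant : ℍ → ℂ) = (1728 : ℂ)⁻¹ • ((⇑E₄) ^ 3 - (⇑E₆) ^ 2) := by
    funext τ
    rw [discriminant_eq_E₄_cube_sub_E₆_sq]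
    simp [div_eq_inv_mul]
  rw [hΔ, normalizedDerivOfComplex_smul _ _ ((h4.pow 3).sub (h6.pow 2)),
    normalizedDerivOfComplex_sub _ _ (h4.pow 3) (h6.pow 2),
    normalizedDerivOfComplex_pow _ _ h4, normalizedDerivOfComplex_pow _ _ h6]
  simp only [Pi.smul_apply, Pi.sub_apply, Pi.mul_apply, Pi.pow_apply, smul_eq_mul,
    Pi.natCast_apply]
  push_cast
  ring

/-- The derivative of `J`: `1728 Δ² · D J = E₄² E₆ · (2 E₄ D E₆ - 3 D E₄ E₆)`. -/
theorem D_J_mul (τ : ℍ) :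
    D J τ * (1728 * ModularForm.discriminant τ ^ 2) = E₄ τ ^ 2 * E₆ τ * bracketFun τ := by
  have h4 : MDiff (⇑E₄) := E₄.holo'
  have hΔ : MDiff (ModularForm.discriminant : ℍ → ℂ) := discriminant_mdifferentiable
  have hJ : MDiff J := J_mdifferentiable
  have hprod : J * (ModularForm.discriminant : ℍ → ℂ) = (⇑E₄) ^ 3 := by
    funext τ
    simp [J_mul_discriminant]
  have h1 := congrArg (fun F => D F τ) hprod
  rw [normalizedDerivOfComplex_mul _ _ hJ hΔ, normalizedDerivOfComplex_pow _ _ h4] at h1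
  simp only [Pi.add_apply, Pi.mul_apply, Pi.pow_apply, Pi.natCast_apply] at h1
  have h2 := D_discriminant τ
  have h3 := J_mul_discriminant τ
  have h5 := discriminant_eq_E₄_cube_sub_E₆_sq τ
  have hΔne := discriminant_ne_zero τ
  simp only [bracketFun]
  push_cast at h1
  have h1' : D J τ * ModularForm.discriminant τ =
      3 * E₄ τ ^ 2 * D E₄ τ - J τ * D ModularForm.discriminant τ := by
    linear_combination h1
  have h6 : 1728 * ModularForm.discriminant τ = E₄ τ ^ 3 - E₆ τ ^ 2 := by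
    rw [h5]; ring
  calc D J τ * (1728 * ModularForm.discriminant τ ^ 2)
      = (D J τ * ModularForm.discriminant τ) * (1728 * ModularForm.discriminant τ) := by ring
    _ = (3 * E₄ τ ^ 2 * D E₄ τ - J τ * D ModularForm.discriminant τ) *
          (1728 * ModularForm.discriminant τ) := by rw [h1']
    _ = 3 * E₄ τ ^ 2 * D E₄ τ * (1728 * ModularForm.discriminant τ) -
          (J τ * ModularForm.discriminant τ) * (1728 * D ModularForm.discriminant τ) := by ring
    _ = 3 * E₄ τ ^ 2 * D E₄ τ * (E₄ τ ^ 3 - E₆ τ ^ 2) -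
          E₄ τ ^ 3 * (3 * E₄ τ ^ 2 * D E₄ τ - 2 * E₆ τ * D E₆ τ) := by rw [h6, h3, h2]
    _ = _ := by ring

theorem D_eq_zero_iff_deriv {F : ℍ → ℂ} (τ : ℍ) :
    D F τ = 0 ↔ deriv (F ∘ ofComplex) (τ : ℂ) = 0 := by
  simp only [normalizedDerivOfComplex, mul_eq_zero, inv_eq_zero, Complex.ofReal_eq_zero,
    Real.pi_ne_zero, Complex.I_ne_zero, OfNat.ofNat_ne_zero, or_self, false_or]

/-- The bracket is a nonzero multiple of `Δ`. -/
theorem bracket_eq : ∃ c : ℂ, c ≠ 0 ∧ ∀ τ : ℍ, bracketFun τ = c * ModularForm.discriminant τ := by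
  obtain ⟨c, hc⟩ := CuspForm.exists_smul_discriminant_of_weight_eq_twelve bracketForm
  have hc' : ∀ τ : ℍ, bracketFun τ = c * ModularForm.discriminant τ := by
    intro τ
    have := congrArg (fun f : CuspForm 𝒮ℒ 12 => f τ) hc
    simp only [smul_apply, smul_eq_mul] at this
    rw [bracketForm_apply] at this
    rw [← this]
    rfl
  refine ⟨c, ?_, hc'⟩
  rintro rfl
  -- then `D J = 0`, so `J` is constant, contradicting surjectivity
  have hDJ : ∀ τ : ℍ, D J τ = 0 := by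
    intro τ
    have h := D_J_mul τ
    rw [hc' τ, zero_mul, mul_zero] at h
    have hne : (1728 : ℂ) * ModularForm.discriminant τ ^ 2 ≠ 0 :=
      mul_ne_zero (by norm_num) (pow_ne_zero _ (discriminant_ne_zero τ))
    exact (mul_eq_zero.mp h).resolve_right hne
  have hopen : IsOpen {z : ℂ | 0 < z.im} := isOpen_lt continuous_const Complex.continuous_im
  have hconv : Convex ℝ {z : ℂ | 0 < z.im} := by
    intro x hx y hy a b ha hb hab
    simp only [Set.mem_ofPred_eq, Complex.add_im, Complex.smul_im, smul_eq_mul] at hx hy ⊢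
    rcases eq_or_lt_of_le ha with rfl | ha'
    · simp only [zero_add] at hab; subst hab; simpa using hy
    · have : 0 < a * x.im := mul_pos ha' hx
      have : 0 ≤ b * y.im := mul_nonneg hb hy.le
      linarith
  have hconst : ∀ τ₁ τ₂ : ℍ, J τ₁ = J τ₂ := by
    intro τ₁ τ₂
    have := hopen.is_const_of_deriv_eq_zero hconv.isPreconnected J_differentiableOn
      (fun z hz => by
        have := (D_eq_zero_iff_deriv (F := J) ⟨z, hz⟩).mp (hDJ ⟨z, hz⟩)
        simpa using this) τ₁.2 τ₂.2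
    simpa [Function.comp_apply] using this
  obtain ⟨τ₀, h0⟩ := Jfun_surjective 0
  obtain ⟨τ₁, h1⟩ := Jfun_surjective 1
  rw [Jfun_eq_J] at h0 h1
  have := hconst τ₀ τ₁
  rw [h0, h1] at this
  exact zero_ne_one this

theorem bracketFun_ne_zero (τ : ℍ) : bracketFun τ ≠ 0 := by
  obtain ⟨c, hc, h⟩ := bracket_eq
  rw [h τ]
  exact mul_ne_zero hc (discriminant_ne_zero τ)

theorem analyticAt_comp_ofComplex {F : ℍ → ℂ} (hF : MDiff F) (τ : ℍ) :
    AnalyticAt ℂ (F ∘ ofComplex) (τ : ℂ) :=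
  (UpperHalfPlane.mdifferentiable_iff.mp hF).analyticAt
    ((isOpen_lt continuous_const Complex.continuous_im).mem_nhds τ.2)

theorem D_E₄_ne_zero {τ : ℍ} (h : E₄ τ = 0) : D E₄ τ ≠ 0 := by
  have hb := bracketFun_ne_zero τ
  intro h0
  apply hb
  simp [bracketFun, h, h0]

theorem D_E₆_ne_zero {τ : ℍ} (h : E₆ τ = 0) : D E₆ τ ≠ 0 := by
  have hb := bracketFun_ne_zero τ
  intro h0
  apply hb
  simp [bracketFun, h, h0]

/-- `E₄` has only simple zeros. -/
theorem analyticOrderAt_E₄ {τ : ℍ} (h : E₄ τ = 0) :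
    analyticOrderAt (⇑E₄ ∘ ofComplex) (τ : ℂ) = 1 := by
  refine (analyticAt_comp_ofComplex E₄.holo' τ).analyticOrderAt_eq_one_of_zero_deriv_ne_zero
    (by simpa using h) ?_
  exact fun h0 => D_E₄_ne_zero h ((D_eq_zero_iff_deriv τ).mpr h0)

/-- `E₆` has only simple zeros. -/
theorem analyticOrderAt_E₆ {τ : ℍ} (h : E₆ τ = 0) :
    analyticOrderAt (⇑E₆ ∘ ofComplex) (τ : ℂ) = 1 := by
  refine (analyticAt_comp_ofComplex E₆.holo' τ).analyticOrderAt_eq_one_of_zero_deriv_ne_zero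
    (by simpa using h) ?_
  exact fun h0 => D_E₆_ne_zero h ((D_eq_zero_iff_deriv τ).mpr h0)

theorem analyticAt_inv_discriminant (τ : ℍ) :
    AnalyticAt ℂ ((ModularForm.discriminant ∘ ofComplex)⁻¹) (τ : ℂ) :=
  (analyticAt_comp_ofComplex discriminant_mdifferentiable τ).inv
    (by simpa using discriminant_ne_zero τ)

theorem analyticOrderAt_inv_discriminant (τ : ℍ) :
    analyticOrderAt ((ModularForm.discriminant ∘ ofComplex)⁻¹) (τ : ℂ) = 0 := by
  rw [(analyticAt_inv_discriminant τ).analyticOrderAt_eq_zero]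
  simpa using discriminant_ne_zero τ

/-- **Order 3 at the zeros of `J`** (the orbit of `ρ`). -/
theorem analyticOrderAt_Jfun_of_eq_zero {τ₀ : ℍ} (h : Jfun τ₀ = 0) :
    analyticOrderAt (fun z : ℂ => Jfun (ofComplex z)) (τ₀ : ℂ) = 3 := by
  have h4 : E₄ τ₀ = 0 := (J_eq_zero_iff τ₀).mp (by rwa [Jfun_eq_J] at h)
  have hfun : (fun z : ℂ => Jfun (ofComplex z)) =
      (⇑E₄ ∘ ofComplex) ^ 3 * (ModularForm.discriminant ∘ ofComplex)⁻¹ := by
    funext z
    simp [Jfun, div_eq_mul_inv]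
  have han : AnalyticAt ℂ (⇑E₄ ∘ ofComplex) (τ₀ : ℂ) := analyticAt_comp_ofComplex E₄.holo' τ₀
  rw [hfun, analyticOrderAt_mul (han.pow 3) (analyticAt_inv_discriminant τ₀),
    analyticOrderAt_pow han, analyticOrderAt_E₄ h4, analyticOrderAt_inv_discriminant]
  rfl

/-- **Order 2 at the points where `J = 1728`** (the orbit of `i`). -/
theorem analyticOrderAt_Jfun_sub_1728 {τ₀ : ℍ} (h : Jfun τ₀ = 1728) :
    analyticOrderAt (fun z : ℂ => Jfun (ofComplex z) - 1728) (τ₀ : ℂ) = 2 := by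
  have h6 : E₆ τ₀ = 0 := (J_eq_1728_iff τ₀).mp (by rwa [Jfun_eq_J] at h)
  have hfun : (fun z : ℂ => Jfun (ofComplex z) - 1728) =
      (⇑E₆ ∘ ofComplex) ^ 2 * (ModularForm.discriminant ∘ ofComplex)⁻¹ := by
    funext z
    have := J_sub (ofComplex z)
    simp only [Pi.mul_apply, Pi.pow_apply, Function.comp_apply, Pi.inv_apply]
    rw [Jfun_eq_J, this, div_eq_mul_inv]
  have han : AnalyticAt ℂ (⇑E₆ ∘ ofComplex) (τ₀ : ℂ) := analyticAt_comp_ofComplex E₆.holo' τ₀
  rw [hfun, analyticOrderAt_mul (han.pow 2) (analyticAt_inv_discriminant τ₀),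
    analyticOrderAt_pow han, analyticOrderAt_E₆ h6, analyticOrderAt_inv_discriminant]
  rfl

theorem D_J_ne_zero {τ₀ : ℍ} (h0 : Jfun τ₀ ≠ 0) (h1 : Jfun τ₀ ≠ 1728) : D J τ₀ ≠ 0 := by
  have h4 : E₄ τ₀ ≠ 0 := fun h => h0 (by rw [Jfun_eq_J]; exact (J_eq_zero_iff τ₀).mpr h)
  have h6 : E₆ τ₀ ≠ 0 := fun h => h1 (by rw [Jfun_eq_J]; exact (J_eq_1728_iff τ₀).mpr h)
  intro hD
  have := D_J_mul τ₀
  rw [hD, zero_mul] at this
  exact mul_ne_zero (mul_ne_zero (pow_ne_zero 2 h4) h6) (bracketFun_ne_zero τ₀) this.symm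

/-- **Order 1 at all other points.** -/
theorem analyticOrderAt_Jfun_sub_of_ne {τ₀ : ℍ} (h0 : Jfun τ₀ ≠ 0) (h1 : Jfun τ₀ ≠ 1728) :
    analyticOrderAt (fun z : ℂ => Jfun (ofComplex z) - Jfun τ₀) (τ₀ : ℂ) = 1 := by
  have han : AnalyticAt ℂ (J ∘ ofComplex) (τ₀ : ℂ) := analyticAt_comp_ofComplex J_mdifferentiable τ₀
  have hd : deriv (J ∘ ofComplex) (τ₀ : ℂ) ≠ 0 :=
    fun h => D_J_ne_zero h0 h1 ((D_eq_zero_iff_deriv τ₀).mpr h)
  have := han.analyticOrderAt_sub_eq_one_of_deriv_ne_zero hd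
  simpa [Function.comp_apply, Jfun_eq_J] using this

/-! ### The elliptic points `i` and `ρ` -/

theorem S_smul_I : ModularGroup.S • UpperHalfPlane.I = UpperHalfPlane.I :=
  ModularGroup.stabilizer_I.mpr (by simp)

theorem ST_smul_ρ : (ModularGroup.S * ModularGroup.T) • UpperHalfPlane.ρ = UpperHalfPlane.ρ :=
  ModularGroup.stabilizer_ρ.mpr (by simp)

theorem E₆_I : E₆ UpperHalfPlane.I = 0 := by
  have h := levelOne_smul E₆ ModularGroup.S UpperHalfPlane.I
  rw [S_smul_I] at h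
  have hd : denom (ModularGroup.S : GL (Fin 2) ℝ) UpperHalfPlane.I = Complex.I := by
    have := ModularGroup.denom_apply (g := ModularGroup.S) (z := UpperHalfPlane.I)
    rw [this]
    simp [ModularGroup.S]
  rw [hd] at h
  have h6 : (Complex.I : ℂ) ^ (6 : ℤ) = -1 := by
    have : (Complex.I : ℂ) ^ (6 : ℤ) = (Complex.I ^ 2) ^ 3 := by norm_cast; ring
    rw [this, Complex.I_sq]; norm_num
  rw [h6] at h
  have : (2 : ℂ) * E₆ UpperHalfPlane.I = 0 := by linear_combination h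
  simpa using this

theorem E₄_ρ : E₄ UpperHalfPlane.ρ = 0 := by
  have h := levelOne_smul E₄ (ModularGroup.S * ModularGroup.T) UpperHalfPlane.ρ
  rw [ST_smul_ρ] at h
  have hd : denom ((ModularGroup.S * ModularGroup.T : SL(2, ℤ)) : GL (Fin 2) ℝ) UpperHalfPlane.ρ =
      (UpperHalfPlane.ρ : ℂ) + 1 := by
    have := ModularGroup.denom_apply (g := ModularGroup.S * ModularGroup.T)
      (z := UpperHalfPlane.ρ)
    rw [this]
    have e10 : ((ModularGroup.S * ModularGroup.T : SL(2, ℤ)) : Matrix (Fin 2) (Fin 2) ℤ) 1 0 = 1 := by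
      rw [Matrix.SpecialLinearGroup.coe_mul, ModularGroup.coe_S, ModularGroup.coe_T]
      simp [Matrix.mul_apply, Fin.sum_univ_two]
    have e11 : ((ModularGroup.S * ModularGroup.T : SL(2, ℤ)) : Matrix (Fin 2) (Fin 2) ℤ) 1 1 = 1 := by
      rw [Matrix.SpecialLinearGroup.coe_mul, ModularGroup.coe_S, ModularGroup.coe_T]
      simp [Matrix.mul_apply, Fin.sum_univ_two]
    rw [e10, e11]
    simp
  rw [hd] at h
  have hsq := UpperHalfPlane.ρ_sq
  have h4 : ((UpperHalfPlane.ρ : ℂ) + 1) ^ (4 : ℤ) = -(UpperHalfPlane.ρ : ℂ) - 1 := by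
    have e : ((UpperHalfPlane.ρ : ℂ) + 1) ^ (4 : ℤ) = ((UpperHalfPlane.ρ : ℂ) + 1) ^ 4 := by
      norm_cast
    rw [e]
    have h2 : ((UpperHalfPlane.ρ : ℂ) + 1) ^ 2 = (UpperHalfPlane.ρ : ℂ) := by
      linear_combination hsq
    calc ((UpperHalfPlane.ρ : ℂ) + 1) ^ 4 = (((UpperHalfPlane.ρ : ℂ) + 1) ^ 2) ^ 2 := by ring
      _ = (UpperHalfPlane.ρ : ℂ) ^ 2 := by rw [h2]
      _ = _ := hsq
  rw [h4] at h
  have hne : (UpperHalfPlane.ρ : ℂ) + 2 ≠ 0 := by
    intro h0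
    have := congrArg Complex.im h0
    simp only [Complex.add_im, Complex.zero_im] at this
    have hpos : 0 < (UpperHalfPlane.ρ : ℂ).im := UpperHalfPlane.ρ.2
    have h2im : (2 : ℂ).im = 0 := by simp
    rw [h2im, add_zero] at this
    exact hpos.ne' this
  have : ((UpperHalfPlane.ρ : ℂ) + 2) * E₄ UpperHalfPlane.ρ = 0 := by linear_combination h
  exact (mul_eq_zero.mp this).resolve_left hne

theorem Jfun_I : Jfun UpperHalfPlane.I = 1728 := by
  rw [Jfun_eq_J]; exact (J_eq_1728_iff _).mpr E₆_I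

theorem Jfun_ρ : Jfun UpperHalfPlane.ρ = 0 := by
  rw [Jfun_eq_J]; exact (J_eq_zero_iff _).mpr E₄_ρ

/-- The analytic order of `J - 1728` at `i` is `2`. -/
theorem analyticOrderAt_Jfun_I :
    analyticOrderAt (fun z : ℂ => Jfun (ofComplex z) - 1728) (UpperHalfPlane.I : ℂ) = 2 :=
  analyticOrderAt_Jfun_sub_1728 Jfun_I

/-- The analytic order of `J` at `ρ` is `3`. -/
theorem analyticOrderAt_Jfun_ρ :
    analyticOrderAt (fun z : ℂ => Jfun (ofComplex z)) (UpperHalfPlane.ρ : ℂ) = 3 :=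
  analyticOrderAt_Jfun_of_eq_zero Jfun_ρ

end Fermat.Agent.S24
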