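import Fermat.Agent.S24.PlaceFinite
import Fermat.Agent.S24.JOrder

/-!
# S24 piece P5b — the three finite local fields of `Realization N` for `M = Man N`

* `loc_zero_Man N    : ∃ w, LocalProp (jMan N) (act N (S * T)) w`
* `loc_1728_Man N    : ∃ w, LocalProp (jMan N - algebraMap Kb (Man N) 1728) (act N S) w`
* `loc_gen_Man N c … : ∃ w, LocalProp (jMan N - algebraMap Kb (Man N) c) (act N 1) w`
-/

set_option autoImplicit false

noncomputable section

open UpperHalfPlane Filter Topology AlgebraicCurve WithZero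
open scoped MatrixGroups Manifold ModularForm

namespace Fermat.Agent.S24

attribute [local instance] algKbC

theorem algebraMap_jBan_sub (N : ℕ) (c : Kb) :
    algebraMap (Ban N) (Man N) (jBan N - algebraMap Kb (Ban N) c)
      = jMan N - algebraMap Kb (Man N) c := by
  rw [map_sub, ← IsScalarTower.algebraMap_apply Kb (Ban N) (Man N)]
  rfl

theorem coe_jBan_sub (N : ℕ) (c : Kb) :
    ((jBan N - algebraMap Kb (Ban N) c : Ban N) : ℍ → ℂ) = fun τ => Jfun τ - embC c := rfl

/-- The place over a generic point `c ≠ 0, 1728` of the `j`-line. -/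
theorem loc_gen_Man (N : ℕ) (c : Kb) (hc0 : c ≠ 0) (hc : c ≠ 1728) :
    ∃ w : Place Kb (Man N), LocalProp (jMan N - algebraMap Kb (Man N) c) (act N 1) w := by
  obtain ⟨τ₀, hτ₀⟩ := Jfun_surjective (embC c)
  have h0 : Jfun τ₀ ≠ 0 := by
    rw [hτ₀]
    intro h
    exact hc0 (by simpa using h)
  have h1 : Jfun τ₀ ≠ 1728 := by
    rw [hτ₀]
    intro h
    apply hc
    have h2 : embC c = embC 1728 := by rw [h, map_ofNat]
    exact embC.injective h2
  have hord := analyticOrderAt_Jfun_sub_of_ne h0 h1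
  rw [hτ₀] at hord
  have hprim : IsPrimitiveRoot (denom ((1 : SL(2, ℤ)) : GL (Fin 2) ℝ) τ₀ ^ 2) 1 := by
    rw [denom_one_SL, one_pow]
    exact IsPrimitiveRoot.one
  have := exists_place_localProp N τ₀ 1 1 (jBan N - algebraMap Kb (Ban N) c) (one_smul _ _)
    hprim (by rw [coe_jBan_sub]; exact hord) one_pos
  rwa [algebraMap_jBan_sub] at this

/-- The place over `j = 1728` (the point `i`). -/
theorem loc_1728_Man (N : ℕ) :
    ∃ w : Place Kb (Man N),
      LocalProp (jMan N - algebraMap Kb (Man N) 1728) (act N ModularGroup.S) w := by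
  have hden : denom (ModularGroup.S : GL (Fin 2) ℝ) UpperHalfPlane.I ^ 2 = -1 := by
    have : denom (ModularGroup.S : GL (Fin 2) ℝ) UpperHalfPlane.I = Complex.I := by
      have := ModularGroup.denom_apply (g := ModularGroup.S) (z := UpperHalfPlane.I)
      rw [this]
      simp [ModularGroup.S]
    rw [this, Complex.I_sq]
  have hprim : IsPrimitiveRoot (denom (ModularGroup.S : GL (Fin 2) ℝ) UpperHalfPlane.I ^ 2) 2 := by
    rw [hden]
    exact IsPrimitiveRoot.neg_one 0 (by norm_num)
  have hord : ordAt UpperHalfPlane.I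
      ((jBan N - algebraMap Kb (Ban N) 1728 : Ban N) : ℍ → ℂ) = (2 : ℕ) := by
    rw [coe_jBan_sub, map_ofNat]
    exact analyticOrderAt_Jfun_I
  have := exists_place_localProp N UpperHalfPlane.I ModularGroup.S 2
    (jBan N - algebraMap Kb (Ban N) 1728) S_smul_I hprim hord (by norm_num)
  rwa [algebraMap_jBan_sub] at this

/-- The place over `j = 0` (the point `ρ`). -/
theorem loc_zero_Man (N : ℕ) :
    ∃ w : Place Kb (Man N),
      LocalProp (jMan N) (act N (ModularGroup.S * ModularGroup.T)) w := by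
  have hd : denom ((ModularGroup.S * ModularGroup.T : SL(2, ℤ)) : GL (Fin 2) ℝ) UpperHalfPlane.ρ =
      (UpperHalfPlane.ρ : ℂ) + 1 := by
    have := ModularGroup.denom_apply (g := ModularGroup.S * ModularGroup.T)
      (z := UpperHalfPlane.ρ)
    rw [this]
    have e10 : ((ModularGroup.S * ModularGroup.T : SL(2, ℤ)) : Matrix (Fin 2) (Fin 2) ℤ) 1 0 = 1 := by
      rw [Matrix.SpecialLinearGroup.coe_mul, ModularGroup.coe_S, ModularGroup.coe_T]
      simp [Matrix.mul_apply, Fin.sum_univ_two]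
    have e11 : ((ModularGroup.S * ModularGroup.T : SL(2, ℤ)) : Matrix (Fin 2) (Fin 2) ℤ) 1 1 = 1 := by
      rw [Matrix.SpecialLinearGroup.coe_mul, ModularGroup.coe_S, ModularGroup.coe_T]
      simp [Matrix.mul_apply, Fin.sum_univ_two]
    rw [e10, e11]
    simp
  have hsq := UpperHalfPlane.ρ_sq
  have hden : denom ((ModularGroup.S * ModularGroup.T : SL(2, ℤ)) : GL (Fin 2) ℝ)
      UpperHalfPlane.ρ ^ 2 = (UpperHalfPlane.ρ : ℂ) := by
    rw [hd]; linear_combination hsq
  have hρ3 : (UpperHalfPlane.ρ : ℂ) ^ 3 = 1 := by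
    linear_combination ((UpperHalfPlane.ρ : ℂ) - 1) * hsq
  have hρ1 : (UpperHalfPlane.ρ : ℂ) ≠ 1 := by
    intro h
    have := congrArg Complex.im h
    have hpos : 0 < (UpperHalfPlane.ρ : ℂ).im := UpperHalfPlane.ρ.2
    rw [Complex.one_im] at this
    exact hpos.ne' this
  have hprim : IsPrimitiveRoot (denom ((ModularGroup.S * ModularGroup.T : SL(2, ℤ)) :
      GL (Fin 2) ℝ) UpperHalfPlane.ρ ^ 2) 3 := by
    rw [hden]
    refine IsPrimitiveRoot.mk_of_lt _ (by norm_num) hρ3 ?_
    intro l hl0 hl3 hl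
    interval_cases l
    · exact hρ1 (by simpa using hl)
    · apply hρ1
      have h2 : (UpperHalfPlane.ρ : ℂ) ^ 3 = (UpperHalfPlane.ρ : ℂ) ^ 2 * (UpperHalfPlane.ρ : ℂ) := by
        ring
      rw [hl, one_mul] at h2
      rw [← h2, hρ3]
  have hord : ordAt UpperHalfPlane.ρ ((jBan N : Ban N) : ℍ → ℂ) = (3 : ℕ) :=
    analyticOrderAt_Jfun_ρ
  exact exists_place_localProp N UpperHalfPlane.ρ (ModularGroup.S * ModularGroup.T) 3
    (jBan N) ST_smul_ρ hprim hord (by norm_num)

end Fermat.Agent.S24
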