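import Fermat.Agent.S24.Defs

/-!
# S24 — the interface between analysis and algebra: `Realization N`

A `Realization N` is a field `M ⊇ F = ℚ̄(j(q^d) : d ∣ N)` with an action of `SL(2,ℤ)` through a finite
quotient, with fixed field `ℚ̄(j)`, such that `F` is the fixed field of `Γ₀(N)`, together with, over
every point `c` of the `j`-line, one place `w` of `M` stable under `ε_c` (`ε_c = T` at `∞`, `S*T` at
`j = 0`, `S` at `j = 1728`, `1` elsewhere) with property (L): an `ε_c^k`-invariant element `m` has
`ord_w (j - c) ∣ k * ord_w m`.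

Analytic model (pieces P5–P7): `M = Man N`, `(γ • f)(τ) = f(γ⁻¹ τ)`, `w` = order at `ρ`, `i`, a point
`τ₀` with `J(τ₀) = c`, resp. the order in `q_N` at `i∞`.
-/

set_option autoImplicit false

noncomputable section

open AlgebraicCurve ModularCurve IntermediateField
open scoped MatrixGroups

namespace Fermat.Agent.S24

/-- Property (L) of a place `w` of `M` with respect to an automorphism `σ` and an element `x`. -/
def LocalProp {M : Type*} [Field M] [Algebra Kb M] (x : M) (σ : M ≃ₐ[Kb] M) (w : Place Kb M) : Prop :=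
  0 < w.ord x ∧ σ • w = w ∧ ∀ (m : M) (k : ℕ), (σ ^ k) m = m → w.ord x ∣ (k : ℤ) * w.ord m

/-- The interface between the analytic pieces (P5–P7) and the algebraic pieces (P1–P3, P10). -/
structure Realization (N : ℕ) [NeZero N] where
  /-- the big field -/
  M : Type
  [instField : Field M]
  [instAlgebra : Algebra Kb M]
  /-- the embedding of the function field of `X₀(N)` -/
  φ : FF N →ₐ[Kb] M
  /-- the action of `SL(2,ℤ)` -/
  act : SL(2, ℤ) →* (M ≃ₐ[Kb] M)
  finite_range : Finite act.range
  act_j : ∀ γ, act γ (φ (jF N)) = φ (jF N)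
  fixed : ∀ m : M, (∀ γ, act γ m = m) → m ∈ Kb⟮φ (jF N)⟯
  stab_iff : ∀ γ, (∀ f, act γ (φ f) = φ f) ↔ γ ∈ CongruenceSubgroup.Gamma0 N
  loc_inf : ∃ w : Place Kb M, LocalProp (φ (jF N)⁻¹) (act ModularGroup.T) w
  loc_zero : ∃ w : Place Kb M, LocalProp (φ (jF N)) (act (ModularGroup.S * ModularGroup.T)) w
  loc_1728 : ∃ w : Place Kb M,
    LocalProp (φ (jF N - algebraMap Kb (FF N) 1728)) (act ModularGroup.S) w
  loc_gen : ∀ c : Kb, c ≠ 0 → c ≠ 1728 → ∃ w : Place Kb M,
    LocalProp (φ (jF N - algebraMap Kb (FF N) c)) (act 1) w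

attribute [instance] Realization.instField Realization.instAlgebra

end Fermat.Agent.S24
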