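import Fermat.Agent.S24.AnalyticDefs
import Fermat.Agent.S22.Decomp

/-!
# S24 piece P7b (core): `J(N·γτ) = J(Nτ)` for all `τ` iff `γ ∈ Γ₀(N)`

* `stab_Jfun_SL_smul` : `Jfun` is `SL(2,ℤ)`-invariant.
* `stab_tendsto_qParam_mul_Jfun` : `q · J → 1` at `i∞`.
* `stab_tendsto_norm_Jfun_mul_exp` : `‖J τ‖ · exp (-2π im τ) → 1` at `i∞`.
* `Jd_smul_of_mem_Gamma0` : `J(d·γτ) = J(dτ)` for `γ ∈ Γ₀(N)`, `d ∣ N`.
* `mem_Gamma0_of_Jd_smul` : if `J(N·γτ) = J(Nτ)` for all `τ` then `γ ∈ Γ₀(N)`.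
* `Jd_smul_iff` : the equivalence.
-/

set_option autoImplicit false

noncomputable section

open UpperHalfPlane Filter Topology
open scoped MatrixGroups Real

namespace Fermat.Agent.S24

open ModularForm EisensteinSeries

/-! ### invariance -/

theorem stab_mem_SL_range (γ : SL(2, ℤ)) :
    ((γ : GL (Fin 2) ℝ)) ∈ (Matrix.SpecialLinearGroup.mapGL ℝ : SL(2, ℤ) →* GL (Fin 2) ℝ).range :=
  ⟨γ, rfl⟩

theorem stab_levelOne_smul {F : Type*} [FunLike F ℍ ℂ] {k : ℤ}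
    [SlashInvariantFormClass F (Matrix.SpecialLinearGroup.mapGL ℝ : SL(2, ℤ) →* GL (Fin 2) ℝ).range k]
    (f : F) (γ : SL(2, ℤ)) (τ : ℍ) :
    f (γ • τ) = (denom (γ : GL (Fin 2) ℝ) τ) ^ k * f τ :=
  SlashInvariantForm.slash_action_eqn'' f (stab_mem_SL_range γ) τ

/-- `Jfun` is invariant under `SL(2, ℤ)`. -/
theorem stab_Jfun_SL_smul (γ : SL(2, ℤ)) (τ : ℍ) : Jfun (γ • τ) = Jfun τ := by
  have h4 := stab_levelOne_smul E₄ γ τ
  have hΔ := stab_levelOne_smul CuspForm.discriminant γ τ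
  rw [CuspForm.coe_discriminant] at hΔ
  have hd : denom (γ : GL (Fin 2) ℝ) τ ≠ 0 := denom_ne_zero _ _
  unfold Jfun
  rw [h4, hΔ]
  generalize denom (γ : GL (Fin 2) ℝ) τ = d at hd
  have h1 : (d ^ (4 : ℤ)) ^ 3 = d ^ (12 : ℤ) := by
    rw [← zpow_natCast, ← zpow_mul]; norm_num
  rw [mul_pow, h1, mul_div_mul_left _ _ (zpow_ne_zero _ hd)]

/-- `Jfun` is invariant under `SL(2, ℤ)` (action through `GL (Fin 2) ℝ`). -/
theorem stab_Jfun_GL_smul (γ : SL(2, ℤ)) (τ : ℍ) : Jfun ((γ : GL (Fin 2) ℝ) • τ) = Jfun τ :=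
  stab_Jfun_SL_smul γ τ

/-! ### asymptotics at `i∞` -/

theorem stab_one_mem_strictPeriods : (1 : ℝ) ∈ (𝒮ℒ : Subgroup (GL (Fin 2) ℝ)).strictPeriods := by
  simp

theorem stab_tendsto_E₄_atImInfty : Tendsto (fun τ : ℍ => E₄ τ) atImInfty (𝓝 1) := by
  have hper : Function.Periodic ((E₄ : ℍ → ℂ) ∘ ofComplex) 1 :=
    SlashInvariantFormClass.periodic_comp_ofComplex E₄ stab_one_mem_strictPeriods
  have han : AnalyticAt ℂ (cuspFunction 1 (E₄ : ℍ → ℂ)) 0 :=
    ModularFormClass.analyticAt_cuspFunction_zero E₄ one_pos stab_one_mem_strictPeriods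
  have h0 : cuspFunction 1 (E₄ : ℍ → ℂ) 0 = 1 := by
    have := E_qExpansion_coeff_zero (k := 4) (by norm_num) ⟨2, rfl⟩
    rw [qExpansion_coeff] at this
    simpa using this
  have ht := han.continuousAt.tendsto.comp (qParam_tendsto_atImInfty one_pos)
  rw [h0] at ht
  refine ht.congr fun τ => ?_
  simp only [Function.comp_apply]
  exact eq_cuspFunction τ one_ne_zero hper

/-- `q · J → 1` at `i∞`. -/
theorem stab_tendsto_qParam_mul_Jfun :
    Tendsto (fun τ : ℍ => Function.Periodic.qParam 1 τ * Jfun τ) atImInfty (𝓝 1) := by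
  have h1 : Tendsto (fun τ : ℍ => (E₄ τ) ^ 3 / ∏' (n : ℕ), (1 - eta_q n τ) ^ 24) atImInfty
      (𝓝 (1 ^ 3 / 1)) :=
    (stab_tendsto_E₄_atImInfty.pow 3).div tendsto_atImInfty_tprod_one_sub_eta_q_pow one_ne_zero
  simp only [one_pow, div_one] at h1
  refine h1.congr fun τ => ?_
  unfold Jfun
  have hq : Function.Periodic.qParam 1 (τ : ℂ) ≠ 0 := Function.Periodic.qParam_ne_zero _
  have hΔ := discriminant_eq_q_prod τ
  have hΔ0 : ModularForm.discriminant τ ≠ 0 := discriminant_ne_zero τ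
  have hp0 : ∏' (n : ℕ), (1 - eta_q n τ) ^ 24 ≠ 0 := by
    intro h
    rw [h, mul_zero] at hΔ
    exact hΔ0 hΔ
  rw [hΔ]
  field_simp

/-- `‖J τ‖ · exp (-2π im τ) → 1` at `i∞`. -/
theorem stab_tendsto_norm_Jfun_mul_exp :
    Tendsto (fun τ : ℍ => ‖Jfun τ‖ * Real.exp (-2 * π * τ.im)) atImInfty (𝓝 1) := by
  have h := stab_tendsto_qParam_mul_Jfun.norm
  rw [norm_one] at h
  refine h.congr fun τ => ?_
  rw [norm_mul, Function.Periodic.norm_qParam, mul_comm]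
  simp


/-! ### upper triangular matrices -/

theorem stab_det_upper_pos (a b d : ℝ) (ha : 0 < a) (hd : 0 < d) :
    0 < ((ModularForm.upperTriangularGL a b d (mul_pos ha hd).ne').det : ℝ) := by
  rw [Matrix.GeneralLinearGroup.val_det_apply, ModularForm.val_upperTriangularGL,
    Matrix.det_fin_two_of]
  simpa using mul_pos ha hd

theorem stab_coe_upper_smul (a b d : ℝ) (ha : 0 < a) (hd : 0 < d) (τ : ℍ) :
    ((ModularForm.upperTriangularGL a b d (mul_pos ha hd).ne' • τ : ℍ) : ℂ) = (a * τ + b) / d := by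
  rw [UpperHalfPlane.coe_smul_of_det_pos (stab_det_upper_pos a b d ha hd)]
  simp [UpperHalfPlane.num, UpperHalfPlane.denom, ModularForm.val_upperTriangularGL]

theorem stab_im_upper_smul (a b d : ℝ) (ha : 0 < a) (hd : 0 < d) (τ : ℍ) :
    (ModularForm.upperTriangularGL a b d (mul_pos ha hd).ne' • τ : ℍ).im = a / d * τ.im := by
  have h := stab_coe_upper_smul a b d ha hd τ
  have h2 : ((ModularForm.upperTriangularGL a b d (mul_pos ha hd).ne' • τ : ℍ) : ℂ).im =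
      (((a : ℂ) * τ + b) / d).im := by rw [h]
  rw [UpperHalfPlane.coe_im] at h2
  rw [h2]
  have hd' : (d : ℂ) ≠ 0 := by exact_mod_cast hd.ne'
  have : ((a : ℂ) * τ + b) / d = ((a / d : ℝ) : ℂ) * τ + ((b / d : ℝ) : ℂ) := by
    push_cast; field_simp
  rw [this]
  simp [Complex.add_im, Complex.mul_im]

theorem stab_tendsto_upper_smul (a b d : ℝ) (ha : 0 < a) (hd : 0 < d) :
    Tendsto (fun τ : ℍ => ModularForm.upperTriangularGL a b d (mul_pos ha hd).ne' • τ)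
      atImInfty atImInfty := by
  rw [atImInfty, tendsto_comap_iff]
  have h : (UpperHalfPlane.im ∘ fun τ : ℍ =>
      ModularForm.upperTriangularGL a b d (mul_pos ha hd).ne' • τ) = fun τ : ℍ => a / d * τ.im := by
    funext τ
    exact stab_im_upper_smul a b d ha hd τ
  rw [h]
  exact (tendsto_comap (f := UpperHalfPlane.im) (x := atTop)).const_mul_atTop (div_pos ha hd)

/-- `‖J (u τ)‖ · exp (-2π (a/d) im τ) → 1` at `i∞`, for `u = [a b; 0 d]`. -/
theorem stab_tendsto_norm_Jfun_upper (a b d : ℝ) (ha : 0 < a) (hd : 0 < d) :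
    Tendsto (fun τ : ℍ => ‖Jfun (ModularForm.upperTriangularGL a b d (mul_pos ha hd).ne' • τ)‖ *
      Real.exp (-2 * π * (a / d * τ.im))) atImInfty (𝓝 1) := by
  have h := stab_tendsto_norm_Jfun_mul_exp.comp (stab_tendsto_upper_smul a b d ha hd)
  refine h.congr fun τ => ?_
  simp only [Function.comp_apply]
  rw [stab_im_upper_smul a b d ha hd τ]

/-- If `J ∘ u = J ∘ u'` for upper triangular `u = [a b; 0 d]`, `u' = [a' b'; 0 d']`
then `a / d = a' / d'`. -/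
theorem stab_ratio_eq_of_Jfun_upper_eq (a b d a' b' d' : ℝ) (ha : 0 < a) (hd : 0 < d)
    (ha' : 0 < a') (hd' : 0 < d')
    (h : ∀ τ : ℍ, Jfun (ModularForm.upperTriangularGL a b d (mul_pos ha hd).ne' • τ) =
      Jfun (ModularForm.upperTriangularGL a' b' d' (mul_pos ha' hd').ne' • τ)) :
    a / d = a' / d' := by
  have h1 := stab_tendsto_norm_Jfun_upper a b d ha hd
  have h2 := stab_tendsto_norm_Jfun_upper a' b' d' ha' hd'
  -- the quotient of the two tends to `1`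
  have h3 := h1.div h2 one_ne_zero
  simp only [div_one] at h3
  have hJ : ∀ᶠ τ : ℍ in atImInfty,
      ‖Jfun (ModularForm.upperTriangularGL a' b' d' (mul_pos ha' hd').ne' • τ)‖ ≠ 0 := by
    have := h2.eventually_ne one_ne_zero
    filter_upwards [this] with τ hτ h0
    apply hτ
    rw [h0, zero_mul]
  have h4 : Tendsto (fun τ : ℍ => Real.exp (2 * π * (a' / d' - a / d) * τ.im)) atImInfty (𝓝 1) := by
    refine h3.congr' ?_
    filter_upwards [hJ] with τ hτ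
    simp only [Pi.div_apply]
    rw [h τ]
    have he : Real.exp (-2 * π * (a' / d' * τ.im)) ≠ 0 := (Real.exp_pos _).ne'
    rw [mul_div_mul_left _ _ hτ, ← Real.exp_sub]
    congr 1
    ring
  -- hence the exponent is zero
  by_contra hne
  rcases lt_or_gt_of_ne hne with hlt | hgt
  · -- a/d < a'/d' : exponent → +∞
    have hc : 0 < 2 * π * (a' / d' - a / d) := by
      have : 0 < a' / d' - a / d := sub_pos.mpr hlt
      positivity
    have h5 : Tendsto (fun τ : ℍ => Real.exp (2 * π * (a' / d' - a / d) * τ.im)) atImInfty atTop :=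
      Real.tendsto_exp_atTop.comp
        ((tendsto_comap (f := UpperHalfPlane.im) (x := atTop)).const_mul_atTop hc)
    exact not_tendsto_nhds_of_tendsto_atTop h5 1 h4
  · -- a/d > a'/d' : exponent → -∞, limit 0
    have hc : 2 * π * (a' / d' - a / d) < 0 := by
      have : a' / d' - a / d < 0 := sub_neg.mpr hgt
      have hpi : 0 < 2 * π := by positivity
      exact mul_neg_of_pos_of_neg hpi this
    have h5 : Tendsto (fun τ : ℍ => Real.exp (2 * π * (a' / d' - a / d) * τ.im)) atImInfty (𝓝 0) :=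
      Real.tendsto_exp_atBot.comp
        ((tendsto_comap (f := UpperHalfPlane.im) (x := atTop)).const_mul_atTop_of_neg hc)
    exact zero_ne_one (tendsto_nhds_unique h5 h4)


/-! ### the stabiliser of `J(N·)` -/

theorem stab_heckeDiagMatrix_eq {N : ℕ} (hN : 0 < N) :
    ModularForm.heckeDiagMatrix N =
      ModularForm.upperTriangularGL N 0 1 (mul_pos (Nat.cast_pos.mpr hN) one_pos).ne' := by
  unfold ModularForm.heckeDiagMatrix
  rw [dif_neg hN.ne']

theorem stab_Jd_apply (d : ℕ) (τ : ℍ) : Jd d τ = Jfun (ModularForm.heckeDiagMatrix d • τ) := rfl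

theorem stab_SL_det_eq (g : SL(2, ℤ)) : g 0 0 * g 1 1 - g 0 1 * g 1 0 = 1 := by
  have h := g.det_coe
  rwa [Matrix.det_fin_two] at h

theorem stab_mapGL_apply (g : SL(2, ℤ)) (i j : Fin 2) :
    ((g : GL (Fin 2) ℝ) : Matrix (Fin 2) (Fin 2) ℝ) i j = ((g i j : ℤ) : ℝ) := by
  simp

/-- commutation of `diag(d, 1)` with `γ ∈ Γ₀(d)`. -/
theorem stab_heckeDiagMatrix_mul {d : ℕ} (hd : d ≠ 0) (g : SL(2, ℤ)) (e : ℤ)
    (he : g 1 0 = d * e) :
    ∃ g' : SL(2, ℤ),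
      ModularForm.heckeDiagMatrix d * (g : GL (Fin 2) ℝ) =
        (g' : GL (Fin 2) ℝ) * ModularForm.heckeDiagMatrix d := by
  have hdet := stab_SL_det_eq g
  have hdet' : (!![g 0 0, d * g 0 1; e, g 1 1] : Matrix (Fin 2) (Fin 2) ℤ).det = 1 := by
    rw [Matrix.det_fin_two_of]
    linear_combination hdet + (g 0 1) * he
  obtain ⟨g', e00, e01, e10, e11⟩ : ∃ g' : SL(2, ℤ), g' 0 0 = g 0 0 ∧ g' 0 1 = d * g 0 1 ∧
      g' 1 0 = e ∧ g' 1 1 = g 1 1 := ⟨⟨!![g 0 0, d * g 0 1; e, g 1 1], hdet'⟩, rfl, rfl, rfl, rfl⟩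
  refine ⟨g', ?_⟩
  apply Matrix.GeneralLinearGroup.ext
  intro i j
  simp only [Matrix.GeneralLinearGroup.coe_mul, Matrix.mul_apply, Fin.sum_univ_two,
    stab_mapGL_apply, ModularForm.val_heckeDiagMatrix hd]
  have he' := congrArg (Int.cast : ℤ → ℝ) he
  push_cast at he'
  fin_cases i <;> fin_cases j <;> simp [e00, e01, e10, e11, he'] <;> ring

/-- `J(d·γτ) = J(dτ)` for `γ ∈ Γ₀(N)`, `d ∣ N`. -/
theorem Jd_smul_of_mem_Gamma0 {N d : ℕ} [NeZero N] (hd : d ∣ N) {γ : SL(2, ℤ)}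
    (hγ : γ ∈ CongruenceSubgroup.Gamma0 N) (τ : ℍ) : Jd d (γ • τ) = Jd d τ := by
  have hd0 : d ≠ 0 := fun h => NeZero.ne N (by rw [h, zero_dvd_iff] at hd; exact hd)
  have hN : ((γ 1 0 : ℤ) : ZMod N) = 0 := CongruenceSubgroup.Gamma0_mem.mp hγ
  have hNdvd : (N : ℤ) ∣ γ 1 0 := (ZMod.intCast_zmod_eq_zero_iff_dvd _ _).mp hN
  have hddvd : (d : ℤ) ∣ γ 1 0 := (Int.natCast_dvd_natCast.mpr hd).trans hNdvd
  obtain ⟨e, he⟩ := hddvd
  obtain ⟨g', hg'⟩ := stab_heckeDiagMatrix_mul hd0 γ e he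
  rw [stab_Jd_apply, stab_Jd_apply]
  have h1 : ModularForm.heckeDiagMatrix d • (γ • τ) =
      (g' : GL (Fin 2) ℝ) • (ModularForm.heckeDiagMatrix d • τ) := by
    have : ModularForm.heckeDiagMatrix d • (γ • τ) =
        (ModularForm.heckeDiagMatrix d * (γ : GL (Fin 2) ℝ)) • τ := by
      rw [mul_smul]; rfl
    rw [this, hg', mul_smul]
  rw [h1, stab_Jfun_GL_smul]

/-- If `J(N·γτ) = J(Nτ)` for all `τ` then `γ ∈ Γ₀(N)`. -/
theorem mem_Gamma0_of_Jd_smul {N : ℕ} [NeZero N] {γ : SL(2, ℤ)}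
    (h : ∀ τ : ℍ, Jd N (γ • τ) = Jd N τ) : γ ∈ CongruenceSubgroup.Gamma0 N := by
  have hN : 0 < N := Nat.pos_of_ne_zero (NeZero.ne N)
  have hNZ : (0 : ℤ) < (N : ℤ) := by exact_mod_cast hN
  have hNR : (0 : ℝ) < (N : ℝ) := by exact_mod_cast hN
  obtain ⟨δ', a', b', d', ha', hd', hmat⟩ :=
    Fermat.Agent.S22.upper_mul_SL2_eq (N : ℤ) 0 1 hNZ one_pos γ
  have ha'R : (0 : ℝ) < (a' : ℝ) := by exact_mod_cast ha'
  have hd'R : (0 : ℝ) < (d' : ℝ) := by exact_mod_cast hd'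
  -- rewrite the left factor as `heckeDiagMatrix N`
  have hdiag : ModularForm.upperTriangularGL ((N : ℤ) : ℝ) ((0 : ℤ) : ℝ) ((1 : ℤ) : ℝ)
      (by positivity) = ModularForm.heckeDiagMatrix N := by
    rw [stab_heckeDiagMatrix_eq hN]
    apply Matrix.GeneralLinearGroup.ext
    intro i j
    simp [ModularForm.val_upperTriangularGL]
  rw [hdiag] at hmat
  -- entries of the matrix identity
  have hval := congrArg (fun M : GL (Fin 2) ℝ => (M : Matrix (Fin 2) (Fin 2) ℝ)) hmat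
  simp only [Matrix.GeneralLinearGroup.coe_mul, ModularForm.val_upperTriangularGL,
    ModularForm.val_heckeDiagMatrix hN.ne'] at hval
  have h10 := congrFun (congrFun hval 1) 0
  have h11 := congrFun (congrFun hval 1) 1
  have h00 := congrFun (congrFun hval 0) 0
  have h01 := congrFun (congrFun hval 0) 1
  simp [Matrix.mul_apply, Fin.sum_univ_two] at h10 h11 h00 h01
  -- the analytic input : a' / d' = N
  have hJ : ∀ τ : ℍ, Jfun (ModularForm.upperTriangularGL (a' : ℝ) (b' : ℝ) (d' : ℝ)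
      (mul_pos ha'R hd'R).ne' • τ) =
      Jfun (ModularForm.upperTriangularGL (N : ℝ) 0 1 (mul_pos hNR one_pos).ne' • τ) := by
    intro τ
    have h1 := h τ
    rw [stab_Jd_apply, stab_Jd_apply] at h1
    have h2 : ModularForm.heckeDiagMatrix N • (γ • τ) =
        (δ' : GL (Fin 2) ℝ) • (ModularForm.upperTriangularGL (a' : ℝ) (b' : ℝ) (d' : ℝ)
          (mul_pos ha'R hd'R).ne' • τ) := by
      have : ModularForm.heckeDiagMatrix N • (γ • τ) =
          (ModularForm.heckeDiagMatrix N * (γ : GL (Fin 2) ℝ)) • τ := by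
        rw [mul_smul]; rfl
      rw [this, hmat, mul_smul]
    rw [h2, stab_Jfun_GL_smul, stab_heckeDiagMatrix_eq hN] at h1
    exact h1
  have hratio := stab_ratio_eq_of_Jfun_upper_eq (a' : ℝ) (b' : ℝ) (d' : ℝ) (N : ℝ) 0 1
    ha'R hd'R hNR one_pos hJ
  rw [div_one] at hratio
  -- determinant : a' * d' = N
  have hdetSL := stab_SL_det_eq γ
  have hdetSL' := stab_SL_det_eq δ'
  have hdetR : (a' : ℝ) * d' = N := by
    have e1 := congrArg (Int.cast : ℤ → ℝ) hdetSL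
    have e2 := congrArg (Int.cast : ℤ → ℝ) hdetSL'
    push_cast at e1 e2
    -- N = N * det γ = (N γ00)(γ11) - (N γ01)(γ10) = (δ00 a')(δ10 b' + δ11 d') - (δ00 b' + δ01 d')(δ10 a')
    have : (N : ℝ) = (N * (γ 0 0 : ℝ)) * (γ 1 1 : ℝ) - (N * (γ 0 1 : ℝ)) * (γ 1 0 : ℝ) := by
      linear_combination (-(N : ℝ)) * e1
    rw [this, h00, h01, h10, h11]
    linear_combination (-(a' : ℝ) * d') * e2
  have hd'1 : (d' : ℝ) = 1 := by
    have hsq : (d' : ℝ) ^ 2 = 1 := by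
      have h1 : (a' : ℝ) = N * d' := by
        field_simp at hratio
        linarith
      rw [h1] at hdetR
      have : (N : ℝ) * ((d' : ℝ) ^ 2 - 1) = 0 := by linarith
      rcases mul_eq_zero.mp this with h0 | h0
      · exact absurd h0 hNR.ne'
      · linarith
    nlinarith [hd'R]
  have ha'N : (a' : ℝ) = N := by
    rw [hd'1, mul_one] at hdetR
    exact hdetR
  -- entry (1,0) : γ 1 0 = δ' 1 0 * N
  rw [CongruenceSubgroup.Gamma0_mem]
  have hint : (γ 1 0 : ℤ) = δ' 1 0 * N := by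
    have : ((γ 1 0 : ℤ) : ℝ) = ((δ' 1 0 * N : ℤ) : ℝ) := by
      push_cast
      rw [h10, ha'N]
    exact_mod_cast this
  rw [hint]
  simp

/-- **P7b core.** `J(N·γτ) = J(Nτ)` for all `τ` iff `γ ∈ Γ₀(N)`. -/
theorem Jd_smul_iff {N : ℕ} [NeZero N] (γ : SL(2, ℤ)) :
    (∀ τ : ℍ, Jd N (γ • τ) = Jd N τ) ↔ γ ∈ CongruenceSubgroup.Gamma0 N :=
  ⟨mem_Gamma0_of_Jd_smul, fun hγ τ => Jd_smul_of_mem_Gamma0 (dvd_refl N) hγ τ⟩

/-- `γ ∈ Γ₀(N)` iff `γ` fixes all `J(d·)`, `d ∣ N`. -/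
theorem forall_Jd_smul_iff {N : ℕ} [NeZero N] (γ : SL(2, ℤ)) :
    (∀ d : ℕ, d ∣ N → ∀ τ : ℍ, Jd d (γ • τ) = Jd d τ) ↔ γ ∈ CongruenceSubgroup.Gamma0 N :=
  ⟨fun h => mem_Gamma0_of_Jd_smul (h N (dvd_refl N)),
    fun hγ _ hd τ => Jd_smul_of_mem_Gamma0 hd hγ τ⟩

end Fermat.Agent.S24
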