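import Fermat.Agent.S24.FFGen
import Fermat.Agent.S24.ModelGamma
import Fermat.Agent.S24.StabCore

/-!
# S24 P7b — `stab_iff` for the analytic model

`stab_iff_of_phi`: for every `φ : FF N →ₐ[ℚ̄] Man N` with `φ (j(q^d)) = JdMan N d hd` for all `d ∣ N`
(this is what P6b provides), `act N γ` fixes `φ(FF N)` pointwise iff `γ ∈ Γ₀(N)`.
This is exactly the field `stab_iff` of `Realization N`.
-/

set_option autoImplicit false

noncomputable section

open UpperHalfPlane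
open scoped MatrixGroups

namespace Fermat.Agent.S24

attribute [local instance] algKbC

theorem actBan_JdBan_iff (N : ℕ) [NeZero N] (γ : SL(2, ℤ)) (d : ℕ) (hd : d ∣ N) :
    actBan N γ (JdBan N d hd) = JdBan N d hd ↔ ∀ τ : ℍ, Jd d (γ⁻¹ • τ) = Jd d τ := by
  rw [Subtype.ext_iff, actBan_coe]
  show precomp γ (Jd d) = Jd d ↔ _
  constructor
  · intro h τ
    exact congrFun h τ
  · intro h
    funext τ
    exact h τ

theorem act_JdMan_iff (N : ℕ) [NeZero N] (γ : SL(2, ℤ)) (d : ℕ) (hd : d ∣ N) :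
    act N γ (JdMan N d hd) = JdMan N d hd ↔ ∀ τ : ℍ, Jd d (γ⁻¹ • τ) = Jd d τ := by
  rw [JdMan, act_algebraMap, (IsFractionRing.injective (Ban N) (Man N)).eq_iff,
    actBan_JdBan_iff]

/-- `act N γ` fixes `J(Nτ)` iff `γ ∈ Γ₀(N)`. -/
theorem act_JdMan_self_iff (N : ℕ) [NeZero N] (γ : SL(2, ℤ)) :
    act N γ (JdMan N N dvd_rfl) = JdMan N N dvd_rfl ↔ γ ∈ CongruenceSubgroup.Gamma0 N := by
  rw [act_JdMan_iff, Jd_smul_iff, inv_mem_iff]

/-- `act N γ` fixes all `J(dτ)`, `d ∣ N`, iff `γ ∈ Γ₀(N)`. -/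
theorem forall_act_JdMan_iff (N : ℕ) [NeZero N] (γ : SL(2, ℤ)) :
    (∀ (d : ℕ) (hd : d ∣ N), act N γ (JdMan N d hd) = JdMan N d hd) ↔
      γ ∈ CongruenceSubgroup.Gamma0 N := by
  constructor
  · intro h
    exact (act_JdMan_self_iff N γ).mp (h N dvd_rfl)
  · intro h d hd
    rw [act_JdMan_iff]
    exact (forall_Jd_smul_iff (N := N) γ⁻¹).mpr (inv_mem h) d hd

/-- **`stab_iff`** of the realization: if `φ (j(q^d)) = J(dτ)` for all `d ∣ N`, then `act N γ`
fixes `φ(FF N)` pointwise iff `γ ∈ Γ₀(N)`. -/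
theorem stab_iff_of_phi (N : ℕ) [NeZero N] (φ : FF N →ₐ[Kb] Man N)
    (hφ : ∀ (d : ℕ) (hd : d ∣ N), φ (jdF N d hd) = JdMan N d hd) (γ : SL(2, ℤ)) :
    (∀ f, act N γ (φ f) = φ f) ↔ γ ∈ CongruenceSubgroup.Gamma0 N := by
  rw [← forall_act_JdMan_iff]
  constructor
  · intro h d hd
    rw [← hφ d hd]
    exact h _
  · intro h
    have key : (AlgEquiv.toAlgHom (act N γ)).comp φ = φ :=
      FF_algHom_ext _ _ fun d hd => by
        rw [AlgHom.comp_apply, hφ d hd]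
        exact h d hd
    intro f
    exact DFunLike.congr_fun key f

/-- `act_j` of the realization, for `φ` as in `stab_iff_of_phi`. -/
theorem act_j_of_phi (N : ℕ) [NeZero N] (φ : FF N →ₐ[Kb] Man N)
    (hφ : ∀ (d : ℕ) (hd : d ∣ N), φ (jdF N d hd) = JdMan N d hd) (γ : SL(2, ℤ)) :
    act N γ (φ (jF N)) = φ (jF N) := by
  rw [← jdF_one, hφ 1 (one_dvd N), JdMan_one]
  exact act_jMan N γ

end Fermat.Agent.S24
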