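import Fermat.Agent.S24.RealizationGlue
import Fermat.Agent.S24.Bridge
import Fermat.Agent.S24.Fixed
import Fermat.Agent.S24.Stab
import Fermat.Agent.S24.PlaceCusp
import Fermat.Agent.S24.LocFinite

/-!
# S24 — a `Realization N` exists (analytic pieces P5–P7 glued)
-/

set_option autoImplicit false

noncomputable section

open AlgebraicCurve ModularCurve IntermediateField
open scoped MatrixGroups

namespace Fermat.Agent.S24

theorem exists_realization (N : ℕ) [NeZero N] : Nonempty (Realization N) :=
  realization_of_pieces N (phi N) (phi_jF N) (fixed_mem_adjoin_jMan N)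
    (stab_iff_of_phi N (phi N) (phi_jdF N)) (exists_place_inf N) (loc_zero_Man N)
    (loc_1728_Man N) (loc_gen_Man N)

end Fermat.Agent.S24
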