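import Fermat.Agent.S24.PolySetup
import Mathlib

/-!
# S24 / P1-mathlib — the integral closure of `K[x]` in `F`
-/

set_option autoImplicit false
set_option linter.style.haveILetI false

open AlgebraicCurve IntermediateField Polynomial

namespace Fermat.Agent.S24

variable {K F : Type*} [Field K] [Field F] [Algebra K F]

/-- The `K[X]`-algebra structure on `K⟮x⟯` sending `X` to `x`. -/
@[reducible] noncomputable def polyAlgebraAdjoin (x : F) : Algebra K[X] K⟮x⟯ :=
  (Polynomial.aeval (R := K) (AdjoinSimple.gen K x)).toRingHom.toAlgebra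

theorem polyAlgebraAdjoin_tower (x : F) :
    letI := polyAlgebra (K := K) x
    letI := polyAlgebraAdjoin (K := K) x
    IsScalarTower K[X] K⟮x⟯ F := by
  letI := polyAlgebra (K := K) x
  letI := polyAlgebraAdjoin (K := K) x
  refine IsScalarTower.of_algebraMap_eq fun p => ?_
  change Polynomial.aeval x p = ((Polynomial.aeval (AdjoinSimple.gen K x) p : K⟮x⟯) : F)
  rw [← IntermediateField.coe_val, ← Polynomial.aeval_algHom_apply]
  simp

theorem polyAlgebraAdjoin_isFractionRing (x : F) (hx : Transcendental K x) :
    letI := polyAlgebraAdjoin (K := K) x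
    IsFractionRing K[X] K⟮x⟯ := by
  letI := polyAlgebraAdjoin (K := K) x
  let e : RatFunc K ≃ₐ[K[X]] K⟮x⟯ :=
    AlgEquiv.ofRingEquiv (f := (RatFunc.algEquivOfTranscendental x hx).toRingEquiv) (fun g => by
      change RatFunc.algEquivOfTranscendental x hx (algebraMap K[X] (RatFunc K) g) = _
      rw [RatFunc.algEquivOfTranscendental_algebraMap]
      rfl)
  exact IsLocalization.isLocalization_of_algEquiv (nonZeroDivisors K[X]) e

theorem intClosure_facts [CharZero K] (x : F) (hx : Transcendental K x) [FiniteDimensional K⟮x⟯ F] :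
    letI := polyAlgebra (K := K) x
    IsDedekindDomain (intClosure (K := K) x) ∧ IsFractionRing (intClosure (K := K) x) F ∧
      Module.Finite K[X] (intClosure (K := K) x) := by
  letI := polyAlgebra (K := K) x
  letI := polyAlgebraAdjoin (K := K) x
  haveI := polyAlgebraAdjoin_tower (K := K) x
  haveI := polyAlgebraAdjoin_isFractionRing (K := K) x hx
  haveI : CharZero K⟮x⟯ := charZero_of_injective_algebraMap (algebraMap K K⟮x⟯).injective
  refine ⟨?_, ?_, ?_⟩
  · exact integralClosure.isDedekindDomain K[X] K⟮x⟯ F
  · exact integralClosure.isFractionRing_of_finite_extension K⟮x⟯ F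
  · exact IsIntegralClosure.finite K[X] K⟮x⟯ F (integralClosure K[X] F)

/-- A finite field extension of an algebraically closed field has degree one
(version for a domain that is module-finite over a field isomorphic to an algebraically closed one). -/
theorem polyClosure_finrank_eq_one {k k' L : Type*} [Field k] [IsAlgClosed k] [CommRing k']
    [CommRing L] [IsDomain L] [Algebra k' L] [Module.Finite k' L] (hk' : IsField k') (e : k ≃+* k') :
    Module.finrank k' L = 1 := by
  letI : Field k' := hk'.toField
  letI : Algebra k L := ((algebraMap k' L).comp e.toRingHom).toAlgebra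
  haveI : Algebra.IsIntegral k' L := Algebra.IsIntegral.of_finite k' L
  haveI : Algebra.IsIntegral k L := by
    refine ⟨fun y => ?_⟩
    obtain ⟨p, hp, hpy⟩ := Algebra.IsIntegral.isIntegral (R := k') y
    refine ⟨p.map e.symm.toRingHom, hp.map _, ?_⟩
    rw [← hpy, Polynomial.eval₂_map]
    congr 1
    ext a
    simp [RingHom.algebraMap_toAlgebra]
  have hbij : Function.Bijective (algebraMap k L) := IsAlgClosed.algebraMap_bijective_of_isIntegral
  have hsurj : Function.Surjective (algebraMap k' L) := by
    intro y
    obtain ⟨a, ha⟩ := hbij.2 y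
    exact ⟨e a, ha⟩
  have hinj : Function.Injective (algebraMap k' L) := (algebraMap k' L).injective
  have : Module.finrank k' L = Module.finrank k' k' :=
    (LinearEquiv.ofBijective (Algebra.linearMap k' L) ⟨hinj, hsurj⟩).finrank_eq.symm
  rw [this, Module.finrank_self]

theorem sum_ramificationIdx_eq_finrank [IsAlgClosed K] [CharZero K] (x : F) (hx : Transcendental K x)
    [FiniteDimensional K⟮x⟯ F] :
    letI := polyAlgebra (K := K) x
    ∃ (_ : Fintype ((Ideal.span {(X : K[X])}).primesOver (intClosure (K := K) x))),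
      ∑ P : (Ideal.span {(X : K[X])}).primesOver (intClosure (K := K) x),
        P.1.ramificationIdx K[X] = Module.finrank K⟮x⟯ F := by
  letI := polyAlgebra (K := K) x
  letI := polyAlgebraAdjoin (K := K) x
  haveI := polyAlgebraAdjoin_tower (K := K) x
  haveI := polyAlgebraAdjoin_isFractionRing (K := K) x hx
  obtain ⟨hD, hF, hfin⟩ := intClosure_facts (K := K) x hx
  haveI := hD
  haveI := hF
  haveI := hfin
  haveI hpmax : (Ideal.span {(X : K[X])}).IsMaximal :=
    PrincipalIdealRing.isMaximal_of_irreducible Polynomial.irreducible_X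
  let ft : Fintype ((Ideal.span {(X : K[X])}).primesOver (intClosure (K := K) x)) :=
    (Algebra.QuasiFinite.finite_primesOver _).fintype
  refine ⟨ft, ?_⟩
  haveI hTF : Module.IsTorsionFree K[X] F :=
    Module.isTorsionFree_iff_algebraMap_injective.mpr
      (fun p q hpq => (transcendental_iff_injective.mp hx) hpq)
  haveI hTB : Module.IsTorsionFree K[X] (intClosure (K := K) x) :=
    IsIntegralClosure.isTorsionFree K[X] F
  haveI hflat : Module.Flat K[X] (intClosure (K := K) x) :=
    (IsDedekindDomain.flat_iff_torsion_eq_bot).mpr (Submodule.isTorsionFree_iff_torsion_eq_bot.mp hTB)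
  have key := Ideal.sum_ramification_inertia_eq_finrank (Ideal.span {(X : K[X])})
    (intClosure (K := K) x)
  rw [IsFractionRing.finrank_eq K[X] K⟮x⟯ (intClosure (K := K) x) F, ← key]
  refine Finset.sum_congr rfl fun P _ => ?_
  haveI : P.1.IsPrime := P.2.1
  haveI : P.1.LiesOver (Ideal.span {(X : K[X])}) := P.2.2
  haveI : P.1.IsMaximal := Ideal.IsMaximal.of_liesOver_isMaximal P.1 (Ideal.span {(X : K[X])})
  rw [Ideal.inertiaDeg_eq_of_isMaximal (Ideal.span {(X : K[X])}) P.1]
  have e : K ≃+* (K[X] ⧸ Ideal.span {(X : K[X])}) :=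
    ((Polynomial.quotientSpanXSubCAlgEquiv (0 : K)).symm.toRingEquiv).trans
      (Ideal.quotEquivOfEq (by rw [map_zero, sub_zero]))
  have h1 : Module.finrank (K[X] ⧸ Ideal.span {(X : K[X])}) ((intClosure (K := K) x) ⧸ P.1) = 1 :=
    polyClosure_finrank_eq_one (k' := K[X] ⧸ Ideal.span {(X : K[X])})
      (L := (intClosure (K := K) x) ⧸ P.1)
      ((Ideal.Quotient.maximal_ideal_iff_isField_quotient _).mp hpmax) e
  rw [h1, mul_one]

end Fermat.Agent.S24
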