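import Fermat.Agent.S24.DerivLemma

/-!
# S24, piece P3b: Newton induction for `d(O_v) ⊂ O_v·dπ`
-/

set_option autoImplicit false

noncomputable section

open Polynomial AlgebraicCurve KaehlerDifferential

namespace Fermat.Agent.S24.DerivLemma

section Abstract

variable {K A : Type*} [Field K] [CommRing A] [IsDomain A] [Algebra K A]

/-- (C2): if `π ^ k ∣ p(π)` for a nonzero nonunit `π` then `X ^ k ∣ p`. -/
theorem X_pow_dvd_of_pow_dvd_aeval {π : A} (hπ0 : π ≠ 0) (hπu : ¬ IsUnit π) :
    ∀ (k : ℕ) (p : K[X]), π ^ k ∣ aeval π p → (X : K[X]) ^ k ∣ p := by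
  intro k
  induction k with
  | zero => intro p _; simp
  | succ k ih =>
    intro p h
    have hp := divX_mul_X_add p
    have h1 : π ∣ aeval π p := dvd_trans (dvd_pow_self π (Nat.succ_ne_zero k)) h
    have hev : aeval π p = aeval π (divX p) * π + algebraMap K A (p.coeff 0) := by
      conv_lhs => rw [← hp]
      simp
    have h2 : π ∣ algebraMap K A (p.coeff 0) := by
      rw [hev] at h1
      exact (dvd_add_right (dvd_mul_left π _)).mp h1
    have h3 : p.coeff 0 = 0 := by
      by_contra hne
      exact hπu (isUnit_of_dvd_unit h2 ((IsUnit.mk0 _ hne).map (algebraMap K A)))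
    rw [h3, map_zero, add_zero] at hev
    rw [hev, pow_succ] at h
    have h4 : π ^ k ∣ aeval π (divX p) := (mul_dvd_mul_iff_right hπ0).mp h
    have h5 := ih _ h4
    rw [← hp, h3, map_zero, add_zero, pow_succ]
    exact mul_dvd_mul_right h5 X

/-- `π` is transcendental: `p(π) = 0 → p = 0`. -/
theorem aeval_injective_of_nonunit {π : A} (hπ0 : π ≠ 0) (hπu : ¬ IsUnit π) :
    Function.Injective (aeval π : K[X] →ₐ[K] A) := by
  rw [injective_iff_map_eq_zero]
  intro p hp
  by_contra hne
  have h := X_pow_dvd_of_pow_dvd_aeval (K := K) hπ0 hπu (p.natDegree + 1) p (by rw [hp]; exact dvd_zero _)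
  have := natDegree_le_of_dvd h hne
  rw [natDegree_X_pow] at this
  omega

end Abstract

section Root

variable {R S : Type*} [CommRing R] [IsAddTorsionFree R] [CommRing S]

/-- (G): a root of a nonzero polynomial is a simple root of some polynomial. -/
theorem exists_root_derivative_ne_zero (f : R →+* S) (hf : Function.Injective f) (x : S) :
    ∀ (n : ℕ) (G : R[X]), G.natDegree = n → G ≠ 0 → eval₂ f x G = 0 →
      ∃ G' : R[X], eval₂ f x G' = 0 ∧ eval₂ f x (derivative G') ≠ 0 := by
  intro n
  induction n using Nat.strong_induction_on with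
  | _ n ih =>
    intro G hn hG hx
    by_cases hd : eval₂ f x (derivative G) = 0
    · by_cases hd0 : derivative G = 0
      · exfalso
        have hC := eq_C_of_derivative_eq_zero hd0
        rw [hC, eval₂_C] at hx
        have : G.coeff 0 = 0 := hf (by rw [hx, map_zero])
        rw [this, map_zero] at hC
        exact hG hC
      · have hdeg : G.natDegree ≠ 0 := fun h0 => hd0 (derivative_eq_zero.mpr h0)
        exact ih _ (hn ▸ natDegree_derivative_lt hdeg) _ rfl hd0 hd
    · exact ⟨G, hx, hd⟩

end Root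

section NewtonPoly

variable {K : Type*} [Field K]

/-- The substitution `Y ↦ c + X·Y` in `G(X, Y)` produces a factor `X ^ 2` as soon as
`X ^ 2 ∣ G(X, c)` and `X ∣ G_Y(X, c)`. -/
theorem newton_poly (G : K[X][X]) (c : K)
    (h0 : (X : K[X]) ^ 2 ∣ G.eval (C c)) (h1 : (X : K[X]) ∣ (derivative G).eval (C c)) :
    ∃ G₁ : K[X][X], G.comp (C (C c) + C X * X) = C (X ^ 2) * G₁ := by
  obtain ⟨k, hk⟩ := binomExpansion (G.map (C : K[X] →+* K[X][X])) (C (C c)) (C X * X)
  rw [derivative_map, eval_map, eval_map, eval_map] at hk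
  have e1 : ∀ (P : K[X][X]) (z : K[X][X]), eval₂ (C : K[X] →+* K[X][X]) z P = P.comp z :=
    fun _ _ => rfl
  rw [e1, e1, e1, comp_C, comp_C] at hk
  obtain ⟨α, hα⟩ := h0
  obtain ⟨β, hβ⟩ := h1
  refine ⟨C α + C β * X + k * X ^ 2, ?_⟩
  rw [hk, hα, hβ]
  simp only [map_mul, map_pow]
  ring

end NewtonPoly

section NewtonStep

variable {K A : Type*} [Field K] [CommRing A] [Algebra K A]

/-- Evaluation `K[X][Y] → A`, `X ↦ π`, `Y ↦ a`. -/
def ev2 (π a : A) : K[X][X] →+* A :=
  eval₂RingHom ((aeval π : K[X] →ₐ[K] A) : K[X] →+* A) a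

theorem ev2_apply (π a : A) (G : K[X][X]) :
    ev2 π a G = eval₂ ((aeval π : K[X] →ₐ[K] A) : K[X] →+* A) a G := rfl

theorem ev2_C (π a : A) (g : K[X]) : ev2 π a (C g) = aeval π g := by
  simp [ev2_apply]

theorem ev2_X (π a : A) : ev2 (K := K) π a X = a := by
  simp [ev2_apply]

variable [IsDomain A]

/-- The Newton step. -/
theorem newton_step {π : A} (hπ0 : π ≠ 0) (hπu : ¬ IsUnit π) {a a₁ : A} {c : K}
    (ha : a = algebraMap K A c + π * a₁) (G : K[X][X]) (hG : ev2 π a G = 0)
    (hG' : π ∣ ev2 π a (derivative G)) :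
    ∃ G₁ : K[X][X], ev2 π a₁ G₁ = 0 ∧ π * ev2 π a₁ (derivative G₁) = ev2 π a (derivative G) := by
  set f : K[X] →+* A := ((aeval π : K[X] →ₐ[K] A) : K[X] →+* A) with hf
  have hfC : f (C c) = algebraMap K A c := by simp [hf]
  have hfX : f X = π := by simp [hf]
  -- Taylor expansion in `A`
  obtain ⟨k, hk⟩ := binomExpansion (G.map f) (algebraMap K A c) (π * a₁)
  obtain ⟨k', hk'⟩ := binomExpansion ((derivative G).map f) (algebraMap K A c) (π * a₁)
  rw [← ha, eval_map, eval_map] at hk hk'
  rw [derivative_map, eval_map] at hk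
  have hG0 : eval₂ f a G = 0 := hG
  have hG1 : π ∣ eval₂ f a (derivative G) := hG'
  -- values at `c`
  have hc0 : eval₂ f (algebraMap K A c) G = f (G.eval (C c)) := by
    rw [← hfC, eval₂_at_apply]
  have hc1 : eval₂ f (algebraMap K A c) (derivative G) = f ((derivative G).eval (C c)) := by
    rw [← hfC, eval₂_at_apply]
  have d1 : π ∣ f ((derivative G).eval (C c)) := by
    rw [← hc1]
    rw [hk'] at hG1
    have : π ∣ eval (algebraMap K A c) (derivative (map f (derivative G))) * (π * a₁)
        + k' * (π * a₁) ^ 2 := by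
      refine dvd_add ?_ ?_
      · exact dvd_mul_of_dvd_right (dvd_mul_right π a₁) _
      · exact dvd_mul_of_dvd_right (dvd_pow (dvd_mul_right π a₁) two_ne_zero) _
    rw [add_assoc] at hG1
    exact (dvd_add_left this).mp hG1
  have d0 : π ^ 2 ∣ f (G.eval (C c)) := by
    rw [← hc0]
    obtain ⟨t, ht⟩ := d1
    rw [hG0, hc1, ht] at hk
    have : eval₂ f (algebraMap K A c) G = π ^ 2 * (-(t * a₁) - k * a₁ ^ 2) := by
      linear_combination -hk
    exact ⟨_, this⟩
  have D1 : (X : K[X]) ∣ (derivative G).eval (C c) := by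
    have d1' : π ^ 1 ∣ aeval π ((derivative G).eval (C c)) := by
      rw [pow_one]; exact d1
    have := X_pow_dvd_of_pow_dvd_aeval (K := K) hπ0 hπu 1 ((derivative G).eval (C c)) d1'
    rwa [pow_one] at this
  have D0 : (X : K[X]) ^ 2 ∣ G.eval (C c) :=
    X_pow_dvd_of_pow_dvd_aeval (K := K) hπ0 hπu 2 (G.eval (C c)) d0
  obtain ⟨G₁, hG₁⟩ := newton_poly G c D0 D1
  have hZ : eval₂ f a₁ (C (C c) + C X * X : K[X][X]) = a := by
    rw [eval₂_add, eval₂_mul, eval₂_C, eval₂_C, eval₂_X, hfC, hfX, ha]
  refine ⟨G₁, ?_, ?_⟩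
  · have h := congrArg (eval₂ f a₁) hG₁
    rw [eval₂_comp, hZ, hG0, eval₂_mul, eval₂_C, map_pow, hfX] at h
    have := (mul_eq_zero.mp h.symm).resolve_left (pow_ne_zero 2 hπ0)
    exact this
  · have h := congrArg derivative hG₁
    rw [derivative_comp, derivative_C_mul] at h
    have hdZ : derivative (C (C c) + C X * X : K[X][X]) = C X := by
      rw [derivative_add, derivative_C, zero_add, derivative_C_mul, derivative_X, mul_one]
    rw [hdZ] at h
    have h' := congrArg (eval₂ f a₁) h
    rw [eval₂_mul, eval₂_C, eval₂_comp, hZ, eval₂_mul, eval₂_C, map_pow, hfX] at h'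
    have h2 : π * (π * eval₂ f a₁ (derivative G₁)) = π * eval₂ f a (derivative G) := by
      linear_combination -h'
    exact mul_left_cancel₀ hπ0 h2

end NewtonStep

section PlaceDeriv

variable {K F : Type*} [Field K] [Field F] [Algebra K F]
variable (v : Place K F) [v.DCoordGenerates] [Nontrivial Ω[F⁄K]]

/-- `a ↦ da/dπ` as a derivation of `F`. -/
def dder : Derivation K F F where
  toFun := dcoeff v
  map_add' := dcoeff_add v
  map_smul' := fun c a => by
    simp only [Algebra.smul_def, RingHom.id_apply, dcoeff_mul, dcoeff_algebraMap, mul_zero,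
      add_zero]
  map_one_eq_zero' := dcoeff_one v
  leibniz' := fun a b => by
    show dcoeff v (a * b) = a • dcoeff v b + b • dcoeff v a
    rw [dcoeff_mul, smul_eq_mul, smul_eq_mul]

@[simp] theorem dder_apply (a : F) : dder v a = dcoeff v a := rfl

variable {v}

omit [v.DCoordGenerates] [Nontrivial Ω[F⁄K]] in
theorem coe_aeval (π : v.toValuationSubring) (g : K[X]) :
    ((aeval π g : v.toValuationSubring) : F) = aeval (π : F) g := by
  have := Polynomial.aeval_algHom_apply (IsScalarTower.toAlgHom K v.toValuationSubring F) π g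
  exact this.symm

/-- (C1) -/
theorem dcoeff_aeval {π : v.toValuationSubring} (hπ : v.dCoord = D K F (π : F)) (g : K[X]) :
    dcoeff v ((aeval π g : v.toValuationSubring) : F)
      = ((aeval π (derivative g) : v.toValuationSubring) : F) := by
  rw [coe_aeval, coe_aeval, ← dder_apply, Derivation.map_aeval, dder_apply, dcoeff_unif v hπ,
    smul_eq_mul, mul_one]

/-- (E) -/
theorem dcoeff_ev2_sub_mem {π : v.toValuationSubring} (hπ : v.dCoord = D K F (π : F))
    (a : v.toValuationSubring) (G : K[X][X]) :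
    dcoeff v ((ev2 π a G : v.toValuationSubring) : F)
      - ((ev2 π a (derivative G) : v.toValuationSubring) : F) * dcoeff v (a : F)
      ∈ v.toValuationSubring := by
  induction G using Polynomial.induction_on' with
  | add p q hp hq =>
    have := add_mem hp hq
    rw [map_add, map_add, map_add]
    push_cast
    rw [dcoeff_add]
    convert this using 1
    ring
  | monomial n g =>
    rw [derivative_monomial, ev2_apply, ev2_apply, eval₂_monomial, eval₂_monomial]
    push_cast
    rw [dcoeff_mul]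
    rcases n with _ | n
    · simp only [pow_zero, dcoeff_one, mul_zero, zero_add, one_mul, Nat.cast_zero, map_zero,
        ZeroMemClass.coe_zero, zero_mul, sub_zero]
      have := dcoeff_aeval hπ g
      rw [this]
      exact Subtype.property _
    · have h1 := dcoeff_aeval hπ g
      simp only [map_mul, map_natCast, Nat.add_sub_cancel] at h1 ⊢
      rw [dcoeff_pow, h1]
      push_cast
      have : ((a : F) ^ (n + 1)) * ((aeval π (derivative g) : v.toValuationSubring) : F)
          ∈ v.toValuationSubring :=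
        mul_mem (pow_mem a.2 _) (Subtype.property _)
      convert this using 1
      ring

/-- Newton induction on the order of `G_Y(π, a)`. -/
theorem dcoeff_mem_of_root {π : v.toValuationSubring} (hπ : Irreducible π)
    (hπD : v.dCoord = D K F (π : F))
    (hres : ∀ a : v.toValuationSubring, ∃ c : K,
      a - algebraMap K v.toValuationSubring c ∈ IsLocalRing.maximalIdeal v.toValuationSubring) :
    ∀ (m : ℕ) (a : v.toValuationSubring) (G : K[X][X]) (u : (v.toValuationSubring)ˣ),
      ev2 π a G = 0 → ev2 π a (derivative G) = u * π ^ m →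
      dcoeff v (a : F) ∈ v.toValuationSubring := by
  intro m
  induction m with
  | zero =>
    intro a G u hG hG'
    have hE := dcoeff_ev2_sub_mem hπD a G
    rw [hG, hG', pow_zero, mul_one] at hE
    simp only [ZeroMemClass.coe_zero, dcoeff_zero, zero_sub] at hE
    have h2 := mul_mem ((u⁻¹ : (v.toValuationSubring)ˣ) : v.toValuationSubring).2 (neg_mem hE)
    have h3 : (((u⁻¹ : (v.toValuationSubring)ˣ) : v.toValuationSubring) : F)
        * ((u : v.toValuationSubring) : F) = 1 := by
      rw [← MulMemClass.coe_mul, Units.inv_mul]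
      rfl
    convert h2 using 1
    rw [neg_neg, ← mul_assoc, h3, one_mul]
  | succ m ih =>
    intro a G u hG hG'
    obtain ⟨c, hc⟩ := hres a
    rw [hπ.maximalIdeal_eq, Ideal.mem_span_singleton] at hc
    obtain ⟨a₁, ha₁⟩ := hc
    have ha : a = algebraMap K v.toValuationSubring c + π * a₁ := by rw [← ha₁]; ring
    obtain ⟨G₁, hG₁, hG₁'⟩ := newton_step hπ.ne_zero hπ.not_isUnit ha G hG
      (by rw [hG', pow_succ, ← mul_assoc]; exact dvd_mul_left _ _)
    have h3 : ev2 π a₁ (derivative G₁) = u * π ^ m := by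
      apply mul_left_cancel₀ hπ.ne_zero
      rw [hG₁', hG', pow_succ]; ring
    have h4 := ih a₁ G₁ u hG₁ h3
    have h5 : dcoeff v (a : F) = (a₁ : F) + (π : F) * dcoeff v (a₁ : F) := by
      rw [ha]
      push_cast
      rw [dcoeff_add, Place.coe_algebraMap, dcoeff_algebraMap, zero_add, dcoeff_mul,
        dcoeff_unif v hπD]
      ring
    rw [h5]
    exact add_mem a₁.2 (mul_mem π.2 h4)

omit [v.DCoordGenerates] [Nontrivial Ω[F⁄K]] in
theorem coe_ev2 (π a : v.toValuationSubring) (G : K[X][X]) :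
    ((ev2 π a G : v.toValuationSubring) : F)
      = eval₂ ((aeval (π : F) : K[X] →ₐ[K] F) : K[X] →+* F) (a : F) G := by
  have h := hom_eval₂ G ((aeval π : K[X] →ₐ[K] v.toValuationSubring) : K[X] →+* v.toValuationSubring)
    v.toValuationSubring.subtype a
  have h2 : v.toValuationSubring.subtype.comp
      ((aeval π : K[X] →ₐ[K] v.toValuationSubring) : K[X] →+* v.toValuationSubring)
      = ((aeval (π : F) : K[X] →ₐ[K] F) : K[X] →+* F) := by
    ext x
    · simp
    · simp
  rw [h2] at h
  exact h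

/-- **The derivative lemma** `d(O_v) ⊂ O_v · dπ`. -/
theorem dcoeff_mem [CharZero K] {π : v.toValuationSubring} (hπ : Irreducible π)
    (hπD : v.dCoord = D K F (π : F))
    (hres : ∀ a : v.toValuationSubring, ∃ c : K,
      a - algebraMap K v.toValuationSubring c ∈ IsLocalRing.maximalIdeal v.toValuationSubring)
    (halg : ∀ a : F, ∃ G : K[X][X], G ≠ 0 ∧
      eval₂ ((aeval (π : F) : K[X] →ₐ[K] F) : K[X] →+* F) a G = 0)
    (a : v.toValuationSubring) : dcoeff v (a : F) ∈ v.toValuationSubring := by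
  obtain ⟨G, hG0, hG⟩ := halg a
  rw [← coe_ev2] at hG
  have hG' : ev2 π a G = 0 := Subtype.ext hG
  have hinj : Function.Injective
      ((aeval π : K[X] →ₐ[K] v.toValuationSubring) : K[X] →+* v.toValuationSubring) :=
    aeval_injective_of_nonunit (K := K) hπ.ne_zero hπ.not_isUnit
  obtain ⟨G₂, h1, h2⟩ := exists_root_derivative_ne_zero _ hinj a _ G rfl hG0 hG'
  obtain ⟨m, u, hu⟩ := IsDiscreteValuationRing.eq_unit_mul_pow_irreducible h2 hπ
  exact dcoeff_mem_of_root hπ hπD hres m a G₂ u h1 hu

end PlaceDeriv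

section Ord

variable {K F : Type*} [Field K] [Field F] [Algebra K F]
variable (v : Place K F)

theorem ord_neg (f : F) : v.ord (-f) = v.ord f := by
  simp only [Place.ord, Valuation.map_neg]

/-- residue field `= K`, in the form used below. -/
def ResidueTrivial : Prop :=
  ∀ a : v.toValuationSubring, ∃ c : K,
    a - algebraMap K v.toValuationSubring c ∈ IsLocalRing.maximalIdeal v.toValuationSubring

theorem residueTrivial_of_nonunits
    (h : ∀ a ∈ v.toValuationSubring, ∃ c : K,
      a - algebraMap K F c ∈ v.toValuationSubring.nonunits) : ResidueTrivial v := by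
  intro a
  obtain ⟨c, hc⟩ := h a a.2
  refine ⟨c, ?_⟩
  rw [← ValuationSubring.coe_mem_nonunits_iff]
  exact hc

/-- algebraicity of `F` over `K[π]` for every uniformizer `π` of `v`. -/
def AlgOverUnif : Prop :=
  ∀ π : F, v.ord π = 1 → ∀ a : F, ∃ G : K[X][X], G ≠ 0 ∧
    eval₂ ((aeval π : K[X] →ₐ[K] F) : K[X] →+* F) a G = 0

variable {v}
variable [v.DCoordGenerates] [Nontrivial Ω[F⁄K]] [CharZero K]

/-- **The derivative lemma**, in `F`. -/
theorem dcoeff_mem_valuationSubring (hres : ResidueTrivial v) (halg : AlgOverUnif v)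
    {a : F} (ha : a ∈ v.toValuationSubring) : dcoeff v a ∈ v.toValuationSubring := by
  obtain ⟨π, hπ, hπD⟩ := exists_irreducible_dCoord v
  exact dcoeff_mem hπ hπD hres (halg π (v.ord_coe_irreducible hπ)) ⟨a, ha⟩

theorem dcoeff_of_ord_pos (hres : ResidueTrivial v) (halg : AlgOverUnif v)
    {y : F} (hy : 0 < v.ord y) :
    dcoeff v y ≠ 0 ∧ v.ord (dcoeff v y) = v.ord y - 1 := by
  obtain ⟨π, hπ, hπD⟩ := exists_irreducible_dCoord v
  have hy0 : y ≠ 0 := by
    rintro rfl
    simp at hy
  obtain ⟨u, hu⟩ := v.exists_unit_mul_zpow hy0 hπ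
  obtain ⟨n, hn⟩ := Int.eq_ofNat_of_zero_le hy.le
  have hn1 : 1 ≤ n := by omega
  obtain ⟨m, rfl⟩ : ∃ m, n = m + 1 := ⟨n - 1, by omega⟩
  rw [hn, zpow_natCast] at hu
  have hdu : dcoeff v ((u : v.toValuationSubring) : F) ∈ v.toValuationSubring :=
    dcoeff_mem_valuationSubring hres halg (u : v.toValuationSubring).2
  -- the unit `w = (m+1) u + π δu`
  set w : v.toValuationSubring :=
    algebraMap K v.toValuationSubring ((m : K) + 1) * u + π * ⟨_, hdu⟩ with hw
  have hwu : IsUnit w := by
    by_contra hnu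
    have h1 : w ∈ IsLocalRing.maximalIdeal v.toValuationSubring := hnu
    have h2 : π * ⟨_, hdu⟩ ∈ IsLocalRing.maximalIdeal v.toValuationSubring :=
      Ideal.mul_mem_right _ _ (by rw [hπ.maximalIdeal_eq]; exact Ideal.mem_span_singleton_self π)
    have h3 : algebraMap K v.toValuationSubring ((m : K) + 1) * u
        ∈ IsLocalRing.maximalIdeal v.toValuationSubring := by
      have := Ideal.sub_mem _ h1 h2
      rwa [hw, add_sub_cancel_right] at this
    have h4 : IsUnit (algebraMap K v.toValuationSubring ((m : K) + 1) * u) :=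
      ((IsUnit.mk0 _ (Nat.cast_add_one_ne_zero m)).map _).mul u.isUnit
    exact h3 h4
  have key : dcoeff v y = ((hwu.unit : v.toValuationSubring) : F) * (π : F) ^ ((m : ℕ) : ℤ) := by
    rw [hu, dcoeff_mul, dcoeff_pow, dcoeff_unif v hπD, IsUnit.unit_spec, hw, zpow_natCast]
    push_cast
    ring
  have hπ0 : (π : F) ≠ 0 := by
    simpa [ne_eq, ZeroMemClass.coe_eq_zero] using hπ.ne_zero
  constructor
  · rw [key]
    exact mul_ne_zero (by simpa using hwu.ne_zero) (zpow_ne_zero _ hπ0)
  · rw [key, v.ord_unit_smul_zpow _ hπ, hn]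
    push_cast
    ring

theorem dcoeff_of_ord_neg (hres : ResidueTrivial v) (halg : AlgOverUnif v)
    {y : F} (hy : v.ord y < 0) :
    dcoeff v y ≠ 0 ∧ v.ord (dcoeff v y) = v.ord y - 1 := by
  have hy0 : y ≠ 0 := by
    rintro rfl
    simp at hy
  have hinv : 0 < v.ord y⁻¹ := by rw [v.ord_inv]; omega
  obtain ⟨h1, h2⟩ := dcoeff_of_ord_pos hres halg hinv
  have h3 := dcoeff_inv v hy0
  have h4 : dcoeff v y = -(dcoeff v y⁻¹) * y ^ 2 := by
    rw [h3]
    field_simp
  have hne : -(dcoeff v y⁻¹) ≠ 0 := neg_ne_zero.mpr h1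
  constructor
  · rw [h4]
    exact mul_ne_zero hne (pow_ne_zero 2 hy0)
  · rw [h4, v.ord_mul hne (pow_ne_zero 2 hy0), ord_neg, h2, v.ord_inv, pow_two,
      v.ord_mul hy0 hy0]
    ring

/-- `ord_v (dy) = ord_v y - 1` whenever `ord_v y ≠ 0`. -/
theorem ordDifferential_D_of_ord_ne_zero (hres : ResidueTrivial v) (halg : AlgOverUnif v)
    {y : F} (hy : v.ord y ≠ 0) : v.ordDifferential (D K F y) = v.ord y - 1 := by
  rcases lt_or_gt_of_ne hy with h | h
  · exact (dcoeff_of_ord_neg hres halg h).2
  · exact (dcoeff_of_ord_pos hres halg h).2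

/-- zero of `x - c`: `ord_v (dx) = ord_v (x - c) - 1`. -/
theorem ordDifferential_D_of_ord_sub_pos (hres : ResidueTrivial v) (halg : AlgOverUnif v)
    (x : F) (c : K) (h : 0 < v.ord (x - algebraMap K F c)) :
    v.ordDifferential (D K F x) = v.ord (x - algebraMap K F c) - 1 := by
  have := (dcoeff_of_ord_pos hres halg h).2
  rwa [dcoeff_sub_algebraMap] at this

/-- pole of `x`: `ord_v (dx) = ord_v x - 1`. -/
theorem ordDifferential_D_of_ord_neg (hres : ResidueTrivial v) (halg : AlgOverUnif v)
    (x : F) (h : v.ord x < 0) :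
    v.ordDifferential (D K F x) = v.ord x - 1 :=
  (dcoeff_of_ord_neg hres halg h).2

end Ord

end Fermat.Agent.S24.DerivLemma
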