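import Fermat.Agent.S24.DiffSpan
import Fermat.Agent.S24.DerivNewton

/-!
# S24, piece P3b — final statements

`K` a field of characteristic zero, `F ⊇ K` a field, `x₀ : F` transcendental over `K` with `F`
algebraic over `K⟮x₀⟯`, `v` a place of `F/K` with residue field `K`.  Then

* `dcoeff_mem_of_transcendental` : `da/dπ ∈ O_v` for `a ∈ O_v` (`π` the uniformizer of `v.dCoord`);
* `ordDifferential_D_eq` : `ord_v (dy) = ord_v y - 1` whenever `ord_v y ≠ 0`;
* `ordDifferential_D_of_zero` : `ord_v (dx) = ord_v (x - c) - 1` if `0 < ord_v (x - c)`;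
* `ordDifferential_D_of_pole` : `ord_v (dx) = ord_v x - 1` if `ord_v x < 0`.
-/

set_option autoImplicit false

noncomputable section

open AlgebraicCurve KaehlerDifferential Polynomial IntermediateField

namespace Fermat.Agent.S24.DerivLemma

variable {K F : Type*} [Field K] [Field F] [Algebra K F]

theorem algOverUnif_of_transcendental {x₀ : F} (hx₀ : Transcendental K x₀)
    (halg : Algebra.IsAlgebraic K⟮x₀⟯ F) (v : Place K F) : AlgOverUnif v :=
  fun π hπ a => DiffSpan.exists_bivariate
    (DiffSpan.isAlgebraic_adjoin_simple_of_transcendental hx₀ halg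
      (DiffSpan.transcendental_of_ord_ne_zero v (by rw [hπ]; exact one_ne_zero))) a

variable [CharZero K] {x₀ : F} (hx₀ : Transcendental K x₀) (halg : Algebra.IsAlgebraic K⟮x₀⟯ F)
  (v : Place K F)
  (hres : ∀ a ∈ v.toValuationSubring, ∃ c : K,
    a - algebraMap K F c ∈ v.toValuationSubring.nonunits)

include hx₀ halg hres

/-- **Derivative lemma**: `D a = b • v.dCoord` with `b ∈ O_v`, for `a ∈ O_v`. -/
theorem differentialCoeff_D_mem {a : F} (ha : a ∈ v.toValuationSubring) :
    v.differentialCoeff (D K F a) ∈ v.toValuationSubring := by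
  have := DiffSpan.dCoordGenerates hx₀ halg v
  have := DiffSpan.nontrivial_kaehler hx₀ halg
  exact dcoeff_mem_valuationSubring (residueTrivial_of_nonunits v hres)
    (algOverUnif_of_transcendental hx₀ halg v) ha

/-- `ord_v (dy) = ord_v y - 1` whenever `ord_v y ≠ 0`. -/
theorem ordDifferential_D_eq {y : F} (hy : v.ord y ≠ 0) :
    v.ordDifferential (D K F y) = v.ord y - 1 := by
  have := DiffSpan.dCoordGenerates hx₀ halg v
  have := DiffSpan.nontrivial_kaehler hx₀ halg
  exact ordDifferential_D_of_ord_ne_zero (residueTrivial_of_nonunits v hres)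
    (algOverUnif_of_transcendental hx₀ halg v) hy

/-- `dy/dπ ≠ 0` whenever `ord_v y ≠ 0`. -/
theorem differentialCoeff_D_ne_zero {y : F} (hy : v.ord y ≠ 0) :
    v.differentialCoeff (D K F y) ≠ 0 := by
  have := DiffSpan.dCoordGenerates hx₀ halg v
  have := DiffSpan.nontrivial_kaehler hx₀ halg
  rcases lt_or_gt_of_ne hy with h | h
  · exact (dcoeff_of_ord_neg (residueTrivial_of_nonunits v hres)
      (algOverUnif_of_transcendental hx₀ halg v) h).1
  · exact (dcoeff_of_ord_pos (residueTrivial_of_nonunits v hres)
      (algOverUnif_of_transcendental hx₀ halg v) h).1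

/-- zero of `x - c`: `ord_v (dx) = ord_v (x - c) - 1`. -/
theorem ordDifferential_D_of_zero (x : F) (c : K) (h : 0 < v.ord (x - algebraMap K F c)) :
    v.ordDifferential (D K F x) = v.ord (x - algebraMap K F c) - 1 := by
  have := DiffSpan.dCoordGenerates hx₀ halg v
  have := DiffSpan.nontrivial_kaehler hx₀ halg
  exact ordDifferential_D_of_ord_sub_pos (residueTrivial_of_nonunits v hres)
    (algOverUnif_of_transcendental hx₀ halg v) x c h

/-- pole of `x`: `ord_v (dx) = ord_v x - 1`. -/
theorem ordDifferential_D_of_pole (x : F) (h : v.ord x < 0) :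
    v.ordDifferential (D K F x) = v.ord x - 1 := by
  have := DiffSpan.dCoordGenerates hx₀ halg v
  have := DiffSpan.nontrivial_kaehler hx₀ halg
  exact ordDifferential_D_of_ord_neg (residueTrivial_of_nonunits v hres)
    (algOverUnif_of_transcendental hx₀ halg v) x h

/-- neither zero nor pole: if `ord_v (x - c) = 1`... general form: for any `y` with `ord_v y = 0`
the differential `dy` has non-negative order (or vanishes). -/
theorem ordDifferential_D_nonneg {a : F} (ha : a ∈ v.toValuationSubring) :
    0 ≤ v.ordDifferential (D K F a) :=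
  ord_nonneg_of_mem v (differentialCoeff_D_mem hx₀ halg v hres ha)

end Fermat.Agent.S24.DerivLemma
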