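import Fermat.Agent.S24.Scott

/-!
# Orbit counting for elements of prime order (follow-up to P9 of S24)

For a finite `G`-set `Q`, `g : G`, `p` prime with `g ^ p` acting trivially on `Q`:
`p * z(g) = card Q + (p - 1) * #Fix(g)`, where `z(g)` is the number of orbits of `⟨g⟩` on `Q`.
Also `z(1) = card Q`.
-/

set_option autoImplicit false
set_option linter.style.haveILetI false

namespace Fermat.Agent.S24

section OrbitCount

open Equiv Equiv.Perm

/-- A permutation with `σ ^ p = 1`, `p` prime, has cycle type `p, p, …, p`. -/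
theorem cycleType_eq_replicate_of_pow_prime_eq_one {Q : Type*} [Fintype Q] [DecidableEq Q]
    (σ : Equiv.Perm Q) (p : ℕ) (hp : p.Prime) (hσ : σ ^ p = 1) :
    σ.cycleType = Multiset.replicate (Multiset.card σ.cycleType) p := by
  refine Multiset.eq_replicate.mpr ⟨rfl, ?_⟩
  intro n hn
  have h1 : n ∣ orderOf σ := Equiv.Perm.dvd_of_mem_cycleType hn
  have h2 : orderOf σ ∣ p := orderOf_dvd_of_pow_eq_one hσ
  have h3 : 2 ≤ n := Equiv.Perm.two_le_of_mem_cycleType hn
  rcases (Nat.dvd_prime hp).mp (h1.trans h2) with h | h
  · omega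
  · exact h

/-- Number of fixed points plus the size of the support is the cardinality. -/
theorem card_fixed_add_sum_cycleType {Q : Type*} [Fintype Q] [DecidableEq Q]
    (σ : Equiv.Perm Q) :
    Nat.card {q : Q // σ q = q} + σ.cycleType.sum = Fintype.card Q := by
  classical
  rw [Equiv.Perm.sum_cycleType, Nat.card_eq_fintype_card]
  have h1 : Fintype.card {q : Q // σ q = q} = (Finset.univ.filter fun q : Q => σ q = q).card :=
    Fintype.card_subtype _
  have h2 : σ.support = Finset.univ.filter fun q : Q => ¬ σ q = q := by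
    ext q
    simp [Equiv.Perm.mem_support]
  rw [h1, h2]
  have := Finset.card_filter_add_card_filter_not (s := (Finset.univ : Finset Q))
    (fun q : Q => σ q = q)
  simpa using this

/-- **Orbit count for an element of prime order.** If `g ^ p` acts trivially on the finite
`G`-set `Q` (`p` prime), then `p * #(orbits of ⟨g⟩) = #Q + (p - 1) * #Fix(g)`. -/
theorem orbitCount_prime {G : Type*} [Group G] {Q : Type*} [MulAction G Q] [Finite Q]
    (g : G) (p : ℕ) (hp : p.Prime) (hg : ∀ q : Q, g ^ p • q = q) :
    p * Nat.card (MulAction.orbitRel.Quotient (Subgroup.zpowers g) Q) =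
      Nat.card Q + (p - 1) * Nat.card {q : Q // g • q = q} := by
  classical
  haveI : Fintype Q := Fintype.ofFinite Q
  set σ : Equiv.Perm Q := MulAction.toPerm g with hσdef
  have hσ : σ ^ p = 1 := by
    ext q
    have := toPerm_zpow_apply (Q := Q) g (p : ℤ) q
    rw [zpow_natCast, zpow_natCast] at this
    rw [this, hg q]
    rfl
  have h1 := card_quotient_sameCycle σ
  rw [← card_orbits_zpowers_eq] at h1
  have h2 := card_fixed_add_sum_cycleType σ
  have h3 := cycleType_eq_replicate_of_pow_prime_eq_one σ p hp hσ
  have h4 : σ.cycleType.sum = Multiset.card σ.cycleType * p := by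
    conv_lhs => rw [h3]
    rw [Multiset.sum_replicate, smul_eq_mul]
  have h5 : Nat.card {q : Q // σ q = q} = Nat.card {q : Q // g • q = q} := rfl
  rw [h5] at h2
  rw [Nat.card_eq_fintype_card (α := Q)]
  set z := Nat.card (MulAction.orbitRel.Quotient (Subgroup.zpowers g) Q)
  set c := Multiset.card σ.cycleType
  set s := σ.cycleType.sum
  set F := Nat.card {q : Q // g • q = q}
  set n := Fintype.card Q
  -- z + s = n + c, F + s = n, s = c * p  ⇒  z = F + c,  p z = p F + p c = n + (p-1) F
  have hz : z = F + c := by omega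
  obtain ⟨k, rfl⟩ : ∃ k, p = k + 1 := ⟨p - 1, by have := hp.pos; omega⟩
  rw [hz, ← h2, h4]
  simp only [Nat.add_sub_cancel]
  ring

/-- The trivial element has `card Q` orbits. -/
theorem orbitCount_one {G : Type*} [Group G] {Q : Type*} [MulAction G Q] :
    Nat.card (MulAction.orbitRel.Quotient (Subgroup.zpowers (1 : G)) Q) = Nat.card Q := by
  apply Nat.card_congr
  refine
    { toFun := Quotient.lift (fun q : Q => q) ?_
      invFun := fun q => Quotient.mk _ q
      left_inv := ?_
      right_inv := fun q => rfl }
  · intro a b hab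
    obtain ⟨⟨t, ht⟩, hxy⟩ := hab
    rw [Subgroup.zpowers_one_eq_bot, Subgroup.mem_bot] at ht
    subst ht
    have : (1 : G) • b = a := hxy
    rw [one_smul] at this
    exact this.symm
  · intro x
    induction x using Quotient.inductionOn with
    | _ q => rfl

/-- Special case `p = 2`: `2 * z(g) = card Q + #Fix(g)` for an involution. -/
theorem orbitCount_two {G : Type*} [Group G] {Q : Type*} [MulAction G Q] [Finite Q]
    (g : G) (hg : ∀ q : Q, g ^ 2 • q = q) :
    2 * Nat.card (MulAction.orbitRel.Quotient (Subgroup.zpowers g) Q) =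
      Nat.card Q + Nat.card {q : Q // g • q = q} := by
  have := orbitCount_prime g 2 Nat.prime_two hg
  simpa using this

/-- Special case `p = 3`: `3 * z(g) = card Q + 2 * #Fix(g)`. -/
theorem orbitCount_three {G : Type*} [Group G] {Q : Type*} [MulAction G Q] [Finite Q]
    (g : G) (hg : ∀ q : Q, g ^ 3 • q = q) :
    3 * Nat.card (MulAction.orbitRel.Quotient (Subgroup.zpowers g) Q) =
      Nat.card Q + 2 * Nat.card {q : Q // g • q = q} := by
  have := orbitCount_prime g 3 Nat.prime_three hg
  simpa using this

end OrbitCount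

end Fermat.Agent.S24
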