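import Fermat.Agent.S24.Scott
import Fermat.Agent.S24.OrbitCount
import Fermat.Agent.S20.Index
import Fermat.Agent.S20.FixedEll
import Fermat.Agent.S20.OrbitsT

/-!
# S24 piece GC: the orbit counts on `SL(2,ℤ) ⧸ Γ₀(N)` give the genus formula

With `Q = SL(2,ℤ) ⧸ Γ₀(N)`, `n = card Q = ψ(N)` and `z g` the number of orbits of `⟨g⟩` on `Q`:
`(n − z(ST)) + (n − z(S)) − (n + z(T)) = 2G − 2` for a natural number `G` with
`G = genusFormula N` in `ℚ`.
-/

set_option autoImplicit false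
set_option linter.style.haveILetI false

open scoped MatrixGroups
open CongruenceSubgroup

namespace Fermat.Agent.S24

section GenusCount

theorem S_sq_eq_neg_one : (ModularGroup.S) ^ 2 = (-1 : SL(2, ℤ)) := by
  ext i j
  fin_cases i <;> fin_cases j <;>
    simp [ModularGroup.S, pow_two, Matrix.mul_apply, Fin.sum_univ_two]

theorem ST_cube_eq_neg_one : (ModularGroup.S * ModularGroup.T) ^ 3 = (-1 : SL(2, ℤ)) := by
  ext i j
  fin_cases i <;> fin_cases j <;>
    simp [ModularGroup.S, ModularGroup.T, pow_succ, Matrix.mul_apply, Fin.sum_univ_two]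

/-- `-1` acts trivially on `SL(2,ℤ) ⧸ Γ₀(N)`. -/
theorem neg_one_smul_quot_Gamma0 (N : ℕ) (q : SL(2, ℤ) ⧸ Gamma0 N) :
    (-1 : SL(2, ℤ)) • q = q := by
  induction q using QuotientGroup.induction_on with
  | H g =>
    rw [MulAction.Quotient.smul_coe, smul_eq_mul, QuotientGroup.eq]
    have : ((-1 : SL(2, ℤ)) * g)⁻¹ * g = -1 := by
      rw [neg_one_mul, inv_neg, neg_mul, inv_mul_cancel]
    rw [this, CongruenceSubgroup.Gamma0_mem]
    simp

/-- `z(1) = card Q` on `Q = SL(2,ℤ) ⧸ Γ₀(N)`. -/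
theorem card_orbits_one (N : ℕ) [NeZero N] :
    Nat.card (MulAction.orbitRel.Quotient (Subgroup.zpowers (1 : SL(2, ℤ)))
        (SL(2, ℤ) ⧸ Gamma0 N))
      = Nat.card (SL(2, ℤ) ⧸ Gamma0 N) :=
  orbitCount_one

/-- `2 z(S) = ψ(N) + ν₂(N)`. -/
theorem two_mul_card_orbits_S (N : ℕ) [NeZero N] :
    2 * Nat.card (MulAction.orbitRel.Quotient (Subgroup.zpowers ModularGroup.S)
        (SL(2, ℤ) ⧸ Gamma0 N)) =
      ModularCurve.dedekindPsi N + ModularCurve.nuTwo N := by
  haveI : Finite (SL(2, ℤ) ⧸ Gamma0 N) := Subgroup.finite_quotient_of_finiteIndex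
  have h := orbitCount_two (Q := SL(2, ℤ) ⧸ Gamma0 N) ModularGroup.S (fun q => by
    rw [S_sq_eq_neg_one]; exact neg_one_smul_quot_Gamma0 N q)
  rw [Fermat.Agent.S20.card_quot_Gamma0, Fermat.Agent.S20.card_fixed_S] at h
  exact h

/-- `3 z(ST) = ψ(N) + 2 ν₃(N)`. -/
theorem three_mul_card_orbits_ST (N : ℕ) [NeZero N] :
    3 * Nat.card (MulAction.orbitRel.Quotient
        (Subgroup.zpowers (ModularGroup.S * ModularGroup.T)) (SL(2, ℤ) ⧸ Gamma0 N)) =
      ModularCurve.dedekindPsi N + 2 * ModularCurve.nuThree N := by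
  haveI : Finite (SL(2, ℤ) ⧸ Gamma0 N) := Subgroup.finite_quotient_of_finiteIndex
  have h := orbitCount_three (Q := SL(2, ℤ) ⧸ Gamma0 N) (ModularGroup.S * ModularGroup.T)
    (fun q => by rw [ST_cube_eq_neg_one]; exact neg_one_smul_quot_Gamma0 N q)
  rw [Fermat.Agent.S20.card_quot_Gamma0, Fermat.Agent.S20.card_fixed_ST] at h
  exact h

/-- **S24 piece GC.** The Riemann–Hurwitz count on `Q = SL(2,ℤ) ⧸ Γ₀(N)` equals `2G − 2` with
`G` a natural number equal to `genusFormula N`. -/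
theorem exists_genus_count (N : ℕ) [NeZero N] :
    ∃ G : ℕ, (G : ℚ) = ModularCurve.genusFormula N ∧
      ((Nat.card (SL(2, ℤ) ⧸ Gamma0 N) : ℤ)
          - Nat.card (MulAction.orbitRel.Quotient
              (Subgroup.zpowers (ModularGroup.S * ModularGroup.T)) (SL(2, ℤ) ⧸ Gamma0 N)))
        + ((Nat.card (SL(2, ℤ) ⧸ Gamma0 N) : ℤ)
          - Nat.card (MulAction.orbitRel.Quotient (Subgroup.zpowers ModularGroup.S)
              (SL(2, ℤ) ⧸ Gamma0 N)))
        - ((Nat.card (SL(2, ℤ) ⧸ Gamma0 N) : ℤ)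
          + Nat.card (MulAction.orbitRel.Quotient (Subgroup.zpowers ModularGroup.T)
              (SL(2, ℤ) ⧸ Gamma0 N)))
      = 2 * (G : ℤ) - 2 := by
  haveI : Finite (SL(2, ℤ) ⧸ Gamma0 N) := Subgroup.finite_quotient_of_finiteIndex
  obtain ⟨γ, hγ⟩ := scott_exists_genus (Q := SL(2, ℤ) ⧸ Gamma0 N) ModularGroup.S ModularGroup.T
    SpecialLinearGroup.SL2Z_generators
  have hS := two_mul_card_orbits_S N
  have hST := three_mul_card_orbits_ST N
  have hT := Fermat.Agent.S20.card_orbits_T N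
  have hn := Fermat.Agent.S20.card_quot_Gamma0 N
  set zS := Nat.card (MulAction.orbitRel.Quotient (Subgroup.zpowers ModularGroup.S)
    (SL(2, ℤ) ⧸ Gamma0 N)) with hzS
  set zT := Nat.card (MulAction.orbitRel.Quotient (Subgroup.zpowers ModularGroup.T)
    (SL(2, ℤ) ⧸ Gamma0 N)) with hzT
  set zST := Nat.card (MulAction.orbitRel.Quotient
    (Subgroup.zpowers (ModularGroup.S * ModularGroup.T)) (SL(2, ℤ) ⧸ Gamma0 N)) with hzST
  set n := Nat.card (SL(2, ℤ) ⧸ Gamma0 N) with hndef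
  refine ⟨γ, ?_, ?_⟩
  · rw [ModularCurve.genusFormula]
    have e1 : (2 : ℚ) * zS = ModularCurve.dedekindPsi N + ModularCurve.nuTwo N := by
      exact_mod_cast hS
    have e2 : (3 : ℚ) * zST = ModularCurve.dedekindPsi N + 2 * ModularCurve.nuThree N := by
      exact_mod_cast hST
    have e3 : (zT : ℚ) = ModularCurve.cuspCount N := by exact_mod_cast hT
    have e4 : (zS : ℚ) + zT + zST + 2 * γ = n + 2 := by exact_mod_cast hγ
    have e5 : (n : ℚ) = ModularCurve.dedekindPsi N := by exact_mod_cast hn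
    linarith
  · have e4 : (zS : ℤ) + zT + zST + 2 * γ = n + 2 := by exact_mod_cast hγ
    linarith

end GenusCount

end Fermat.Agent.S24
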