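import Fermat.Agent.S24.PlaceDict
import Fermat.Agent.S24.PolySetup

/-!
# S24 / P1-app (core) — places over `x = 0` and primes of the integral closure of `K[x]`

The two theorems of `Places.lean`, with the two facts of `PolyClosure.lean` (`intClosure_facts`,
`sum_ramificationIdx_eq_finrank`) taken as hypotheses:

* `sum_ord_eq_finrank_of` : `Σ_{v, ord_v x > 0} ord_v x = [F : K(x)]`.
* `exists_ord_neg_of` : approximation (prime avoidance) among the places with `ord_v x > 0`.
-/

set_option autoImplicit false
set_option linter.style.haveILetI false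

open AlgebraicCurve IntermediateField Polynomial IsDedekindDomain WithZero

namespace Fermat.Agent.S24

variable {K F : Type*} [Field K] [Field F] [Algebra K F]

namespace PlacesAux

theorem aeval_mem (v : Place K F) {x : F} (hx : x ∈ v.toValuationSubring) (p : K[X]) :
    aeval x p ∈ v.toValuationSubring := by
  rw [Polynomial.aeval_eq_sum_range]
  refine sum_mem fun i _ => ?_
  rw [Algebra.smul_def]
  exact mul_mem (v.algebraMap_mem' _) (pow_mem hx i)

/-- `K ⊂ R`. -/
theorem hK (x : F) :
    letI := polyAlgebra (K := K) x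
    ∀ a : K, ∃ r : intClosure (K := K) x,
      algebraMap (intClosure (K := K) x) F r = algebraMap K F a := by
  letI := polyAlgebra (K := K) x
  intro a
  refine ⟨algebraMap K[X] (intClosure (K := K) x) (C a), ?_⟩
  show aeval x (C a) = _
  simp

/-- `R ⊂ O_v` when `x ∈ O_v`. -/
theorem le_place (x : F) (v : Place K F) (hx : x ∈ v.toValuationSubring) :
    letI := polyAlgebra (K := K) x
    ∀ r : intClosure (K := K) x,
      algebraMap (intClosure (K := K) x) F r ∈ v.toValuationSubring := by
  letI := polyAlgebra (K := K) x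
  intro r
  have hr : IsIntegral K[X] (r : F) := r.2
  let ι : K[X] →+* v.toValuationSubring :=
    (algebraMap K[X] F).codRestrict v.toValuationSubring.toSubring (fun p => aeval_mem v hx p)
  letI : Algebra K[X] v.toValuationSubring := ι.toAlgebra
  haveI : IsScalarTower K[X] v.toValuationSubring F :=
    IsScalarTower.of_algebraMap_eq (fun _ => rfl)
  have h2 : IsIntegral v.toValuationSubring (r : F) := hr.tower_top
  obtain ⟨y, hy⟩ := IsIntegrallyClosed.isIntegral_iff.mp h2
  show (r : F) ∈ _
  rw [← hy]
  exact y.2

/-- The generator `ξ = X` of `R` maps to `x`. -/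
theorem algebraMap_X (x : F) :
    letI := polyAlgebra (K := K) x
    algebraMap (intClosure (K := K) x) F (algebraMap K[X] (intClosure (K := K) x) X) = x := by
  letI := polyAlgebra (K := K) x
  show aeval x (X : K[X]) = x
  simp

theorem span_X_isMaximal : (Ideal.span {(X : K[X])}).IsMaximal :=
  PrincipalIdealRing.isMaximal_of_irreducible Polynomial.irreducible_X

end PlacesAux

open PlacesAux

/-- The sum of the orders of `x` over the places where `x` vanishes is `[F : K(x)]`. -/
theorem sum_ord_eq_finrank_of (x : F) (hx : Transcendental K x)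
    (hfacts : letI := polyAlgebra (K := K) x
      IsDedekindDomain (intClosure (K := K) x) ∧ IsFractionRing (intClosure (K := K) x) F ∧
        Module.Finite K[X] (intClosure (K := K) x))
    (hsumram : letI := polyAlgebra (K := K) x
      ∃ (_ : Fintype ((Ideal.span {(X : K[X])}).primesOver (intClosure (K := K) x))),
        ∑ P : (Ideal.span {(X : K[X])}).primesOver (intClosure (K := K) x),
          P.1.ramificationIdx K[X] = Module.finrank K⟮x⟯ F) :
    ∃ V : Finset (Place K F), (∀ v, v ∈ V ↔ 0 < v.ord x) ∧
      ∑ v ∈ V, v.ord x = (Module.finrank K⟮x⟯ F : ℤ) := by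
  classical
  letI := polyAlgebra (K := K) x
  obtain ⟨hD, hFr, hFin⟩ := hfacts
  obtain ⟨hFt, hsum⟩ := hsumram
  haveI := hD
  haveI := hFr
  haveI := hFin
  letI := hFt
  have hx0 : x ≠ 0 := by
    rintro rfl
    exact hx (isAlgebraic_zero)
  have hξ := algebraMap_X (K := K) x
  have hξ0 : algebraMap K[X] (intClosure (K := K) x) X ≠ 0 := by
    intro h0
    rw [h0, map_zero] at hξ
    exact hx0 hξ.symm
  have hmax := span_X_isMaximal (K := K)
  -- primes over `(X)` are nonzero
  have hne : ∀ P : (Ideal.span {(X : K[X])}).primesOver (intClosure (K := K) x), P.1 ≠ ⊥ := by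
    intro P hP
    haveI : P.1.LiesOver (Ideal.span {(X : K[X])}) := P.2.2
    have h1 : (X : K[X]) ∈ P.1.under K[X] := by
      rw [← Ideal.over_def P.1 (Ideal.span {(X : K[X])})]
      exact Ideal.subset_span rfl
    rw [Ideal.under_def, Ideal.mem_comap, hP, Ideal.mem_bot] at h1
    exact hξ0 h1
  have hval : ∀ w : HeightOneSpectrum (intClosure (K := K) x),
      w.valuation F x = w.intValuation (algebraMap K[X] (intClosure (K := K) x) X) := by
    intro w
    rw [← HeightOneSpectrum.valuation_of_algebraMap (K := F)]
    exact congrArg _ hξ.symm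
  let toH : (Ideal.span {(X : K[X])}).primesOver (intClosure (K := K) x) →
      HeightOneSpectrum (intClosure (K := K) x) := fun P => ⟨P.1, P.2.1, hne P⟩
  have toH_inj : Function.Injective toH := by
    intro P Q h
    exact Subtype.ext (congrArg HeightOneSpectrum.asIdeal h)
  -- the order of `x` at the place of `P` is the ramification index
  have hord : ∀ P : (Ideal.span {(X : K[X])}).primesOver (intClosure (K := K) x),
      (placeOfPrime (hK x) (toH P)).ord x = (P.1.ramificationIdx K[X] : ℤ) := by
    intro P
    haveI : P.1.IsPrime := P.2.1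
    haveI : P.1.LiesOver (Ideal.span {(X : K[X])}) := P.2.2
    rw [placeOfPrime_ord (hK x) (toH P) hx0, hval (toH P),
      HeightOneSpectrum.intValuation_eq_exp_neg_multiplicity _ hξ0, WithZero.log_exp, neg_neg]
    have hmap : (Ideal.span {(X : K[X])}).map (algebraMap K[X] (intClosure (K := K) x)) =
        Ideal.span {algebraMap K[X] (intClosure (K := K) x) X} := by
      rw [Ideal.map_span, Set.image_singleton]
    have hmap0 : (Ideal.span {(X : K[X])}).map (algebraMap K[X] (intClosure (K := K) x)) ≠ ⊥ := by
      rw [hmap, Ne, Ideal.span_singleton_eq_bot]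
      exact hξ0
    rw [Ideal.IsDedekindDomain.ramificationIdx_eq_multiplicity (Ideal.span {(X : K[X])}) P.1 hmap0,
      hmap]
  let V : Finset (Place K F) := Finset.univ.image (fun P => placeOfPrime (hK x) (toH P))
  refine ⟨V, ?_, ?_⟩
  · intro v
    constructor
    · intro hv
      obtain ⟨P, -, rfl⟩ := Finset.mem_image.mp hv
      haveI : P.1.IsPrime := P.2.1
      rw [hord P]
      exact_mod_cast Ideal.ramificationIdx_pos P.1 K[X]
    · intro hv
      have hxv : x ∈ v.toValuationSubring := PlaceAux.mem_of_ord_nonneg v hv.le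
      obtain ⟨w, hw⟩ := exists_placeOfPrime_eq (hK x) v (le_place x v hxv)
      have hXw : algebraMap K[X] (intClosure (K := K) x) X ∈ w.asIdeal := by
        rw [← HeightOneSpectrum.intValuation_lt_one_iff_mem, ← hval w]
        have h1 := hv
        rw [← hw, placeOfPrime_ord (hK x) w hx0] at h1
        have h2 : w.valuation F x ≠ 0 := (Valuation.ne_zero_iff _).mpr hx0
        rw [← WithZero.exp_log h2, ← WithZero.exp_zero, WithZero.exp_lt_exp]
        omega
      have hlies : w.asIdeal.LiesOver (Ideal.span {(X : K[X])}) := by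
        constructor
        have hle : Ideal.span {(X : K[X])} ≤ w.asIdeal.under K[X] := by
          rw [Ideal.span_le, Set.singleton_subset_iff]
          exact hXw
        have hne' : w.asIdeal.under K[X] ≠ ⊤ :=
          (Ideal.IsPrime.under K[X] w.asIdeal).ne_top
        exact hmax.eq_of_le hne' hle
      have hmem : w.asIdeal ∈ (Ideal.span {(X : K[X])}).primesOver (intClosure (K := K) x) :=
        ⟨w.isPrime, hlies⟩
      refine Finset.mem_image.mpr ⟨⟨w.asIdeal, hmem⟩, Finset.mem_univ _, ?_⟩
      rw [← hw]
  · rw [Finset.sum_image (fun P _ Q _ h => toH_inj (placeOfPrime_injective (hK x) h))]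
    rw [← hsum, Nat.cast_sum]
    exact Finset.sum_congr rfl (fun P _ => hord P)

/-- Approximation among the places where `x` vanishes: a function with a pole at `v` and regular
at the finitely many other places `u ∈ S`. -/
theorem exists_ord_neg_of (x : F)
    (hfacts : letI := polyAlgebra (K := K) x
      IsDedekindDomain (intClosure (K := K) x) ∧ IsFractionRing (intClosure (K := K) x) F ∧
        Module.Finite K[X] (intClosure (K := K) x))
    (v : Place K F) (S : Finset (Place K F)) (hvx : 0 < v.ord x) (hv : v ∉ S)
    (hS : ∀ u ∈ S, 0 < u.ord x) :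
    ∃ h : F, v.ord h < 0 ∧ ∀ u ∈ S, 0 ≤ u.ord h := by
  classical
  rcases S.eq_empty_or_nonempty with hSe | ⟨u₀, hu₀⟩
  · refine ⟨x⁻¹, ?_, ?_⟩
    · rw [v.ord_inv]
      omega
    · intro u hu
      rw [hSe] at hu
      simp at hu
  letI := polyAlgebra (K := K) x
  obtain ⟨hD, hFr, -⟩ := hfacts
  haveI := hD
  haveI := hFr
  -- every place where `x` vanishes comes from a prime of `R`
  have hex : ∀ u : Place K F, 0 < u.ord x →
      ∃ w : HeightOneSpectrum (intClosure (K := K) x), placeOfPrime (hK x) w = u := by
    intro u hu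
    exact exists_placeOfPrime_eq (hK x) u
      (le_place x u (PlaceAux.mem_of_ord_nonneg u hu.le))
  obtain ⟨wv, hwv⟩ := hex v hvx
  haveI : Nonempty (HeightOneSpectrum (intClosure (K := K) x)) := ⟨wv⟩
  choose! W hW using hex
  -- prime avoidance
  have havoid : ¬ ((wv.asIdeal : Set (intClosure (K := K) x)) ⊆
      ⋃ u ∈ (↑S : Set (Place K F)), (W u).asIdeal) := by
    intro hsub
    rw [Ideal.subset_union_prime u₀ u₀ (fun u _ _ _ => (W u).isPrime)] at hsub
    obtain ⟨u, huS, hle⟩ := hsub
    have heq : wv.asIdeal = (W u).asIdeal :=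
      wv.isMaximal.eq_of_le (W u).isPrime.ne_top hle
    have : wv = W u := HeightOneSpectrum.ext heq
    apply hv
    rw [← hwv, this, hW u (hS u huS)]
    exact huS
  obtain ⟨a, hav, haS⟩ := Set.not_subset.mp havoid
  have haS' : ∀ u ∈ S, a ∉ (W u).asIdeal := by
    intro u hu hmem
    apply haS
    simp only [Set.mem_iUnion]
    exact ⟨u, hu, hmem⟩
  have ha0 : a ≠ 0 := by
    rintro rfl
    exact haS' u₀ hu₀ (zero_mem _)
  have haF : algebraMap (intClosure (K := K) x) F a ≠ 0 := by
    rw [Ne, map_eq_zero_iff _ (IsFractionRing.injective (intClosure (K := K) x) F)]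
    exact ha0
  refine ⟨(algebraMap (intClosure (K := K) x) F a)⁻¹, ?_, ?_⟩
  · rw [v.ord_inv, ← hwv, placeOfPrime_ord (hK x) wv haF,
      HeightOneSpectrum.valuation_of_algebraMap]
    have h1 : wv.intValuation a < 1 := (wv.intValuation_lt_one_iff_mem a).mpr hav
    have h2 : wv.intValuation a ≠ 0 := wv.intValuation_ne_zero a ha0
    rw [← WithZero.exp_log h2, ← WithZero.exp_zero, WithZero.exp_lt_exp] at h1
    omega
  · intro u hu
    have key : (placeOfPrime (hK x) (W u)).ord (algebraMap (intClosure (K := K) x) F a) = 0 := by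
      rw [placeOfPrime_ord (hK x) (W u) haF, HeightOneSpectrum.valuation_of_algebraMap,
        HeightOneSpectrum.intValuation_eq_one_iff.mpr (haS' u hu)]
      simp
    rw [hW u (hS u hu)] at key
    rw [u.ord_inv, key]
    simp

end Fermat.Agent.S24
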