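import Fermat.Agent.S24.LocalCountCore
import Fermat.Agent.S24.PlacesCore
import Fermat.Agent.S24.PolyClosure

/-!
# S24 / P10b — number of places over a point of the `j`-line, from a realization
-/

set_option autoImplicit false

open AlgebraicCurve IntermediateField
open scoped MatrixGroups

namespace Fermat.Agent.S24

/-- P10b: for a generator `x` of `ℚ̄(j)` with a place of the realization over `x = 0` having the
local property with respect to `ε`, the places of `F` over `x = 0` are counted by the orbits of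
`ε` on `SL(2,ℤ) ⧸ Γ₀(N)`, and their orders add up to the index. -/
theorem card_places_of_loc (N : ℕ) [NeZero N] (R : Realization N)
    [FiniteDimensional Kb⟮jF N⟯ (FF N)]
    (x : FF N) (hx : Transcendental Kb x) (hxj : x ∈ Kb⟮jF N⟯) (hjx : jF N ∈ Kb⟮x⟯)
    (ε : SL(2, ℤ)) (hloc : ∃ w : Place Kb R.M, LocalProp (R.φ x) (R.act ε) w) :
    Nat.card {v : Place Kb (FF N) // 0 < v.ord x} =
        Nat.card (MulAction.orbitRel.Quotient (Subgroup.zpowers ε)
          (SL(2, ℤ) ⧸ CongruenceSubgroup.Gamma0 N)) ∧
      ∃ S : Finset (Place Kb (FF N)), (∀ v, v ∈ S ↔ 0 < v.ord x) ∧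
        ∑ v ∈ S, v.ord x = (Nat.card (SL(2, ℤ) ⧸ CongruenceSubgroup.Gamma0 N) : ℤ) := by
  have hKeq : Kb⟮x⟯ = Kb⟮jF N⟯ := by
    apply le_antisymm
    · rw [IntermediateField.adjoin_simple_le_iff]; exact hxj
    · rw [IntermediateField.adjoin_simple_le_iff]; exact hjx
  have hfd : FiniteDimensional Kb⟮x⟯ (FF N) := by
    rw [hKeq]; infer_instance
  have hfacts := intClosure_facts (K := Kb) x hx
  have hram := sum_ramificationIdx_eq_finrank (K := Kb) x hx
  exact card_places_of_loc_of N R x hxj hjx (sum_ord_eq_finrank_of x hx hfacts hram)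
    (fun v S' hv hvS hS' => exists_ord_neg_of x hfacts v S' hv hvS hS') ε hloc

end Fermat.Agent.S24
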