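import Fermat.Agent.S24.PlacesCore
import Fermat.Agent.S24.PolyClosure

/-!
# S24 / P1-app — places over `x = 0` and primes of the integral closure of `K[x]`

* `sum_ord_eq_finrank` : `Σ_{v, ord_v x > 0} ord_v x = [F : K(x)]`.
* `exists_ord_neg` : approximation (prime avoidance) among the places with `ord_v x > 0`.

Both are exactly the hypotheses `hsum`/`hV` and `happrox` of `card_places_eq_card_orbits`
(`GaloisCount.lean`).
-/

set_option autoImplicit false

open AlgebraicCurve IntermediateField Polynomial

namespace Fermat.Agent.S24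

variable {K F : Type*} [Field K] [Field F] [Algebra K F]

/-- The sum of the orders of `x` over the places where `x` vanishes is `[F : K(x)]`. -/
theorem sum_ord_eq_finrank [IsAlgClosed K] [CharZero K] (x : F) (hx : Transcendental K x)
    [FiniteDimensional K⟮x⟯ F] :
    ∃ V : Finset (Place K F), (∀ v, v ∈ V ↔ 0 < v.ord x) ∧
      ∑ v ∈ V, v.ord x = (Module.finrank K⟮x⟯ F : ℤ) :=
  sum_ord_eq_finrank_of x hx (intClosure_facts x hx) (sum_ramificationIdx_eq_finrank x hx)

/-- Approximation among the places where `x` vanishes: a function with a pole at `v` and regular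
at the finitely many other places `u ∈ S`. -/
theorem exists_ord_neg [CharZero K] (x : F) (hx : Transcendental K x) [FiniteDimensional K⟮x⟯ F]
    (v : Place K F) (S : Finset (Place K F)) (hvx : 0 < v.ord x) (hv : v ∉ S)
    (hS : ∀ u ∈ S, 0 < u.ord x) :
    ∃ h : F, v.ord h < 0 ∧ ∀ u ∈ S, 0 ≤ u.ord h :=
  exists_ord_neg_of x (intClosure_facts x hx) v S hvx hv hS

end Fermat.Agent.S24
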