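import Fermat.Agent.S24.Assembly
import Fermat.Agent.S24.Residue
import Fermat.Agent.S24.DerivFinal
import Fermat.Agent.S24.LocalCount
import Fermat.Agent.S24.Places
import Fermat.Agent.S24.GenusCount

/-!
# S24 — final assembly, all algebraic pieces wired

`genus_of_realization`: the genus formula from a `Realization N` and the statement that principal
divisors have degree `0` (piece F2, stated here as a hypothesis in the exact shape of
`degree_principal_eq_zero`).
-/

set_option autoImplicit false

noncomputable section

open AlgebraicCurve ModularCurve IntermediateField KaehlerDifferential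
open scoped MatrixGroups

namespace Fermat.Agent.S24

theorem genus_of_realization (N : ℕ) [NeZero N] [HasCanonicalDivisor (K := Kb) (F := FF N)]
    (R : Realization N)
    (hprinc : ∀ g : FF N, g ≠ 0 → ∀ D : Divisor Kb (FF N), (∀ v, D v = v.ord g) →
      Divisor.degree D = 0) :
    (genus Kb (FF N) : ℚ) = genusFormula N := by
  haveI := R.finite_range
  have hfin : FiniteDimensional Kb⟮jF N⟯ (FF N) :=
    finiteDimensional_adjoin_of_fixed R.φ R.act (jF N) R.fixed
  have htr := transcendental_jF N
  have halg : Algebra.IsAlgebraic Kb⟮jF N⟯ (FF N) := Algebra.IsAlgebraic.of_finite _ _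
  obtain ⟨G, hG, hGz⟩ := exists_genus_count N
  exact genus_of_inputs N R hfin
    (fun x hx hxj hjx ε h => card_places_of_loc N R x hx hxj hjx ε h)
    (fun v a ha => exists_sub_mem_nonunits (jF N) htr halg v a ha)
    (fun v => deg_eq_one (jF N) htr halg v)
    hprinc
    (fun v y hy => DerivLemma.ordDifferential_D_eq htr halg v
      (fun a ha => exists_sub_mem_nonunits (jF N) htr halg v a ha) hy)
    G hG hGz (card_orbits_one N)

/-- The hypotheses of F2 (`degree_principal_eq_zero`) for `FF N`, from a realization. -/
theorem principal_inputs (N : ℕ) [NeZero N] (R : Realization N) :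
    Transcendental Kb (jF N) ∧ FiniteDimensional Kb⟮jF N⟯ (FF N) ∧
      (∀ v : Place Kb (FF N), v.deg = 1) ∧
      (∀ y : FF N, Transcendental Kb y → FiniteDimensional Kb⟮y⟯ (FF N) →
        ∃ V : Finset (Place Kb (FF N)), (∀ v, v ∈ V ↔ 0 < v.ord y) ∧
          ∑ v ∈ V, v.ord y = (Module.finrank Kb⟮y⟯ (FF N) : ℤ)) := by
  haveI := R.finite_range
  have hfin : FiniteDimensional Kb⟮jF N⟯ (FF N) :=
    finiteDimensional_adjoin_of_fixed R.φ R.act (jF N) R.fixed
  have htr := transcendental_jF N
  have halg : Algebra.IsAlgebraic Kb⟮jF N⟯ (FF N) := Algebra.IsAlgebraic.of_finite _ _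
  exact ⟨htr, hfin, fun v => deg_eq_one (jF N) htr halg v,
    fun y hy hfy => by haveI := hfy; exact sum_ord_eq_finrank y hy⟩

end Fermat.Agent.S24
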