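import Fermat.Agent.S24.Defs

/-!
# S24 — generators of the function field `FF N = ℚ̄(j(q^d) : d ∣ N)`

* `jdF N d hd : FF N` — the element `j(q^d)` (`d ∣ N`), `jdF_one : jdF N 1 _ = jF N`.
* `FF_induction` — induction principle for `FF N` from the generators `jdF N d hd`.
* `FF_algHom_ext` — two `ℚ̄`-algebra maps out of `FF N` agreeing on all `jdF N d hd` are equal.
-/

set_option autoImplicit false

noncomputable section

open AlgebraicCurve ModularCurve IntermediateField

namespace Fermat.Agent.S24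

/-- `j(q^d)` with coefficients in `ℚ̄`, as a Laurent series. -/
def jdBar (d : ℕ) [NeZero d] : LaurentSeries Kb := coeffEmb Kb (qExpand ℚ d jq)

theorem jdBar_mem (N : ℕ) [NeZero N] (d : ℕ) [NeZero d] (hd : d ∣ N) :
    jdBar d ∈ ModularCurve.modularFunctionFieldBar N :=
  coeffEmb_mem_laurentBaseChange Kb (jqd_mem_full N hd)

/-- `j(q^d)`, `d ∣ N`, as an element of the function field `FF N`. -/
def jdF (N : ℕ) [NeZero N] (d : ℕ) (hd : d ∣ N) : FF N :=
  haveI : NeZero d := ⟨fun h => NeZero.ne N (by subst h; simpa using hd)⟩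
  ⟨jdBar d, jdBar_mem N d hd⟩

theorem jdF_coe (N : ℕ) [NeZero N] (d : ℕ) [NeZero d] (hd : d ∣ N) :
    ((jdF N d hd : FF N) : LaurentSeries Kb) = coeffEmb Kb (qExpand ℚ d jq) := rfl

theorem jdF_one (N : ℕ) [NeZero N] : jdF N 1 (one_dvd N) = jF N := by
  apply Subtype.ext
  show coeffEmb Kb (qExpand ℚ 1 jq) = coeffEmb Kb jq
  rw [qExpand_one_apply]

theorem coeffEmb_algebraMap_rat (r : ℚ) :
    coeffEmb Kb (algebraMap ℚ (LaurentSeries ℚ) r) =
      algebraMap Kb (LaurentSeries Kb) (algebraMap ℚ Kb r) := by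
  rw [algebraMap_laurentSeries_eq_single, algebraMap_laurentSeries_eq_single]
  exact coeffMap_single _ _ _

theorem FF_induction_aux {N : ℕ} [NeZero N] {p : FF N → Prop}
    (gen : ∀ (d : ℕ) (hd : d ∣ N), p (jdF N d hd))
    (const : ∀ a : Kb, p (algebraMap Kb (FF N) a))
    (add : ∀ x y, p x → p y → p (x + y))
    (mul : ∀ x y, p x → p y → p (x * y))
    (inv : ∀ x, p x → p x⁻¹) (y : LaurentSeries ℚ) (hy : y ∈ modularFunctionFieldFull N) :
    p ⟨coeffEmb Kb y, coeffEmb_mem_laurentBaseChange Kb hy⟩ := by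
  unfold modularFunctionFieldFull at hy
  induction hy using IntermediateField.adjoin_induction with
  | mem y hy =>
    obtain ⟨d, hne, hd, rfl⟩ := hy
    exact gen d hd
  | algebraMap r =>
    have h := const (algebraMap ℚ Kb r)
    have e : (algebraMap Kb (FF N) (algebraMap ℚ Kb r) : FF N) =
        ⟨coeffEmb Kb (algebraMap ℚ (LaurentSeries ℚ) r),
          coeffEmb_mem_laurentBaseChange Kb (IntermediateField.algebraMap_mem _ r)⟩ := by
      apply Subtype.ext
      exact (coeffEmb_algebraMap_rat r).symm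
    rw [e] at h
    exact h
  | add a b ha hb iha ihb =>
    have h := add _ _ iha ihb
    have e : (⟨coeffEmb Kb a, coeffEmb_mem_laurentBaseChange Kb ha⟩ : FF N) +
        ⟨coeffEmb Kb b, coeffEmb_mem_laurentBaseChange Kb hb⟩ =
        ⟨coeffEmb Kb (a + b), coeffEmb_mem_laurentBaseChange Kb (add_mem ha hb)⟩ := by
      apply Subtype.ext
      exact (map_add (coeffEmb Kb) a b).symm
    rw [e] at h
    exact h
  | inv a ha iha =>
    have h := inv _ iha
    have e : (⟨coeffEmb Kb a, coeffEmb_mem_laurentBaseChange Kb ha⟩ : FF N)⁻¹ =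
        ⟨coeffEmb Kb a⁻¹, coeffEmb_mem_laurentBaseChange Kb (inv_mem ha)⟩ := by
      apply Subtype.ext
      exact (map_inv₀ (coeffEmb Kb) a).symm
    rw [e] at h
    exact h
  | mul a b ha hb iha ihb =>
    have h := mul _ _ iha ihb
    have e : (⟨coeffEmb Kb a, coeffEmb_mem_laurentBaseChange Kb ha⟩ : FF N) *
        ⟨coeffEmb Kb b, coeffEmb_mem_laurentBaseChange Kb hb⟩ =
        ⟨coeffEmb Kb (a * b), coeffEmb_mem_laurentBaseChange Kb (mul_mem ha hb)⟩ := by
      apply Subtype.ext
      exact (map_mul (coeffEmb Kb) a b).symm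
    rw [e] at h
    exact h

/-- Induction principle for `FF N`: a property that holds for the generators `j(q^d)`, `d ∣ N`,
for constants, and is stable under `+`, `*`, `⁻¹`, holds everywhere. -/
theorem FF_induction {N : ℕ} [NeZero N] {p : FF N → Prop}
    (gen : ∀ (d : ℕ) (hd : d ∣ N), p (jdF N d hd))
    (const : ∀ a : Kb, p (algebraMap Kb (FF N) a))
    (add : ∀ x y, p x → p y → p (x + y))
    (mul : ∀ x y, p x → p y → p (x * y))
    (inv : ∀ x, p x → p x⁻¹) (x : FF N) : p x := by
  obtain ⟨x, hx⟩ := x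
  induction hx using IntermediateField.adjoin_induction with
  | mem x hx =>
    obtain ⟨y, hy, rfl⟩ := hx
    exact FF_induction_aux gen const add mul inv y hy
  | algebraMap a =>
    have h := const a
    have e : (algebraMap Kb (FF N) a : FF N) =
        ⟨algebraMap Kb (LaurentSeries Kb) a, IntermediateField.algebraMap_mem _ a⟩ :=
      Subtype.ext rfl
    rw [e] at h
    exact h
  | add a b ha hb iha ihb =>
    have h := add _ _ iha ihb
    have e : (⟨a, ha⟩ : FF N) + ⟨b, hb⟩ = ⟨a + b, add_mem ha hb⟩ := Subtype.ext rfl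
    rw [e] at h
    exact h
  | inv a ha iha =>
    have h := inv _ iha
    have e : (⟨a, ha⟩ : FF N)⁻¹ = ⟨a⁻¹, inv_mem ha⟩ := Subtype.ext rfl
    rw [e] at h
    exact h
  | mul a b ha hb iha ihb =>
    have h := mul _ _ iha ihb
    have e : (⟨a, ha⟩ : FF N) * ⟨b, hb⟩ = ⟨a * b, mul_mem ha hb⟩ := Subtype.ext rfl
    rw [e] at h
    exact h

/-- Generic: the locus where two algebra maps of fields agree is closed under the field
operations (stated for generic fields, so that instances are found by unification). -/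
theorem algHom_eqLocus_closed {K F M : Type*} [Field K] [Field F] [Field M] [Algebra K F]
    [Algebra K M] (φ ψ : F →ₐ[K] M) :
    (∀ a : K, φ (algebraMap K F a) = ψ (algebraMap K F a)) ∧
    (∀ x y, φ x = ψ x → φ y = ψ y → φ (x + y) = ψ (x + y)) ∧
    (∀ x y, φ x = ψ x → φ y = ψ y → φ (x * y) = ψ (x * y)) ∧
    (∀ x, φ x = ψ x → φ x⁻¹ = ψ x⁻¹) := by
  refine ⟨fun a => ?_, fun x y hx hy => ?_, fun x y hx hy => ?_, fun x hx => ?_⟩
  · rw [AlgHom.commutes, AlgHom.commutes]
  · rw [map_add, map_add, hx, hy]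
  · rw [map_mul, map_mul, hx, hy]
  · rw [map_inv₀, map_inv₀, hx]

/-- Two `ℚ̄`-algebra maps out of `FF N` which agree on the generators `j(q^d)`, `d ∣ N`, are
equal. -/
theorem FF_algHom_ext {N : ℕ} [NeZero N] {M : Type*} [Field M] [Algebra Kb M]
    (φ ψ : FF N →ₐ[Kb] M) (h : ∀ (d : ℕ) (hd : d ∣ N), φ (jdF N d hd) = ψ (jdF N d hd)) :
    φ = ψ := by
  obtain ⟨h1, h2, h3, h4⟩ := algHom_eqLocus_closed φ ψ
  exact AlgHom.ext fun x => FF_induction (p := fun x => φ x = ψ x) h h1 h2 h3 h4 x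

end Fermat.Agent.S24
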