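import Mathlib

/-!
# S24 piece P5c, part 1: pure analysis at the cusp `i∞`

* `cuspFn h f`: the function `q ↦ f (τ(q))` on the punctured unit disc attached to `f : ℍ → ℂ`
  (`τ(q) = invQParam h q`), with no periodicity assumption.
* `pow_untop_order_eq_one_of_comp_mul`: if a meromorphic germ `F` at `0` satisfies `F (c q) = F q`,
  then `c ^ ord₀ F = 1`.
-/

set_option autoImplicit false

noncomputable section

open Complex Filter Topology UpperHalfPlane Function
open scoped Manifold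

namespace Fermat.Agent.S24

/-- Multiplication by a nonzero constant is analytic with nonzero derivative. -/
theorem cuspAux_analyticAt_mul (c : ℂ) (x : ℂ) : AnalyticAt ℂ (fun q : ℂ => c * q) x := by
  fun_prop

theorem cuspAux_deriv_mul (c : ℂ) (x : ℂ) : deriv (fun q : ℂ => c * q) x = c := by
  simp

/-- The order at `0` is invariant under `q ↦ c q`, `c ≠ 0`. -/
theorem meromorphicOrderAt_comp_mul_zero (F : ℂ → ℂ) {c : ℂ} (hc : c ≠ 0) :
    meromorphicOrderAt (fun q => F (c * q)) 0 = meromorphicOrderAt F 0 := by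
  have h := meromorphicOrderAt_comp_of_deriv_ne_zero (f := F) (g := fun q : ℂ => c * q) (x := 0)
    (cuspAux_analyticAt_mul c 0) (by rw [cuspAux_deriv_mul]; exact hc)
  simpa [Function.comp_def] using h

theorem meromorphicAt_comp_mul_zero {F : ℂ → ℂ} (hF : MeromorphicAt F 0) (c : ℂ) :
    MeromorphicAt (fun q => F (c * q)) 0 := by
  have h0 : (fun q : ℂ => c * q) 0 = 0 := by simp
  have hF' : MeromorphicAt F ((fun q : ℂ => c * q) 0) := by rw [h0]; exact hF
  exact hF'.comp_analyticAt (cuspAux_analyticAt_mul c 0)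

/-- **Key lemma.** A meromorphic germ at `0`, not identically zero, which is invariant under
`q ↦ c q` has `c ^ (order) = 1`. -/
theorem zpow_order_eq_one_of_comp_mul {F : ℂ → ℂ} {c : ℂ} (hc : c ≠ 0)
    (hF : MeromorphicAt F 0) (hne : meromorphicOrderAt F 0 ≠ ⊤)
    (hinv : ∀ᶠ q in 𝓝[≠] (0 : ℂ), F (c * q) = F q) :
    c ^ (meromorphicOrderAt F 0).untop₀ = 1 := by
  set g : ℂ → ℂ := fun q => c * q with hg
  have hg0 : g 0 = 0 := by simp [hg]
  have hgan : AnalyticAt ℂ g 0 := cuspAux_analyticAt_mul c 0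
  have hgnc : ¬ EventuallyConst g (𝓝 0) := by
    intro hconst
    have hd : deriv g 0 = 0 := by
      have : g =ᶠ[𝓝 0] fun _ => g 0 := by
        rw [eventuallyConst_iff_exists_eventuallyEq] at hconst
        obtain ⟨a, ha⟩ := hconst
        have ha0 : g 0 = a := ha.self_of_nhds
        filter_upwards [ha] with q hq
        rw [hq, ha0]
      rw [this.deriv_eq]
      simp
    rw [cuspAux_deriv_mul] at hd
    exact hc hd
  have hFg : MeromorphicAt F (g 0) := by rw [hg0]; exact hF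
  have hcomp := hFg.meromorphicTrailingCoeffAt_comp hgan hgnc
  have hcongr : meromorphicTrailingCoeffAt (F ∘ g) 0 = meromorphicTrailingCoeffAt F 0 := by
    apply meromorphicTrailingCoeffAt_congr_nhdsNE
    filter_upwards [hinv] with q hq
    simpa [hg] using hq
  have htc : meromorphicTrailingCoeffAt (fun q => g q - g 0) 0 = c := by
    have hcan : AnalyticAt ℂ (fun _ : ℂ => c) 0 := analyticAt_const
    have := hcan.meromorphicTrailingCoeffAt_of_ne_zero_of_eq_nhdsNE (n := 1)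
      (f := fun q => g q - g 0) hc (by
        filter_upwards with q
        simp [hg, mul_comm])
    simpa using this
  rw [hcongr, htc, hg0] at hcomp
  have ha : meromorphicTrailingCoeffAt F 0 ≠ 0 := hF.meromorphicTrailingCoeffAt_ne_zero hne
  have : (c ^ (meromorphicOrderAt F 0).untop₀ - 1) * meromorphicTrailingCoeffAt F 0 = 0 := by
    rw [sub_mul, one_mul, sub_eq_zero]
    simpa [smul_eq_mul] using hcomp.symm
  rcases mul_eq_zero.mp this with h | h
  · exact sub_eq_zero.mp h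
  · exact absurd h ha

/-! ### Composition with `q ↦ c q ^ e` -/

theorem cuspAux_analyticAt_mul_pow (c : ℂ) (e : ℕ) (x : ℂ) :
    AnalyticAt ℂ (fun q : ℂ => c * q ^ e) x := by
  fun_prop

theorem cuspAux_analyticOrderAt_mul_pow {c : ℂ} (hc : c ≠ 0) {e : ℕ} (he : 0 < e) :
    analyticOrderAt (fun q : ℂ => c * q ^ e - c * (0 : ℂ) ^ e) 0 = e := by
  have han : AnalyticAt ℂ (fun q : ℂ => c * q ^ e - c * (0 : ℂ) ^ e) 0 := by fun_prop
  rw [han.analyticOrderAt_eq_natCast]
  refine ⟨fun _ => c, analyticAt_const, hc, ?_⟩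
  filter_upwards with q
  simp [zero_pow he.ne', mul_comm]

theorem meromorphicAt_comp_mul_pow {F : ℂ → ℂ} (hF : MeromorphicAt F 0) (c : ℂ) {e : ℕ}
    (he : 0 < e) : MeromorphicAt (fun q => F (c * q ^ e)) 0 := by
  set g : ℂ → ℂ := fun q => c * q ^ e with hg
  have h0 : g 0 = 0 := by simp [hg, zero_pow he.ne']
  have hF' : MeromorphicAt F (g 0) := by rw [h0]; exact hF
  exact MeromorphicAt.comp_analyticAt (f := F) (g := g) hF' (cuspAux_analyticAt_mul_pow c e 0)

/-- The order at `0` of `q ↦ F (c q ^ e)` is `e` times the order of `F`. -/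
theorem meromorphicOrderAt_comp_mul_pow {F : ℂ → ℂ} (hF : MeromorphicAt F 0) {c : ℂ}
    (hc : c ≠ 0) {e : ℕ} (he : 0 < e) :
    meromorphicOrderAt (fun q => F (c * q ^ e)) 0 = meromorphicOrderAt F 0 * (e : ℤ) := by
  set g : ℂ → ℂ := fun q => c * q ^ e with hg
  have h0 : g 0 = 0 := by simp [hg, zero_pow he.ne']
  have hF' : MeromorphicAt F (g 0) := by rw [h0]; exact hF
  have hord : analyticOrderAt (fun q => g q - g 0) 0 = e := cuspAux_analyticOrderAt_mul_pow hc he
  have hnc : ¬ EventuallyConst g (𝓝 0) := by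
    rw [eventuallyConst_iff_analyticOrderAt_sub_eq_top, hord]
    exact ENat.natCast_ne_top e
  have h := hF'.meromorphicOrderAt_comp (cuspAux_analyticAt_mul_pow c e 0) hnc
  rw [hord, h0] at h
  rw [show (fun q => F (c * q ^ e)) = F ∘ g from rfl, h]
  simp

/-! ### The cusp function (no periodicity assumption) -/

/-- The function `q ↦ f (τ(q))` with `τ(q) = N/(2πi) · log q`. -/
def cuspFn (N : ℕ) (f : ℍ → ℂ) : ℂ → ℂ :=
  fun q => f (ofComplex (Function.Periodic.invQParam (N : ℝ) q))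

theorem cuspFn_apply (N : ℕ) (f : ℍ → ℂ) (q : ℂ) :
    cuspFn N f q = f (ofComplex (Function.Periodic.invQParam (N : ℝ) q)) := rfl

theorem cuspFn_add (N : ℕ) (f g : ℍ → ℂ) : cuspFn N (f + g) = cuspFn N f + cuspFn N g := rfl

theorem cuspFn_mul (N : ℕ) (f g : ℍ → ℂ) : cuspFn N (f * g) = cuspFn N f * cuspFn N g := rfl

theorem cuspFn_const (N : ℕ) (c : ℂ) : cuspFn N (fun _ => c) = fun _ => c := rfl

/-- `f` is periodic of period `N`. -/
def IsPer (N : ℕ) (f : ℍ → ℂ) : Prop := ∀ τ : ℍ, f ((N : ℝ) +ᵥ τ) = f τ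

theorem IsPer.add {N : ℕ} {f g : ℍ → ℂ} (hf : IsPer N f) (hg : IsPer N g) : IsPer N (f + g) :=
  fun τ => by simp only [Pi.add_apply, hf τ, hg τ]

theorem IsPer.mul {N : ℕ} {f g : ℍ → ℂ} (hf : IsPer N f) (hg : IsPer N g) : IsPer N (f * g) :=
  fun τ => by simp only [Pi.mul_apply, hf τ, hg τ]

theorem isPer_const (N : ℕ) (c : ℂ) : IsPer N (fun _ => c) := fun _ => rfl

theorem IsPer.nat_mul {N : ℕ} {f : ℍ → ℂ} (hf : IsPer N f) (m : ℕ) (τ : ℍ) :
    f (((m : ℝ) * N) +ᵥ τ) = f τ := by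
  induction m with
  | zero => simp
  | succ m ih =>
    have : (((m + 1 : ℕ) : ℝ) * N) +ᵥ τ = (N : ℝ) +ᵥ (((m : ℝ) * N) +ᵥ τ) := by
      rw [vadd_vadd]; congr 1; push_cast; ring
    rw [this, hf, ih]

theorem IsPer.int_mul {N : ℕ} {f : ℍ → ℂ} (hf : IsPer N f) (m : ℤ) (τ : ℍ) :
    f (((m : ℝ) * N) +ᵥ τ) = f τ := by
  cases m with
  | ofNat m => simpa using hf.nat_mul m τ
  | negSucc m =>
    have h := hf.nat_mul (m + 1) ((((Int.negSucc m : ℤ) : ℝ) * N) +ᵥ τ)
    rw [vadd_vadd] at h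
    have e : ((m + 1 : ℕ) : ℝ) * N + ((Int.negSucc m : ℤ) : ℝ) * N = 0 := by
      rw [Int.negSucc_eq]; push_cast; ring
    rw [e, zero_vadd] at h
    exact h.symm

theorem coe_ofComplex_invQParam {N : ℕ} (hN : 0 < N) {q : ℂ} (hq : q ≠ 0) (hq1 : ‖q‖ < 1) :
    ((ofComplex (Function.Periodic.invQParam (N : ℝ) q) : ℍ) : ℂ)
      = Function.Periodic.invQParam (N : ℝ) q := by
  have hN' : (0 : ℝ) < N := by exact_mod_cast hN
  rw [ofComplex_apply_of_im_pos (Function.Periodic.im_invQParam_pos_of_norm_lt_one hN' hq1 hq)]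

/-- `q_N (τ(q)) = q` on the punctured unit disc. -/
theorem qParam_ofComplex_invQParam {N : ℕ} (hN : 0 < N) {q : ℂ} (hq : q ≠ 0) (hq1 : ‖q‖ < 1) :
    Function.Periodic.qParam (N : ℝ) (ofComplex (Function.Periodic.invQParam (N : ℝ) q) : ℍ) = q := by
  have hN' : (N : ℝ) ≠ 0 := by exact_mod_cast hN.ne'
  rw [coe_ofComplex_invQParam hN hq hq1, Function.Periodic.qParam_right_inv hN' hq]

/-- For an `N`-periodic function, `cuspFn N f (q_N τ) = f τ`. -/
theorem cuspFn_qParam {N : ℕ} (hN : 0 < N) {f : ℍ → ℂ} (hf : IsPer N f) (τ : ℍ) :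
    cuspFn N f (Function.Periodic.qParam (N : ℝ) τ) = f τ := by
  have hN' : (N : ℝ) ≠ 0 := by exact_mod_cast hN.ne'
  obtain ⟨m, hm⟩ := Function.Periodic.qParam_left_inv_mod_period hN' (τ : ℂ)
  have h1 : (ofComplex (Function.Periodic.invQParam (N : ℝ)
      (Function.Periodic.qParam (N : ℝ) τ)) : ℍ) = ((m : ℝ) * N) +ᵥ τ := by
    apply UpperHalfPlane.ext
    rw [hm]
    have him : 0 < ((τ : ℂ) + m * (N : ℝ)).im := by
      simpa using τ.im_pos
    rw [ofComplex_apply_of_im_pos him, coe_vadd]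
    push_cast; ring
  rw [cuspFn_apply, h1, hf.int_mul]

theorem tendsto_ofComplex_invQParam {N : ℕ} (hN : 0 < N) :
    Tendsto (fun q => ofComplex (Function.Periodic.invQParam (N : ℝ) q)) (𝓝[≠] (0 : ℂ))
      atImInfty := by
  have hN' : (0 : ℝ) < N := by exact_mod_cast hN
  exact tendsto_comap_im_ofComplex.comp (Function.Periodic.invQParam_tendsto hN')

theorem tendsto_qParam_nhdsNE {N : ℕ} (hN : 0 < N) :
    Tendsto (fun τ : ℍ => Function.Periodic.qParam (N : ℝ) τ) atImInfty (𝓝[≠] (0 : ℂ)) := by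
  have hN' : (0 : ℝ) < N := by exact_mod_cast hN
  exact (Function.Periodic.qParam_tendsto hN').comp tendsto_coe_atImInfty

/-- The punctured unit disc is a punctured neighbourhood of `0`. -/
theorem eventually_punctured_disc :
    ∀ᶠ q in 𝓝[≠] (0 : ℂ), q ≠ 0 ∧ ‖q‖ < 1 := by
  rw [eventually_nhdsWithin_iff]
  filter_upwards [Metric.ball_mem_nhds (0 : ℂ) zero_lt_one] with q hq hq0
  exact ⟨hq0, by simpa using hq⟩

/-- Identity principle at the cusp: a holomorphic periodic function whose cusp function vanishes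
near `0` is zero. -/
theorem eq_zero_of_cuspFn_eventually_zero {N : ℕ} (hN : 0 < N) {f : ℍ → ℂ}
    (hf : MDifferentiable 𝓘(ℂ) 𝓘(ℂ) f) (hper : IsPer N f)
    (h : ∀ᶠ q in 𝓝[≠] (0 : ℂ), cuspFn N f q = 0) : f = 0 := by
  have h1 : ∀ᶠ τ in atImInfty, f τ = 0 := by
    have := (tendsto_qParam_nhdsNE hN).eventually h
    filter_upwards [this] with τ hτ
    rwa [cuspFn_qParam hN hper] at hτ
  obtain ⟨A, hA⟩ := (atImInfty_mem _).mp h1
  -- a point with large imaginary part
  let τ₀ : ℍ := ⟨⟨0, max A 0 + 1⟩, by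
    show 0 < max A 0 + 1
    have := le_max_right A 0
    linarith⟩
  have hτ₀ : A < τ₀.im := by
    show A < max A 0 + 1
    have := le_max_left A 0
    linarith
  apply UpperHalfPlane.eq_zero_of_frequently hf (τ := τ₀)
  apply Eventually.frequently
  apply eventually_nhdsWithin_of_eventually_nhds
  have hopen : IsOpen {τ : ℍ | A < τ.im} :=
    isOpen_lt continuous_const UpperHalfPlane.continuous_im
  filter_upwards [hopen.mem_nhds hτ₀] with τ hτ
  exact hA τ hτ.le

/-- An `N`-periodic function on `ℍ` gives a periodic function on `ℂ`. -/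
theorem IsPer.periodic_comp_ofComplex {N : ℕ} {f : ℍ → ℂ} (hf : IsPer N f) :
    Function.Periodic (f ∘ ofComplex) (N : ℝ) := by
  intro w
  by_cases hw : 0 < im w
  · have h2 : 0 < im (w + (N : ℝ)) := by simpa using hw
    simp only [comp_apply, ofComplex_apply_of_im_pos h2, ofComplex_apply_of_im_pos hw]
    have := hf ⟨w, hw⟩
    rw [← this]
    congr 1
    apply UpperHalfPlane.ext
    rw [coe_vadd]
    simp [add_comm]
  · have h2 : im (w + (N : ℝ)) ≤ 0 := by simpa using not_lt.mp hw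
    simp only [comp_apply, ofComplex_apply_of_im_nonpos h2,
      ofComplex_apply_of_im_nonpos (not_lt.mp hw)]

/-- `τ ↦ q_h(τ)` is holomorphic on `ℍ`. -/
theorem mdifferentiable_qParam (h : ℝ) :
    MDifferentiable 𝓘(ℂ) 𝓘(ℂ) (fun τ : ℍ => Function.Periodic.qParam h (τ : ℂ)) := by
  have h1 : MDifferentiable 𝓘(ℂ) 𝓘(ℂ) (Function.Periodic.qParam h) :=
    (Function.Periodic.differentiable_qParam (h := h)).mdifferentiable
  exact h1.comp mdifferentiable_coe

/-- If `q_N ^ m · f` is bounded at `i∞` (`f` holomorphic, `N`-periodic), then the cusp function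
of `f` is meromorphic at `0`; more precisely it is `q ^ (-m)` times an analytic function whose
value at `0` is the limit of `q_N ^ m · f`. -/
theorem exists_analyticAt_cuspFn {N : ℕ} (hN : 0 < N) {f : ℍ → ℂ}
    (hf : MDifferentiable 𝓘(ℂ) 𝓘(ℂ) f) (hper : IsPer N f) (m : ℕ) (c : ℂ)
    (hlim : Tendsto (fun τ : ℍ => Function.Periodic.qParam (N : ℝ) τ ^ m * f τ) atImInfty (𝓝 c)) :
    ∃ g : ℂ → ℂ, AnalyticAt ℂ g 0 ∧ g 0 = c ∧
      ∀ᶠ q in 𝓝[≠] (0 : ℂ), cuspFn N f q = q ^ (-(m : ℤ)) * g q := by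
  have hN' : (0 : ℝ) < N := by exact_mod_cast hN
  set F : ℍ → ℂ := fun τ => Function.Periodic.qParam (N : ℝ) τ ^ m * f τ with hF
  have hFper : IsPer N F := by
    intro τ
    simp only [hF, hper τ]
    congr 2
    rw [coe_vadd]
    simp only [Function.Periodic.qParam]
    rw [show 2 * (Real.pi : ℂ) * Complex.I * ((N : ℝ) + (τ : ℂ)) / (N : ℝ)
        = 2 * (Real.pi : ℂ) * Complex.I * (τ : ℂ) / (N : ℝ) + 2 * Real.pi * Complex.I by
      have : ((N : ℝ) : ℂ) ≠ 0 := by exact_mod_cast hN'.ne'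
      field_simp
      ring]
    rw [Complex.exp_add, Complex.exp_two_pi_mul_I, mul_one]
  have hFhol : MDifferentiable 𝓘(ℂ) 𝓘(ℂ) F := ((mdifferentiable_qParam (N : ℝ)).pow m).mul hf
  have hFbdd : IsBoundedAtImInfty F := hlim.isBigO_one ℝ
  have han : AnalyticAt ℂ (UpperHalfPlane.cuspFunction (N : ℝ) F) 0 :=
    UpperHalfPlane.analyticAt_cuspFunction_zero hN' hFper.periodic_comp_ofComplex hFhol hFbdd
  have h0 : UpperHalfPlane.cuspFunction (N : ℝ) F 0 = c := by
    rw [UpperHalfPlane.cuspFunction_apply_zero hN' han hFper.periodic_comp_ofComplex]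
    exact hlim.limUnder_eq
  refine ⟨_, han, h0, ?_⟩
  filter_upwards [eventually_punctured_disc] with q hq
  have e1 : UpperHalfPlane.cuspFunction (N : ℝ) F q
      = F (ofComplex (Function.Periodic.invQParam (N : ℝ) q)) := by
    rw [UpperHalfPlane.cuspFunction, Function.Periodic.cuspFunction_eq_of_nonzero _ _ hq.1]
    rfl
  rw [e1, hF]
  simp only
  rw [qParam_ofComplex_invQParam hN hq.1 hq.2, cuspFn_apply, zpow_neg, zpow_natCast, ← mul_assoc,
    inv_mul_cancel₀ (pow_ne_zero m hq.1), one_mul]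

theorem meromorphicAt_of_eventually_eq_zpow_mul {Φ g : ℂ → ℂ} {n : ℤ} (hg : AnalyticAt ℂ g 0)
    (h : ∀ᶠ q in 𝓝[≠] (0 : ℂ), Φ q = q ^ n * g q) : MeromorphicAt Φ 0 := by
  have h1 : MeromorphicAt (fun q : ℂ => q ^ n * g q) 0 :=
    ((MeromorphicAt.id (0 : ℂ)).zpow n).mul hg.meromorphicAt
  exact h1.congr (h.mono fun q hq => hq.symm)

theorem meromorphicOrderAt_of_eventually_eq_zpow_mul {Φ g : ℂ → ℂ} {n : ℤ} (hg : AnalyticAt ℂ g 0)
    (hg0 : g 0 ≠ 0) (h : ∀ᶠ q in 𝓝[≠] (0 : ℂ), Φ q = q ^ n * g q) :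
    meromorphicOrderAt Φ 0 = n := by
  rw [meromorphicOrderAt_eq_int_iff (meromorphicAt_of_eventually_eq_zpow_mul hg h)]
  refine ⟨g, hg, hg0, ?_⟩
  filter_upwards [h] with q hq
  simpa using hq

end Fermat.Agent.S24
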