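import Fermat.Agent.S24.AnalyticDefs

/-!
# S24 / P7a — invariant functions are polynomials in `J`

Core level-one input: every modular form `h` of weight `12 m` for `SL(2,ℤ)` is
`Δ ^ m * p(E₄³ / Δ)` for a polynomial `p` of degree `≤ m`; consequently every holomorphic
`SL(2,ℤ)`-invariant function `f` on `ℍ` with `Δ ^ m * f` bounded at `i∞` is a polynomial in
`Jfun = E₄³ / Δ`.
-/

set_option autoImplicit false

noncomputable section

open UpperHalfPlane ModularForm SlashInvariantForm SlashInvariantFormClass ModularFormClass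
  CuspFormClass MatrixGroups OnePoint Filter EisensteinSeries Asymptotics Polynomial

open scoped Topology Manifold

namespace Fermat.Agent.S24

local notation "Δ" => ModularForm.discriminant

theorem Jfun_def (τ : ℍ) : Jfun τ = E₄ τ ^ 3 / Δ τ := rfl

/-- `E₄ ^ (3 m)` as a modular form of weight `k = 12 m`. -/
def E4pow (m : ℕ) (k : ℤ) (hk : k = 12 * m) : ModularForm 𝒮ℒ k :=
  ModularForm.mcast (by rw [hk]; push_cast; ring) (E₄.pow (3 * m))

theorem E4pow_apply (m : ℕ) (k : ℤ) (hk : k = 12 * m) (τ : ℍ) :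
    E4pow m k hk τ = E₄ τ ^ (3 * m) := by
  change (E₄.pow (3 * m)) τ = _
  rw [ModularForm.coe_pow]
  rfl

theorem E4pow_qExpansion_coeff_zero (m : ℕ) (k : ℤ) (hk : k = 12 * m) :
    (qExpansion 1 (E4pow m k hk)).coeff 0 = 1 := by
  have h1 : (E4pow m k hk : ℍ → ℂ) = ((E₄.pow (3 * m) : ModularForm 𝒮ℒ _) : ℍ → ℂ) := rfl
  rw [h1, ModularForm.qExpansion_pow one_pos one_mem_strictPeriods_SL]
  rw [PowerSeries.coeff_zero_eq_constantCoeff, map_pow,
    ← PowerSeries.coeff_zero_eq_constantCoeff]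
  rw [show (qExpansion 1 (E₄ : ℍ → ℂ)).coeff 0 = 1 from
    E_qExpansion_coeff_zero (by norm_num) ⟨2, rfl⟩, one_pow]

/-- Every level-one modular form of weight `12 m` is `Δ ^ m * p(J)` with `deg p ≤ m`. -/
theorem exists_poly_of_modularForm (m : ℕ) :
    ∀ (k : ℤ) (_ : k = 12 * m) (h : ModularForm 𝒮ℒ k),
      ∃ p : ℂ[X], p.natDegree ≤ m ∧ ∀ τ : ℍ, h τ = Δ τ ^ m * p.eval (Jfun τ) := by
  induction m with
  | zero =>
    intro k hk h
    have hk0 : k = 0 := by simpa using hk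
    subst hk0
    obtain ⟨c, hc⟩ := levelOne_weight_zero_const h
    refine ⟨C c, by simp, fun τ => ?_⟩
    simp [hc]
  | succ m ih =>
    intro k hk h
    set c : ℂ := (qExpansion 1 h).coeff 0 with hc
    set g : ModularForm 𝒮ℒ k := h - c • E4pow (m + 1) k hk with hg
    have hg0 : (qExpansion 1 g).coeff 0 = 0 := by
      have h1 : (g : ℍ → ℂ) = (h : ℍ → ℂ) - ((c • E4pow (m + 1) k hk : ModularForm 𝒮ℒ k) : ℍ → ℂ) :=
        rfl
      rw [h1, ModularForm.qExpansion_sub one_pos one_mem_strictPeriods_SL]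
      have h2 : ((c • E4pow (m + 1) k hk : ModularForm 𝒮ℒ k) : ℍ → ℂ)
          = c • (E4pow (m + 1) k hk : ℍ → ℂ) := rfl
      rw [h2, ModularForm.qExpansion_smul one_pos one_mem_strictPeriods_SL, map_sub,
        PowerSeries.coeff_smul, E4pow_qExpansion_coeff_zero, smul_eq_mul, mul_one, sub_self]
    set h' : ModularForm 𝒮ℒ (k - 12) := CuspForm.discriminantEquiv (toCuspForm g hg0) with hh'
    have hk' : k - 12 = 12 * (m : ℤ) := by rw [hk]; push_cast; ring
    obtain ⟨p', hp'deg, hp'⟩ := ih (k - 12) hk' h'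
    refine ⟨C c * X ^ (m + 1) + p', ?_, fun τ => ?_⟩
    · refine (natDegree_add_le _ _).trans (max_le ?_ (hp'deg.trans (Nat.le_succ m)))
      exact (natDegree_C_mul_le _ _).trans (natDegree_X_pow_le _)
    · have hΔ : Δ τ ≠ 0 := discriminant_ne_zero τ
      have h1 : Δ τ * h' τ = g τ := by
        rw [hh']
        exact ModularForm.discriminant_mul_discriminantEquiv_apply (toCuspForm g hg0) τ
      have h2 : g τ = h τ - c * E₄ τ ^ (3 * (m + 1)) := by
        rw [hg]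
        change h τ - c • (E4pow (m + 1) k hk) τ = _
        rw [E4pow_apply, smul_eq_mul]
      have h3 : h τ = c * E₄ τ ^ (3 * (m + 1)) + Δ τ * h' τ := by rw [h1, h2]; ring
      have hJ : (E₄ τ ^ 3 / Δ τ) ^ (m + 1) * Δ τ ^ (m + 1) = E₄ τ ^ (3 * (m + 1)) := by
        rw [div_pow, div_mul_cancel₀ _ (pow_ne_zero _ hΔ), ← pow_mul]
      rw [h3, hp' τ, eval_add, eval_mul, eval_C, eval_pow, eval_X, ← hJ, Jfun_def]
      ring

/-- `Δ ^ m * f` is slash-invariant of weight `12 m` if `f` is `SL(2,ℤ)`-invariant. -/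
theorem discPow_mul_slash (f : ℍ → ℂ) (inv : ∀ (γ : SL(2, ℤ)) (τ : ℍ), f (γ • τ) = f τ) (m : ℕ)
    (γ : SL(2, ℤ)) :
    (fun τ => Δ τ ^ m * f τ) ∣[(12 * m : ℤ)] γ = fun τ => Δ τ ^ m * f τ := by
  ext τ
  rw [SL_slash_apply]
  have hγ : (γ : GL (Fin 2) ℝ) ∈ 𝒮ℒ := ⟨γ, rfl⟩
  have h := SlashInvariantForm.slash_action_eqn'' CuspForm.discriminant hγ τ
  have hd : denom (γ : GL (Fin 2) ℝ) τ ≠ 0 := denom_ne_zero _ _
  have h' : Δ (γ • τ) = denom (γ : GL (Fin 2) ℝ) τ ^ (12 : ℤ) * Δ τ := h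
  rw [inv γ τ, h', mul_pow, ← zpow_natCast (denom (γ : GL (Fin 2) ℝ) τ ^ (12 : ℤ)) m, ← zpow_mul,
    zpow_neg]
  field_simp

/-- The modular form `Δ ^ m * f` attached to a holomorphic invariant function `f` with
`Δ ^ m * f` bounded at `i∞`. -/
def mfOfInvariant (f : ℍ → ℂ) (hol : MDiff f)
    (inv : ∀ (γ : SL(2, ℤ)) (τ : ℍ), f (γ • τ) = f τ) (m : ℕ)
    (bdd : IsBoundedAtImInfty (fun τ => Δ τ ^ m * f τ)) : ModularForm 𝒮ℒ (12 * m) where
  toFun τ := Δ τ ^ m * f τ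
  slash_action_eq' := fun _ ⟨γ, hγ⟩ ↦ hγ ▸ discPow_mul_slash f inv m γ
  holo' := (CuspForm.discriminant.holo'.pow m).mul hol
  bdd_at_cusps' {c} hc := by
    rw [Subgroup.IsArithmetic.isCusp_iff_isCusp_SL2Z] at hc
    rw [isBoundedAt_iff_forall_SL2Z hc]
    intro γ _
    rw [discPow_mul_slash f inv m γ]
    exact bdd

/-- A holomorphic `SL(2,ℤ)`-invariant function on `ℍ` with at most a pole of order `m` at `i∞`
is a polynomial of degree `≤ m` in `Jfun`. -/
theorem exists_poly_of_invariant (f : ℍ → ℂ) (hol : MDiff f)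
    (inv : ∀ (γ : SL(2, ℤ)) (τ : ℍ), f (γ • τ) = f τ) (m : ℕ)
    (bdd : IsBoundedAtImInfty (fun τ => Δ τ ^ m * f τ)) :
    ∃ p : ℂ[X], p.natDegree ≤ m ∧ ∀ τ : ℍ, f τ = p.eval (Jfun τ) := by
  obtain ⟨p, hp, h⟩ := exists_poly_of_modularForm m (12 * m) rfl (mfOfInvariant f hol inv m bdd)
  refine ⟨p, hp, fun τ => ?_⟩
  have h1 : Δ τ ^ m * f τ = Δ τ ^ m * p.eval (Jfun τ) := h τ
  exact mul_left_cancel₀ (pow_ne_zero m (discriminant_ne_zero τ)) h1

end Fermat.Agent.S24
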