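import Fermat.Agent.S24.CuspAnalysis
import Fermat.Agent.S24.ModelGamma
import Fermat.Agent.S24.LevelOneA
import Fermat.Agent.S22.Decomp

/-!
# S24 piece P5c, part 2: the elements of `Ban N` at the cusp `i∞`

Every `b ∈ Ban N` is `N`-periodic and its cusp function `cuspFn N b` is meromorphic at `0`;
it is not identically zero near `0` unless `b = 0`.  The cusp function of `Jfun` has order `-N`.
-/

set_option autoImplicit false

noncomputable section

open Complex Filter Topology UpperHalfPlane Function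
open scoped MatrixGroups Manifold

namespace Fermat.Agent.S24

attribute [local instance] algKbC

/-! ### `Jfun` at the cusp -/

theorem isPer_one_Jfun : IsPer 1 Jfun := by
  intro τ
  have := Jfun_smul ModularGroup.T τ
  rw [modular_T_smul] at this
  simpa using this

/-- The cusp function of `Jfun` (in `q = q_1`) is `q⁻¹ · g` with `g` analytic, `g 0 = 1`. -/
theorem exists_analyticAt_cuspFn_Jfun :
    ∃ g : ℂ → ℂ, AnalyticAt ℂ g 0 ∧ g 0 = 1 ∧
      ∀ᶠ q in 𝓝[≠] (0 : ℂ), cuspFn 1 Jfun q = q ^ (-(1 : ℤ)) * g q := by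
  have h := exists_analyticAt_cuspFn (N := 1) one_pos Jfun_mdifferentiable isPer_one_Jfun 1 1
    (by simpa using tendsto_qParam_mul_Jfun)
  simpa using h

theorem meromorphicAt_cuspFn_one_Jfun : MeromorphicAt (cuspFn 1 Jfun) 0 := by
  obtain ⟨g, hg, -, h⟩ := exists_analyticAt_cuspFn_Jfun
  exact meromorphicAt_of_eventually_eq_zpow_mul hg h

theorem meromorphicOrderAt_cuspFn_one_Jfun :
    meromorphicOrderAt (cuspFn 1 Jfun) 0 = ((-1 : ℤ) : WithTop ℤ) := by
  obtain ⟨g, hg, hg0, h⟩ := exists_analyticAt_cuspFn_Jfun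
  exact meromorphicOrderAt_of_eventually_eq_zpow_mul hg (by rw [hg0]; exact one_ne_zero) h

/-! ### Upper triangular matrices -/

theorem coe_upperTri_smul (a b d : ℝ) (ha : 0 < a) (hd : 0 < d) (τ : ℍ) :
    ((ModularForm.upperTriangularGL a b d (mul_pos ha hd).ne' • τ : ℍ) : ℂ) = (a * τ + b) / d := by
  have hdet : 0 < ((ModularForm.upperTriangularGL a b d (mul_pos ha hd).ne').det : ℝ) := by
    rw [Matrix.GeneralLinearGroup.val_det_apply, ModularForm.val_upperTriangularGL,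
      Matrix.det_fin_two_of]
    simpa using mul_pos ha hd
  rw [UpperHalfPlane.coe_smul_of_det_pos hdet]
  simp [UpperHalfPlane.num, UpperHalfPlane.denom, ModularForm.val_upperTriangularGL]

/-- `q_1((aτ+b)/d) = ζ · q_N(τ)^(a k)` if `N = d k`. -/
theorem qParam_one_upperTri {N : ℕ} (a d k : ℕ) (b : ℤ) (hd : 0 < d) (hN : N = d * k)
    (hN0 : 0 < N) (z : ℂ) :
    Function.Periodic.qParam (1 : ℝ) (((a : ℝ) * z + (b : ℝ)) / (d : ℝ))
      = Function.Periodic.qParam (1 : ℝ) (((b : ℝ) : ℂ) / (d : ℝ)) *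
          Function.Periodic.qParam (N : ℝ) z ^ (a * k) := by
  have hd' : (d : ℂ) ≠ 0 := by exact_mod_cast hd.ne'
  have hk : 0 < k := by
    rcases Nat.eq_zero_or_pos k with h | h
    · rw [h, mul_zero] at hN; omega
    · exact h
  have hk' : (k : ℂ) ≠ 0 := by exact_mod_cast hk.ne'
  simp only [Function.Periodic.qParam]
  rw [← Complex.exp_nat_mul, ← Complex.exp_add]
  congr 1
  rw [hN]
  push_cast
  field_simp
  ring

/-- Hermite normal form of a level matrix. -/
theorem IsLevelMatrix.exists_upperTri {N : ℕ} (hN : 0 < N) {g : GL (Fin 2) ℝ}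
    (hg : IsLevelMatrix N g) :
    ∃ (δ : SL(2, ℤ)) (a d k : ℕ) (b : ℤ) (ha : 0 < a) (hd : 0 < d), 0 < k ∧ N = d * k ∧
      g = (δ : GL (Fin 2) ℝ) * ModularForm.upperTriangularGL (a : ℝ) (b : ℝ) (d : ℝ)
        (mul_pos (Nat.cast_pos.mpr ha) (Nat.cast_pos.mpr hd)).ne' := by
  obtain ⟨A, hA, hAN, hgA⟩ := hg
  obtain ⟨δ, a, b, d, ha, hd, h⟩ := Fermat.Agent.S22.exists_SL2_mul_upper A hA
  lift a to ℕ using ha.le
  lift d to ℕ using hd.le
  have ha' : 0 < a := by exact_mod_cast ha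
  have hd' : 0 < d := by exact_mod_cast hd
  have hdet : A.det = (a : ℤ) * d := by
    rw [h, Matrix.det_mul, δ.det_coe, Matrix.det_fin_two_of]; ring
  have hdvd : a * d ∣ N := by
    have : A.det.natAbs = a * d := by
      rw [hdet]; simp [Int.natAbs_mul]
    rwa [this] at hAN
  obtain ⟨k', hk'⟩ := hdvd
  have hk0 : 0 < a * k' := by
    rcases Nat.eq_zero_or_pos (a * k') with h0 | h0
    · have : N = 0 := by rw [hk', mul_right_comm, h0, zero_mul]
      omega
    · exact h0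
  refine ⟨δ, a, d, a * k', b, ha', hd', hk0, by rw [hk']; ring, ?_⟩
  apply Matrix.GeneralLinearGroup.ext
  intro i j
  have h1 : (g : Matrix (Fin 2) (Fin 2) ℝ) i j = ((A i j : ℤ) : ℝ) := by
    rw [hgA]; rfl
  have h2 := congrArg (fun M : Matrix (Fin 2) (Fin 2) ℤ => ((M i j : ℤ) : ℝ)) h
  simp only [Matrix.mul_apply, Fin.sum_univ_two] at h2
  rw [h1, h2]
  simp only [Matrix.GeneralLinearGroup.coe_mul, ModularForm.val_upperTriangularGL,
    Matrix.mul_apply, Fin.sum_univ_two]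
  fin_cases i <;> fin_cases j <;> simp

/-- Near `0`, the cusp function of `Jcomp g` is `G (ζ q ^ e)`, `G` the cusp function of `Jfun`. -/
theorem cuspFn_Jcomp_eventually {N : ℕ} (hN : 0 < N) {g : GL (Fin 2) ℝ}
    (hg : IsLevelMatrix N g) :
    ∃ (ζ : ℂ) (e : ℕ), 0 < e ∧ ζ ≠ 0 ∧
      ∀ᶠ q in 𝓝[≠] (0 : ℂ), cuspFn N (Jcomp g) q = cuspFn 1 Jfun (ζ * q ^ e) := by
  obtain ⟨δ, a, d, k, b, ha, hd, hk, hNdk, hgu⟩ := hg.exists_upperTri hN
  refine ⟨Function.Periodic.qParam (1 : ℝ) (((b : ℝ) : ℂ) / (d : ℝ)), a * k, Nat.mul_pos ha hk,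
    Function.Periodic.qParam_ne_zero _, ?_⟩
  filter_upwards [eventually_punctured_disc] with q hq
  set τ : ℍ := ofComplex (Function.Periodic.invQParam (N : ℝ) q) with hτ
  have hqτ : Function.Periodic.qParam (N : ℝ) (τ : ℂ) = q :=
    qParam_ofComplex_invQParam hN hq.1 hq.2
  set u : GL (Fin 2) ℝ := ModularForm.upperTriangularGL (a : ℝ) (b : ℝ) (d : ℝ)
        (mul_pos (Nat.cast_pos.mpr ha) (Nat.cast_pos.mpr hd)).ne' with hu
  have e1 : cuspFn N (Jcomp g) q = Jfun (u • τ) := by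
    rw [cuspFn_apply, ← hτ, Jcomp, hgu, mul_smul]
    exact Jfun_smul δ (u • τ)
  have e2 : Jfun (u • τ) = cuspFn 1 Jfun (Function.Periodic.qParam ((1 : ℕ) : ℝ) (u • τ : ℍ)) :=
    (cuspFn_qParam one_pos isPer_one_Jfun (u • τ)).symm
  rw [e1, e2, Nat.cast_one, hu, coe_upperTri_smul _ _ _ (Nat.cast_pos.mpr ha) (Nat.cast_pos.mpr hd),
    qParam_one_upperTri a d k b hd hNdk hN, hqτ]

theorem isPer_of_mem_Ban {N : ℕ} {f : ℍ → ℂ} (hf : f ∈ Ban N) : IsPer N f := by
  intro τ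
  have hT : ModularGroup.T ^ (N : ℤ) ∈ CongruenceSubgroup.Gamma N := by
    simpa using CongruenceSubgroup.ModularGroup_T_pow_mem_Gamma (N : ℤ) (N : ℤ) dvd_rfl
  have := smul_of_mem_Ban_of_mem_Gamma hf hT τ
  rw [modular_T_zpow_smul] at this
  simpa using this

theorem meromorphicAt_cuspFn_Jcomp {N : ℕ} (hN : 0 < N) {g : GL (Fin 2) ℝ}
    (hg : IsLevelMatrix N g) : MeromorphicAt (cuspFn N (Jcomp g)) 0 := by
  obtain ⟨ζ, e, he, -, h⟩ := cuspFn_Jcomp_eventually hN hg
  exact (meromorphicAt_comp_mul_pow meromorphicAt_cuspFn_one_Jfun ζ he).congr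
    (h.mono fun q hq => hq.symm)

/-- The cusp function of every element of `Ban N` is meromorphic at `0`. -/
theorem meromorphicAt_cuspFn_of_mem_Ban {N : ℕ} (hN : 0 < N) {f : ℍ → ℂ} (hf : f ∈ Ban N) :
    MeromorphicAt (cuspFn N f) 0 := by
  induction hf using Algebra.adjoin_induction with
  | mem x hx =>
    obtain ⟨g, hg, rfl⟩ := hx
    exact meromorphicAt_cuspFn_Jcomp hN hg
  | algebraMap r => exact MeromorphicAt.const _ _
  | add x y _ _ hx hy => exact hx.add hy
  | mul x y _ _ hx hy => exact hx.mul hy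

/-- The cusp function of a nonzero element of `Ban N` does not vanish identically near `0`. -/
theorem meromorphicOrderAt_cuspFn_ne_top {N : ℕ} (hN : 0 < N) {f : ℍ → ℂ} (hf : f ∈ Ban N)
    (hf0 : f ≠ 0) : meromorphicOrderAt (cuspFn N f) 0 ≠ ⊤ := by
  intro h
  rw [meromorphicOrderAt_eq_top_iff] at h
  exact hf0 (eq_zero_of_cuspFn_eventually_zero hN (mdifferentiable_of_mem_Ban hf)
    (isPer_of_mem_Ban hf) h)

/-- The cusp function of `Jfun` in `q_N` has order `-N` at `0`. -/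
theorem meromorphicOrderAt_cuspFn_Jfun {N : ℕ} (hN : 0 < N) :
    meromorphicOrderAt (cuspFn N Jfun) 0 = ((-(N : ℤ) : ℤ) : WithTop ℤ) := by
  have h : ∀ᶠ q in 𝓝[≠] (0 : ℂ), cuspFn N Jfun q = cuspFn 1 Jfun (1 * q ^ N) := by
    filter_upwards [eventually_punctured_disc] with q hq
    set τ : ℍ := ofComplex (Function.Periodic.invQParam (N : ℝ) q) with hτ
    have hqτ : Function.Periodic.qParam (N : ℝ) (τ : ℂ) = q :=
      qParam_ofComplex_invQParam hN hq.1 hq.2
    have e2 : Jfun τ = cuspFn 1 Jfun (Function.Periodic.qParam ((1 : ℕ) : ℝ) (τ : ℂ)) :=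
      (cuspFn_qParam one_pos isPer_one_Jfun τ).symm
    rw [cuspFn_apply, ← hτ, e2, one_mul, ← hqτ]
    congr 1
    simp only [Function.Periodic.qParam, Nat.cast_one]
    rw [← Complex.exp_nat_mul]
    congr 1
    have : (N : ℂ) ≠ 0 := by exact_mod_cast hN.ne'
    push_cast
    field_simp
  rw [meromorphicOrderAt_congr h,
    meromorphicOrderAt_comp_mul_pow meromorphicAt_cuspFn_one_Jfun one_ne_zero hN,
    meromorphicOrderAt_cuspFn_one_Jfun]
  norm_cast
  simp

end Fermat.Agent.S24
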