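import Mathlib

/-!
# S24 piece P5b (part 1) — leading coefficients of analytic functions at a point

`IsLead f z₀ n c`: near `z₀`, `f z = (z - z₀) ^ n * g z` with `g` analytic at `z₀`, `g z₀ = c ≠ 0`.
Behaviour under products and under composition with a map `μ` fixing `z₀`
(`lead (f ∘ μ) = μ'(z₀) ^ n * lead f`).
-/

set_option autoImplicit false

noncomputable section

open Filter Topology

namespace Fermat.Agent.S24

/-- Near `z₀`, `f z = (z - z₀) ^ n * g z` with `g` analytic at `z₀` and `g z₀ = c ≠ 0`. -/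
def IsLead (f : ℂ → ℂ) (z₀ : ℂ) (n : ℕ) (c : ℂ) : Prop :=
  c ≠ 0 ∧ ∃ g : ℂ → ℂ, AnalyticAt ℂ g z₀ ∧ g z₀ = c ∧ ∀ᶠ z in 𝓝 z₀, f z = (z - z₀) ^ n * g z

theorem IsLead.analyticAt {f : ℂ → ℂ} {z₀ : ℂ} {n : ℕ} {c : ℂ} (h : IsLead f z₀ n c) :
    AnalyticAt ℂ f z₀ := by
  obtain ⟨-, g, hg, -, hfg⟩ := h
  have h1 : AnalyticAt ℂ (fun z => (z - z₀) ^ n * g z) z₀ := by fun_prop
  exact h1.congr (hfg.mono fun z hz => hz.symm)

theorem IsLead.order_eq {f : ℂ → ℂ} {z₀ : ℂ} {n : ℕ} {c : ℂ} (h : IsLead f z₀ n c) :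
    analyticOrderAt f z₀ = n := by
  have hf := h.analyticAt
  obtain ⟨hc, g, hg, hgc, hfg⟩ := h
  rw [hf.analyticOrderAt_eq_natCast]
  exact ⟨g, hg, by rw [hgc]; exact hc, by simpa [smul_eq_mul] using hfg⟩

theorem exists_isLead {f : ℂ → ℂ} {z₀ : ℂ} (hf : AnalyticAt ℂ f z₀)
    (htop : analyticOrderAt f z₀ ≠ ⊤) :
    ∃ c, IsLead f z₀ (analyticOrderAt f z₀).toNat c := by
  obtain ⟨g, hg, hg0, hfg⟩ := (hf.analyticOrderAt_ne_top).mp htop
  refine ⟨g z₀, hg0, g, hg, rfl, ?_⟩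
  have h1 : ∀ᶠ z in 𝓝 z₀, f z = (z - z₀) ^ analyticOrderNatAt f z₀ • g z := hfg
  simpa [analyticOrderNatAt, smul_eq_mul] using h1

theorem IsLead.congr {f f' : ℂ → ℂ} {z₀ : ℂ} {n : ℕ} {c : ℂ} (h : IsLead f z₀ n c)
    (hff' : f =ᶠ[𝓝 z₀] f') : IsLead f' z₀ n c := by
  obtain ⟨hc, g, hg, hgc, hfg⟩ := h
  refine ⟨hc, g, hg, hgc, ?_⟩
  filter_upwards [hfg, hff'] with z h1 h2
  rw [← h2, h1]

/-- The leading coefficient (and exponent) is unique. -/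
theorem IsLead.unique {f : ℂ → ℂ} {z₀ : ℂ} {n n' : ℕ} {c c' : ℂ} (h : IsLead f z₀ n c)
    (h' : IsLead f z₀ n' c') : n = n' ∧ c = c' := by
  have hn : n = n' := by
    have h1 := h.order_eq
    rw [h'.order_eq] at h1
    exact_mod_cast h1.symm
  subst hn
  refine ⟨rfl, ?_⟩
  obtain ⟨-, g, hg, hgc, hfg⟩ := h
  obtain ⟨-, g', hg', hgc', hfg'⟩ := h'
  -- `g` and `g'` agree on a punctured neighbourhood, hence at `z₀` by continuity
  have hev : ∀ᶠ z in 𝓝[≠] z₀, g z = g' z := by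
    have h1 : ∀ᶠ z in 𝓝[≠] z₀, f z = (z - z₀) ^ n * g z := hfg.filter_mono nhdsWithin_le_nhds
    have h2 : ∀ᶠ z in 𝓝[≠] z₀, f z = (z - z₀) ^ n * g' z := hfg'.filter_mono nhdsWithin_le_nhds
    filter_upwards [h1, h2, self_mem_nhdsWithin] with z hz1 hz2 hz
    have hne : (z - z₀) ^ n ≠ 0 := pow_ne_zero _ (sub_ne_zero.mpr hz)
    rw [hz1] at hz2
    exact mul_left_cancel₀ hne hz2
  have hfreq : ∃ᶠ z in 𝓝[≠] z₀, g z = g' z := hev.frequently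
  have := (hg.frequently_eq_iff_eventually_eq hg').mp hfreq
  rw [← hgc, ← hgc']
  exact this.self_of_nhds

theorem IsLead.mul {f f' : ℂ → ℂ} {z₀ : ℂ} {n n' : ℕ} {c c' : ℂ} (h : IsLead f z₀ n c)
    (h' : IsLead f' z₀ n' c') : IsLead (fun z => f z * f' z) z₀ (n + n') (c * c') := by
  obtain ⟨hc, g, hg, hgc, hfg⟩ := h
  obtain ⟨hc', g', hg', hgc', hfg'⟩ := h'
  refine ⟨mul_ne_zero hc hc', fun z => g z * g' z, hg.mul hg', ?_, ?_⟩
  · show g z₀ * g' z₀ = c * c'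
    rw [hgc, hgc']
  filter_upwards [hfg, hfg'] with z h1 h2
  rw [h1, h2]; ring

/-- Composition with an analytic map `μ` fixing `z₀`: the order is unchanged if `μ'(z₀) ≠ 0` and
the leading coefficient is multiplied by `μ'(z₀) ^ n`. -/
theorem IsLead.comp {f μ : ℂ → ℂ} {z₀ ν : ℂ} {n : ℕ} {c : ℂ} (h : IsLead f z₀ n c)
    (hμ : AnalyticAt ℂ μ z₀) (hfix : μ z₀ = z₀) (hν : HasDerivAt μ ν z₀) (hν0 : ν ≠ 0) :
    IsLead (fun z => f (μ z)) z₀ n (ν ^ n * c) := by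
  obtain ⟨hc, g, hg, hgc, hfg⟩ := h
  -- `μ z - z₀ = (z - z₀) * s z` with `s = dslope μ z₀`, `s z₀ = ν`
  have hs : AnalyticAt ℂ (dslope μ z₀) z₀ := by
    obtain ⟨p, hp⟩ := hμ
    exact hp.has_fpower_series_dslope_fslope.analyticAt
  have hsz : dslope μ z₀ z₀ = ν := by rw [dslope_same, hν.deriv]
  have hgμ : AnalyticAt ℂ (fun z => g (μ z)) z₀ := by
    have : AnalyticAt ℂ g (μ z₀) := by rw [hfix]; exact hg
    exact this.comp hμ
  refine ⟨mul_ne_zero (pow_ne_zero _ hν0) hc, fun z => (dslope μ z₀ z) ^ n * g (μ z),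
    (hs.pow n).mul hgμ, ?_, ?_⟩
  · show (dslope μ z₀ z₀) ^ n * g (μ z₀) = ν ^ n * c
    rw [hsz, hfix, hgc]
  have hcont : Tendsto μ (𝓝 z₀) (𝓝 z₀) := by
    have := hμ.continuousAt.tendsto
    rwa [hfix] at this
  filter_upwards [hcont.eventually hfg] with z hz
  rw [hz]
  have : μ z - z₀ = (z - z₀) * dslope μ z₀ z := by
    have := sub_smul_dslope μ z₀ z
    simp only [smul_eq_mul] at this
    rw [this, hfix]
  rw [this, mul_pow]; ring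

/-- **Key comparison**: if `a, b` have finite orders `n_a, n_b` at the fixed point `z₀` of `μ`
and `(a ∘ μ) * b = a * (b ∘ μ)` near `z₀`, then `μ'(z₀) ^ n_a = μ'(z₀) ^ n_b`. -/
theorem pow_deriv_eq_of_comp_mul_eq {a b μ : ℂ → ℂ} {z₀ ν : ℂ} {na nb : ℕ} {ca cb : ℂ}
    (ha : IsLead a z₀ na ca) (hb : IsLead b z₀ nb cb)
    (hμ : AnalyticAt ℂ μ z₀) (hfix : μ z₀ = z₀) (hν : HasDerivAt μ ν z₀) (hν0 : ν ≠ 0)
    (heq : ∀ᶠ z in 𝓝 z₀, a (μ z) * b z = a z * b (μ z)) :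
    ν ^ na = ν ^ nb := by
  have h1 : IsLead (fun z => a (μ z) * b z) z₀ (na + nb) (ν ^ na * ca * cb) :=
    (ha.comp hμ hfix hν hν0).mul hb
  have h2 : IsLead (fun z => a z * b (μ z)) z₀ (na + nb) (ca * (ν ^ nb * cb)) :=
    ha.mul (hb.comp hμ hfix hν hν0)
  have h3 := (h1.congr heq).unique h2
  have hca := ha.1
  have hcb := hb.1
  have h4 : ν ^ na * (ca * cb) = ν ^ nb * (ca * cb) := by
    have := h3.2
    linear_combination this
  exact mul_right_cancel₀ (mul_ne_zero hca hcb) h4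

end Fermat.Agent.S24
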