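import Fermat.Agent.S24.ModelGamma
import Fermat.Agent.S24.LeadCoeff

/-!
# S24 piece P5b (part 2) — the order of vanishing at a point `τ₀ ∈ ℍ` as a valuation on `Man N`

* `ordAt τ₀ f` (`analyticOrderAt` of `f ∘ ofComplex`), invariance under `SL(2,ℤ)`;
* `mobC γ` : the Möbius map on `ℂ`, its derivative `1 / denom γ τ₀ ^ 2`;
* `denom` is multiplicative on the stabiliser of `τ₀`;
* `valBan N τ₀ : Valuation (Ban N) ℤᵐ⁰`, `valMan N τ₀ : Valuation (Man N) ℤᵐ⁰`.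
-/

set_option autoImplicit false

noncomputable section

open UpperHalfPlane Filter Topology AlgebraicCurve WithZero
open scoped MatrixGroups Manifold ModularForm

namespace Fermat.Agent.S24

attribute [local instance] algKbC

/-! ### Order at a point of `ℍ` -/

/-- The order of vanishing of `f : ℍ → ℂ` at `τ₀`. -/
def ordAt (τ₀ : ℍ) (f : ℍ → ℂ) : ℕ∞ := analyticOrderAt (f ∘ ofComplex) (τ₀ : ℂ)

theorem ordAt_analyticAt {f : ℍ → ℂ} (hf : MDiff f) (τ₀ : ℍ) :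
    AnalyticAt ℂ (f ∘ ofComplex) (τ₀ : ℂ) := by
  rw [UpperHalfPlane.mdifferentiable_iff] at hf
  exact hf.analyticAt (isOpen_upperHalfPlaneSet.mem_nhds τ₀.im_pos)

theorem ordAt_ne_top {f : ℍ → ℂ} (hf : MDiff f) (h0 : f ≠ 0) (τ₀ : ℍ) : ordAt τ₀ f ≠ ⊤ := by
  intro htop
  apply h0
  rw [ordAt, analyticOrderAt_eq_top] at htop
  refine UpperHalfPlane.eq_zero_of_frequently hf (τ := τ₀) ?_
  have h1 : ∀ᶠ z in 𝓝 τ₀, f z = 0 := by
    rw [← isOpenEmbedding_coe.map_nhds_eq, eventually_map] at htop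
    filter_upwards [htop] with a ha
    simpa using ha
  exact (h1.filter_mono nhdsWithin_le_nhds).frequently

theorem ordAt_mul {f g : ℍ → ℂ} (hf : MDiff f) (hg : MDiff g) (τ₀ : ℍ) :
    ordAt τ₀ (f * g) = ordAt τ₀ f + ordAt τ₀ g :=
  analyticOrderAt_mul (ordAt_analyticAt hf τ₀) (ordAt_analyticAt hg τ₀)

theorem le_ordAt_add (f g : ℍ → ℂ) (τ₀ : ℍ) :
    min (ordAt τ₀ f) (ordAt τ₀ g) ≤ ordAt τ₀ (f + g) :=
  le_analyticOrderAt_add

theorem ordAt_const {c : ℂ} (hc : c ≠ 0) (τ₀ : ℍ) : ordAt τ₀ (fun _ => c) = 0 := by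
  rw [ordAt, analyticOrderAt_eq_zero]
  exact Or.inr hc

theorem SL_val_det (γ : SL(2, ℤ)) : ((γ : GL (Fin 2) ℝ)).val.det = 1 := by
  have h := (Matrix.SpecialLinearGroup.map (Int.castRingHom ℝ) γ).det_coe
  simpa using h

theorem SL_val_det_pos (γ : SL(2, ℤ)) : 0 < ((γ : GL (Fin 2) ℝ)).val.det := by
  rw [SL_val_det]; exact one_pos

/-- The map `z ↦ γ z` on `ℂ` (through `ofComplex`). -/
def mobC (γ : SL(2, ℤ)) (z : ℂ) : ℂ := ((γ • ofComplex z : ℍ) : ℂ)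

theorem comp_smul_comp_ofComplex (f : ℍ → ℂ) (γ : SL(2, ℤ)) :
    ((fun τ => f (γ • τ)) ∘ ofComplex) = fun z => (f ∘ ofComplex) (mobC γ z) := by
  funext z
  simp [mobC]

theorem analyticAt_mobC (γ : SL(2, ℤ)) (τ₀ : ℍ) : AnalyticAt ℂ (mobC γ) (τ₀ : ℂ) :=
  τ₀.analyticAt_smul (SL_val_det_pos γ)

theorem hasDerivAt_mobC (γ : SL(2, ℤ)) (τ₀ : ℍ) :
    HasDerivAt (mobC γ) (1 / denom γ τ₀ ^ 2) (τ₀ : ℂ) := by
  have h := (τ₀.hasStrictDerivAt_smul (SL_val_det_pos γ)).hasDerivAt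
  rw [SL_val_det, Complex.ofReal_one] at h
  exact h

theorem mobC_coe (γ : SL(2, ℤ)) (τ₀ : ℍ) : mobC γ (τ₀ : ℂ) = ((γ • τ₀ : ℍ) : ℂ) := by
  simp [mobC]

/-- Invariance of the order under `γ ∈ SL(2,ℤ)`. -/
theorem ordAt_comp_smul (f : ℍ → ℂ) (γ : SL(2, ℤ)) (τ₀ : ℍ) :
    ordAt τ₀ (fun τ => f (γ • τ)) = ordAt (γ • τ₀) f := by
  rw [ordAt, comp_smul_comp_ofComplex]
  have : (fun z => (f ∘ ofComplex) (mobC γ z)) = (f ∘ ofComplex) ∘ mobC γ := rfl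
  rw [this, analyticOrderAt_comp_of_deriv_ne_zero (analyticAt_mobC γ τ₀), mobC_coe]
  · rfl
  · rw [(hasDerivAt_mobC γ τ₀).deriv]
    exact one_div_ne_zero (pow_ne_zero _ (denom_ne_zero _ _))

/-! ### The valuation on `Ban N` and `Man N` attached to `τ₀` -/

theorem Ban_coe_ne_zero {N : ℕ} {f : Ban N} (hf : f ≠ 0) : (f : ℍ → ℂ) ≠ 0 :=
  fun h => hf (Subtype.ext h)

/-- The integer order at `τ₀` of an element of `Ban N`. -/
def ordBan (N : ℕ) (τ₀ : ℍ) (f : Ban N) : ℕ := (ordAt τ₀ (f : ℍ → ℂ)).toNat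

theorem coe_ordBan {N : ℕ} (τ₀ : ℍ) {f : Ban N} (hf : f ≠ 0) :
    (ordBan N τ₀ f : ℕ∞) = ordAt τ₀ (f : ℍ → ℂ) :=
  ENat.natCast_toNat (ordAt_ne_top (mdifferentiable_of_mem_Ban f.2) (Ban_coe_ne_zero hf) τ₀)

theorem ordBan_mul {N : ℕ} (τ₀ : ℍ) {f g : Ban N} (hf : f ≠ 0) (hg : g ≠ 0) :
    ordBan N τ₀ (f * g) = ordBan N τ₀ f + ordBan N τ₀ g := by
  have h := ordAt_mul (mdifferentiable_of_mem_Ban f.2) (mdifferentiable_of_mem_Ban g.2) τ₀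
  have h1 : ((f * g : Ban N) : ℍ → ℂ) = (f : ℍ → ℂ) * (g : ℍ → ℂ) := rfl
  rw [← h1, ← coe_ordBan τ₀ hf, ← coe_ordBan τ₀ hg, ← coe_ordBan τ₀ (mul_ne_zero hf hg)] at h
  exact_mod_cast h

theorem min_le_ordBan_add {N : ℕ} (τ₀ : ℍ) {f g : Ban N} (hf : f ≠ 0) (hg : g ≠ 0)
    (hfg : f + g ≠ 0) : min (ordBan N τ₀ f) (ordBan N τ₀ g) ≤ ordBan N τ₀ (f + g) := by
  have h := le_ordAt_add (f : ℍ → ℂ) (g : ℍ → ℂ) τ₀
  have h1 : ((f + g : Ban N) : ℍ → ℂ) = (f : ℍ → ℂ) + (g : ℍ → ℂ) := rfl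
  rw [← h1, ← coe_ordBan τ₀ hf, ← coe_ordBan τ₀ hg, ← coe_ordBan τ₀ hfg] at h
  rw [min_le_iff] at h ⊢
  rcases h with h | h
  · exact Or.inl (by exact_mod_cast h)
  · exact Or.inr (by exact_mod_cast h)

theorem ordBan_algebraMap {N : ℕ} (τ₀ : ℍ) (a : Kb) : ordBan N τ₀ (algebraMap Kb (Ban N) a) = 0 := by
  rcases eq_or_ne a 0 with rfl | ha
  · simp only [map_zero, ordBan]
    have : ((0 : Ban N) : ℍ → ℂ) = fun _ => (0 : ℂ) := rfl
    rw [this, ordAt, analyticOrderAt_eq_top.mpr (by simp)]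
    rfl
  · have h1 : ((algebraMap Kb (Ban N) a : Ban N) : ℍ → ℂ) = fun _ => embC a := rfl
    rw [ordBan, h1, ordAt_const (by simpa using ha)]
    rfl

theorem ordBan_one {N : ℕ} (τ₀ : ℍ) : ordBan N τ₀ 1 = 0 := by
  have := ordBan_algebraMap (N := N) τ₀ 1
  simpa using this

/-- The valuation on `Ban N` given by the order of vanishing at `τ₀`. -/
def valBan (N : ℕ) (τ₀ : ℍ) : Valuation (Ban N) ℤᵐ⁰ where
  toFun f := open Classical in if f = 0 then 0 else WithZero.exp (-(ordBan N τ₀ f : ℤ))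
  map_zero' := by simp
  map_one' := by simp [ordBan_one]
  map_mul' f g := by
    rcases eq_or_ne f 0 with rfl | hf
    · simp
    rcases eq_or_ne g 0 with rfl | hg
    · simp
    simp only [hf, hg, mul_ne_zero hf hg, if_false, ordBan_mul τ₀ hf hg, ← WithZero.exp_add]
    congr 1
    push_cast
    ring
  map_add_le_max' f g := by
    rcases eq_or_ne f 0 with rfl | hf
    · rw [zero_add]; exact le_max_right _ _
    rcases eq_or_ne g 0 with rfl | hg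
    · rw [add_zero]; exact le_max_left _ _
    rcases eq_or_ne (f + g) 0 with hfg | hfg
    · simp [hfg]
    simp only [hf, hg, hfg, if_false]
    have h := min_le_ordBan_add τ₀ hf hg hfg
    rcases min_le_iff.mp h with h | h
    · exact le_max_of_le_left (WithZero.exp_le_exp.mpr (by omega))
    · exact le_max_of_le_right (WithZero.exp_le_exp.mpr (by omega))

theorem valBan_apply {N : ℕ} (τ₀ : ℍ) {f : Ban N} (hf : f ≠ 0) :
    valBan N τ₀ f = WithZero.exp (-(ordBan N τ₀ f : ℤ)) := by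
  classical
  show (if f = 0 then 0 else WithZero.exp (-(ordBan N τ₀ f : ℤ))) = _
  rw [if_neg hf]

theorem valBan_ne_zero {N : ℕ} (τ₀ : ℍ) {f : Ban N} (hf : f ≠ 0) : valBan N τ₀ f ≠ 0 := by
  rw [valBan_apply τ₀ hf]; exact WithZero.exp_ne_zero

theorem nonZeroDivisors_le_primeCompl (N : ℕ) (τ₀ : ℍ) :
    nonZeroDivisors (Ban N) ≤ (valBan N τ₀).supp.primeCompl := by
  intro f hf
  have hf0 : f ≠ 0 := nonZeroDivisors.ne_zero hf
  show f ∉ (valBan N τ₀).supp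
  rw [Valuation.mem_supp_iff]
  exact valBan_ne_zero τ₀ hf0

/-- The valuation on `Man N` given by the order at `τ₀`. -/
def valMan (N : ℕ) (τ₀ : ℍ) : Valuation (Man N) ℤᵐ⁰ :=
  (valBan N τ₀).extendToLocalization (nonZeroDivisors_le_primeCompl N τ₀) (Man N)

theorem valMan_algebraMap {N : ℕ} (τ₀ : ℍ) (f : Ban N) :
    valMan N τ₀ (algebraMap (Ban N) (Man N) f) = valBan N τ₀ f :=
  Valuation.extendToLocalization_apply_map_apply _ _ _ f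

/-! ### `denom` on the stabiliser of `τ₀` -/


theorem denom_mul_SL (γ δ : SL(2, ℤ)) (τ : ℍ) :
    denom (γ * δ : SL(2, ℤ)) τ = denom γ (δ • τ : ℍ) * denom δ τ := by
  have h := denom_cocycle (γ : GL (Fin 2) ℝ) (δ : GL (Fin 2) ℝ) (z := (τ : ℂ)) τ.im_ne_zero
  have h2 : ((δ • τ : ℍ) : ℂ) = num δ τ / denom δ τ := by
    rw [ModularGroup.sl_moeb, coe_smul_of_det_pos (by simp)]
  rw [h2, ← h]
  simp

theorem denom_one_SL (τ : ℍ) : denom ((1 : SL(2, ℤ)) : GL (Fin 2) ℝ) τ = 1 := by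
  simp [denom]

theorem denom_pow_of_fix {ε : SL(2, ℤ)} {τ₀ : ℍ} (hfix : ε • τ₀ = τ₀) (k : ℕ) :
    (ε ^ k) • τ₀ = τ₀ ∧ denom (ε ^ k : SL(2, ℤ)) τ₀ = (denom ε τ₀) ^ k := by
  induction k with
  | zero => exact ⟨by simp, by simp⟩
  | succ k ih =>
    refine ⟨?_, ?_⟩
    · rw [pow_succ, mul_smul, hfix, ih.1]
    · rw [pow_succ, denom_mul_SL, hfix, ih.2, pow_succ]

theorem denom_inv_of_fix {γ : SL(2, ℤ)} {τ₀ : ℍ} (hfix : γ • τ₀ = τ₀) :
    γ⁻¹ • τ₀ = τ₀ ∧ denom (γ⁻¹ : SL(2, ℤ)) τ₀ = (denom γ τ₀)⁻¹ := by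
  have h1 : γ⁻¹ • τ₀ = τ₀ := by
    conv_lhs => rw [← hfix]
    rw [inv_smul_smul]
  refine ⟨h1, ?_⟩
  have h2 := denom_mul_SL γ⁻¹ γ τ₀
  rw [inv_mul_cancel, hfix] at h2
  have h3 : denom ((1 : SL(2, ℤ)) : GL (Fin 2) ℝ) τ₀ = 1 := denom_one_SL τ₀
  rw [h3] at h2
  exact eq_inv_of_mul_eq_one_left h2.symm

end Fermat.Agent.S24
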