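import Mathlib
import Fermat.Prelude.Def_AlgebraicCurve_DivisorClassGroup
import Fermat.Prelude.Def_AlgebraicCurve_Repartitions

/-!
# S24, piece P2: counting places over a point via a Galois realization

Abstract setting: `K` a field, `F`, `M` fields over `K`, `φ : F →ₐ[K] M`, a group `Γ` acting on `M`
through `act : Γ →* (M ≃ₐ[K] M)`.
-/

set_option autoImplicit false

noncomputable section

open AlgebraicCurve IntermediateField Polynomial

namespace Fermat.Agent.S24

section PlaceBasics

variable {K F : Type*} [Field K] [Field F] [Algebra K F]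

/-- Membership in the valuation ring of a place in terms of `ord`. -/
theorem place_mem_iff (v : Place K F) {f : F} (hf : f ≠ 0) :
    f ∈ v.toValuationSubring ↔ 0 ≤ v.ord f := by
  constructor
  · intro h
    have h1 := v.adicValuation_le_one_of_mem h
    rcases v.adicValuation_le_one_iff.mp h1 with h0 | h0
    · exact absurd h0 hf
    · exact h0
  · intro h
    obtain ⟨π, hπ⟩ := IsDiscreteValuationRing.exists_irreducible v.toValuationSubring
    obtain ⟨u, hu⟩ := v.exists_unit_mul_zpow hf hπ
    rw [hu]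
    refine v.toValuationSubring.mul_mem _ _ (u : v.toValuationSubring).2 ?_
    obtain ⟨n, hn⟩ := Int.eq_ofNat_of_zero_le h
    rw [hn, zpow_natCast]
    exact pow_mem π.2 n

theorem place_mem_iff' (v : Place K F) {f : F} :
    f ∈ v.toValuationSubring ↔ f = 0 ∨ 0 ≤ v.ord f := by
  rcases eq_or_ne f 0 with rfl | hf
  · simp [zero_mem]
  · rw [place_mem_iff v hf]; simp [hf]

/-- Units of the valuation ring have `ord = 0`. -/
theorem place_ord_eq_zero_of_mem_of_inv_mem (v : Place K F) {f : F}
    (h1 : f ∈ v.toValuationSubring) (h2 : f⁻¹ ∈ v.toValuationSubring) (hf : f ≠ 0) :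
    v.ord f = 0 := by
  have a := (place_mem_iff v hf).mp h1
  have b := (place_mem_iff v (inv_ne_zero hf)).mp h2
  rw [v.ord_inv] at b
  omega

theorem place_ord_algebraMap (v : Place K F) (a : K) : v.ord (algebraMap K F a) = 0 := by
  rcases eq_or_ne a 0 with rfl | ha
  · simp
  · have hne : algebraMap K F a ≠ 0 := by simpa using ha
    refine place_ord_eq_zero_of_mem_of_inv_mem v (v.algebraMap_mem' a) ?_ hne
    rw [← map_inv₀]
    exact v.algebraMap_mem' a⁻¹

/-- There is an element of `ord = 1`. -/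
theorem place_exists_ord_eq_one (v : Place K F) : ∃ t : F, v.ord t = 1 := by
  obtain ⟨π, hπ⟩ := IsDiscreteValuationRing.exists_irreducible v.toValuationSubring
  exact ⟨π, v.ord_coe_irreducible hπ⟩

theorem place_ord_pow (v : Place K F) (f : F) (n : ℕ) : v.ord (f ^ n) = n * v.ord f := by
  have := v.ord_zpow f n
  simpa using this

/-- Nonunits of the valuation ring have positive `ord`. -/
theorem place_ord_pos_of_mem_of_inv_not_mem (v : Place K F) {f : F}
    (h1 : f ∈ v.toValuationSubring) (h2 : f⁻¹ ∉ v.toValuationSubring) (hf : f ≠ 0) :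
    0 < v.ord f := by
  have a := (place_mem_iff v hf).mp h1
  have b : ¬ (0 ≤ v.ord f⁻¹) := fun h => h2 ((place_mem_iff v (inv_ne_zero hf)).mpr h)
  rw [v.ord_inv] at b
  omega

/-- `ord (f + g) = ord f` if `ord f < ord g`, in the form we need: unit plus element of positive
order is a unit. -/
theorem place_ord_add_eq_zero (v : Place K F) {f g : F} (hf : v.ord f = 0) (hf0 : f ≠ 0)
    (hg : g = 0 ∨ 0 < v.ord g) : v.ord (f + g) = 0 := by
  rcases hg with rfl | hg
  · simpa using hf
  have hg0 : g ≠ 0 := by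
    rintro rfl
    simp at hg
  -- work in the local ring
  have hfm : f ∈ v.toValuationSubring := (place_mem_iff v hf0).mpr (by omega)
  have hgm : g ∈ v.toValuationSubring := (place_mem_iff v hg0).mpr (by omega)
  have hfi : f⁻¹ ∈ v.toValuationSubring :=
    (place_mem_iff v (inv_ne_zero hf0)).mpr (by rw [v.ord_inv]; omega)
  have hgi : g⁻¹ ∉ v.toValuationSubring := fun h => by
    have := (place_mem_iff v (inv_ne_zero hg0)).mp h
    rw [v.ord_inv] at this
    omega
  have hfu : IsUnit (⟨f, hfm⟩ : v.toValuationSubring) := by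
    refine IsUnit.of_mul_eq_one (⟨f⁻¹, hfi⟩ : v.toValuationSubring) ?_
    ext
    simp [hf0]
  have hgn : ¬ IsUnit (⟨g, hgm⟩ : v.toValuationSubring) := by
    intro hu
    obtain ⟨u, hu⟩ := hu
    apply hgi
    have : g⁻¹ = ((u⁻¹ : v.toValuationSubringˣ) : v.toValuationSubring) := by
      have h1 : (u : v.toValuationSubring) * ((u⁻¹ : v.toValuationSubringˣ) : v.toValuationSubring) = 1 := by
        simp
      have h2 := congrArg (Subtype.val) h1
      rw [hu] at h2
      simp only [MulMemClass.coe_mul, OneMemClass.coe_one] at h2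
      exact inv_eq_of_mul_eq_one_right h2
    rw [this]
    exact SetLike.coe_mem _
  have hsum : IsUnit ((⟨f, hfm⟩ : v.toValuationSubring) + ⟨g, hgm⟩) := by
    by_contra hns
    have hgmem : (⟨g, hgm⟩ : v.toValuationSubring) ∈ IsLocalRing.maximalIdeal v.toValuationSubring :=
      (IsLocalRing.mem_maximalIdeal _).mpr hgn
    have hsmem : ((⟨f, hfm⟩ : v.toValuationSubring) + ⟨g, hgm⟩) ∈
        IsLocalRing.maximalIdeal v.toValuationSubring :=
      (IsLocalRing.mem_maximalIdeal _).mpr hns
    have : (⟨f, hfm⟩ : v.toValuationSubring) ∈ IsLocalRing.maximalIdeal v.toValuationSubring := by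
      have h3 := Ideal.sub_mem _ hsmem hgmem
      rwa [add_sub_cancel_right] at h3
    exact ((IsLocalRing.mem_maximalIdeal _).mp this) hfu
  obtain ⟨u, hu⟩ := hsum
  have := v.ord_coe_unit u
  rw [hu] at this
  simpa using this

end PlaceBasics

section Comap

variable {K F M : Type*} [Field K] [Field F] [Field M] [Algebra K F] [Algebra K M]

/-- The value group of `w ∘ φ` on `F` is generated by a minimal positive value. -/
theorem exists_min_pos_ord (φ : F →ₐ[K] M) (w : Place K M) (hnt : ∃ f : F, 0 < w.ord (φ f)) :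
    ∃ t : F, 0 < w.ord (φ t) ∧ ∀ f : F, w.ord (φ t) ∣ w.ord (φ f) := by
  classical
  have hex : ∃ n : ℕ, 0 < n ∧ ∃ f : F, w.ord (φ f) = n := by
    obtain ⟨f, hf⟩ := hnt
    obtain ⟨n, hn⟩ := Int.eq_ofNat_of_zero_le hf.le
    exact ⟨n, by omega, f, hn⟩
  obtain ⟨hd0, t, ht⟩ := Nat.find_spec hex
  have hmin := fun m (hm : m < Nat.find hex) => Nat.find_min hex hm
  set d := Nat.find hex with hd
  have ht0 : t ≠ 0 := by
    rintro rfl
    simp at ht
    omega
  refine ⟨t, by rw [ht]; exact_mod_cast hd0, fun f => ?_⟩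
  rcases eq_or_ne f 0 with rfl | hf0
  · simp
  rw [ht]
  set a := w.ord (φ f) with ha
  have hdpos : (0 : ℤ) < d := by exact_mod_cast hd0
  have hr0 : 0 ≤ a % d := Int.emod_nonneg _ hdpos.ne'
  have hr1 : a % d < d := Int.emod_lt_of_pos _ hdpos
  by_contra hdvd
  have hrne : a % d ≠ 0 := fun h => hdvd (Int.dvd_of_emod_eq_zero h)
  obtain ⟨r, hr⟩ := Int.eq_ofNat_of_zero_le hr0
  have hφt : φ t ≠ 0 := by simpa using ht0
  have hφf : φ f ≠ 0 := by simpa using hf0
  have key : w.ord (φ (f * t ^ (-(a / d)))) = r := by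
    rw [map_mul, map_zpow₀, w.ord_mul hφf (zpow_ne_zero _ hφt), w.ord_zpow, ht, ← hr, ← ha]
    have := Int.emod_add_mul_ediv a d
    linarith [Int.emod_add_mul_ediv a d, mul_comm (a / (d : ℤ)) (d : ℤ)]
  have hrlt : r < d := by
    have : (r : ℤ) < d := by rw [← hr]; exact hr1
    exact_mod_cast this
  have hrpos : 0 < r := by
    rcases Nat.eq_zero_or_pos r with h | h
    · exfalso; apply hrne; rw [hr, h]; rfl
    · exact h
  exact hmin r hrlt ⟨hrpos, _, key⟩

/-- Restriction of a place of `M` to `F` along `φ`, provided it is nontrivial on `F`. -/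
def comapPlace (φ : F →ₐ[K] M) (w : Place K M) (hnt : ∃ f : F, 0 < w.ord (φ f)) : Place K F where
  toValuationSubring := w.toValuationSubring.comap (φ : F →+* M)
  algebraMap_mem' a := by
    show φ (algebraMap K F a) ∈ w.toValuationSubring
    rw [φ.commutes]
    exact w.algebraMap_mem' a
  ne_top' := by
    obtain ⟨f, hf⟩ := hnt
    intro htop
    have hf0 : f ≠ 0 := by
      rintro rfl
      simp at hf
    have hmem : f⁻¹ ∈ w.toValuationSubring.comap (φ : F →+* M) := by
      rw [htop]; exact ValuationSubring.mem_top _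
    have hmem' : φ f⁻¹ ∈ w.toValuationSubring := hmem
    have hne : φ f⁻¹ ≠ 0 := by simpa using hf0
    have := (place_mem_iff w hne).mp hmem'
    rw [map_inv₀, w.ord_inv] at this
    omega
  isPrincipalIdealRing' := by
    obtain ⟨t, htpos, htdvd⟩ := exists_min_pos_ord φ w hnt
    set A := w.toValuationSubring.comap (φ : F →+* M) with hA
    have memA : ∀ f : F, f ∈ A ↔ φ f ∈ w.toValuationSubring := fun f => Iff.rfl
    have ht0 : t ≠ 0 := by
      rintro rfl
      simp at htpos
    have hφt : φ t ≠ 0 := by simpa using ht0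
    have htA : t ∈ A := (memA t).mpr ((place_mem_iff w hφt).mpr htpos.le)
    -- elements of ord 0 are units
    have unit_of_ord : ∀ (u : F) (hu : u ∈ A), u ≠ 0 → w.ord (φ u) = 0 →
        IsUnit (⟨u, hu⟩ : A) := by
      intro u hu hu0 hord
      have hφu : φ u ≠ 0 := by simpa using hu0
      have hinv : u⁻¹ ∈ A := by
        rw [memA, map_inv₀]
        refine (place_mem_iff w (inv_ne_zero hφu)).mpr ?_
        rw [w.ord_inv, hord]; simp
      refine IsUnit.of_mul_eq_one (⟨u⁻¹, hinv⟩ : A) ?_
      ext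
      simp [hu0]
    have ord_nonneg : ∀ (u : F), u ∈ A → u ≠ 0 → 0 ≤ w.ord (φ u) := by
      intro u hu hu0
      have hφu : φ u ≠ 0 := by simpa using hu0
      exact (place_mem_iff w hφu).mp ((memA u).mp hu)
    have ord_unit : ∀ (u : A), IsUnit u → w.ord (φ (u : F)) = 0 := by
      intro u hu
      obtain ⟨u', rfl⟩ := hu
      have h1 : ((u' : A) : F) * ((u'⁻¹ : Aˣ) : A) = 1 := by
        have h0 : (u' : A) * ((u'⁻¹ : Aˣ) : A) = 1 := by simp
        have h00 := congrArg Subtype.val h0
        simp only [MulMemClass.coe_mul, OneMemClass.coe_one] at h00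
        exact h00
      have hu0 : ((u' : A) : F) ≠ 0 := left_ne_zero_of_mul_eq_one h1
      have hi0 : (((u'⁻¹ : Aˣ) : A) : F) ≠ 0 := right_ne_zero_of_mul_eq_one h1
      have h2 := ord_nonneg _ (u' : A).2 hu0
      have h3 := ord_nonneg _ ((u'⁻¹ : Aˣ) : A).2 hi0
      have h4 : w.ord (φ ((u' : A) : F)) + w.ord (φ (((u'⁻¹ : Aˣ) : A) : F)) = 0 := by
        rw [← w.ord_mul (by simpa using hu0) (by simpa using hi0), ← map_mul, h1, map_one, w.ord_one]
      omega
    haveI : IsDomain A := inferInstance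
    have hfact : IsDiscreteValuationRing.HasUnitMulPowIrreducibleFactorization A := by
      refine ⟨⟨t, htA⟩, ⟨?_, ?_⟩, ?_⟩
      · intro hu
        have := ord_unit _ hu
        simp only at this
        omega
      · intro a b hab
        have hab' : t = (a : F) * (b : F) := by
          have := congrArg Subtype.val hab
          simpa using this
        have ha0 : (a : F) ≠ 0 := by
          rintro h; rw [h, zero_mul] at hab'; exact ht0 hab'
        have hb0 : (b : F) ≠ 0 := by
          rintro h; rw [h, mul_zero] at hab'; exact ht0 hab'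
        have h1 : w.ord (φ t) = w.ord (φ (a : F)) + w.ord (φ (b : F)) := by
          rw [hab', map_mul, w.ord_mul (by simpa using ha0) (by simpa using hb0)]
        have ha1 := ord_nonneg _ a.2 ha0
        have hb1 := ord_nonneg _ b.2 hb0
        obtain ⟨ka, hka⟩ := htdvd (a : F)
        obtain ⟨kb, hkb⟩ := htdvd (b : F)
        have hka0 : 0 ≤ ka := by
          by_contra h
          push Not at h
          have : w.ord (φ t) * ka < 0 := mul_neg_of_pos_of_neg htpos h
          omega
        have hkb0 : 0 ≤ kb := by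
          by_contra h
          push Not at h
          have : w.ord (φ t) * kb < 0 := mul_neg_of_pos_of_neg htpos h
          omega
        have hsum : ka + kb = 1 := by
          have : w.ord (φ t) * 1 = w.ord (φ t) * (ka + kb) := by
            rw [mul_add, ← hka, ← hkb, mul_one]; exact h1
          exact (mul_left_cancel₀ htpos.ne' this).symm
        rcases (show ka = 0 ∨ kb = 0 by omega) with h | h
        · left
          exact unit_of_ord _ a.2 ha0 (by rw [hka, h, mul_zero])
        · right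
          exact unit_of_ord _ b.2 hb0 (by rw [hkb, h, mul_zero])
      · intro x hx
        have hx0 : (x : F) ≠ 0 := by
          intro h; apply hx; ext; exact h
        obtain ⟨k, hk⟩ := htdvd (x : F)
        have hk0 : 0 ≤ k := by
          have := ord_nonneg _ x.2 hx0
          by_contra h
          push Not at h
          have : w.ord (φ t) * k < 0 := mul_neg_of_pos_of_neg htpos h
          omega
        obtain ⟨n, rfl⟩ := Int.eq_ofNat_of_zero_le hk0
        refine ⟨n, ?_⟩
        have hu0 : (x : F) * (t ^ n)⁻¹ ≠ 0 := mul_ne_zero hx0 (inv_ne_zero (pow_ne_zero _ ht0))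
        have hord : w.ord (φ ((x : F) * (t ^ n)⁻¹)) = 0 := by
          rw [map_mul, map_inv₀, map_pow,
            w.ord_mul (by simpa using hx0) (inv_ne_zero (pow_ne_zero _ hφt)), w.ord_inv,
            place_ord_pow, hk]
          ring
        have huA : (x : F) * (t ^ n)⁻¹ ∈ A := by
          rw [memA]
          exact (place_mem_iff w (by simpa using hu0)).mpr hord.ge
        obtain ⟨u, hu⟩ := unit_of_ord _ huA hu0 hord
        refine ⟨u, ?_⟩
        ext
        rw [hu]
        simp only [MulMemClass.coe_mul, SubmonoidClass.coe_pow]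
        field_simp
    haveI := IsDiscreteValuationRing.ofHasUnitMulPowIrreducibleFactorization hfact
    infer_instance

@[simp]
theorem mem_comapPlace (φ : F →ₐ[K] M) (w : Place K M) (hnt : ∃ f : F, 0 < w.ord (φ f))
    (f : F) : f ∈ (comapPlace φ w hnt).toValuationSubring ↔ φ f ∈ w.toValuationSubring :=
  Iff.rfl

/-- On `F`, `w ∘ φ` is a positive multiple of the normalised valuation of the restricted place. -/
theorem comapPlace_ord (φ : F →ₐ[K] M) (w : Place K M) (hnt : ∃ f : F, 0 < w.ord (φ f)) :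
    ∃ e : ℤ, 0 < e ∧ ∀ f : F, w.ord (φ f) = e * (comapPlace φ w hnt).ord f := by
  set v := comapPlace φ w hnt with hv
  obtain ⟨π, hπ⟩ := IsDiscreteValuationRing.exists_irreducible v.toValuationSubring
  have hπ0 : (π : F) ≠ 0 := by
    simpa [ne_eq, ZeroMemClass.coe_eq_zero] using hπ.ne_zero
  have hφπ : φ (π : F) ≠ 0 := by simpa using hπ0
  have hπmem : φ (π : F) ∈ w.toValuationSubring := π.2
  have hπinv : φ (π : F)⁻¹ ∉ w.toValuationSubring := by
    intro h
    have hmem : (π : F)⁻¹ ∈ v.toValuationSubring := by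
      show φ (π : F)⁻¹ ∈ w.toValuationSubring
      exact h
    apply hπ.not_isUnit
    refine IsUnit.of_mul_eq_one (⟨(π : F)⁻¹, hmem⟩ : v.toValuationSubring) ?_
    ext
    simp [hπ0]
  have hepos : 0 < w.ord (φ (π : F)) :=
    place_ord_pos_of_mem_of_inv_not_mem w hπmem (by rwa [← map_inv₀]) hφπ
  refine ⟨w.ord (φ (π : F)), hepos, fun f => ?_⟩
  rcases eq_or_ne f 0 with rfl | hf
  · simp
  obtain ⟨u, hu⟩ := v.exists_unit_mul_zpow hf hπ
  have hu0 : ((u : v.toValuationSubring) : F) ≠ 0 := by
    simp [ne_eq, ZeroMemClass.coe_eq_zero]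
  have hui : (((u⁻¹ : v.toValuationSubringˣ) : v.toValuationSubring) : F)
      = ((u : v.toValuationSubring) : F)⁻¹ := by
    have h1 : (u : v.toValuationSubring) * ((u⁻¹ : v.toValuationSubringˣ) : v.toValuationSubring) = 1 := by
      simp
    have h2 := congrArg Subtype.val h1
    simp only [MulMemClass.coe_mul, OneMemClass.coe_one] at h2
    exact (inv_eq_of_mul_eq_one_right h2).symm
  have hordu : w.ord (φ ((u : v.toValuationSubring) : F)) = 0 := by
    refine place_ord_eq_zero_of_mem_of_inv_mem w (u : v.toValuationSubring).2 ?_ (by simpa using hu0)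
    rw [← map_inv₀, ← hui]
    exact ((u⁻¹ : v.toValuationSubringˣ) : v.toValuationSubring).2
  conv_lhs => rw [hu]
  rw [map_mul, map_zpow₀, w.ord_mul (by simpa using hu0) (zpow_ne_zero _ hφπ), hordu, zero_add,
    w.ord_zpow, mul_comm]

end Comap

section RatFunc

variable {K F : Type*} [Field K] [Field F] [Algebra K F]

theorem place_aeval_mem (u : Place K F) {x : F} (hx : x ∈ u.toValuationSubring) (P : K[X]) :
    aeval x P ∈ u.toValuationSubring := by
  rw [Polynomial.aeval_eq_sum_range]
  refine sum_mem fun i _ => ?_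
  rw [Algebra.smul_def]
  exact mul_mem (u.algebraMap_mem' _) (pow_mem hx i)

/-- A polynomial with nonzero constant term is a unit at every place where `x` has positive
order. -/
theorem place_ord_aeval_of_coeff_zero_ne (u : Place K F) {x : F} (hx : 0 < u.ord x) (q : K[X])
    (hq : q.coeff 0 ≠ 0) : aeval x q ≠ 0 ∧ u.ord (aeval x q) = 0 := by
  have hx0 : x ≠ 0 := by
    rintro rfl
    simp at hx
  have hxm : x ∈ u.toValuationSubring := (place_mem_iff u hx0).mpr hx.le
  have hdec : aeval x q = algebraMap K F (q.coeff 0) + x * aeval x q.divX := by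
    conv_lhs => rw [← Polynomial.divX_mul_X_add q]
    simp only [map_add, map_mul, aeval_X, aeval_C]
    ring
  have hc0 : algebraMap K F (q.coeff 0) ≠ 0 := by simpa using hq
  have hg : x * aeval x q.divX = 0 ∨ 0 < u.ord (x * aeval x q.divX) := by
    rcases eq_or_ne (aeval x q.divX) 0 with h | h
    · left; rw [h, mul_zero]
    · right
      rw [u.ord_mul hx0 h]
      have := (place_mem_iff u h).mp (place_aeval_mem u hxm _)
      omega
  have hord : u.ord (aeval x q) = 0 := by
    rw [hdec]
    exact place_ord_add_eq_zero u (place_ord_algebraMap u _) hc0 hg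
  refine ⟨?_, hord⟩
  intro h0
  -- if aeval x q = 0 then the constant term has positive order or is zero
  rw [hdec] at h0
  have h1 : algebraMap K F (q.coeff 0) = -(x * aeval x q.divX) := eq_neg_of_add_eq_zero_left h0
  rcases hg with hg | hg
  · rw [hg, neg_zero] at h1; exact hc0 h1
  · have h2 : u.ord (algebraMap K F (q.coeff 0)) = u.ord (x * aeval x q.divX) := by
      rw [h1]
      have : -(x * aeval x q.divX) = (-1 : F) * (x * aeval x q.divX) := by ring
      rw [this, u.ord_mul (by simp) (by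
        intro h; rw [h, neg_zero] at h1; exact hc0 h1)]
      have hneg : u.ord (-1 : F) = 0 := by
        have := place_ord_algebraMap u (-1 : K)
        simpa using this
      rw [hneg, zero_add]
    rw [place_ord_algebraMap] at h2
    omega

/-- The order of `P(x)` at a place where `x` has positive order: it is
`(multiplicity of 0 as a root of P) * ord x`. -/
theorem place_ord_aeval (u : Place K F) {x : F} (hx : 0 < u.ord x) (P : K[X]) (hP : P ≠ 0) :
    aeval x P ≠ 0 ∧ u.ord (aeval x P) = (P.rootMultiplicity 0 : ℤ) * u.ord x := by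
  have hx0 : x ≠ 0 := by
    rintro rfl
    simp at hx
  obtain ⟨q, hq, hdvd⟩ := Polynomial.exists_eq_pow_rootMultiplicity_mul_and_not_dvd P hP 0
  have hq0 : q.coeff 0 ≠ 0 := by
    intro h
    apply hdvd
    rw [map_zero, sub_zero]
    exact Polynomial.X_dvd_iff.mpr h
  obtain ⟨h1, h2⟩ := place_ord_aeval_of_coeff_zero_ne u hx q hq0
  have hval : aeval x P = x ^ (P.rootMultiplicity 0) * aeval x q := by
    conv_lhs => rw [hq]
    simp
  refine ⟨by rw [hval]; exact mul_ne_zero (pow_ne_zero _ hx0) h1, ?_⟩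
  rw [hval, u.ord_mul (pow_ne_zero _ hx0) h1, h2, add_zero, place_ord_pow]

theorem place_ord_ratfunc (u : Place K F) {x : F} (hx : 0 < u.ord x) (P Q : K[X]) (hP : P ≠ 0)
    (hQ : Q ≠ 0) :
    u.ord (aeval x P / aeval x Q)
      = ((P.rootMultiplicity 0 : ℤ) - (Q.rootMultiplicity 0 : ℤ)) * u.ord x := by
  obtain ⟨hP1, hP2⟩ := place_ord_aeval u hx P hP
  obtain ⟨hQ1, hQ2⟩ := place_ord_aeval u hx Q hQ
  rw [div_eq_mul_inv, u.ord_mul hP1 (inv_ne_zero hQ1), u.ord_inv, hP2, hQ2]
  ring

end RatFunc

section Galois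

variable {K F M Γ : Type*} [Field K] [Field F] [Field M] [Algebra K F] [Algebra K M] [Group Γ]
variable (φ : F →ₐ[K] M) (act : Γ →* (M ≃ₐ[K] M))

/-- Elements of `φ (K⟮j⟯)` are fixed by the action if `φ j` is. -/
theorem act_fix_of_mem_adjoin {j : F} (act_j : ∀ γ, act γ (φ j) = φ j) {x : F} (hx : x ∈ K⟮j⟯)
    (γ : Γ) : act γ (φ x) = φ x := by
  obtain ⟨r, s, rfl⟩ := (IntermediateField.mem_adjoin_simple_iff K x).mp hx
  rw [map_div₀, map_div₀, ← Polynomial.aeval_algHom_apply, ← Polynomial.aeval_algHom_apply,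
    ← Polynomial.aeval_algHom_apply, ← Polynomial.aeval_algHom_apply, act_j]

/-- The translate `(act g)⁻¹ • w` of a place of `M`. -/
def translatePlace (w : Place K M) (g : Γ) : Place K M := (act g)⁻¹ • w

theorem translatePlace_ord (w : Place K M) (g : Γ) (m : M) :
    (translatePlace act w g).ord m = w.ord (act g m) := by
  have h := Place.ord_smul (act g)⁻¹ w (act g m)
  have h2 : (act g)⁻¹ (act g m) = m := by
    show (act g).symm (act g m) = m
    simp
  rw [h2] at h
  exact h

theorem mem_translatePlace (w : Place K M) (g : Γ) (m : M) :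
    m ∈ (translatePlace act w g).toValuationSubring ↔ act g m ∈ w.toValuationSubring := by
  rw [place_mem_iff', place_mem_iff', translatePlace_ord]
  simp

/-- The place of `F` attached to `g : Γ`: restriction along `φ` of the translate of `w`. -/
def restrPlace (w : Place K M) {x : F} (hw : 0 < w.ord (φ x))
    (hfix : ∀ γ, act γ (φ x) = φ x) (g : Γ) : Place K F :=
  comapPlace φ (translatePlace act w g) ⟨x, by rw [translatePlace_ord, hfix]; exact hw⟩

theorem mem_restrPlace (w : Place K M) {x : F} (hw : 0 < w.ord (φ x))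
    (hfix : ∀ γ, act γ (φ x) = φ x) (g : Γ) (f : F) :
    f ∈ (restrPlace φ act w hw hfix g).toValuationSubring ↔
      act g (φ f) ∈ w.toValuationSubring := by
  rw [restrPlace, mem_comapPlace, mem_translatePlace]

theorem restrPlace_ord (w : Place K M) {x : F} (hw : 0 < w.ord (φ x))
    (hfix : ∀ γ, act γ (φ x) = φ x) (g : Γ) :
    ∃ e : ℤ, 0 < e ∧ ∀ f : F, w.ord (act g (φ f)) = e * (restrPlace φ act w hw hfix g).ord f := by
  obtain ⟨e, he, h⟩ := comapPlace_ord φ (translatePlace act w g)
    ⟨x, by rw [translatePlace_ord, hfix]; exact hw⟩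
  refine ⟨e, he, fun f => ?_⟩
  rw [← translatePlace_ord]
  exact h f

theorem restrPlace_ord_pos (w : Place K M) {x : F} (hw : 0 < w.ord (φ x))
    (hfix : ∀ γ, act γ (φ x) = φ x) (g : Γ) :
    0 < (restrPlace φ act w hw hfix g).ord x := by
  obtain ⟨e, he, h⟩ := restrPlace_ord φ act w hw hfix g
  have := h x
  rw [hfix] at this
  rw [this] at hw
  exact (mul_pos_iff_of_pos_left he).mp hw

/-- `restrPlace` only depends on the left coset `g Γ₀`. -/
theorem restrPlace_mul_right (w : Place K M) {x : F} (hw : 0 < w.ord (φ x))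
    (hfix : ∀ γ, act γ (φ x) = φ x) (g δ : Γ) (hδ : ∀ f, act δ (φ f) = φ f) :
    restrPlace φ act w hw hfix (g * δ) = restrPlace φ act w hw hfix g := by
  apply Place.ext
  ext f
  rw [mem_restrPlace, mem_restrPlace, map_mul]
  show act g (act δ (φ f)) ∈ _ ↔ _
  rw [hδ]

/-- `restrPlace` is invariant under left multiplication by an element stabilising `w`. -/
theorem restrPlace_mul_left (w : Place K M) {x : F} (hw : 0 < w.ord (φ x))
    (hfix : ∀ γ, act γ (φ x) = φ x) (ε g : Γ) (hε : act ε • w = w) :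
    restrPlace φ act w hw hfix (ε * g) = restrPlace φ act w hw hfix g := by
  apply Place.ext
  ext f
  rw [mem_restrPlace, mem_restrPlace, map_mul]
  show act ε (act g (φ f)) ∈ _ ↔ _
  have key : ∀ m : M, act ε m ∈ w.toValuationSubring ↔ m ∈ w.toValuationSubring := by
    intro m
    rw [place_mem_iff', place_mem_iff']
    have h := Place.ord_smul (act ε) w m
    rw [hε] at h
    rw [h]
    simp
  exact key _

/-- The ramification bound: if `ε ^ k * g ∈ g Γ₀` then `ord_v x` divides `k`. -/
theorem restrPlace_ord_dvd (w : Place K M) {x : F} (hw : 0 < w.ord (φ x))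
    (hfix : ∀ γ, act γ (φ x) = φ x) (ε g : Γ)
    (hL : ∀ (m : M) (k : ℕ), (act ε ^ k) m = m → w.ord (φ x) ∣ k * w.ord m)
    (k : ℕ) (hk : ∀ f, act (g⁻¹ * ε ^ k * g) (φ f) = φ f) :
    (restrPlace φ act w hw hfix g).ord x ∣ (k : ℤ) := by
  obtain ⟨e, he, h⟩ := restrPlace_ord φ act w hw hfix g
  set v := restrPlace φ act w hw hfix g with hv
  obtain ⟨t, ht⟩ := place_exists_ord_eq_one v
  have hinv : (act ε ^ k) (act g (φ t)) = act g (φ t) := by
    have := hk t
    rw [map_mul, map_mul, map_pow, map_inv] at this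
    have h2 := congrArg (act g) this
    simpa [mul_assoc] using h2
  have h1 := hL _ k hinv
  rw [h t, ht, mul_one] at h1
  have h2 := h x
  rw [hfix] at h2
  rw [h2] at h1
  exact (mul_dvd_mul_iff_left he.ne').mp (by rwa [mul_comm (k : ℤ) e] at h1)

theorem restrPlace_congr (w : Place K M) {x : F} (hw : 0 < w.ord (φ x))
    (hfix : ∀ γ, act γ (φ x) = φ x) {g g' : Γ} (h : act g = act g') :
    restrPlace φ act w hw hfix g = restrPlace φ act w hw hfix g' := by
  apply Place.ext
  ext f
  rw [mem_restrPlace, mem_restrPlace, h]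

theorem finite_range_restrPlace [Finite act.range] (w : Place K M) {x : F}
    (hw : 0 < w.ord (φ x)) (hfix : ∀ γ, act γ (φ x) = φ x) :
    (Set.range (restrPlace φ act w hw hfix)).Finite := by
  classical
  let s : act.range → Γ := fun σ => σ.2.choose
  have hs : ∀ σ : act.range, act (s σ) = σ := fun σ => σ.2.choose_spec
  have hsub : Set.range (restrPlace φ act w hw hfix)
      ⊆ Set.range (fun σ : act.range => restrPlace φ act w hw hfix (s σ)) := by
    rintro _ ⟨g, rfl⟩
    refine ⟨⟨act g, g, rfl⟩, ?_⟩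
    exact restrPlace_congr φ act w hw hfix (hs _)
  exact (Set.finite_range _).subset hsub

/-- An element of `K⟮φ x⟯` which is integral at `w` comes from an element of `F` integral at
any place `v` of `F` over `x`. -/
theorem exists_preimage_of_mem_adjoin (w : Place K M) {x : F} (hw : 0 < w.ord (φ x))
    (v : Place K F) (hv : 0 < v.ord x) {c : M} (hc : c ∈ K⟮φ x⟯)
    (hcw : c ∈ w.toValuationSubring) : ∃ r : F, r ∈ v.toValuationSubring ∧ φ r = c := by
  obtain ⟨P, Q, rfl⟩ := (IntermediateField.mem_adjoin_simple_iff K c).mp hc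
  rcases eq_or_ne P 0 with rfl | hP
  · exact ⟨0, zero_mem _, by simp⟩
  rcases eq_or_ne Q 0 with rfl | hQ
  · exact ⟨0, zero_mem _, by simp⟩
  refine ⟨aeval x P / aeval x Q, ?_, ?_⟩
  · have h1 := place_ord_ratfunc w hw P Q hP hQ
    have h2 := place_ord_ratfunc v hv P Q hP hQ
    obtain ⟨hP1, -⟩ := place_ord_aeval w hw P hP
    obtain ⟨hQ1, -⟩ := place_ord_aeval w hw Q hQ
    obtain ⟨hP2, -⟩ := place_ord_aeval v hv P hP
    obtain ⟨hQ2, -⟩ := place_ord_aeval v hv Q hQ
    have hne : aeval (φ x) P / aeval (φ x) Q ≠ 0 := div_ne_zero hP1 hQ1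
    have h3 := (place_mem_iff w hne).mp hcw
    rw [h1] at h3
    have h4 : 0 ≤ (P.rootMultiplicity 0 : ℤ) - (Q.rootMultiplicity 0 : ℤ) := by
      by_contra hneg
      push Not at hneg
      have := mul_neg_of_neg_of_pos hneg hw
      omega
    refine (place_mem_iff v (div_ne_zero hP2 hQ2)).mpr ?_
    rw [h2]
    exact mul_nonneg h4 hv.le
  · rw [map_div₀, ← Polynomial.aeval_algHom_apply, ← Polynomial.aeval_algHom_apply]

/-- **Surjectivity**: every place of `F` over `x` is one of the `restrPlace g`. -/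
theorem exists_restrPlace_eq [Finite act.range] {j : F}
    (fixed : ∀ m : M, (∀ γ, act γ m = m) → m ∈ K⟮φ j⟯)
    (w : Place K M) {x : F} (hjx : j ∈ K⟮x⟯) (hw : 0 < w.ord (φ x))
    (hfix : ∀ γ, act γ (φ x) = φ x)
    (happrox : ∀ (v : Place K F) (S : Finset (Place K F)), 0 < v.ord x → v ∉ S →
      (∀ u ∈ S, 0 < u.ord x) → ∃ h : F, v.ord h < 0 ∧ ∀ u ∈ S, 0 ≤ u.ord h)
    (v : Place K F) (hv : 0 < v.ord x) :
    ∃ g : Γ, restrPlace φ act w hw hfix g = v := by
  classical
  by_contra hne
  push Not at hne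
  have hfin := finite_range_restrPlace φ act w hw hfix
  obtain ⟨h, hvh, hS⟩ := happrox v hfin.toFinset hv
    (by
      intro hmem
      rw [Set.Finite.mem_toFinset] at hmem
      obtain ⟨g, hg⟩ := hmem
      exact hne g hg)
    (by
      intro u hu
      rw [Set.Finite.mem_toFinset] at hu
      obtain ⟨g, rfl⟩ := hu
      exact restrPlace_ord_pos φ act w hw hfix g)
  have hh0 : h ≠ 0 := by
    rintro rfl
    simp at hvh
  -- all conjugates of `φ h` are integral at `w`
  have hconj : ∀ g : Γ, act g (φ h) ∈ w.toValuationSubring := by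
    intro g
    rw [← mem_restrPlace φ act w hw hfix g]
    refine (place_mem_iff _ hh0).mpr (hS _ ?_)
    rw [Set.Finite.mem_toFinset]
    exact ⟨g, rfl⟩
  -- the polynomial
  haveI : Fintype act.range := Fintype.ofFinite _
  set P : M[X] := prodXSubSMul act.range M (φ h) with hP
  have hPmonic : P.Monic := prodXSubSMul.monic _ _ _
  have hPeval : P.eval (φ h) = 0 := prodXSubSMul.eval _ _ _
  have hcoeff_fix : ∀ n (γ : Γ), act γ (P.coeff n) = P.coeff n := by
    intro n γ
    exact prodXSubSMul.coeff act.range M (φ h) ⟨act γ, γ, rfl⟩ n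
  have hKx : K⟮φ j⟯ ≤ K⟮φ x⟯ := by
    rw [IntermediateField.adjoin_simple_le_iff]
    have : φ j ∈ (K⟮x⟯).map φ := ⟨j, hjx, rfl⟩
    rw [IntermediateField.adjoin_map] at this
    simpa using this
  have hcoeff_mem : ∀ n, P.coeff n ∈ w.toValuationSubring := by
    have hlift : P ∈ Polynomial.lifts w.toValuationSubring.subtype := by
      rw [hP, prodXSubSMul]
      refine prod_mem fun q _ => ?_
      induction q using QuotientGroup.induction_on with
      | H σ =>
        rw [MulAction.ofQuotientStabilizer_mk]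
        obtain ⟨σ, γ, rfl⟩ := σ
        have hmem : act γ (φ h) ∈ w.toValuationSubring := hconj γ
        rw [Polynomial.lifts_iff_coeff_lifts]
        intro n
        refine ⟨(Polynomial.X - Polynomial.C ⟨act γ (φ h), hmem⟩ :
          w.toValuationSubring[X]).coeff n, ?_⟩
        simp only [Polynomial.coeff_sub, Polynomial.coeff_X, Polynomial.coeff_C, map_sub]
        split_ifs <;> simp <;> rfl
    intro n
    obtain ⟨y, hy⟩ := (Polynomial.lifts_iff_coeff_lifts P).mp hlift n
    rw [← hy]
    exact y.2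
  -- lift P to a monic polynomial over the valuation ring of `v`
  have hlift : P ∈ Polynomial.lifts ((φ : F →+* M).comp v.toValuationSubring.subtype) := by
    rw [Polynomial.lifts_iff_coeff_lifts]
    intro n
    obtain ⟨r, hr, hrc⟩ := exists_preimage_of_mem_adjoin φ w hw v hv
      (hKx (fixed _ (hcoeff_fix n))) (hcoeff_mem n)
    exact ⟨⟨r, hr⟩, hrc⟩
  obtain ⟨q, hq, -, hqmonic⟩ := Polynomial.lifts_and_degree_eq_and_monic hlift hPmonic
  have hint : IsIntegral v.toValuationSubring h := by
    refine ⟨q, hqmonic, ?_⟩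
    have h1 : (φ : F →+* M) (Polynomial.eval₂ (algebraMap v.toValuationSubring F) h q) = 0 := by
      rw [Polynomial.hom_eval₂, ← hPeval, ← hq, Polynomial.eval_map]
      rfl
    exact (map_eq_zero (φ : F →+* M)).mp h1
  obtain ⟨y, hy⟩ := (IsIntegrallyClosed.isIntegral_iff (R := v.toValuationSubring) (K := F)).mp hint
  have hmem : h ∈ v.toValuationSubring := by
    rw [← hy]; exact y.2
  have := (place_mem_iff v hh0).mp hmem
  omega

end Galois

section Counting

/-- The counting trick: a surjection `π : Q → V`, constant on the classes of `s`, with weights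
`e v ≤ |class|` and `|Q| ≤ Σ e v` is a bijection `Q/s ≃ V`. -/
theorem card_eq_card_quotient_of_le {Q V : Type*} [Finite Q] [Fintype V] (s : Setoid Q)
    (π : Q → V) (hsurj : Function.Surjective π) (hinv : ∀ a b, s.r a b → π a = π b)
    (e : V → ℕ) (hle : ∀ q, e (π q) ≤ Nat.card {q' // s.r q q'})
    (hsum : Nat.card Q ≤ ∑ v, e v) :
    Nat.card V = Nat.card (Quotient s) ∧ ∑ v, e v = Nat.card Q := by
  classical
  haveI : Fintype Q := Fintype.ofFinite Q
  haveI : Fintype (Quotient s) := Fintype.ofFinite _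
  let rep : V → Q := fun v => (hsurj v).choose
  have hrep : ∀ v, π (rep v) = v := fun v => (hsurj v).choose_spec
  let σ : V → Quotient s := fun v => Quotient.mk s (rep v)
  let πbar : Quotient s → V := Quotient.lift π hinv
  have hπσ : ∀ v, πbar (σ v) = v := fun v => hrep v
  have hσinj : Function.Injective σ := fun a b hab => by
    have := congrArg πbar hab
    rwa [hπσ, hπσ] at this
  let c : Quotient s → ℕ := fun o => (Finset.univ.filter fun q : Q => Quotient.mk s q = o).card
  have hcsum : ∑ o, c o = Fintype.card Q := by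
    have := Finset.card_eq_sum_card_fiberwise (f := Quotient.mk s) (s := (Finset.univ : Finset Q))
      (t := (Finset.univ : Finset (Quotient s))) (fun _ _ => Finset.mem_coe.mpr (Finset.mem_univ _))
    rw [Finset.card_univ] at this
    exact this.symm
  have hcpos : ∀ o, 0 < c o := by
    intro o
    obtain ⟨q, rfl⟩ := Quotient.exists_rep o
    exact Finset.card_pos.mpr ⟨q, by simp⟩
  have hec : ∀ v, e v ≤ c (σ v) := by
    intro v
    have h1 := hle (rep v)
    rw [hrep] at h1
    refine h1.trans (le_of_eq ?_)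
    rw [Nat.card_eq_fintype_card, Fintype.card_subtype]
    congr 1
    ext q
    simp only [Finset.mem_filter, Finset.mem_univ, true_and, σ]
    constructor
    · intro h
      exact (Quotient.sound h).symm
    · intro h
      exact Quotient.exact h.symm
  have h1 : ∑ v, e v ≤ ∑ v, c (σ v) := Finset.sum_le_sum fun v _ => hec v
  have h2 : ∑ v, c (σ v) = ∑ o ∈ Finset.univ.image σ, c o := by
    rw [Finset.sum_image]
    intro a _ b _ hab
    exact hσinj hab
  have h3 : ∑ o ∈ Finset.univ.image σ, c o ≤ ∑ o, c o :=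
    Finset.sum_le_sum_of_subset (Finset.subset_univ _)
  have hQ : Nat.card Q = Fintype.card Q := Nat.card_eq_fintype_card
  have hsurjσ : Function.Surjective σ := by
    by_contra hns
    rw [Function.Surjective] at hns
    push Not at hns
    obtain ⟨o₀, ho₀⟩ := hns
    have hlt : ∑ o ∈ Finset.univ.image σ, c o < ∑ o, c o := by
      refine Finset.sum_lt_sum_of_subset (Finset.subset_univ _) (Finset.mem_univ o₀) ?_ (hcpos o₀)
        (fun _ _ _ => Nat.zero_le _)
      simp only [Finset.mem_image, Finset.mem_univ, true_and, not_exists]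
      exact ho₀
    omega
  refine ⟨?_, ?_⟩
  · exact Nat.card_congr (Equiv.ofBijective σ ⟨hσinj, hsurjσ⟩)
  · omega

end Counting

section Main

variable {K F M Γ : Type*} [Field K] [Field F] [Field M] [Algebra K F] [Algebra K M] [Group Γ]
variable (φ : F →ₐ[K] M) (act : Γ →* (M ≃ₐ[K] M)) (Γ₀ : Subgroup Γ)

/-- The number of cosets is at most the degree: the conjugate embeddings are distinct. -/
theorem card_quotient_le_finrank {j : F} [FiniteDimensional K⟮j⟯ F]
    (act_j : ∀ γ, act γ (φ j) = φ j)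
    (stab : ∀ γ, (∀ f, act γ (φ f) = φ f) → γ ∈ Γ₀) :
    Nat.card (Γ ⧸ Γ₀) ≤ Module.finrank K⟮j⟯ F := by
  classical
  letI : Algebra K⟮j⟯ M := ((φ : F →+* M).comp (algebraMap K⟮j⟯ F)).toAlgebra
  have halg : ∀ a : K⟮j⟯, algebraMap K⟮j⟯ M a = φ (a : F) := fun a => rfl
  let emb : Γ → (F →ₐ[K⟮j⟯] M) := fun g =>
    { toFun := fun f => act g (φ f)
      map_one' := by simp
      map_mul' := by intro a b; simp
      map_zero' := by simp
      map_add' := by intro a b; simp
      commutes' := by
        intro a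
        rw [halg]
        exact act_fix_of_mem_adjoin φ act act_j a.2 g }
  have hemb : ∀ g f, emb g f = act g (φ f) := fun g f => rfl
  let e : Γ ⧸ Γ₀ → (F →ₐ[K⟮j⟯] M) := fun q => emb q.out
  have hinj : Function.Injective e := by
    intro q q' h
    have h1 : ∀ f, act (q.out⁻¹ * q'.out) (φ f) = φ f := by
      intro f
      have := congrArg (fun ψ : F →ₐ[K⟮j⟯] M => ψ f) h
      simp only [e, hemb] at this
      rw [map_mul, map_inv]
      show (act q.out)⁻¹ (act q'.out (φ f)) = φ f
      rw [← this]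
      show (act q.out).symm (act q.out (φ f)) = φ f
      simp
    have h2 := stab _ h1
    rw [← QuotientGroup.out_eq' q, ← QuotientGroup.out_eq' q']
    exact QuotientGroup.eq.mpr h2
  calc Nat.card (Γ ⧸ Γ₀) ≤ Nat.card (F →ₐ[K⟮j⟯] M) := Nat.card_le_card_of_injective e hinj
    _ ≤ Module.finrank K⟮j⟯ F := card_algHom_le_finrank _ _ _

/-- **Main theorem of P2.**  In the situation of a realization
(`φ : F → M`, `Γ` acting on `M` through a finite quotient with `M^Γ = K(φ j)` and `Γ₀` the
stabiliser of `φ F`), let `x` generate `K(j)` and let `w` be a place of `M` over `x = 0` which is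
stable under `ε` and satisfies the local condition (L). Assume the fundamental identity
`Σ_{v ∣ x} ord_v x = [F : K(x)]` and the approximation property for the places of `F` over `x`
(both provided by P1).  Then the places of `F` over `x` are in bijection with the orbits of `ε` on
`Γ ⧸ Γ₀`, and `[F : K(j)] = |Γ ⧸ Γ₀|`. -/
theorem card_places_eq_card_orbits [Finite act.range] {j : F} [FiniteDimensional K⟮j⟯ F]
    (act_j : ∀ γ, act γ (φ j) = φ j)
    (fixed : ∀ m : M, (∀ γ, act γ m = m) → m ∈ K⟮φ j⟯)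
    (stab_iff : ∀ γ, (∀ f, act γ (φ f) = φ f) ↔ γ ∈ Γ₀)
    {x : F} (hxj : x ∈ K⟮j⟯) (hjx : j ∈ K⟮x⟯)
    (ε : Γ) (w : Place K M) (hw : 0 < w.ord (φ x)) (hε : act ε • w = w)
    (hL : ∀ (m : M) (k : ℕ), (act ε ^ k) m = m → w.ord (φ x) ∣ k * w.ord m)
    (V : Finset (Place K F)) (hV : ∀ v, v ∈ V ↔ 0 < v.ord x)
    (hsum : ∑ v ∈ V, v.ord x = (Module.finrank K⟮x⟯ F : ℤ))
    (happrox : ∀ (v : Place K F) (S : Finset (Place K F)), 0 < v.ord x → v ∉ S →
      (∀ u ∈ S, 0 < u.ord x) → ∃ h : F, v.ord h < 0 ∧ ∀ u ∈ S, 0 ≤ u.ord h) :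
    V.card = Nat.card (MulAction.orbitRel.Quotient (Subgroup.zpowers ε) (Γ ⧸ Γ₀)) ∧
      Module.finrank K⟮j⟯ F = Nat.card (Γ ⧸ Γ₀) := by
  classical
  have hfix : ∀ γ, act γ (φ x) = φ x := fun γ => act_fix_of_mem_adjoin φ act act_j hxj γ
  -- `K⟮x⟯ = K⟮j⟯`
  have hKeq : K⟮x⟯ = K⟮j⟯ := by
    apply le_antisymm
    · rw [IntermediateField.adjoin_simple_le_iff]; exact hxj
    · rw [IntermediateField.adjoin_simple_le_iff]; exact hjx
  have hrank : Module.finrank K⟮x⟯ F = Module.finrank K⟮j⟯ F :=
    congrArg (fun E : IntermediateField K F => Module.finrank E F) hKeq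
  -- finiteness of the quotient
  have hker : act.ker ≤ Γ₀ := by
    intro γ hγ
    rw [MonoidHom.mem_ker] at hγ
    refine (stab_iff γ).mp fun f => ?_
    rw [hγ]; rfl
  haveI : Finite (Γ ⧸ act.ker) := Finite.of_equiv _ (QuotientGroup.quotientKerEquivRange act).symm.toEquiv
  haveI : Finite (Γ ⧸ Γ₀) :=
    Finite.of_surjective (Quotient.map' (s₁ := QuotientGroup.leftRel act.ker)
      (s₂ := QuotientGroup.leftRel Γ₀) id (fun a b hab => by
        rw [QuotientGroup.leftRel_apply] at hab ⊢
        exact hker hab))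
      (by
        intro q
        obtain ⟨g, rfl⟩ := QuotientGroup.mk_surjective q
        exact ⟨QuotientGroup.mk g, rfl⟩)
  -- the map `Q → V`
  have hstabfix : ∀ δ ∈ Γ₀, ∀ f, act δ (φ f) = φ f := fun δ hδ => (stab_iff δ).mpr hδ
  have hcoset : ∀ g g' : Γ, (g : Γ ⧸ Γ₀) = g' →
      restrPlace φ act w hw hfix g = restrPlace φ act w hw hfix g' := by
    intro g g' h
    have h1 : g⁻¹ * g' ∈ Γ₀ := QuotientGroup.eq.mp h
    have h2 := restrPlace_mul_right φ act w hw hfix g (g⁻¹ * g') (hstabfix _ h1)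
    rw [mul_inv_cancel_left] at h2
    exact h2.symm
  have hεz : ∀ n : ℤ, act (ε ^ n) • w = w := by
    intro n
    have hmem : act ε ∈ MulAction.stabilizer (M ≃ₐ[K] M) w := hε
    have := Subgroup.zpow_mem _ hmem n
    rw [map_zpow]
    exact this
  let πΓ : Γ → {v : Place K F // v ∈ V} := fun g =>
    ⟨restrPlace φ act w hw hfix g, (hV _).mpr (restrPlace_ord_pos φ act w hw hfix g)⟩
  let π : Γ ⧸ Γ₀ → {v : Place K F // v ∈ V} := fun q => πΓ q.out
  have hπmk : ∀ g : Γ, π (g : Γ ⧸ Γ₀) = πΓ g := by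
    intro g
    apply Subtype.ext
    exact hcoset _ _ (QuotientGroup.out_eq' _)
  have hsurj : Function.Surjective π := by
    rintro ⟨v, hv⟩
    obtain ⟨g, hg⟩ := exists_restrPlace_eq φ act fixed w hjx hw hfix happrox v ((hV v).mp hv)
    refine ⟨(g : Γ ⧸ Γ₀), ?_⟩
    rw [hπmk]
    exact Subtype.ext hg
  have hinv : ∀ a b : Γ ⧸ Γ₀,
      (MulAction.orbitRel (Subgroup.zpowers ε) (Γ ⧸ Γ₀)).r a b → π a = π b := by
    intro a b hab
    rw [MulAction.orbitRel_apply] at hab
    obtain ⟨⟨σ, hσ⟩, rfl⟩ := hab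
    obtain ⟨n, rfl⟩ := Subgroup.mem_zpowers_iff.mp hσ
    obtain ⟨g, rfl⟩ := QuotientGroup.mk_surjective b
    have h1 : (⟨ε ^ n, hσ⟩ : Subgroup.zpowers ε) • (g : Γ ⧸ Γ₀) = ((ε ^ n * g : Γ) : Γ ⧸ Γ₀) := rfl
    show π ((⟨ε ^ n, hσ⟩ : Subgroup.zpowers ε) • (g : Γ ⧸ Γ₀)) = π (g : Γ ⧸ Γ₀)
    rw [h1, hπmk, hπmk]
    apply Subtype.ext
    exact restrPlace_mul_left φ act w hw hfix (ε ^ n) g (hεz n)
  let e : {v : Place K F // v ∈ V} → ℕ := fun v => (v.1.ord x).toNat
  have he : ∀ v : {v : Place K F // v ∈ V}, ((e v : ℕ) : ℤ) = v.1.ord x := fun v =>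
    Int.toNat_of_nonneg ((hV _).mp v.2).le
  have hdvd : ∀ (g : Γ) (k : ℕ), (ε ^ k) • (g : Γ ⧸ Γ₀) = (g : Γ ⧸ Γ₀) →
      (restrPlace φ act w hw hfix g).ord x ∣ (k : ℤ) := by
    intro g k hk
    refine restrPlace_ord_dvd φ act w hw hfix ε g hL k (hstabfix _ ?_)
    have h1 : (ε ^ k) • (g : Γ ⧸ Γ₀) = ((ε ^ k * g : Γ) : Γ ⧸ Γ₀) := rfl
    rw [h1] at hk
    have h2 := QuotientGroup.eq.mp hk.symm
    simpa [mul_assoc] using h2
  have hle : ∀ q : Γ ⧸ Γ₀, e (π q) ≤
      Nat.card {q' // (MulAction.orbitRel (Subgroup.zpowers ε) (Γ ⧸ Γ₀)).r q q'} := by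
    intro q
    obtain ⟨g, rfl⟩ := QuotientGroup.mk_surjective q
    rw [hπmk]
    set n := e (πΓ g) with hn
    have hnord : (n : ℤ) = (restrPlace φ act w hw hfix g).ord x := he (πΓ g)
    let f : Fin n → {q' // (MulAction.orbitRel (Subgroup.zpowers ε) (Γ ⧸ Γ₀)).r (g : Γ ⧸ Γ₀) q'} :=
      fun i => ⟨(ε ^ (i : ℕ)) • (g : Γ ⧸ Γ₀), by
        rw [MulAction.orbitRel_apply]
        refine ⟨⟨(ε ^ (i : ℕ))⁻¹, Subgroup.inv_mem _ (Subgroup.pow_mem _ (Subgroup.mem_zpowers ε) _)⟩, ?_⟩
        show (ε ^ (i : ℕ))⁻¹ • ((ε ^ (i : ℕ)) • (g : Γ ⧸ Γ₀)) = _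
        rw [inv_smul_smul]⟩
    have hfinj : Function.Injective f := by
      intro a b hab
      have hab' : (ε ^ (a : ℕ)) • (g : Γ ⧸ Γ₀) = (ε ^ (b : ℕ)) • (g : Γ ⧸ Γ₀) :=
        congrArg Subtype.val hab
      -- wlog a ≤ b
      have key : ∀ a b : Fin n, (a : ℕ) ≤ b →
          (ε ^ (a : ℕ)) • (g : Γ ⧸ Γ₀) = (ε ^ (b : ℕ)) • (g : Γ ⧸ Γ₀) → (a : ℕ) = b := by
        intro a b hle hab
        have h1 : (ε ^ ((b : ℕ) - a)) • (g : Γ ⧸ Γ₀) = (g : Γ ⧸ Γ₀) := by
          have h2 : ε ^ (b : ℕ) = ε ^ (a : ℕ) * ε ^ ((b : ℕ) - a) := by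
            rw [← pow_add]; congr 1; omega
          rw [h2, mul_smul] at hab
          exact (smul_left_cancel _ hab).symm
        have h3 := hdvd g _ h1
        rw [← hnord] at h3
        have h4 : n ∣ (b : ℕ) - a := by exact_mod_cast h3
        have h5 : (b : ℕ) - a < n := by
          have := b.2
          omega
        have h6 := Nat.eq_zero_of_dvd_of_lt h4 h5
        omega
      rcases le_total (a : ℕ) b with h | h
      · exact Fin.ext (key a b h hab')
      · exact Fin.ext (key b a h hab'.symm).symm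
    have := Nat.card_le_card_of_injective f hfinj
    simpa using this
  have hn_le : Nat.card (Γ ⧸ Γ₀) ≤ Module.finrank K⟮j⟯ F :=
    card_quotient_le_finrank φ act Γ₀ act_j (fun γ h => (stab_iff γ).mp h)
  have hsumV : ∑ v : {v : Place K F // v ∈ V}, e v = Module.finrank K⟮j⟯ F := by
    have h1 : ((∑ v : {v : Place K F // v ∈ V}, e v : ℕ) : ℤ) = ∑ v ∈ V, v.ord x := by
      rw [Nat.cast_sum, ← Finset.sum_coe_sort V (fun v => v.ord x)]
      exact Finset.sum_congr rfl fun v _ => he v
    rw [hsum, hrank] at h1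
    exact_mod_cast h1
  obtain ⟨hcard, hsumeq⟩ := card_eq_card_quotient_of_le
    (MulAction.orbitRel (Subgroup.zpowers ε) (Γ ⧸ Γ₀)) π hsurj hinv e hle (by rw [hsumV]; exact hn_le)
  refine ⟨?_, ?_⟩
  · rw [← hcard, Nat.card_eq_fintype_card, Fintype.card_coe]
  · rw [← hsumV, hsumeq]

end Main

end Fermat.Agent.S24
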