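import Fermat.Agent.S24.AnalyticDefs

/-!
# S24 piece P5a — the analytic model: `Ban N` is a domain of holomorphic functions,
the `SL(2,ℤ)`-action on `Man N = FractionRing (Ban N)`.
-/

set_option autoImplicit false

noncomputable section

open UpperHalfPlane
open scoped MatrixGroups Manifold ModularForm

namespace Fermat.Agent.S24

attribute [local instance] algKbC

/-! ### `Jfun` -/

/-- `Jfun` is holomorphic on `ℍ`. -/
theorem mdifferentiable_Jfun : MDiff Jfun := by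
  have h4 : MDiff (ModularForm.E₄ : ℍ → ℂ) := ModularFormClass.holo ModularForm.E₄
  have hΔ : MDiff (CuspForm.discriminant : ℍ → ℂ) :=
    ModularFormClass.holo CuspForm.discriminant
  rw [UpperHalfPlane.mdifferentiable_iff] at h4 hΔ ⊢
  have : (Jfun ∘ ofComplex) =
      fun z => ((ModularForm.E₄ : ℍ → ℂ) ∘ ofComplex) z ^ 3 /
        ((CuspForm.discriminant : ℍ → ℂ) ∘ ofComplex) z := by
    ext z; simp [Jfun, CuspForm.coe_discriminant]
  rw [this]
  refine DifferentiableOn.div (h4.pow 3) hΔ (fun z _ => ?_)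
  exact ModularForm.discriminant_ne_zero _

/-- `Jfun` is `SL(2,ℤ)`-invariant. -/
theorem Jfun_smul_SL (γ : SL(2, ℤ)) (τ : ℍ) : Jfun (γ • τ) = Jfun τ := by
  have hγ : (γ : GL (Fin 2) ℝ) ∈ 𝒮ℒ := ⟨γ, rfl⟩
  have h4 : ModularForm.E₄ (γ • τ) = (denom γ τ) ^ (4 : ℤ) * ModularForm.E₄ τ :=
    SlashInvariantForm.slash_action_eqn'' ModularForm.E₄ hγ τ
  have hΔ : CuspForm.discriminant (γ • τ) =
      (denom γ τ) ^ (12 : ℤ) * CuspForm.discriminant τ :=
    SlashInvariantForm.slash_action_eqn'' CuspForm.discriminant hγ τ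
  have hd : denom γ τ ≠ 0 := denom_ne_zero _ _
  have hne : ModularForm.discriminant τ ≠ 0 := ModularForm.discriminant_ne_zero τ
  rw [CuspForm.coe_discriminant] at hΔ
  simp only [Jfun]
  rw [h4, hΔ]
  have e1 : (denom γ τ) ^ (4 : ℤ) = (denom γ τ) ^ 4 := zpow_ofNat _ 4
  have e2 : (denom γ τ) ^ (12 : ℤ) = (denom γ τ) ^ 12 := zpow_ofNat _ 12
  rw [e1, e2]
  field_simp

/-! ### Level matrices -/

theorem IsLevelMatrix.det_pos {N : ℕ} {g : GL (Fin 2) ℝ} (h : IsLevelMatrix N g) :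
    0 < g.det.val := by
  obtain ⟨A, hA, -, hg⟩ := h
  rw [Matrix.GeneralLinearGroup.val_det_apply, hg]
  have : (A.map (Int.cast : ℤ → ℝ)).det = ((A.det : ℤ) : ℝ) := by
    have := (Int.castRingHom ℝ).map_det A
    simpa [RingHom.mapMatrix_apply] using this.symm
  rw [this]
  exact_mod_cast hA

theorem isLevelMatrix_one (N : ℕ) : IsLevelMatrix N 1 :=
  ⟨1, by simp, by simp, by simp⟩

/-- Right multiplication by an element of `SL(2,ℤ)` preserves level matrices. -/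
theorem IsLevelMatrix.mul_SL {N : ℕ} {g : GL (Fin 2) ℝ} (h : IsLevelMatrix N g)
    (γ : SL(2, ℤ)) : IsLevelMatrix N (g * (γ : GL (Fin 2) ℝ)) := by
  obtain ⟨A, hA, hAN, hg⟩ := h
  refine ⟨A * (γ : Matrix (Fin 2) (Fin 2) ℤ), ?_, ?_, ?_⟩
  · rw [Matrix.det_mul, γ.det_coe, mul_one]; exact hA
  · rw [Matrix.det_mul, γ.det_coe, mul_one]; exact hAN
  · rw [Matrix.GeneralLinearGroup.coe_mul, hg, Matrix.map_mul_intCast]
    congr 1

/-- Left multiplication by an element of `SL(2,ℤ)` preserves level matrices. -/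
theorem IsLevelMatrix.SL_mul {N : ℕ} {g : GL (Fin 2) ℝ} (h : IsLevelMatrix N g)
    (γ : SL(2, ℤ)) : IsLevelMatrix N ((γ : GL (Fin 2) ℝ) * g) := by
  obtain ⟨A, hA, hAN, hg⟩ := h
  refine ⟨(γ : Matrix (Fin 2) (Fin 2) ℤ) * A, ?_, ?_, ?_⟩
  · rw [Matrix.det_mul, γ.det_coe, one_mul]; exact hA
  · rw [Matrix.det_mul, γ.det_coe, one_mul]; exact hAN
  · rw [Matrix.GeneralLinearGroup.coe_mul, hg, Matrix.map_mul_intCast]
    congr 1


/-! ### Holomorphy of the elements of `Ban N` -/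

theorem mdifferentiable_Jcomp {g : GL (Fin 2) ℝ} (hg : 0 < g.det.val) : MDiff (Jcomp g) :=
  mdifferentiable_Jfun.comp (mdifferentiable_smul hg)

theorem mdifferentiable_of_mem_gens {N : ℕ} {f : ℍ → ℂ} (hf : f ∈ gens N) : MDiff f := by
  obtain ⟨g, hg, rfl⟩ := hf
  exact mdifferentiable_Jcomp hg.det_pos

/-- Every element of `Ban N` is a holomorphic function on `ℍ`. -/
theorem mdifferentiable_of_mem_Ban {N : ℕ} {f : ℍ → ℂ} (hf : f ∈ Ban N) : MDiff f := by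
  induction hf using Algebra.adjoin_induction with
  | mem x hx => exact mdifferentiable_of_mem_gens hx
  | algebraMap r => exact mdifferentiable_const
  | add x y _ _ hx hy => exact hx.add hy
  | mul x y _ _ hx hy => exact hx.mul hy

theorem Jcomp_mem_Ban {N : ℕ} {g : GL (Fin 2) ℝ} (hg : IsLevelMatrix N g) :
    Jcomp g ∈ Ban N :=
  Algebra.subset_adjoin ⟨g, hg, rfl⟩

theorem Jcomp_one : Jcomp 1 = Jfun := by
  funext τ; simp [Jcomp]

theorem Jfun_mem_Ban (N : ℕ) : Jfun ∈ Ban N := by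
  rw [← Jcomp_one]; exact Jcomp_mem_Ban (isLevelMatrix_one N)

instance instNoZeroDivisorsBan (N : ℕ) : NoZeroDivisors (Ban N) where
  eq_zero_or_eq_zero_of_mul_eq_zero := by
    rintro ⟨f, hf⟩ ⟨g, hg⟩ h
    have h' : f * g = 0 := congrArg Subtype.val h
    rcases (UpperHalfPlane.mul_eq_zero_iff (mdifferentiable_of_mem_Ban hf)
      (mdifferentiable_of_mem_Ban hg)).mp h' with h0 | h0
    · exact Or.inl (Subtype.ext h0)
    · exact Or.inr (Subtype.ext h0)

instance instNontrivialBan (N : ℕ) : Nontrivial (Ban N) :=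
  ⟨⟨0, 1, fun h => by
    have h' : (0 : ℍ → ℂ) = 1 := congrArg Subtype.val h
    have := congrFun h' UpperHalfPlane.I
    simp at this⟩⟩

instance instIsDomainBan (N : ℕ) : IsDomain (Ban N) := NoZeroDivisors.to_isDomain _


/-! ### The action of `SL(2,ℤ)` -/

/-- Precomposition with `γ⁻¹`, as a `ℚ̄`-algebra endomorphism of `ℍ → ℂ`:
`(precomp γ f) τ = f (γ⁻¹ • τ)`. -/
def precomp (γ : SL(2, ℤ)) : (ℍ → ℂ) →ₐ[Kb] (ℍ → ℂ) where
  toFun f := fun τ => f (γ⁻¹ • τ)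
  map_one' := rfl
  map_mul' _ _ := rfl
  map_zero' := rfl
  map_add' _ _ := rfl
  commutes' _ := rfl

@[simp] theorem precomp_apply (γ : SL(2, ℤ)) (f : ℍ → ℂ) (τ : ℍ) :
    precomp γ f τ = f (γ⁻¹ • τ) := rfl

theorem precomp_one (f : ℍ → ℂ) : precomp 1 f = f := by
  funext τ; simp

theorem precomp_mul (γ δ : SL(2, ℤ)) (f : ℍ → ℂ) :
    precomp (γ * δ) f = precomp γ (precomp δ f) := by
  funext τ; simp [mul_smul]

theorem precomp_Jcomp (γ : SL(2, ℤ)) (g : GL (Fin 2) ℝ) :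
    precomp γ (Jcomp g) = Jcomp (g * ((γ⁻¹ : SL(2, ℤ)) : GL (Fin 2) ℝ)) := by
  funext τ
  simp only [precomp_apply, Jcomp, mul_smul]
  rfl

theorem precomp_mem_gens {N : ℕ} {f : ℍ → ℂ} (hf : f ∈ gens N) (γ : SL(2, ℤ)) :
    precomp γ f ∈ gens N := by
  obtain ⟨g, hg, rfl⟩ := hf
  exact ⟨_, hg.mul_SL γ⁻¹, precomp_Jcomp γ g⟩

theorem precomp_mem_Ban {N : ℕ} {f : ℍ → ℂ} (hf : f ∈ Ban N) (γ : SL(2, ℤ)) :
    precomp γ f ∈ Ban N := by
  induction hf using Algebra.adjoin_induction with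
  | mem x hx => exact Algebra.subset_adjoin (precomp_mem_gens hx γ)
  | algebraMap r => rw [AlgHom.commutes]; exact Subalgebra.algebraMap_mem _ r
  | add x y _ _ hx hy => rw [map_add]; exact Subalgebra.add_mem _ hx hy
  | mul x y _ _ hx hy => rw [map_mul]; exact Subalgebra.mul_mem _ hx hy

/-- The action of `γ` on `Ban N`, as an algebra endomorphism. -/
def actBanHom (N : ℕ) (γ : SL(2, ℤ)) : Ban N →ₐ[Kb] Ban N :=
  ((precomp γ).comp (Ban N).val).codRestrict (Ban N) (fun f => precomp_mem_Ban f.2 γ)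

@[simp] theorem actBanHom_coe (N : ℕ) (γ : SL(2, ℤ)) (f : Ban N) :
    ((actBanHom N γ f : Ban N) : ℍ → ℂ) = precomp γ (f : ℍ → ℂ) := rfl

theorem actBanHom_apply_apply (N : ℕ) (γ : SL(2, ℤ)) (f : Ban N) (τ : ℍ) :
    (actBanHom N γ f : ℍ → ℂ) τ = (f : ℍ → ℂ) (γ⁻¹ • τ) := rfl

theorem actBanHom_one (N : ℕ) : actBanHom N 1 = AlgHom.id Kb (Ban N) := by
  ext f : 1
  exact Subtype.ext (precomp_one _)

theorem actBanHom_mul (N : ℕ) (γ δ : SL(2, ℤ)) :
    actBanHom N (γ * δ) = (actBanHom N γ).comp (actBanHom N δ) := by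
  ext f : 1
  exact Subtype.ext (precomp_mul γ δ _)

/-- The action of `γ` on `Ban N`, as an algebra automorphism. -/
def actBan (N : ℕ) (γ : SL(2, ℤ)) : Ban N ≃ₐ[Kb] Ban N :=
  AlgEquiv.ofAlgHom (actBanHom N γ) (actBanHom N γ⁻¹)
    (by rw [← actBanHom_mul, mul_inv_cancel, actBanHom_one])
    (by rw [← actBanHom_mul, inv_mul_cancel, actBanHom_one])

@[simp] theorem actBan_coe (N : ℕ) (γ : SL(2, ℤ)) (f : Ban N) :
    ((actBan N γ f : Ban N) : ℍ → ℂ) = precomp γ (f : ℍ → ℂ) := rfl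

theorem actBan_apply_apply (N : ℕ) (γ : SL(2, ℤ)) (f : Ban N) (τ : ℍ) :
    (actBan N γ f : ℍ → ℂ) τ = (f : ℍ → ℂ) (γ⁻¹ • τ) := rfl

theorem actBan_one (N : ℕ) : actBan N 1 = AlgEquiv.refl := by
  ext f : 1
  exact Subtype.ext (precomp_one _)

theorem actBan_mul (N : ℕ) (γ δ : SL(2, ℤ)) :
    actBan N (γ * δ) = (actBan N δ).trans (actBan N γ) := by
  ext f : 1
  exact Subtype.ext (precomp_mul γ δ _)

/-- The action of `SL(2,ℤ)` on `Man N`: `act N γ (f / g) = (f ∘ γ⁻¹) / (g ∘ γ⁻¹)`. -/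
def act (N : ℕ) : SL(2, ℤ) →* (Man N ≃ₐ[Kb] Man N) where
  toFun γ := IsFractionRing.algEquivOfAlgEquiv (actBan N γ)
  map_one' := by
    ext x
    obtain ⟨a, b, hb, rfl⟩ := IsFractionRing.div_surjective (A := Ban N) x
    simp [actBan_one]
  map_mul' γ δ := by
    ext x
    obtain ⟨a, b, hb, rfl⟩ := IsFractionRing.div_surjective (A := Ban N) x
    simp [actBan_mul]

@[simp] theorem act_algebraMap (N : ℕ) (γ : SL(2, ℤ)) (f : Ban N) :
    act N γ (algebraMap (Ban N) (Man N) f) = algebraMap (Ban N) (Man N) (actBan N γ f) :=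
  IsFractionRing.algEquivOfAlgEquiv_algebraMap _ _

end Fermat.Agent.S24
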