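import Fermat.Agent.S24.OrderAt
import Fermat.Agent.S24.PlaceOfValuation
import Fermat.Agent.S24.Realization

/-!
# S24 piece P5b — the place of `Man N` at a point `τ₀ ∈ ℍ`, and property (L)

Main results (all for `M = Man N`, `act = act N`, `x` an element of `Ban N`):

* `exists_place_localProp` : if `ε • τ₀ = τ₀`, `denom ε τ₀ ^ 2` is a primitive `e`-th root of unity
  and `x ∈ Ban N` vanishes to order exactly `e > 0` at `τ₀`, then there is a place `w` of `Man N`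
  with `LocalProp x (act N ε) w`.
* `loc_gen_Man`, `loc_1728_Man`, `loc_zero_Man` : the three specialisations
  (`ε = 1`, `e = 1`; `ε = S`, `e = 2`; `ε = S * T`, `e = 3`).
-/

set_option autoImplicit false

noncomputable section

open UpperHalfPlane Filter Topology AlgebraicCurve WithZero
open scoped MatrixGroups Manifold ModularForm

namespace Fermat.Agent.S24

attribute [local instance] algKbC

/-! ### Values of `valMan` -/

theorem algebraMap_Ban_Man_ne_zero {N : ℕ} {f : Ban N} (hf : f ≠ 0) :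
    algebraMap (Ban N) (Man N) f ≠ 0 := by
  intro h
  apply hf
  exact (IsFractionRing.injective (Ban N) (Man N)) (by rw [h, map_zero])

theorem vord_valMan_algebraMap {N : ℕ} (τ₀ : ℍ) {f : Ban N} (hf : f ≠ 0) :
    vord (valMan N τ₀) (algebraMap (Ban N) (Man N) f) = ordBan N τ₀ f := by
  rw [vord, valMan_algebraMap, valBan_apply τ₀ hf, WithZero.log_exp, neg_neg]

theorem vord_valMan_div {N : ℕ} (τ₀ : ℍ) {a b : Ban N} (ha : a ≠ 0) (hb : b ≠ 0) :
    vord (valMan N τ₀) (algebraMap (Ban N) (Man N) a / algebraMap (Ban N) (Man N) b)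
      = (ordBan N τ₀ a : ℤ) - ordBan N τ₀ b := by
  rw [div_eq_mul_inv, vord_mul _ (algebraMap_Ban_Man_ne_zero ha)
    (inv_ne_zero (algebraMap_Ban_Man_ne_zero hb)), vord_inv, vord_valMan_algebraMap τ₀ ha,
    vord_valMan_algebraMap τ₀ hb]
  ring

theorem valMan_algebraMap_Kb_le_one {N : ℕ} (τ₀ : ℍ) (a : Kb) :
    valMan N τ₀ (algebraMap Kb (Man N) a) ≤ 1 := by
  rw [IsScalarTower.algebraMap_apply Kb (Ban N) (Man N), valMan_algebraMap]
  rcases eq_or_ne (algebraMap Kb (Ban N) a) 0 with h | h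
  · rw [h, map_zero]; exact zero_le_one
  · rw [valBan_apply τ₀ h, ordBan_algebraMap]
    simp

/-! ### Invariance under the stabiliser of `τ₀` -/

theorem ordBan_actBan {N : ℕ} {τ₀ : ℍ} {γ : SL(2, ℤ)} (hfix : γ • τ₀ = τ₀) (f : Ban N) :
    ordBan N τ₀ (actBan N γ f) = ordBan N τ₀ f := by
  have h1 : ((actBan N γ f : Ban N) : ℍ → ℂ) = fun τ => (f : ℍ → ℂ) (γ⁻¹ • τ) := rfl
  rw [ordBan, h1, ordAt_comp_smul, (denom_inv_of_fix hfix).1]
  rfl

theorem valBan_actBan {N : ℕ} {τ₀ : ℍ} {γ : SL(2, ℤ)} (hfix : γ • τ₀ = τ₀) (f : Ban N) :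
    valBan N τ₀ (actBan N γ f) = valBan N τ₀ f := by
  rcases eq_or_ne f 0 with rfl | hf
  · simp
  · have hf' : actBan N γ f ≠ 0 := by
      intro h
      apply hf
      have := congrArg (actBan N γ).symm h
      simpa using this
    rw [valBan_apply τ₀ hf, valBan_apply τ₀ hf', ordBan_actBan hfix]

theorem valMan_act {N : ℕ} {τ₀ : ℍ} {γ : SL(2, ℤ)} (hfix : γ • τ₀ = τ₀) (m : Man N) :
    valMan N τ₀ (act N γ m) = valMan N τ₀ m := by
  obtain ⟨a, b, hb, rfl⟩ := IsFractionRing.div_surjective (A := Ban N) m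
  simp only [map_div₀, act_algebraMap, valMan_algebraMap, valBan_actBan hfix]

/-- Stability of a place with valuation ring `(valMan N τ₀).valuationSubring` under the
stabiliser of `τ₀`. -/
theorem act_smul_place_eq {N : ℕ} {τ₀ : ℍ} {γ : SL(2, ℤ)} (hfix : γ • τ₀ = τ₀)
    (w : Place Kb (Man N)) (hw : w.toValuationSubring = (valMan N τ₀).valuationSubring) :
    act N γ • w = w := by
  apply Place.ext
  rw [Place.smul_toValuationSubring, hw]
  ext m
  rw [ValuationSubring.mem_pointwise_smul_iff_inv_smul_mem, Valuation.mem_valuationSubring_iff,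
    Valuation.mem_valuationSubring_iff]
  have h1 : (act N γ)⁻¹ • m = act N γ⁻¹ m := by
    rw [← map_inv]; rfl
  rw [h1, valMan_act (denom_inv_of_fix hfix).1]

/-! ### Property (L) -/

/-- Core of property (L) on `Ban N`: if `γ` fixes `τ₀` and `(γ • a) * b = a * (γ • b)`, then
`(denom γ τ₀ ^ 2) ^ ord a = (denom γ τ₀ ^ 2) ^ ord b`. -/
theorem denom_sq_pow_eq_of_fixed {N : ℕ} {τ₀ : ℍ} {γ : SL(2, ℤ)} (hfix : γ • τ₀ = τ₀)
    {a b : Ban N} (ha : a ≠ 0) (hb : b ≠ 0)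
    (h : actBan N γ a * b = a * actBan N γ b) :
    (denom γ τ₀ ^ 2) ^ ordBan N τ₀ a = (denom γ τ₀ ^ 2) ^ ordBan N τ₀ b := by
  obtain ⟨hfix', hden⟩ := denom_inv_of_fix hfix
  obtain ⟨ca, hca⟩ := exists_isLead (ordAt_analyticAt (mdifferentiable_of_mem_Ban a.2) τ₀)
    (ordAt_ne_top (mdifferentiable_of_mem_Ban a.2) (Ban_coe_ne_zero ha) τ₀)
  obtain ⟨cb, hcb⟩ := exists_isLead (ordAt_analyticAt (mdifferentiable_of_mem_Ban b.2) τ₀)
    (ordAt_ne_top (mdifferentiable_of_mem_Ban b.2) (Ban_coe_ne_zero hb) τ₀)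
  have hμfix : mobC γ⁻¹ (τ₀ : ℂ) = (τ₀ : ℂ) := by rw [mobC_coe, hfix']
  have hν : HasDerivAt (mobC γ⁻¹) (denom γ τ₀ ^ 2) (τ₀ : ℂ) := by
    have := hasDerivAt_mobC γ⁻¹ τ₀
    rw [hden] at this
    simpa using this
  have hν0 : denom γ τ₀ ^ 2 ≠ 0 := pow_ne_zero _ (denom_ne_zero _ _)
  have key : ∀ f : Ban N, ∀ z : ℂ,
      ((f : ℍ → ℂ) ∘ ofComplex) (mobC γ⁻¹ z) = (actBan N γ f : ℍ → ℂ) (ofComplex z) := by
    intro f z
    simp only [Function.comp_apply, mobC, ofComplex_apply]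
    rfl
  have heq : ∀ᶠ z in 𝓝 (τ₀ : ℂ),
      ((a : ℍ → ℂ) ∘ ofComplex) (mobC γ⁻¹ z) * ((b : ℍ → ℂ) ∘ ofComplex) z
        = ((a : ℍ → ℂ) ∘ ofComplex) z * ((b : ℍ → ℂ) ∘ ofComplex) (mobC γ⁻¹ z) := by
    refine Filter.Eventually.of_forall fun z => ?_
    rw [key a z, key b z]
    have h' := congrFun (congrArg Subtype.val h) (ofComplex z)
    exact h'
  exact pow_deriv_eq_of_comp_mul_eq hca hcb (analyticAt_mobC γ⁻¹ τ₀) hμfix hν hν0 heq

/-- Property (L) for `valMan`: an `act N ε ^ k`-invariant element has order divisible by `e`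
(up to the factor `k`), if `denom ε τ₀ ^ 2` is a primitive `e`-th root of unity. -/
theorem dvd_mul_vord_of_fixed {N : ℕ} {τ₀ : ℍ} {ε : SL(2, ℤ)} (hfix : ε • τ₀ = τ₀) {e : ℕ}
    (hprim : IsPrimitiveRoot (denom ε τ₀ ^ 2) e) {m : Man N} (hm : m ≠ 0) (k : ℕ)
    (hinv : (act N ε ^ k) m = m) : (e : ℤ) ∣ (k : ℤ) * vord (valMan N τ₀) m := by
  obtain ⟨a, b, hb, rfl⟩ := IsFractionRing.div_surjective (A := Ban N) m
  have hb0 : b ≠ 0 := nonZeroDivisors.ne_zero hb
  have ha0 : a ≠ 0 := by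
    rintro rfl
    apply hm
    simp
  obtain ⟨hfixk, hdenk⟩ := denom_pow_of_fix hfix k
  -- the invariance on `Ban N`
  have h1 : actBan N (ε ^ k) a * b = a * actBan N (ε ^ k) b := by
    rw [← map_pow] at hinv
    simp only [map_div₀, act_algebraMap] at hinv
    have hb' : algebraMap (Ban N) (Man N) b ≠ 0 := algebraMap_Ban_Man_ne_zero hb0
    have hb'' : algebraMap (Ban N) (Man N) (actBan N (ε ^ k) b) ≠ 0 := by
      apply algebraMap_Ban_Man_ne_zero
      intro h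
      apply hb0
      have := congrArg (actBan N (ε ^ k)).symm h
      simpa using this
    rw [div_eq_div_iff hb'' hb', ← map_mul, ← map_mul] at hinv
    exact IsFractionRing.injective (Ban N) (Man N) hinv
  have h2 := denom_sq_pow_eq_of_fixed hfixk ha0 hb0 h1
  rw [hdenk] at h2
  set ζ := denom ε τ₀ ^ 2 with hζ
  have hζ0 : ζ ≠ 0 := pow_ne_zero _ (denom_ne_zero _ _)
  have h3 : ζ ^ (k * ordBan N τ₀ a) = ζ ^ (k * ordBan N τ₀ b) := by
    have e1 : ((denom ε τ₀) ^ k) ^ 2 = ζ ^ k := by rw [hζ]; ring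
    rw [e1] at h2
    rw [pow_mul, pow_mul]; exact h2
  have h4 : ζ ^ ((k : ℤ) * ((ordBan N τ₀ a : ℤ) - ordBan N τ₀ b)) = 1 := by
    have e2 : (k : ℤ) * ((ordBan N τ₀ a : ℤ) - ordBan N τ₀ b)
        = ((k * ordBan N τ₀ a : ℕ) : ℤ) - ((k * ordBan N τ₀ b : ℕ) : ℤ) := by
      push_cast; ring
    rw [e2, zpow_sub₀ hζ0, zpow_natCast, zpow_natCast, h3, div_self (pow_ne_zero _ hζ0)]
  rw [vord_valMan_div τ₀ ha0 hb0]
  exact (hprim.zpow_eq_one_iff_dvd _).mp h4

/-- **Main theorem of P5b.** Let `ε ∈ SL(2,ℤ)` fix `τ₀ ∈ ℍ`, let `denom ε τ₀ ^ 2` be a primitive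
`e`-th root of unity, and let `x ∈ Ban N` vanish to order exactly `e > 0` at `τ₀`. Then there is a
place `w` of `Man N` with property (L) for `x` and `act N ε`. -/
theorem exists_place_localProp (N : ℕ) (τ₀ : ℍ) (ε : SL(2, ℤ)) (e : ℕ) (x : Ban N)
    (hfix : ε • τ₀ = τ₀) (hprim : IsPrimitiveRoot (denom ε τ₀ ^ 2) e)
    (hx : ordAt τ₀ (x : ℍ → ℂ) = e) (he : 0 < e) :
    ∃ w : Place Kb (Man N), LocalProp (algebraMap (Ban N) (Man N) x) (act N ε) w := by
  have hx0 : x ≠ 0 := by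
    rintro rfl
    have h1 : ordAt τ₀ ((0 : Ban N) : ℍ → ℂ) = ⊤ := by
      rw [ordAt, analyticOrderAt_eq_top]
      exact Filter.Eventually.of_forall fun z => rfl
    rw [h1] at hx
    exact ENat.top_ne_natCast e hx
  have hxe : ordBan N τ₀ x = e := by
    rw [ordBan, hx]; rfl
  have hxM : algebraMap (Ban N) (Man N) x ≠ 0 := algebraMap_Ban_Man_ne_zero hx0
  have hvx : vord (valMan N τ₀) (algebraMap (Ban N) (Man N) x) = e := by
    rw [vord_valMan_algebraMap τ₀ hx0, hxe]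
  obtain ⟨w, e₀, he₀, hw, hord⟩ := exists_place_of_valuation (K := Kb) (valMan N τ₀)
    (valMan_algebraMap_Kb_le_one τ₀)
    ⟨algebraMap (Ban N) (Man N) x, hxM, by
      rw [lt_one_iff_vord_pos _ hxM, hvx]; exact_mod_cast he⟩
  have hwx : (e : ℤ) = e₀ * w.ord (algebraMap (Ban N) (Man N) x) := by
    rw [← hord _ hxM, hvx]
  refine ⟨w, ⟨?_, act_smul_place_eq hfix w hw, ?_⟩⟩
  · have : (0 : ℤ) < e₀ * w.ord (algebraMap (Ban N) (Man N) x) := by
      rw [← hwx]; exact_mod_cast he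
    exact (mul_pos_iff_of_pos_left he₀).mp this
  · intro m k hinv
    rcases eq_or_ne m 0 with rfl | hm
    · simp
    have h1 := dvd_mul_vord_of_fixed hfix hprim hm k hinv
    rw [hord m hm, hwx] at h1
    have h2 : e₀ * w.ord (algebraMap (Ban N) (Man N) x) ∣ e₀ * ((k : ℤ) * w.ord m) := by
      have : (k : ℤ) * (e₀ * w.ord m) = e₀ * ((k : ℤ) * w.ord m) := by ring
      rw [← this]; exact h1
    exact Int.dvd_of_mul_dvd_mul_left he₀.ne' h2

end Fermat.Agent.S24
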