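import Fermat.Agent.S24.PlaceBasic

/-!
# S24 / P10a — the degree of `div(dj)` from the local data (pure bookkeeping)
-/

set_option autoImplicit false

open AlgebraicCurve

namespace Fermat.Agent.S24

variable {K F : Type*} [Field K] [Field F] [Algebra K F]

namespace DegreeCountAux

/-- `degree D` as a sum over any finset containing the support, when all places have degree one. -/
theorem degree_eq_sum (hdeg : ∀ v : Place K F, v.deg = 1) (D : Divisor K F)
    (S : Finset (Place K F)) (hS : D.support ⊆ S) :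
    Divisor.degree D = ∑ v ∈ S, D v := by
  have h1 : Divisor.degree D = D.sum fun v n => n * (v.deg : ℤ) := by
    simp [Divisor.degree, Finsupp.liftAddHom_apply]
  rw [h1, Finsupp.sum_of_support_subset D hS _ (fun v _ => by simp)]
  refine Finset.sum_congr rfl fun v _ => ?_
  rw [hdeg v]; simp

/-- A place cannot be a zero of `j - c` and of `j - c'` for `c ≠ c'`. -/
theorem not_pos_of_pos_of_ne (v : Place K F) (j : F) {c c' : K} (hcc : c ≠ c')
    (h : 0 < v.ord (j - algebraMap K F c)) : ¬ 0 < v.ord (j - algebraMap K F c') := by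
  intro h'
  have hf : j - algebraMap K F c ≠ 0 := by
    intro h0; rw [h0] at h; simp at h
  have hg : -(j - algebraMap K F c') ≠ 0 := by
    intro h0; rw [neg_eq_zero] at h0; rw [h0] at h'; simp at h'
  have hsum : (j - algebraMap K F c) + -(j - algebraMap K F c') = algebraMap K F (c' - c) := by
    rw [map_sub]; ring
  have hne : algebraMap K F (c' - c) ≠ 0 := by
    rw [Ne, map_eq_zero, sub_eq_zero]; exact fun h => hcc h.symm
  have h1 := PlaceAux.le_ord_add v hf hg (by rw [hsum]; exact hne)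
  rw [hsum, PlaceAux.ord_algebraMap, PlaceAux.ord_neg] at h1
  rcases min_le_iff.mp h1 with h2 | h2 <;> omega

/-- A pole of `j` is not a zero of `j - c`. -/
theorem not_pos_of_neg (v : Place K F) (j : F) (c : K) (h : v.ord j < 0) :
    ¬ 0 < v.ord (j - algebraMap K F c) := by
  intro h'
  have hj : j ≠ 0 := by
    intro h0; rw [h0] at h; simp at h
  rcases eq_or_ne c 0 with rfl | hc
  · rw [map_zero, sub_zero] at h'; omega
  · have hg : -algebraMap K F c ≠ 0 := by
      rw [Ne, neg_eq_zero, map_eq_zero]; exact hc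
    have h1 : v.ord (j + -algebraMap K F c) = v.ord j :=
      PlaceAux.ord_add_eq_of_lt v hj hg (by rw [PlaceAux.ord_neg, PlaceAux.ord_algebraMap]; exact h)
    rw [← sub_eq_add_neg] at h1
    omega

/-- `Nat.card` of a subtype cut out by a finset. -/
theorem natCard_eq_card {α : Type*} (p : α → Prop) (S : Finset α) (hS : ∀ v, v ∈ S ↔ p v) :
    Nat.card {v : α // p v} = S.card := by
  classical
  have e : {v : α // p v} ≃ {v : α // v ∈ S} :=
    Equiv.subtypeEquivRight fun v => (hS v).symm
  rw [Nat.card_congr e, Nat.card_eq_fintype_card, Fintype.card_coe]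

end DegreeCountAux

open DegreeCountAux in
/-- P10a: the degree of the divisor of `dj` from the local data (pure bookkeeping). -/
theorem degree_of_local_data (j : F) (n r0 r1728 rinf : ℕ) (c1728 : K) (h1728 : c1728 ≠ 0)
    (od : Place K F → ℤ)
    (hdeg : ∀ v : Place K F, v.deg = 1)
    (hpart : ∀ v : Place K F, (∃ c : K, 0 < v.ord (j - algebraMap K F c)) ∨ v.ord j < 0)
    (hsum : ∀ c : K, ∃ S : Finset (Place K F), (∀ v, v ∈ S ↔ 0 < v.ord (j - algebraMap K F c)) ∧
      ∑ v ∈ S, v.ord (j - algebraMap K F c) = (n : ℤ))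
    (hsuminf : ∃ S : Finset (Place K F), (∀ v, v ∈ S ↔ v.ord j < 0) ∧
      ∑ v ∈ S, (- v.ord j) = (n : ℤ))
    (hod : ∀ (v : Place K F) (c : K), 0 < v.ord (j - algebraMap K F c) →
      od v = v.ord (j - algebraMap K F c) - 1)
    (hodinf : ∀ v : Place K F, v.ord j < 0 → od v = v.ord j - 1)
    (hc0 : Nat.card {v : Place K F // 0 < v.ord (j - algebraMap K F 0)} = r0)
    (hc1728 : Nat.card {v : Place K F // 0 < v.ord (j - algebraMap K F c1728)} = r1728)
    (hcinf : Nat.card {v : Place K F // v.ord j < 0} = rinf)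
    (hcgen : ∀ c : K, c ≠ 0 → c ≠ c1728 →
      Nat.card {v : Place K F // 0 < v.ord (j - algebraMap K F c)} = n)
    (D : Divisor K F) (hD : ∀ v, D v = od v) :
    Divisor.degree D = ((n : ℤ) - r0) + ((n : ℤ) - r1728) - ((n : ℤ) + rinf) := by
  classical
  obtain ⟨S0, hS0, hsum0⟩ := hsum 0
  obtain ⟨S1, hS1, hsum1⟩ := hsum c1728
  obtain ⟨Si, hSi, hsumi⟩ := hsuminf
  -- cardinalities
  have hcard0 : (S0.card : ℤ) = r0 := by
    rw [← hc0, natCard_eq_card _ S0 hS0]
  have hcard1 : (S1.card : ℤ) = r1728 := by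
    rw [← hc1728, natCard_eq_card _ S1 hS1]
  have hcardi : (Si.card : ℤ) = rinf := by
    rw [← hcinf, natCard_eq_card _ Si hSi]
  -- disjointness
  have hd01 : Disjoint S0 S1 := by
    rw [Finset.disjoint_left]
    intro v hv0 hv1
    exact not_pos_of_pos_of_ne v j (Ne.symm h1728) ((hS0 v).mp hv0) ((hS1 v).mp hv1)
  have hd0i : Disjoint S0 Si := by
    rw [Finset.disjoint_left]
    intro v hv0 hvi
    exact not_pos_of_neg v j 0 ((hSi v).mp hvi) ((hS0 v).mp hv0)
  have hd1i : Disjoint S1 Si := by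
    rw [Finset.disjoint_left]
    intro v hv1 hvi
    exact not_pos_of_neg v j c1728 ((hSi v).mp hvi) ((hS1 v).mp hv1)
  -- generic places contribute nothing
  have hgen : ∀ v : Place K F, v ∉ S0 → v ∉ S1 → v ∉ Si → od v = 0 := by
    intro v hv0 hv1 hvi
    rcases hpart v with ⟨c, hc⟩ | hneg
    · have hc0' : c ≠ 0 := by
        rintro rfl; exact hv0 ((hS0 v).mpr hc)
      have hc1' : c ≠ c1728 := by
        rintro rfl; exact hv1 ((hS1 v).mpr hc)
      obtain ⟨Sc, hSc, hsumc⟩ := hsum c
      have hcardc : (Sc.card : ℤ) = n := by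
        rw [← hcgen c hc0' hc1', natCard_eq_card _ Sc hSc]
      have hzero : ∑ w ∈ Sc, (w.ord (j - algebraMap K F c) - 1) = 0 := by
        rw [Finset.sum_sub_distrib, hsumc, Finset.sum_const, nsmul_eq_mul, mul_one, hcardc]
        simp
      have hnonneg : ∀ w ∈ Sc, 0 ≤ w.ord (j - algebraMap K F c) - 1 := by
        intro w hw
        have := (hSc w).mp hw
        omega
      have hall := (Finset.sum_eq_zero_iff_of_nonneg hnonneg).mp hzero v ((hSc v).mpr hc)
      rw [hod v c hc]; exact hall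
    · exact absurd ((hSi v).mpr hneg) hvi
  -- the support is contained in the union
  have hsupp : D.support ⊆ S0 ∪ S1 ∪ Si := by
    intro v hv
    rw [Finsupp.mem_support_iff, hD v] at hv
    by_contra hcon
    simp only [Finset.mem_union, not_or] at hcon
    exact hv (hgen v hcon.1.1 hcon.1.2 hcon.2)
  rw [degree_eq_sum hdeg D _ hsupp,
    Finset.sum_union (Finset.disjoint_union_left.mpr ⟨hd0i, hd1i⟩), Finset.sum_union hd01]
  have e0 : ∑ v ∈ S0, D v = (n : ℤ) - r0 := by
    have : ∑ v ∈ S0, D v = ∑ v ∈ S0, (v.ord (j - algebraMap K F 0) - 1) :=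
      Finset.sum_congr rfl fun v hv => by rw [hD v, hod v 0 ((hS0 v).mp hv)]
    rw [this, Finset.sum_sub_distrib, hsum0, Finset.sum_const, nsmul_eq_mul, mul_one, hcard0]
  have e1 : ∑ v ∈ S1, D v = (n : ℤ) - r1728 := by
    have : ∑ v ∈ S1, D v = ∑ v ∈ S1, (v.ord (j - algebraMap K F c1728) - 1) :=
      Finset.sum_congr rfl fun v hv => by rw [hD v, hod v c1728 ((hS1 v).mp hv)]
    rw [this, Finset.sum_sub_distrib, hsum1, Finset.sum_const, nsmul_eq_mul, mul_one, hcard1]
  have ei : ∑ v ∈ Si, D v = -((n : ℤ) + rinf) := by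
    have : ∑ v ∈ Si, D v = ∑ v ∈ Si, (-(-v.ord j) - 1) :=
      Finset.sum_congr rfl fun v hv => by rw [hD v, hodinf v ((hSi v).mp hv)]; ring
    rw [this, Finset.sum_sub_distrib, Finset.sum_neg_distrib, hsumi, Finset.sum_const,
      nsmul_eq_mul, mul_one, hcardi]
    ring
  rw [e0, e1, ei]; ring

end Fermat.Agent.S24
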