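import Fermat.Agent.S24.Model
import Fermat.Agent.S24.LevelOneA
import Fermat.Agent.S24.Invariants
import Fermat.Agent.S22.UpperTri
import Fermat.Agent.S22.Decomp

/-!
# S24 piece P7a (part 2): `q`-expansions at `i∞` with coefficients in `ℚ̄`

* `IsNice h F`: `F : ℍ → ℂ` is `h`-periodic, holomorphic and bounded at `i∞`
  (so it has a `q_h`-expansion, `UpperHalfPlane.hasSum_qExpansion`).
* `KSer`: the subring of `ℂ⟦X⟧` of power series with coefficients in `embC ℚ̄`.
* `IsKNice N F`: nice at level `N` with `qExpansion N F ∈ KSer`.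
* `HasKExp N f`: some `q_N ^ m * f` is `IsKNice` (finite-tailed Laurent expansion in `q_N` with
  coefficients in `ℚ̄`).
* `hasKExp_of_mem_Ban`: every element of `Ban N` has such an expansion.
* `HasKExp.exists_isBoundedAtImInfty`: `Δ ^ M * f` is bounded at `i∞` for some `M`.
* `poly_descent`: if `f = p (Jfun)` with `p : ℂ[X]` and `HasKExp N f` then `p` has coefficients
  in `ℚ̄`.
-/

set_option autoImplicit false

noncomputable section

open UpperHalfPlane Filter Topology Function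
open scoped MatrixGroups Manifold ModularForm

namespace Fermat.Agent.S24.KExp

attribute [local instance] algKbC

local notation "𝕢" => Function.Periodic.qParam

/-! ### Nice functions -/

/-- `F` is `h`-periodic, holomorphic and bounded at `i∞`. -/
structure IsNice (h : ℝ) (F : ℍ → ℂ) : Prop where
  per : Function.Periodic (F ∘ ofComplex) h
  hol : MDiff F
  bdd : IsBoundedAtImInfty F

theorem IsNice.analyticAt {h : ℝ} {F : ℍ → ℂ} (hh : 0 < h) (hF : IsNice h F) :
    AnalyticAt ℂ (cuspFunction h F) 0 :=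
  analyticAt_cuspFunction_zero hh hF.per hF.hol hF.bdd

theorem IsNice.hasSum {h : ℝ} {F : ℍ → ℂ} (hh : 0 < h) (hF : IsNice h F) (τ : ℍ) :
    HasSum (fun m : ℕ ↦ (qExpansion h F).coeff m • 𝕢 h τ ^ m) (F τ) :=
  hasSum_qExpansion hh hF.per hF.hol hF.bdd τ

theorem IsNice.mul {h : ℝ} {F G : ℍ → ℂ} (hF : IsNice h F) (hG : IsNice h G) :
    IsNice h (F * G) where
  per := fun z => by
    have h1 := hF.per z
    have h2 := hG.per z
    simp only [Function.comp_apply, Pi.mul_apply] at h1 h2 ⊢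
    rw [h1, h2]
  hol := hF.hol.mul hG.hol
  bdd := hF.bdd.mul hG.bdd

theorem IsNice.add {h : ℝ} {F G : ℍ → ℂ} (hF : IsNice h F) (hG : IsNice h G) :
    IsNice h (F + G) where
  per := fun z => by
    have h1 := hF.per z
    have h2 := hG.per z
    simp only [Function.comp_apply, Pi.add_apply] at h1 h2 ⊢
    rw [h1, h2]
  hol := hF.hol.add hG.hol
  bdd := hF.bdd.add hG.bdd

theorem isNice_const (h : ℝ) (c : ℂ) : IsNice h (fun _ => c) where
  per := fun _ => rfl
  hol := mdifferentiable_const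
  bdd := Filter.const_boundedAtFilter _ c

theorem IsNice.neg {h : ℝ} {F : ℍ → ℂ} (hF : IsNice h F) : IsNice h (-F) := by
  have := (isNice_const h (-1)).mul hF
  convert this using 1
  funext τ
  simp

theorem IsNice.pow {h : ℝ} {F : ℍ → ℂ} (hF : IsNice h F) (k : ℕ) : IsNice h (F ^ k) := by
  induction k with
  | zero =>
    have := isNice_const h 1
    convert this using 1
    funext τ
    simp
  | succ k ih =>
    rw [pow_succ]
    exact ih.mul hF

/-- The function `q_h : τ ↦ exp (2πiτ/h)` on `ℍ`. -/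
def qH (h : ℝ) : ℍ → ℂ := fun τ => 𝕢 h τ

theorem qH_apply (h : ℝ) (τ : ℍ) : qH h τ = 𝕢 h τ := rfl

theorem qH_ne_zero (h : ℝ) (τ : ℍ) : qH h τ ≠ 0 := Function.Periodic.qParam_ne_zero _

theorem qH_comp_ofComplex {h : ℝ} {z : ℂ} (hz : 0 < z.im) : qH h (ofComplex z) = 𝕢 h z := by
  rw [qH_apply, ofComplex_apply_of_im_pos hz]

theorem qParam_add_period {h : ℝ} (hh : h ≠ 0) (z : ℂ) : 𝕢 h (z + h) = 𝕢 h z := by
  simp only [Function.Periodic.qParam]
  have : 2 * ↑Real.pi * Complex.I * (z + h) / h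
      = 2 * ↑Real.pi * Complex.I * z / h + 2 * ↑Real.pi * Complex.I := by
    have hh' : (h : ℂ) ≠ 0 := by exact_mod_cast hh
    field_simp
  rw [this, Complex.exp_add, Complex.exp_two_pi_mul_I, mul_one]

theorem isNice_qH {h : ℝ} (hh : 0 < h) : IsNice h (qH h) where
  per := fun w => by
    by_cases hw : 0 < w.im
    · have hw' : 0 < (w + h).im := by simpa using hw
      simp only [Function.comp_apply, qH_comp_ofComplex hw, qH_comp_ofComplex hw']
      exact qParam_add_period hh.ne' w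
    · have hw1 : w.im ≤ 0 := not_lt.mp hw
      have hw2 : (w + h).im ≤ 0 := by simpa using hw1
      simp [ofComplex_apply_of_im_nonpos hw1, ofComplex_apply_of_im_nonpos hw2]
  hol := by
    rw [UpperHalfPlane.mdifferentiable_iff]
    have hd : DifferentiableOn ℂ (𝕢 h) {z : ℂ | 0 < z.im} :=
      (Function.Periodic.differentiable_qParam (h := h)).differentiableOn
    refine hd.congr fun z hz => ?_
    simp only [Function.comp_apply]
    exact qH_comp_ofComplex hz
  bdd := (qParam_tendsto_atImInfty hh).isBigO_one ℝ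

theorem tendsto_qH {h : ℝ} (hh : 0 < h) : Tendsto (qH h) atImInfty (𝓝 0) :=
  qParam_tendsto_atImInfty hh

theorem norm_qH_lt_one {h : ℝ} (hh : 0 < h) (τ : ℍ) : ‖qH h τ‖ < 1 :=
  Function.Periodic.norm_qParam_lt_one hh τ.im_pos

/-- Uniqueness of `q`-expansion coefficients, for plain functions. -/
theorem qExpansion_coeff_unique_fun {h : ℝ} {f : ℍ → ℂ} {c : ℕ → ℂ} (hh : 0 < h)
    (hfanalytic : AnalyticAt ℂ (cuspFunction h f) 0)
    (hf : ∀ τ : ℍ, HasSum (fun m ↦ c m • 𝕢 h τ ^ m) (f τ)) (m : ℕ) :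
    c m = (qExpansion h f).coeff m := by
  let _ : FunLike (ℍ → ℂ) ℍ ℂ := ⟨id, fun _ _ h => h⟩
  exact UpperHalfPlane.qExpansion_coeff_unique (F := ℍ → ℂ) f hh hfanalytic hf m

theorem qExpansion_qH_pow {h : ℝ} (hh : 0 < h) (k : ℕ) :
    qExpansion h (qH h ^ k) = (PowerSeries.X : PowerSeries ℂ) ^ k := by
  ext m
  have hn : IsNice h (qH h ^ k) := (isNice_qH hh).pow k
  have key := qExpansion_coeff_unique_fun (f := qH h ^ k)
    (c := fun m => if m = k then (1 : ℂ) else 0) hh (hn.analyticAt hh) (fun τ => ?_) m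
  · rw [← key, PowerSeries.coeff_X_pow]
  · have := hasSum_ite_eq k (qH h τ ^ k)
    simp only [Pi.pow_apply]
    convert this using 2 with n
    by_cases hnk : n = k
    · subst hnk; simp [qH_apply]
    · simp [hnk]

theorem qExpansion_const {h : ℝ} (hh : 0 < h) (c : ℂ) :
    qExpansion h (fun _ => c) = PowerSeries.C c := by
  ext m
  have key := qExpansion_coeff_unique_fun (f := fun _ => c)
    (c := fun m => if m = 0 then c else 0) hh ((isNice_const h c).analyticAt hh) (fun τ => ?_) m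
  · rw [← key, PowerSeries.coeff_C]
  · have := hasSum_ite_eq 0 c
    convert this using 2 with n
    by_cases hn : n = 0
    · subst hn; simp
    · simp [hn]

/-! ### Power series with coefficients in `ℚ̄` -/

/-- Power series with coefficients in `embC ℚ̄`. -/
def KSer : Subring (PowerSeries ℂ) := (PowerSeries.map embC).range

theorem mem_KSer_iff {P : PowerSeries ℂ} : P ∈ KSer ↔ ∀ n, P.coeff n ∈ Set.range embC := by
  constructor
  · rintro ⟨Q, rfl⟩ n
    exact ⟨Q.coeff n, by simp⟩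
  · intro hP
    choose c hc using hP
    refine ⟨PowerSeries.mk c, ?_⟩
    ext n
    simp [hc]

theorem X_mem_KSer : (PowerSeries.X : PowerSeries ℂ) ∈ KSer :=
  ⟨PowerSeries.X, by simp⟩

theorem C_mem_KSer (c : Kb) : PowerSeries.C (embC c) ∈ KSer :=
  ⟨PowerSeries.C c, by simp⟩

/-- Every complex number algebraic over `ℚ` is in the image of `embC`. -/
theorem mem_range_embC_of_isAlgebraic {z : ℂ} (hz : IsAlgebraic ℚ z) : z ∈ Set.range embC := by
  let g : Kb →ₐ[ℚ] ℂ := embC.toRatAlgHom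
  have hp : minpoly ℚ z ≠ 0 := minpoly.ne_zero hz.isIntegral
  have hsplit : ((minpoly ℚ z).map (algebraMap ℚ Kb)).Splits := IsAlgClosed.splits _
  have himg := hsplit.image_rootSet g
  have hzroot : z ∈ (minpoly ℚ z).rootSet ℂ := by
    rw [Polynomial.mem_rootSet]
    exact ⟨hp, minpoly.aeval ℚ z⟩
  rw [← himg] at hzroot
  obtain ⟨r, -, hr⟩ := hzroot
  exact ⟨r, hr⟩

theorem ratCast_mem_range_embC (r : ℚ) : (r : ℂ) ∈ Set.range embC :=
  ⟨(r : Kb), map_ratCast embC r⟩

/-- Nice at level `h`, with `q_h`-expansion coefficients in `ℚ̄`. -/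
def IsKNice (h : ℝ) (F : ℍ → ℂ) : Prop := IsNice h F ∧ qExpansion h F ∈ KSer

theorem natCast_pos_of_neZero (N : ℕ) [NeZero N] : (0 : ℝ) < (N : ℝ) :=
  Nat.cast_pos.mpr (Nat.pos_of_ne_zero (NeZero.ne N))

section

variable {h : ℝ}

theorem IsKNice.mul {F G : ℍ → ℂ} (hh : 0 < h) (hF : IsKNice h F) (hG : IsKNice h G) :
    IsKNice h (F * G) := by
  refine ⟨hF.1.mul hG.1, ?_⟩
  rw [qExpansion_mul (hF.1.analyticAt hh) (hG.1.analyticAt hh)]
  exact KSer.mul_mem hF.2 hG.2

theorem IsKNice.add {F G : ℍ → ℂ} (hh : 0 < h) (hF : IsKNice h F) (hG : IsKNice h G) :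
    IsKNice h (F + G) := by
  refine ⟨hF.1.add hG.1, ?_⟩
  rw [qExpansion_add (hF.1.analyticAt hh) (hG.1.analyticAt hh)]
  exact KSer.add_mem hF.2 hG.2

theorem isKNice_const (hh : 0 < h) (c : Kb) : IsKNice h (fun _ => embC c) := by
  refine ⟨isNice_const _ _, ?_⟩
  rw [qExpansion_const hh]
  exact C_mem_KSer c

theorem isKNice_qH_pow (hh : 0 < h) (k : ℕ) : IsKNice h (qH h ^ k) := by
  refine ⟨(isNice_qH hh).pow k, ?_⟩
  rw [qExpansion_qH_pow hh]
  exact KSer.pow_mem X_mem_KSer k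

theorem IsKNice.pow {F : ℍ → ℂ} (hh : 0 < h) (hF : IsKNice h F) (k : ℕ) :
    IsKNice h (F ^ k) := by
  induction k with
  | zero =>
    have := isKNice_const hh 1
    convert this using 1
    funext τ
    simp
  | succ k ih =>
    rw [pow_succ]
    exact ih.mul hh hF

theorem IsKNice.smul {F : ℍ → ℂ} (hh : 0 < h) (hF : IsKNice h F) (c : Kb) :
    IsKNice h (fun τ => embC c * F τ) :=
  (isKNice_const hh c).mul hh hF

theorem IsKNice.neg {F : ℍ → ℂ} (hh : 0 < h) (hF : IsKNice h F) : IsKNice h (-F) := by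
  have := hF.smul hh (-1)
  convert this using 1
  funext τ
  simp

theorem IsKNice.sub {F G : ℍ → ℂ} (hh : 0 < h) (hF : IsKNice h F) (hG : IsKNice h G) :
    IsKNice h (F - G) := by
  rw [sub_eq_add_neg]
  exact hF.add hh (hG.neg hh)

end

/-! ### Finite-tailed Laurent expansions -/

section

variable {N : ℕ} [NeZero N]

/-- `f` has a finite-tailed Laurent expansion in `q_N` at `i∞` with coefficients in `ℚ̄`. -/
def HasKExp (N : ℕ) (f : ℍ → ℂ) : Prop := ∃ m : ℕ, IsKNice N (qH N ^ m * f)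

omit [NeZero N] in
theorem IsKNice.hasKExp {F : ℍ → ℂ} (hF : IsKNice N F) : HasKExp N F :=
  ⟨0, by simpa using hF⟩

theorem HasKExp.mul {f g : ℍ → ℂ} (hf : HasKExp N f) (hg : HasKExp N g) : HasKExp N (f * g) := by
  obtain ⟨m₁, h₁⟩ := hf
  obtain ⟨m₂, h₂⟩ := hg
  refine ⟨m₁ + m₂, ?_⟩
  have := h₁.mul (natCast_pos_of_neZero N) h₂
  convert this using 1
  ring

theorem HasKExp.add {f g : ℍ → ℂ} (hf : HasKExp N f) (hg : HasKExp N g) : HasKExp N (f + g) := by
  obtain ⟨m₁, h₁⟩ := hf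
  obtain ⟨m₂, h₂⟩ := hg
  refine ⟨m₁ + m₂, ?_⟩
  have hN := natCast_pos_of_neZero N
  have := ((isKNice_qH_pow hN m₂).mul hN h₁).add hN ((isKNice_qH_pow hN m₁).mul hN h₂)
  convert this using 1
  ring

theorem hasKExp_const (c : Kb) : HasKExp N (fun _ => embC c) :=
  (isKNice_const (natCast_pos_of_neZero N) c).hasKExp

theorem hasKExp_algebraMap (c : Kb) : HasKExp N (algebraMap Kb (ℍ → ℂ) c) :=
  hasKExp_const c

theorem HasKExp.smul {f : ℍ → ℂ} (hf : HasKExp N f) (c : Kb) :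
    HasKExp N (fun τ => embC c * f τ) :=
  (hasKExp_const (N := N) c).mul hf

theorem HasKExp.neg {f : ℍ → ℂ} (hf : HasKExp N f) : HasKExp N (-f) := by
  have := hf.smul (-1)
  convert this using 1
  funext τ
  simp

theorem HasKExp.sub {f g : ℍ → ℂ} (hf : HasKExp N f) (hg : HasKExp N g) : HasKExp N (f - g) := by
  rw [sub_eq_add_neg]
  exact hf.add hg.neg

theorem HasKExp.pow {f : ℍ → ℂ} (hf : HasKExp N f) (k : ℕ) : HasKExp N (f ^ k) := by
  induction k with
  | zero =>
    have := hasKExp_const (N := N) 1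
    convert this using 1
    funext τ
    simp
  | succ k ih =>
    rw [pow_succ]
    exact ih.mul hf

end

/-! ### Level one: the expansion of `q · J` -/

section LevelOne

open ModularForm EisensteinSeries SlashInvariantFormClass ModularFormClass

local notation "Δ" => ModularForm.discriminant

theorem isNice_of_modularForm {k : ℤ} (f : ModularForm 𝒮ℒ k) : IsNice 1 (f : ℍ → ℂ) where
  per := periodic_comp_ofComplex f one_mem_strictPeriods_SL
  hol := ModularFormClass.holo f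
  bdd :=
    have : Fact (IsCusp OnePoint.infty 𝒮ℒ) :=
      ⟨Subgroup.isCusp_of_mem_strictPeriods one_pos one_mem_strictPeriods_SL⟩
    ModularFormClass.bdd_at_infty f

theorem isKNice_E {k : ℕ} (hk : 3 ≤ k) (hk2 : Even k) : IsKNice 1 (E hk : ℍ → ℂ) := by
  refine ⟨isNice_of_modularForm _, ?_⟩
  rw [mem_KSer_iff]
  intro n
  rw [E_qExpansion_coeff hk hk2]
  split_ifs with hn
  · exact ⟨1, map_one _⟩
  · have := ratCast_mem_range_embC (-(2 * k / bernoulli k) * (ArithmeticFunction.sigma (k - 1) n))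
    convert this using 1
    push_cast
    ring

theorem isKNice_E₄ : IsKNice 1 (E₄ : ℍ → ℂ) := isKNice_E (by norm_num) ⟨2, rfl⟩

theorem isKNice_E₆ : IsKNice 1 (E₆ : ℍ → ℂ) := isKNice_E (by norm_num) ⟨3, rfl⟩

theorem isKNice_discriminant : IsKNice 1 (Δ : ℍ → ℂ) := by
  have h := ((isKNice_E₄.pow one_pos 3).sub one_pos (isKNice_E₆.pow one_pos 2)).smul one_pos
    ((1728 : Kb)⁻¹)
  convert h using 1
  funext τ
  rw [discriminant_eq_E₄_cube_sub_E₆_sq]
  simp only [Pi.sub_apply, Pi.pow_apply, map_inv₀, map_ofNat]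
  ring

/-- `Δ / q`. -/
def discOverQ : ℍ → ℂ := fun τ => Δ τ / qH 1 τ

theorem discOverQ_eq (τ : ℍ) : discOverQ τ = ∏' n, (1 - eta_q n τ) ^ 24 := by
  rw [discOverQ, discriminant_eq_q_prod, qH_apply]
  field_simp [Function.Periodic.qParam_ne_zero]

theorem tendsto_discOverQ : Tendsto discOverQ atImInfty (𝓝 1) :=
  tendsto_atImInfty_tprod_one_sub_eta_q_pow.congr fun τ => (discOverQ_eq τ).symm

theorem qH_mul_discOverQ : qH 1 * discOverQ = (Δ : ℍ → ℂ) := by
  funext τ
  simp only [Pi.mul_apply, discOverQ]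
  field_simp [qH_ne_zero]

theorem discOverQ_ne_zero (τ : ℍ) : discOverQ τ ≠ 0 :=
  div_ne_zero (discriminant_ne_zero τ) (qH_ne_zero 1 τ)

theorem isNice_discOverQ : IsNice 1 discOverQ where
  per := fun w => by
    have h1 := isKNice_discriminant.1.per w
    have h2 := (isNice_qH one_pos).per w
    simp only [Function.comp_apply, discOverQ] at h1 h2 ⊢
    rw [h1, h2]
  hol := by
    have hΔ := isKNice_discriminant.1.hol
    have hq := (isNice_qH (h := 1) one_pos).hol
    rw [UpperHalfPlane.mdifferentiable_iff] at hΔ hq ⊢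
    exact DifferentiableOn.div hΔ hq (fun z _ => qH_ne_zero 1 _)
  bdd := tendsto_discOverQ.isBigO_one ℝ

theorem valueAtInfty_eq_of_tendsto {F : ℍ → ℂ} {c : ℂ} (hF : Tendsto F atImInfty (𝓝 c)) :
    valueAtInfty F = c :=
  hF.limUnder_eq

theorem IsNice.coeff_zero_eq_of_tendsto {h : ℝ} (hh : 0 < h) {F : ℍ → ℂ} (hF : IsNice h F) {c : ℂ}
    (hc : Tendsto F atImInfty (𝓝 c)) : (qExpansion h F).coeff 0 = c := by
  rw [qExpansion_coeff_zero hh (hF.analyticAt hh) hF.per, valueAtInfty_eq_of_tendsto hc]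

/-- If `X * Q ∈ KSer` then `Q ∈ KSer`. -/
theorem mem_KSer_of_X_mul {Q : PowerSeries ℂ} (hQ : PowerSeries.X * Q ∈ KSer) : Q ∈ KSer := by
  rw [mem_KSer_iff] at hQ ⊢
  intro n
  have := hQ (n + 1)
  rwa [PowerSeries.coeff_succ_X_mul] at this

/-- If `X ^ k * Q ∈ KSer` then `Q ∈ KSer`. -/
theorem mem_KSer_of_X_pow_mul {Q : PowerSeries ℂ} (k : ℕ)
    (hQ : PowerSeries.X ^ k * Q ∈ KSer) : Q ∈ KSer := by
  induction k with
  | zero => simpa using hQ
  | succ k ih =>
    apply ih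
    apply mem_KSer_of_X_mul
    rwa [← mul_assoc, ← pow_succ']

/-- Division by a power series in `KSer` with constant coefficient `1`. -/
theorem mem_KSer_of_mul {P Q : PowerSeries ℂ} (hQ : Q ∈ KSer) (hQ0 : Q.coeff 0 = 1)
    (hPQ : P * Q ∈ KSer) : P ∈ KSer := by
  obtain ⟨Q₀, rfl⟩ := hQ
  have h0 : PowerSeries.constantCoeff Q₀ ≠ 0 := by
    intro h
    rw [PowerSeries.coeff_map, PowerSeries.coeff_zero_eq_constantCoeff_apply, h, map_zero] at hQ0
    exact zero_ne_one hQ0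
  have hinv : Q₀ * Q₀⁻¹ = 1 := PowerSeries.mul_inv_cancel _ h0
  have h1 : PowerSeries.map embC Q₀ * PowerSeries.map embC Q₀⁻¹ = 1 := by
    rw [← map_mul, hinv, map_one]
  have : P = P * PowerSeries.map embC Q₀ * PowerSeries.map embC Q₀⁻¹ := by
    rw [mul_assoc, h1, mul_one]
  rw [this]
  exact KSer.mul_mem hPQ ⟨_, rfl⟩

theorem isKNice_discOverQ : IsKNice 1 discOverQ := by
  refine ⟨isNice_discOverQ, ?_⟩
  apply mem_KSer_of_X_mul
  have h1 := qExpansion_mul ((isNice_qH (h := 1) one_pos).analyticAt one_pos)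
    (isNice_discOverQ.analyticAt one_pos)
  have h2 := qExpansion_qH_pow (h := 1) one_pos 1
  simp only [pow_one] at h2
  rw [h2, qH_mul_discOverQ] at h1
  rw [← h1]
  exact isKNice_discriminant.2

/-- `q · J`. -/
def qJ : ℍ → ℂ := qH 1 * Jfun

theorem qJ_apply (τ : ℍ) : qJ τ = qH 1 τ * Jfun τ := rfl

theorem tendsto_qJ : Tendsto qJ atImInfty (𝓝 1) := tendsto_qParam_mul_Jfun

theorem qJ_mul_discOverQ : qJ * discOverQ = (E₄ : ℍ → ℂ) ^ 3 := by
  funext τ
  simp only [Pi.mul_apply, Pi.pow_apply, qJ, discOverQ, Jfun]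
  field_simp [qH_ne_zero, discriminant_ne_zero]

theorem Jfun_periodic : Function.Periodic (Jfun ∘ ofComplex) 1 := fun w => by
  have h1 := isKNice_E₄.1.per w
  have h2 := isKNice_discriminant.1.per w
  simp only [Function.comp_apply, Jfun, Complex.ofReal_one] at h1 h2 ⊢
  rw [h1, h2]

theorem isNice_qJ : IsNice 1 qJ where
  per := fun w => by
    have h1 := Jfun_periodic w
    have h2 := (isNice_qH one_pos).per w
    simp only [Function.comp_apply, qJ, Pi.mul_apply, Complex.ofReal_one] at h1 h2 ⊢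
    rw [h1, h2]
  hol := (isNice_qH (h := 1) one_pos).hol.mul mdifferentiable_Jfun
  bdd := tendsto_qJ.isBigO_one ℝ

theorem isKNice_qJ : IsKNice 1 qJ := by
  refine ⟨isNice_qJ, ?_⟩
  have h1 := qExpansion_mul (isNice_qJ.analyticAt one_pos) (isNice_discOverQ.analyticAt one_pos)
  rw [qJ_mul_discOverQ] at h1
  refine mem_KSer_of_mul isKNice_discOverQ.2
    (isNice_discOverQ.coeff_zero_eq_of_tendsto one_pos tendsto_discOverQ) ?_
  rw [← h1]
  exact (isKNice_E₄.pow one_pos 3).2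

end LevelOne

/-! ### The generators `J ∘ g` -/

section Generators

theorem Jcomp_upper (a b d : ℝ) (ha : 0 < a) (hd : 0 < d) (τ : ℍ) :
    Jcomp (ModularForm.upperTriangularGL a b d (mul_pos ha hd).ne') τ
      = (Jfun ∘ ofComplex) ((a * τ + b) / d) := by
  simp only [Jcomp, Function.comp_apply]
  rw [← Fermat.Agent.S22.coe_upperTriangularGL_smul a b d ha hd τ, ofComplex_apply]

theorem tendsto_upper_smul (a b d : ℝ) (had : a * d ≠ 0) :
    Tendsto (fun τ : ℍ => ModularForm.upperTriangularGL a b d had • τ) atImInfty atImInfty :=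
  tendsto_smul_atImInfty (by simp [ModularForm.val_upperTriangularGL])

/-- The root of unity `exp (2πi b / d)`. -/
def zetaBD (b : ℤ) (d : ℕ) : ℂ := Complex.exp (2 * Real.pi * Complex.I * b / d)

theorem zetaBD_ne_zero (b : ℤ) (d : ℕ) : zetaBD b d ≠ 0 := Complex.exp_ne_zero _

theorem zetaBD_pow (b : ℤ) {d : ℕ} (hd : 0 < d) : zetaBD b d ^ d = 1 := by
  rw [zetaBD, ← Complex.exp_nat_mul]
  have hd' : (d : ℂ) ≠ 0 := by exact_mod_cast hd.ne'
  have : (d : ℂ) * (2 * Real.pi * Complex.I * b / d) = b * (2 * Real.pi * Complex.I) := by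
    field_simp
  rw [this, Complex.exp_int_mul_two_pi_mul_I]

theorem zetaBD_mem_range (b : ℤ) {d : ℕ} (hd : 0 < d) : zetaBD b d ∈ Set.range embC := by
  apply mem_range_embC_of_isAlgebraic
  apply IsIntegral.isAlgebraic
  apply IsIntegral.of_pow hd
  rw [zetaBD_pow b hd]
  exact isIntegral_one

/-- `q₁((aτ + b)/d) = ζ · q_N(τ) ^ (a · k)` if `N = d · k`. -/
theorem qParam_upper (a d k : ℕ) (b : ℤ) (hd : 0 < d) (hk : 0 < k) (z : ℂ) :
    𝕢 1 (((a : ℝ) * z + (b : ℝ)) / (d : ℝ)) = zetaBD b d * 𝕢 ((d * k : ℕ) : ℝ) z ^ (a * k) := by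
  simp only [Function.Periodic.qParam, zetaBD]
  rw [← Complex.exp_nat_mul, ← Complex.exp_add]
  congr 1
  have hd' : (d : ℂ) ≠ 0 := by exact_mod_cast hd.ne'
  have hk' : (k : ℂ) ≠ 0 := by exact_mod_cast hk.ne'
  push_cast
  field_simp
  ring

theorem Jcomp_upper_periodic (a d k : ℕ) (b : ℤ) (ha : 0 < a) (hd : 0 < d) :
    Function.Periodic
      (Jcomp (ModularForm.upperTriangularGL (a : ℝ) (b : ℝ) (d : ℝ) (by positivity)) ∘ ofComplex)
      (((d * k : ℕ) : ℝ) : ℂ) := fun w => by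
  have ha' : (0 : ℝ) < a := by exact_mod_cast ha
  have hd' : (0 : ℝ) < d := by exact_mod_cast hd
  by_cases hw : 0 < w.im
  · have hw' : 0 < (w + (((d * k : ℕ) : ℝ) : ℂ)).im := by simpa using hw
    simp only [Function.comp_apply, ofComplex_apply_of_im_pos hw, ofComplex_apply_of_im_pos hw']
    rw [Jcomp_upper _ _ _ ha' hd', Jcomp_upper _ _ _ ha' hd']
    have hper := Jfun_periodic.nat_mul (a * k)
    have hdc : (d : ℂ) ≠ 0 := by exact_mod_cast hd.ne'
    have : (((a : ℝ) : ℂ) * ((⟨w + (((d * k : ℕ) : ℝ) : ℂ), hw'⟩ : ℍ) : ℂ) + ((b : ℝ) : ℂ)) /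
        ((d : ℝ) : ℂ) =
        (((a : ℝ) : ℂ) * ((⟨w, hw⟩ : ℍ) : ℂ) + ((b : ℝ) : ℂ)) / ((d : ℝ) : ℂ)
          + ((a * k : ℕ) : ℂ) * 1 := by
      push_cast
      field_simp
      ring
    rw [this]
    exact hper _
  · have hw1 : w.im ≤ 0 := not_lt.mp hw
    have hw2 : (w + (((d * k : ℕ) : ℝ) : ℂ)).im ≤ 0 := by simpa using hw1
    simp only [Function.comp_apply]
    rw [ofComplex_apply_of_im_nonpos hw1, ofComplex_apply_of_im_nonpos hw2]

theorem qH_pow_mul_Jcomp_upper (a d k : ℕ) (b : ℤ) (ha : 0 < a) (hd : 0 < d) (hk : 0 < k)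
    (τ : ℍ) :
    (qH ((d * k : ℕ) : ℝ) ^ (a * k) *
      Jcomp (ModularForm.upperTriangularGL (a : ℝ) (b : ℝ) (d : ℝ) (by positivity))) τ
      = (zetaBD b d)⁻¹ *
        qJ (ModularForm.upperTriangularGL (a : ℝ) (b : ℝ) (d : ℝ) (by positivity) • τ) := by
  have ha' : (0 : ℝ) < a := by exact_mod_cast ha
  have hd' : (0 : ℝ) < d := by exact_mod_cast hd
  have hq := qParam_upper a d k b hd hk (τ : ℂ)
  simp only [Pi.mul_apply, Pi.pow_apply, qJ, qH_apply, Jcomp]
  rw [Fermat.Agent.S22.coe_upperTriangularGL_smul _ _ _ ha' hd', hq]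
  field_simp [zetaBD_ne_zero]

theorem isNice_upper (a d k : ℕ) (b : ℤ) (ha : 0 < a) (hd : 0 < d) (hk : 0 < k) :
    IsNice ((d * k : ℕ) : ℝ) (qH ((d * k : ℕ) : ℝ) ^ (a * k) *
      Jcomp (ModularForm.upperTriangularGL (a : ℝ) (b : ℝ) (d : ℝ) (by positivity))) := by
  have ha' : (0 : ℝ) < a := by exact_mod_cast ha
  have hd' : (0 : ℝ) < d := by exact_mod_cast hd
  have hh : (0 : ℝ) < ((d * k : ℕ) : ℝ) := by exact_mod_cast Nat.mul_pos hd hk
  have hqn := (isNice_qH hh).pow (a * k)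
  refine ⟨fun w => ?_, hqn.hol.mul (mdifferentiable_Jcomp
    (Fermat.Agent.S22.det_upperTriangularGL_pos _ _ _ ha' hd')), ?_⟩
  · have h1 := hqn.per w
    have h2 := Jcomp_upper_periodic a d k b ha hd w
    simp only [Function.comp_apply, Pi.mul_apply] at h1 h2 ⊢
    rw [h1, h2]
  · have hb : IsBoundedAtImInfty qJ := isNice_qJ.bdd
    have hb2 := (hb.comp_tendsto (tendsto_upper_smul (a : ℝ) (b : ℝ) (d : ℝ)
      (mul_pos ha' hd').ne')).const_mul_left (zetaBD b d)⁻¹
    refine hb2.congr_left fun τ => ?_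
    rw [qH_pow_mul_Jcomp_upper a d k b ha hd hk τ]
    rfl

theorem isKNice_upper (a d k : ℕ) (b : ℤ) (ha : 0 < a) (hd : 0 < d) (hk : 0 < k) :
    IsKNice ((d * k : ℕ) : ℝ) (qH ((d * k : ℕ) : ℝ) ^ (a * k) *
      Jcomp (ModularForm.upperTriangularGL (a : ℝ) (b : ℝ) (d : ℝ) (by positivity))) := by
  have ha' : (0 : ℝ) < a := by exact_mod_cast ha
  have hd' : (0 : ℝ) < d := by exact_mod_cast hd
  have hh : (0 : ℝ) < ((d * k : ℕ) : ℝ) := by exact_mod_cast Nat.mul_pos hd hk
  have hnice := isNice_upper a d k b ha hd hk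
  refine ⟨hnice, ?_⟩
  set e := a * k with he
  have he0 : 0 < e := Nat.mul_pos ha hk
  set ζ := zetaBD b d with hζ
  set c : ℕ → ℂ := fun n => (qExpansion 1 qJ).coeff n with hc
  set c' : ℕ → ℂ := fun n => if e ∣ n then ζ⁻¹ * c (n / e) * ζ ^ (n / e) else 0 with hc'
  have hinj : Function.Injective (fun n : ℕ => e * n) := fun x y hxy =>
    Nat.eq_of_mul_eq_mul_left he0 hxy
  have key : ∀ n, c' n = (qExpansion ((d * k : ℕ) : ℝ) (qH ((d * k : ℕ) : ℝ) ^ e *
      Jcomp (ModularForm.upperTriangularGL (a : ℝ) (b : ℝ) (d : ℝ) (by positivity)))).coeff n := by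
    refine qExpansion_coeff_unique_fun hh (hnice.analyticAt hh) (fun τ => ?_)
    rw [qH_pow_mul_Jcomp_upper a d k b ha hd hk τ]
    have hs := (isNice_qJ.hasSum one_pos
      (ModularForm.upperTriangularGL (a : ℝ) (b : ℝ) (d : ℝ) (mul_pos ha' hd').ne' • τ)).mul_left
      ζ⁻¹
    rw [← hinj.hasSum_iff]
    · have hfun : ((fun n : ℕ => c' n • 𝕢 ((d * k : ℕ) : ℝ) (τ : ℂ) ^ n) ∘ fun n : ℕ => e * n) =
          fun i => ζ⁻¹ * ((qExpansion 1 qJ).coeff i • 𝕢 1 ((ModularForm.upperTriangularGL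
            (a : ℝ) (b : ℝ) (d : ℝ) (mul_pos ha' hd').ne' • τ : ℍ) : ℂ) ^ i) := by
        funext n
        have h1 : e * n / e = n := Nat.mul_div_cancel_left n he0
        have hq := qParam_upper a d k b hd hk (τ : ℂ)
        rw [← Fermat.Agent.S22.coe_upperTriangularGL_smul _ _ _ ha' hd'] at hq
        simp only [Function.comp_apply, hc', hc, dvd_mul_right, if_true, h1, smul_eq_mul]
        rw [hq, mul_pow, pow_mul]
        ring
      rw [hfun]
      exact hs
    · intro n hn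
      have : ¬ e ∣ n := fun ⟨m, hm⟩ => hn ⟨m, hm.symm⟩
      simp [hc', this]
  rw [mem_KSer_iff]
  intro n
  rw [← key n]
  simp only [hc']
  split_ifs with hdiv
  · have hmem : ∀ m, c m ∈ Set.range embC := mem_KSer_iff.mp isKNice_qJ.2
    have hζmem : ζ ∈ embC.fieldRange := zetaBD_mem_range b hd
    have hcm : c (n / e) ∈ embC.fieldRange := hmem _
    exact Subfield.mul_mem _ (Subfield.mul_mem _ (Subfield.inv_mem _ hζmem) hcm)
      (Subfield.pow_mem _ hζmem _)
  · exact ⟨0, map_zero _⟩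

/-- Hermite normal form of a level matrix, in `GL (Fin 2) ℝ`. -/
theorem exists_upper_of_isLevelMatrix {N : ℕ} [NeZero N] {g : GL (Fin 2) ℝ}
    (hg : IsLevelMatrix N g) :
    ∃ (δ : SL(2, ℤ)) (a d k : ℕ) (b : ℤ) (ha : 0 < a) (hd : 0 < d) (_ : 0 < k), N = d * k ∧
      g = (δ : GL (Fin 2) ℝ) *
        ModularForm.upperTriangularGL (a : ℝ) (b : ℝ) (d : ℝ) (by positivity) := by
  obtain ⟨A, hA, hAN, hgA⟩ := hg
  obtain ⟨δ, a, b, d, ha, hd, hAeq⟩ := Fermat.Agent.S22.exists_SL2_mul_upper A hA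
  have hdet : A.det = a * d := by
    rw [hAeq, Matrix.det_mul, δ.det_coe, Matrix.det_fin_two_of]
    ring
  lift a to ℕ using ha.le
  lift d to ℕ using hd.le
  have ha' : 0 < a := by exact_mod_cast ha
  have hd' : 0 < d := by exact_mod_cast hd
  rw [hdet] at hAN
  have hAN' : a * d ∣ N := by
    have : ((a : ℤ) * (d : ℤ)).natAbs = a * d := by
      rw [Int.natAbs_mul, Int.natAbs_natCast, Int.natAbs_natCast]
    rwa [this] at hAN
  obtain ⟨m, hm⟩ := hAN'
  have hm0 : 0 < m := by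
    rcases Nat.eq_zero_or_pos m with h | h
    · exfalso
      rw [h, mul_zero] at hm
      exact NeZero.ne N hm
    · exact h
  refine ⟨δ, a, d, a * m, b, ha', hd', Nat.mul_pos ha' hm0, by rw [hm]; ring, ?_⟩
  apply Matrix.GeneralLinearGroup.ext
  intro i j
  have h2 := congrArg (fun M : Matrix (Fin 2) (Fin 2) ℤ => ((M i j : ℤ) : ℝ)) hAeq
  simp only [Matrix.mul_apply, Fin.sum_univ_two] at h2
  have h3 : (g : Matrix (Fin 2) (Fin 2) ℝ) i j = ((A i j : ℤ) : ℝ) := by
    rw [hgA]; rfl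
  rw [h3, h2]
  simp only [Matrix.GeneralLinearGroup.coe_mul, ModularForm.val_upperTriangularGL,
    Matrix.mul_apply, Fin.sum_univ_two]
  fin_cases i <;> fin_cases j <;> simp

theorem Jcomp_SL_mul (δ : SL(2, ℤ)) (g : GL (Fin 2) ℝ) :
    Jcomp ((δ : GL (Fin 2) ℝ) * g) = Jcomp g := by
  funext τ
  simp only [Jcomp, mul_smul]
  exact Jfun_smul_SL δ (g • τ)

/-- Each generator `J ∘ g` of `Ban N` has a finite-tailed `q_N`-expansion over `ℚ̄`. -/
theorem hasKExp_Jcomp {N : ℕ} [NeZero N] {g : GL (Fin 2) ℝ} (hg : IsLevelMatrix N g) :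
    HasKExp N (Jcomp g) := by
  obtain ⟨δ, a, d, k, b, ha, hd, hk, hN, rfl⟩ := exists_upper_of_isLevelMatrix hg
  rw [Jcomp_SL_mul]
  subst hN
  exact ⟨a * k, isKNice_upper a d k b ha hd hk⟩

/-- Every element of `Ban N` has a finite-tailed `q_N`-expansion over `ℚ̄`. -/
theorem hasKExp_of_mem_Ban {N : ℕ} [NeZero N] {f : ℍ → ℂ} (hf : f ∈ Ban N) : HasKExp N f := by
  induction hf using Algebra.adjoin_induction with
  | mem x hx =>
    obtain ⟨g, hg, rfl⟩ := hx
    exact hasKExp_Jcomp hg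
  | algebraMap r => exact hasKExp_algebraMap r
  | add x y _ _ hx hy => exact hx.add hy
  | mul x y _ _ hx hy => exact hx.mul hy

end Generators

/-! ### Consequences: boundedness of `Δ ^ M * f`, descent of coefficients -/

section Descent

open Polynomial

local notation "Δ" => ModularForm.discriminant

variable {N : ℕ} [NeZero N]

theorem qH_one_eq (N : ℕ) [NeZero N] : qH 1 = qH N ^ N := by
  funext τ
  simp only [Pi.pow_apply, qH_apply, Function.Periodic.qParam]
  rw [← Complex.exp_nat_mul]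
  congr 1
  have hN : (N : ℂ) ≠ 0 := by exact_mod_cast NeZero.ne N
  push_cast
  field_simp

theorem discriminant_eq_discOverQ_mul : (Δ : ℍ → ℂ) = discOverQ * qH N ^ N := by
  rw [← qH_one_eq N, mul_comm, qH_mul_discOverQ]

/-- If `f` has a finite-tailed expansion then `Δ ^ M * f` is bounded at `i∞` for some `M`. -/
theorem HasKExp.exists_isBoundedAtImInfty {f : ℍ → ℂ} (hf : HasKExp N f) :
    ∃ M : ℕ, IsBoundedAtImInfty (fun τ => Δ τ ^ M * f τ) := by
  obtain ⟨m, hm⟩ := hf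
  refine ⟨m, ?_⟩
  have hN := natCast_pos_of_neZero N
  have hNm : m ≤ N * m := Nat.le_mul_of_pos_left m (Nat.pos_of_ne_zero (NeZero.ne N))
  have h1 : IsBoundedAtImInfty (discOverQ ^ m * qH N ^ (N * m - m) * (qH N ^ m * f)) :=
    (((isNice_discOverQ.pow m).bdd).mul (((isNice_qH hN).pow _).bdd)).mul hm.1.bdd
  convert h1 using 1
  funext τ
  have h2 : Δ τ = discOverQ τ * qH N τ ^ N := congrFun (discriminant_eq_discOverQ_mul (N := N)) τ
  simp only [Pi.mul_apply, Pi.pow_apply]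
  rw [h2, mul_pow, ← pow_mul]
  have h3 : qH (N : ℝ) τ ^ (N * m) = qH (N : ℝ) τ ^ (N * m - m) * qH (N : ℝ) τ ^ m := by
    rw [← pow_add, Nat.sub_add_cancel hNm]
  rw [h3]
  ring

theorem hasKExp_Jfun (N : ℕ) [NeZero N] : HasKExp N Jfun := by
  rw [← Jcomp_one]
  exact hasKExp_Jcomp (isLevelMatrix_one N)

theorem mdifferentiable_eval_Jfun (p : ℂ[X]) : MDiff (fun τ => p.eval (Jfun τ)) := by
  have hJ := mdifferentiable_Jfun
  rw [UpperHalfPlane.mdifferentiable_iff] at hJ ⊢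
  exact p.differentiable.comp_differentiableOn hJ

theorem periodic_eval_Jfun (p : ℂ[X]) (N : ℕ) :
    Function.Periodic ((fun τ => p.eval (Jfun τ)) ∘ ofComplex) ((N : ℝ) : ℂ) := fun w => by
  have h := Jfun_periodic.nat_mul N w
  simp only [Function.comp_apply, mul_one] at h ⊢
  rw [Complex.ofReal_natCast, h]

/-- `q ^ d * p(J) → leadingCoeff p` at `i∞`, `d = natDegree p`. -/
theorem tendsto_qH_pow_mul_eval (p : ℂ[X]) :
    Tendsto (fun τ => qH 1 τ ^ p.natDegree * p.eval (Jfun τ)) atImInfty (𝓝 p.leadingCoeff) := by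
  set d := p.natDegree with hd
  have hfun : (fun τ => qH 1 τ ^ d * p.eval (Jfun τ)) =
      fun τ => ∑ i ∈ Finset.range (d + 1), p.coeff i * (qH 1 τ ^ (d - i) * qJ τ ^ i) := by
    funext τ
    rw [Polynomial.eval_eq_sum_range, Finset.mul_sum]
    refine Finset.sum_congr rfl fun i hi => ?_
    have hi' : i ≤ d := Nat.lt_succ_iff.mp (Finset.mem_range.mp hi)
    rw [qJ_apply, mul_pow]
    have : qH 1 τ ^ d = qH 1 τ ^ (d - i) * qH 1 τ ^ i := by
      rw [← pow_add, Nat.sub_add_cancel hi']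
    rw [this]
    ring
  rw [hfun]
  have hterm : ∀ i ∈ Finset.range (d + 1),
      Tendsto (fun τ => p.coeff i * (qH 1 τ ^ (d - i) * qJ τ ^ i)) atImInfty
        (𝓝 (p.coeff i * ((0 : ℂ) ^ (d - i) * 1 ^ i))) := fun i _ =>
    (((tendsto_qH one_pos).pow (d - i)).mul (tendsto_qJ.pow i)).const_mul _
  have hsum := tendsto_finsetSum (Finset.range (d + 1)) hterm
  convert hsum using 2
  rw [Finset.sum_eq_single d]
  · rw [Nat.sub_self, pow_zero, one_pow, mul_one, mul_one]
    rfl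
  · intro i hi hid
    have hi' : i ≤ d := Nat.lt_succ_iff.mp (Finset.mem_range.mp hi)
    have : d - i ≠ 0 := Nat.sub_ne_zero_of_lt (lt_of_le_of_ne hi' hid)
    simp [this]
  · intro h
    exact absurd (Finset.mem_range.mpr (Nat.lt_succ_self d)) h

/-- The leading coefficient of `p` lies in `ℚ̄` if `p(J)` has an expansion over `ℚ̄`. -/
theorem leadingCoeff_mem_range (p : ℂ[X]) (hp : HasKExp N (fun τ => p.eval (Jfun τ))) :
    p.leadingCoeff ∈ Set.range embC := by
  obtain ⟨m, hm⟩ := hp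
  have hN := natCast_pos_of_neZero N
  obtain ⟨f, hf⟩ : ∃ f : ℍ → ℂ, f = fun τ => p.eval (Jfun τ) := ⟨_, rfl⟩
  rw [← hf] at hm
  obtain ⟨G, hG⟩ : ∃ G : ℍ → ℂ, G = qH N ^ (N * p.natDegree) * f := ⟨_, rfl⟩
  have hGeq : G = fun τ => qH 1 τ ^ p.natDegree * p.eval (Jfun τ) := by
    funext τ
    simp only [hG, hf, Pi.mul_apply, Pi.pow_apply, qH_one_eq N, ← pow_mul]
  have htend : Tendsto G atImInfty (𝓝 p.leadingCoeff) := by
    rw [hGeq]; exact tendsto_qH_pow_mul_eval p
  have hGnice : IsNice N G := by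
    refine ⟨fun w => ?_, ?_, htend.isBigO_one ℝ⟩
    swap
    · rw [hG, hf]
      exact (((isNice_qH hN).pow _).hol).mul (mdifferentiable_eval_Jfun p)
    have h1 := ((isNice_qH hN).pow (N * p.natDegree)).per w
    have h2 := periodic_eval_Jfun p N w
    simp only [Function.comp_apply, hG, hf, Pi.mul_apply] at h1 h2 ⊢
    rw [h1, h2]
  have hrel : qH N ^ m * G = qH N ^ (N * p.natDegree) * (qH N ^ m * f) := by
    rw [hG]; ring
  have hq1 := qExpansion_mul (((isNice_qH hN).pow m).analyticAt hN) (hGnice.analyticAt hN)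
  have hq2 := qExpansion_mul (((isNice_qH hN).pow (N * p.natDegree)).analyticAt hN)
    (hm.1.analyticAt hN)
  rw [hrel, hq2, qExpansion_qH_pow hN, qExpansion_qH_pow hN] at hq1
  have hmem : PowerSeries.X ^ m * qExpansion N G ∈ KSer := by
    rw [← hq1]
    exact KSer.mul_mem (KSer.pow_mem X_mem_KSer _) hm.2
  have hGK := mem_KSer_of_X_pow_mul m hmem
  have h0 := hGnice.coeff_zero_eq_of_tendsto hN htend
  rw [← h0]
  exact mem_KSer_iff.mp hGK 0

/-- Descent: if `p(J)` has an expansion over `ℚ̄` then `p` has coefficients in `ℚ̄`. -/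
theorem poly_descent : ∀ (n : ℕ) (p : ℂ[X]), p.natDegree ≤ n →
    HasKExp N (fun τ => p.eval (Jfun τ)) → ∃ p₀ : Kb[X], p₀.map embC = p := by
  intro n
  induction n with
  | zero =>
    intro p hdeg hp
    obtain ⟨c, hc⟩ := leadingCoeff_mem_range p hp
    have h0 : p.natDegree = 0 := Nat.le_zero.mp hdeg
    have hpC : p = C (p.coeff 0) := Polynomial.eq_C_of_natDegree_le_zero hdeg
    have hlead : p.leadingCoeff = p.coeff 0 := by rw [Polynomial.leadingCoeff, h0]
    refine ⟨C c, ?_⟩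
    rw [Polynomial.map_C, hc, hlead]
    exact hpC.symm
  | succ n ih =>
    intro p hdeg hp
    obtain ⟨c, hc⟩ := leadingCoeff_mem_range p hp
    have hsplit := Polynomial.eraseLead_add_monomial_natDegree_leadingCoeff p
    have hdeg' : p.eraseLead.natDegree ≤ n :=
      (Polynomial.eraseLead_natDegree_le p).trans (by omega)
    have hK : HasKExp N (fun τ => p.eraseLead.eval (Jfun τ)) := by
      have h1 := hp.sub (((hasKExp_Jfun N).pow p.natDegree).smul c)
      convert h1 using 1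
      funext τ
      have h2 := congrArg (fun q : ℂ[X] => q.eval (Jfun τ)) hsplit
      simp only [Polynomial.eval_add, Polynomial.eval_monomial] at h2
      simp only [Pi.sub_apply, Pi.pow_apply, hc]
      rw [← h2]
      ring
    obtain ⟨p₀, hp₀⟩ := ih p.eraseLead hdeg' hK
    refine ⟨p₀ + Polynomial.monomial p.natDegree c, ?_⟩
    rw [Polynomial.map_add, hp₀, Polynomial.map_monomial, hc, hsplit]

/-- An `SL(2,ℤ)`-invariant element of `Ban N` is a polynomial in `Jfun` with coefficients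
in `ℚ̄`. -/
theorem exists_poly_of_mem_Ban_of_invariant {f : ℍ → ℂ} (hf : f ∈ Ban N)
    (hinv : ∀ γ : SL(2, ℤ), ∀ τ : ℍ, f (γ • τ) = f τ) :
    ∃ p₀ : Kb[X], ∀ τ, f τ = (p₀.map embC).eval (Jfun τ) := by
  have hK := hasKExp_of_mem_Ban hf
  obtain ⟨M, hM⟩ := hK.exists_isBoundedAtImInfty
  obtain ⟨p, -, hp⟩ := exists_poly_of_invariant f (mdifferentiable_of_mem_Ban hf) hinv M hM
  have hfp : f = fun τ => p.eval (Jfun τ) := funext hp
  rw [hfp] at hK
  obtain ⟨p₀, hp₀⟩ := poly_descent p.natDegree p le_rfl hK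
  exact ⟨p₀, fun τ => by rw [hp₀]; exact hp τ⟩

end Descent

end Fermat.Agent.S24.KExp
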