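import Fermat.Agent.S24.Realization
import Fermat.Agent.S24.Transc
import Fermat.Agent.S24.DegreeCount
import Fermat.Agent.S24.GenusOfDegree
import Fermat.Agent.S24.DiffSpan

/-!
# S24 — final assembly (P10), with the remaining pieces as hypotheses

`genus_of_inputs` derives the genus formula from a `Realization N`, the place counts (P10b),
the residue field statement (P1-res), principal divisors having degree `0` (F2), the formula
`ord_v(dy) = ord_v y - 1` (P3b) and the combinatorial count (GC).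
-/

set_option autoImplicit false

noncomputable section

open AlgebraicCurve ModularCurve IntermediateField KaehlerDifferential
open scoped MatrixGroups

namespace Fermat.Agent.S24

/-- Number of orbits of `⟨g⟩` on `SL(2,ℤ) ⧸ Γ₀(N)`. -/
abbrev zOrb (N : ℕ) (g : SL(2, ℤ)) : ℕ :=
  Nat.card (MulAction.orbitRel.Quotient (Subgroup.zpowers g)
    (SL(2, ℤ) ⧸ CongruenceSubgroup.Gamma0 N))

/-- `ψ(N)` as the cardinality of the coset space. -/
abbrev nQ (N : ℕ) : ℕ := Nat.card (SL(2, ℤ) ⧸ CongruenceSubgroup.Gamma0 N)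

theorem genus_of_inputs (N : ℕ) [NeZero N] [HasCanonicalDivisor (K := Kb) (F := FF N)]
    (R : Realization N)
    (hfin : FiniteDimensional Kb⟮jF N⟯ (FF N))
    -- P10b
    (hcount : ∀ (x : FF N), Transcendental Kb x → x ∈ Kb⟮jF N⟯ → jF N ∈ Kb⟮x⟯ →
      ∀ ε : SL(2, ℤ), (∃ w : Place Kb R.M, LocalProp (R.φ x) (R.act ε) w) →
      Nat.card {v : Place Kb (FF N) // 0 < v.ord x} = zOrb N ε ∧
      ∃ S : Finset (Place Kb (FF N)), (∀ v, v ∈ S ↔ 0 < v.ord x) ∧
        ∑ v ∈ S, v.ord x = (nQ N : ℤ))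
    -- P1-res
    (hres : ∀ (v : Place Kb (FF N)) (a : FF N), a ∈ v.toValuationSubring →
      ∃ c : Kb, a - algebraMap Kb (FF N) c ∈ v.toValuationSubring.nonunits)
    (hdeg1 : ∀ v : Place Kb (FF N), v.deg = 1)
    -- F2
    (hprinc : ∀ g : FF N, g ≠ 0 → ∀ D : Divisor Kb (FF N), (∀ v, D v = v.ord g) →
      Divisor.degree D = 0)
    -- P3b
    (hdiff : ∀ (v : Place Kb (FF N)) (y : FF N), v.ord y ≠ 0 →
      v.ordDifferential (D Kb (FF N) y) = v.ord y - 1)
    -- GC
    (G : ℕ) (hG : (G : ℚ) = genusFormula N)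
    (hGz : ((nQ N : ℤ) - zOrb N (ModularGroup.S * ModularGroup.T))
        + ((nQ N : ℤ) - zOrb N ModularGroup.S)
        - ((nQ N : ℤ) + zOrb N ModularGroup.T) = 2 * (G : ℤ) - 2)
    (hz1 : zOrb N 1 = nQ N) :
    (genus Kb (FF N) : ℚ) = genusFormula N := by
  have htr := transcendental_jF N
  have hj0 : jF N - algebraMap Kb (FF N) 0 = jF N := by simp
  -- the counts
  have hC : ∀ (c : Kb) (ε : SL(2, ℤ)),
      (∃ w : Place Kb R.M, LocalProp (R.φ (jF N - algebraMap Kb (FF N) c)) (R.act ε) w) →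
      Nat.card {v : Place Kb (FF N) // 0 < v.ord (jF N - algebraMap Kb (FF N) c)} = zOrb N ε ∧
      ∃ S : Finset (Place Kb (FF N)),
        (∀ v, v ∈ S ↔ 0 < v.ord (jF N - algebraMap Kb (FF N) c)) ∧
        ∑ v ∈ S, v.ord (jF N - algebraMap Kb (FF N) c) = (nQ N : ℤ) := fun c ε h =>
    hcount _ (transcendental_jF_sub N c) (jF_sub_mem_adjoin N c) (jF_mem_adjoin_sub N c) ε h
  have h0 := hC 0 (ModularGroup.S * ModularGroup.T) (by rw [hj0]; exact R.loc_zero)
  have h1728 := hC 1728 ModularGroup.S R.loc_1728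
  have hgen := fun c (hc0 : c ≠ 0) (hc : c ≠ 1728) => hC c 1 (R.loc_gen c hc0 hc)
  have hinf := hcount _ (transcendental_jF_inv N) (jF_inv_mem_adjoin N) (jF_mem_adjoin_inv N)
    ModularGroup.T R.loc_inf
  -- poles of `j` = zeros of `j⁻¹`
  have hpole : ∀ v : Place Kb (FF N), 0 < v.ord (jF N)⁻¹ ↔ v.ord (jF N) < 0 := by
    intro v
    rw [v.ord_inv]
    omega
  have hcinf : Nat.card {v : Place Kb (FF N) // v.ord (jF N) < 0} = zOrb N ModularGroup.T := by
    rw [← hinf.1]
    exact Nat.card_congr (Equiv.subtypeEquivRight fun v => (hpole v).symm)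
  have hsuminf : ∃ S : Finset (Place Kb (FF N)), (∀ v, v ∈ S ↔ v.ord (jF N) < 0) ∧
      ∑ v ∈ S, (- v.ord (jF N)) = (nQ N : ℤ) := by
    obtain ⟨S, hS, hsum⟩ := hinf.2
    refine ⟨S, fun v => (hS v).trans (hpole v), ?_⟩
    rw [← hsum]
    exact Finset.sum_congr rfl fun v _ => (v.ord_inv _).symm
  -- every place lies over some point of the `j`-line
  have hpart : ∀ v : Place Kb (FF N),
      (∃ c : Kb, 0 < v.ord (jF N - algebraMap Kb (FF N) c)) ∨ v.ord (jF N) < 0 := by
    intro v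
    by_cases hv : v.ord (jF N) < 0
    · exact Or.inr hv
    · left
      have hmem : jF N ∈ v.toValuationSubring := PlaceAux.mem_of_ord_nonneg v (not_lt.mp hv)
      obtain ⟨c, hc⟩ := hres v _ hmem
      exact ⟨c, (PlaceAux.ord_pos_iff_mem_nonunits v (jF_sub_ne_zero N c)).mpr hc⟩
  -- differentials
  have hod : ∀ (v : Place Kb (FF N)) (c : Kb), 0 < v.ord (jF N - algebraMap Kb (FF N) c) →
      v.ordDifferential (D Kb (FF N) (jF N)) = v.ord (jF N - algebraMap Kb (FF N) c) - 1 := by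
    intro v c hv
    have := hdiff v (jF N - algebraMap Kb (FF N) c) hv.ne'
    rwa [map_sub, Derivation.map_algebraMap, sub_zero] at this
  have hodinf : ∀ v : Place Kb (FF N), v.ord (jF N) < 0 →
      v.ordDifferential (D Kb (FF N) (jF N)) = v.ord (jF N) - 1 :=
    fun v hv => hdiff v (jF N) hv.ne
  have hspan : ∀ ω : Ω[FF N⁄Kb], ∃ g : FF N, ω = g • D Kb (FF N) (jF N) := by
    intro ω
    have hω : ω ∈ Submodule.span (FF N) {D Kb (FF N) (jF N)} := by
      rw [DiffSpan.span_D_eq_top_of_finite (K := Kb) (jF N)]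
      trivial
    obtain ⟨g, hg⟩ := Submodule.mem_span_singleton.mp hω
    exact ⟨g, hg.symm⟩
  have hgenus : genus Kb (FF N) = G := by
    refine genus_eq_of_degree (jF N) G (DiffSpan.D_ne_zero_of_finite (jF N) htr) hspan
      (fun v => DiffSpan.dCoordGenerates_of_finite (jF N) htr v) hprinc ?_
    intro Dv hDv
    have key := degree_of_local_data (K := Kb) (F := FF N) (jF N) (nQ N)
      (zOrb N (ModularGroup.S * ModularGroup.T)) (zOrb N ModularGroup.S) (zOrb N ModularGroup.T)
      (1728 : Kb) (by norm_num) (fun v => v.ordDifferential (D Kb (FF N) (jF N)))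
      hdeg1 hpart (fun c => ?_) hsuminf hod hodinf h0.1 h1728.1 hcinf
      (fun c hc0 hc => by rw [(hgen c hc0 hc).1, hz1]) Dv hDv
    · rw [key, hGz]
    · by_cases hc0 : c = 0
      · subst hc0; exact h0.2
      · by_cases hc : c = 1728
        · subst hc; exact h1728.2
        · exact (hgen c hc0 hc).2
  rw [hgenus, hG]

end Fermat.Agent.S24
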