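import Fermat.Agent.S24.AnalyticDefs
import Mathlib.NumberTheory.ModularForms.QExpansion

/-!
# S24 piece P6b, analytic half: Laurent expansion at `i∞` as a relation

`BrHPB f`  : `f : ℍ → ℂ` is holomorphic, `1`-periodic and bounded at `i∞`.
`Lrel f x` : the function `f` has the Laurent series `x : LaurentSeries ℂ` at `i∞`, i.e. for some `n`
             the function `q^n · f` is `BrHPB` with `q`-expansion `X^n · x`.

`Lrel` is closed under `+`, `*`, constants, and `Lrel f x → (f = 0 ↔ x = 0)`.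
-/

set_option autoImplicit false

noncomputable section

open UpperHalfPlane
open scoped Manifold

namespace Fermat.Agent.S24

local notation "𝕢" => Function.Periodic.qParam

/-- holomorphic on `ℍ`, `1`-periodic and bounded at `i∞`. -/
structure BrHPB (f : ℍ → ℂ) : Prop where
  mdiff : MDiff f
  periodic : Function.Periodic (f ∘ ofComplex) 1
  bdd : IsBoundedAtImInfty f

namespace BrHPB

variable {f g : ℍ → ℂ}

theorem analyticAt (hf : BrHPB f) : AnalyticAt ℂ (cuspFunction 1 f) 0 :=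
  analyticAt_cuspFunction_zero one_pos hf.periodic hf.mdiff hf.bdd

theorem hasSum (hf : BrHPB f) (τ : ℍ) :
    HasSum (fun m : ℕ ↦ (qExpansion 1 f).coeff m • 𝕢 1 τ ^ m) (f τ) :=
  hasSum_qExpansion one_pos hf.periodic hf.mdiff hf.bdd τ

theorem add (hf : BrHPB f) (hg : BrHPB g) : BrHPB (f + g) where
  mdiff := hf.mdiff.add hg.mdiff
  periodic := fun z => by
    have h1 := hf.periodic z
    have h2 := hg.periodic z
    simp only [Function.comp_apply, Pi.add_apply] at h1 h2 ⊢
    rw [h1, h2]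
  bdd := hf.bdd.add hg.bdd

theorem mul (hf : BrHPB f) (hg : BrHPB g) : BrHPB (f * g) where
  mdiff := hf.mdiff.mul hg.mdiff
  periodic := fun z => by
    have h1 := hf.periodic z
    have h2 := hg.periodic z
    simp only [Function.comp_apply, Pi.mul_apply] at h1 h2 ⊢
    rw [h1, h2]
  bdd := hf.bdd.mul hg.bdd

theorem const (c : ℂ) : BrHPB (fun _ : ℍ => c) where
  mdiff := mdifferentiable_const
  periodic := fun _ => rfl
  bdd := Filter.const_boundedAtFilter _ c

theorem qExpansion_add (hf : BrHPB f) (hg : BrHPB g) :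
    qExpansion 1 (f + g) = qExpansion 1 f + qExpansion 1 g :=
  UpperHalfPlane.qExpansion_add hf.analyticAt hg.analyticAt

theorem qExpansion_mul (hf : BrHPB f) (hg : BrHPB g) :
    qExpansion 1 (f * g) = qExpansion 1 f * qExpansion 1 g :=
  UpperHalfPlane.qExpansion_mul hf.analyticAt hg.analyticAt

theorem qExpansion_eq_zero_iff (hf : BrHPB f) : qExpansion 1 f = 0 ↔ f = 0 :=
  UpperHalfPlane.qExpansion_eq_zero_iff one_pos hf.periodic hf.mdiff hf.bdd

end BrHPB

/-- Uniqueness of `q`-expansion coefficients (for plain functions). -/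
theorem brCoeff_unique (f : ℍ → ℂ) (c : ℕ → ℂ) (h1 : AnalyticAt ℂ (cuspFunction 1 f) 0)
    (hs : ∀ τ : ℍ, HasSum (fun m : ℕ ↦ c m • 𝕢 1 τ ^ m) (f τ)) (m : ℕ) :
    (qExpansion 1 f).coeff m = c m := by
  have e1 := (hasFPowerSeriesOnBall_cuspFunction one_pos h1 hs).hasFPowerSeriesAt
  have e2 := h1.hasFPowerSeriesAt
  have e3 := congr_arg (FormalMultilinearSeries.coeff · m) (e1.eq_formalMultilinearSeries e2)
  simp only [FormalMultilinearSeries.coeff_ofScalars] at e3
  rw [qExpansion_coeff, e3]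
  ring

/-- The function `q^n` on `ℍ`. -/
def qpowFun (n : ℕ) : ℍ → ℂ := fun τ => 𝕢 1 τ ^ n

theorem qpowFun_apply (n : ℕ) (τ : ℍ) : qpowFun n τ = 𝕢 1 τ ^ n := rfl

theorem qpowFun_ne_zero (n : ℕ) (τ : ℍ) : qpowFun n τ ≠ 0 :=
  pow_ne_zero _ (Function.Periodic.qParam_ne_zero _)

theorem qpowFun_zero : qpowFun 0 = 1 := by
  funext τ
  simp [qpowFun]

theorem qpowFun_add (n m : ℕ) : qpowFun (n + m) = qpowFun n * qpowFun m := by
  funext τ
  simp [qpowFun, pow_add]

/-- coefficient sequence of `X^n` -/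
def qpowCoeff (n : ℕ) : ℕ → ℂ := fun m => if m = n then 1 else 0

theorem qpowFun_hasSum (n : ℕ) (τ : ℍ) :
    HasSum (fun m : ℕ ↦ qpowCoeff n m • 𝕢 1 τ ^ m) (qpowFun n τ) := by
  have h := hasSum_ite_eq n (𝕢 1 τ ^ n)
  rw [qpowFun_apply]
  convert h using 2 with m
  unfold qpowCoeff
  split_ifs with hm
  · subst hm; simp
  · simp

theorem brQParam_one_add_one (w : ℂ) : 𝕢 1 (w + 1) = 𝕢 1 w := by
  simp only [Function.Periodic.qParam, Complex.ofReal_one, div_one, mul_add, mul_one,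
    Complex.exp_add, Complex.exp_two_pi_mul_I]

theorem brHPB_qpowFun (n : ℕ) : BrHPB (qpowFun n) where
  mdiff := by
    rw [UpperHalfPlane.mdifferentiable_iff]
    have h : DifferentiableOn ℂ (fun z : ℂ => 𝕢 1 z ^ n) {z | 0 < z.im} :=
      ((Function.Periodic.differentiable_qParam (h := 1)).pow n).differentiableOn
    refine h.congr ?_
    intro z hz
    simp only [Function.comp_apply, qpowFun]
    rw [ofComplex_apply_of_im_pos hz]
  periodic := by
    intro w
    by_cases! hw : 0 < Complex.im w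
    · have h1 : 0 < Complex.im (w + 1) := by simpa using hw
      simp only [Function.comp_apply, ofComplex_apply_of_im_pos h1, ofComplex_apply_of_im_pos hw,
        qpowFun]
      rw [brQParam_one_add_one]
    · have h1 : Complex.im (w + 1) ≤ 0 := by simpa using hw
      simp only [Function.comp_apply]
      rw [ofComplex_apply_of_im_nonpos h1, ofComplex_apply_of_im_nonpos hw]
  bdd := isBoundedAtImInfty_of_hasSum_qExpansion (c := qpowCoeff n) one_pos (qpowFun_hasSum n)

theorem br_qExpansion_qpowFun (n : ℕ) : qExpansion 1 (qpowFun n) = PowerSeries.X ^ n := by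
  ext m
  rw [brCoeff_unique (qpowFun n) (qpowCoeff n) (brHPB_qpowFun n).analyticAt (qpowFun_hasSum n) m,
    PowerSeries.coeff_X_pow]
  rfl

theorem br_qExpansion_constFun (c : ℂ) : qExpansion 1 (fun _ : ℍ => c) = PowerSeries.C c := by
  have h1 : (fun _ : ℍ => c) = c • (1 : ℍ → ℂ) := by
    funext τ
    simp
  have h2 : BrHPB (1 : ℍ → ℂ) := BrHPB.const 1
  rw [h1, UpperHalfPlane.qExpansion_smul h2.analyticAt, qExpansion_one]
  ext m
  simp [PowerSeries.coeff_C, PowerSeries.coeff_one]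

/-! ### The Laurent expansion relation -/

/-- `f` has the Laurent expansion `x` at `i∞`: for some `n`, `q^n f` is holomorphic, periodic and
bounded at `i∞`, with `q`-expansion `X^n x`. -/
def Lrel (f : ℍ → ℂ) (x : LaurentSeries ℂ) : Prop :=
  ∃ n : ℕ, BrHPB (qpowFun n * f) ∧
    HahnSeries.ofPowerSeries ℤ ℂ (qExpansion 1 (qpowFun n * f)) = HahnSeries.single (n : ℤ) 1 * x

theorem lrel_shift {f : ℍ → ℂ} {x : LaurentSeries ℂ} {n : ℕ} (hb : BrHPB (qpowFun n * f))
    (hx : HahnSeries.ofPowerSeries ℤ ℂ (qExpansion 1 (qpowFun n * f)) =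
      HahnSeries.single (n : ℤ) 1 * x) (k : ℕ) :
    BrHPB (qpowFun (k + n) * f) ∧
      HahnSeries.ofPowerSeries ℤ ℂ (qExpansion 1 (qpowFun (k + n) * f)) =
        HahnSeries.single ((k + n : ℕ) : ℤ) 1 * x := by
  have h1 : qpowFun (k + n) * f = qpowFun k * (qpowFun n * f) := by
    rw [qpowFun_add, mul_assoc]
  have h2 : BrHPB (qpowFun k * (qpowFun n * f)) := (brHPB_qpowFun k).mul hb
  refine ⟨h1 ▸ h2, ?_⟩
  rw [h1, (brHPB_qpowFun k).qExpansion_mul hb, map_mul, hx, br_qExpansion_qpowFun,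
    HahnSeries.ofPowerSeries_X_pow, ← mul_assoc, HahnSeries.single_mul_single, mul_one]
  push_cast
  rfl

theorem Lrel.add {f g : ℍ → ℂ} {x y : LaurentSeries ℂ} (hf : Lrel f x) (hg : Lrel g y) :
    Lrel (f + g) (x + y) := by
  obtain ⟨n, hfb, hfx⟩ := hf
  obtain ⟨m, hgb, hgy⟩ := hg
  obtain ⟨hfb', hfx'⟩ := lrel_shift hfb hfx m
  obtain ⟨hgb', hgy'⟩ := lrel_shift hgb hgy n
  rw [add_comm n m] at hgb' hgy'
  refine ⟨m + n, ?_, ?_⟩
  · rw [mul_add]
    exact hfb'.add hgb'
  · rw [mul_add, hfb'.qExpansion_add hgb', map_add, hfx', hgy', mul_add]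

theorem Lrel.mul {f g : ℍ → ℂ} {x y : LaurentSeries ℂ} (hf : Lrel f x) (hg : Lrel g y) :
    Lrel (f * g) (x * y) := by
  obtain ⟨n, hfb, hfx⟩ := hf
  obtain ⟨m, hgb, hgy⟩ := hg
  have h1 : qpowFun (n + m) * (f * g) = (qpowFun n * f) * (qpowFun m * g) := by
    rw [qpowFun_add]
    ring
  refine ⟨n + m, h1 ▸ hfb.mul hgb, ?_⟩
  rw [h1, hfb.qExpansion_mul hgb, map_mul, hfx, hgy]
  have h2 : HahnSeries.single ((n + m : ℕ) : ℤ) (1 : ℂ) =
      HahnSeries.single (n : ℤ) 1 * HahnSeries.single (m : ℤ) 1 := by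
    rw [HahnSeries.single_mul_single, mul_one]
    push_cast
    rfl
  rw [h2]
  ring

theorem Lrel.const (c : ℂ) : Lrel (fun _ : ℍ => c) (HahnSeries.C c) := by
  have h1 : qpowFun 0 * (fun _ : ℍ => c) = fun _ : ℍ => c := by
    rw [qpowFun_zero, one_mul]
  refine ⟨0, h1.symm ▸ BrHPB.const c, ?_⟩
  rw [h1, br_qExpansion_constFun, HahnSeries.ofPowerSeries_C]
  simp

theorem Lrel.eq_zero_iff {f : ℍ → ℂ} {x : LaurentSeries ℂ} (hf : Lrel f x) : f = 0 ↔ x = 0 := by
  obtain ⟨n, hfb, hfx⟩ := hf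
  constructor
  · intro h
    subst h
    rw [mul_zero, qExpansion_zero, map_zero] at hfx
    rcases mul_eq_zero.mp hfx.symm with h | h
    · exact absurd h (by simp)
    · exact h
  · intro h
    subst h
    rw [mul_zero] at hfx
    have h2 : qExpansion 1 (qpowFun n * f) = 0 := by
      apply HahnSeries.ofPowerSeries_injective (Γ := ℤ) (R := ℂ)
      rw [hfx, map_zero]
    have h3 := hfb.qExpansion_eq_zero_iff.mp h2
    funext τ
    have h4 := congrFun h3 τ
    simp only [Pi.mul_apply, Pi.zero_apply, mul_eq_zero] at h4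
    rcases h4 with h4 | h4
    · exact absurd h4 (qpowFun_ne_zero n τ)
    · exact h4

end Fermat.Agent.S24
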