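import Fermat.Prelude.Def_AlgebraicCurve_CanonicalDivisor

/-!
# S24, piece P3b: the derivative lemma at a place

For a place `v` of `F/K` with residue field `K` (char. 0), whose valuation ring is a localisation of a
finitely generated `K`-algebra, the derivation `a ↦ da/dπ` (`π` the uniformizer behind
`Place.dCoord`) preserves the valuation ring.  Consequently
`ord_v (dx) = ord_v (x - c) - 1` if `ord_v (x - c) > 0` and `ord_v (dx) = ord_v x - 1` if `ord_v x < 0`.
-/

set_option autoImplicit false

noncomputable section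

open AlgebraicCurve KaehlerDifferential

namespace Fermat.Agent.S24.DerivLemma

variable {K F : Type*} [Field K] [Field F] [Algebra K F]

/-- The uniformizer behind `Place.dCoord`. -/
theorem exists_irreducible_dCoord (v : Place K F) :
    ∃ π : v.toValuationSubring, Irreducible π ∧ v.dCoord = D K F (π : F) :=
  ⟨(IsDiscreteValuationRing.exists_irreducible v.toValuationSubring).choose,
   (IsDiscreteValuationRing.exists_irreducible v.toValuationSubring).choose_spec, rfl⟩

theorem mem_of_ord_nonneg (v : Place K F) {f : F} (h : 0 ≤ v.ord f) :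
    f ∈ v.toValuationSubring := by
  rcases eq_or_ne f 0 with rfl | hf
  · exact zero_mem _
  obtain ⟨π, hπ⟩ := IsDiscreteValuationRing.exists_irreducible v.toValuationSubring
  obtain ⟨u, hu⟩ := v.exists_unit_mul_zpow hf hπ
  rw [hu]
  obtain ⟨n, hn⟩ := Int.eq_ofNat_of_zero_le h
  rw [hn, zpow_natCast]
  exact mul_mem u.1.2 (pow_mem π.2 n)

theorem ord_nonneg_of_mem (v : Place K F) {f : F} (h : f ∈ v.toValuationSubring) :
    0 ≤ v.ord f := by
  rcases eq_or_ne f 0 with rfl | hf
  · simp
  obtain ⟨π, hπ⟩ := IsDiscreteValuationRing.exists_irreducible v.toValuationSubring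
  have hne : (⟨f, h⟩ : v.toValuationSubring) ≠ 0 := fun h0 => hf (congrArg Subtype.val h0)
  obtain ⟨n, u, hu⟩ := IsDiscreteValuationRing.eq_unit_mul_pow_irreducible hne hπ
  have hf' : f = ((u : v.toValuationSubring) : F) * ((π : F) ^ (n : ℤ)) := by
    have := congrArg Subtype.val hu
    simpa using this
  rw [hf', v.ord_unit_smul_zpow u hπ]
  exact Int.natCast_nonneg n

theorem ord_unit_eq_zero (v : Place K F) {f : F} (h : f ∈ v.toValuationSubring)
    (h' : f⁻¹ ∈ v.toValuationSubring) : v.ord f = 0 := by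
  have h1 := ord_nonneg_of_mem v h
  have h2 := ord_nonneg_of_mem v h'
  rw [v.ord_inv] at h2
  omega

theorem inv_mem_of_ord_eq_zero (v : Place K F) {f : F} (h : v.ord f = 0) :
    f⁻¹ ∈ v.toValuationSubring := by
  apply mem_of_ord_nonneg
  rw [v.ord_inv, h, neg_zero]

section Deriv

variable (v : Place K F) [v.DCoordGenerates] [Nontrivial Ω[F⁄K]]

/-- `da/dπ`, the coefficient of `da` with respect to `v.dCoord = dπ`. -/
def dcoeff (a : F) : F := v.differentialCoeff (D K F a)

omit [Nontrivial Ω[F⁄K]] in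
theorem D_eq_dcoeff_smul (a : F) : D K F a = dcoeff v a • v.dCoord :=
  (v.differentialCoeff_smul_dCoord _).symm

theorem dcoeff_add (a b : F) : dcoeff v (a + b) = dcoeff v a + dcoeff v b := by
  refine v.differentialCoeff_unique ?_
  rw [map_add, add_smul, ← D_eq_dcoeff_smul, ← D_eq_dcoeff_smul]

theorem dcoeff_mul (a b : F) : dcoeff v (a * b) = a * dcoeff v b + b * dcoeff v a := by
  refine v.differentialCoeff_unique ?_
  rw [Derivation.leibniz, add_smul, mul_smul, mul_smul, ← D_eq_dcoeff_smul, ← D_eq_dcoeff_smul]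

theorem dcoeff_algebraMap (c : K) : dcoeff v (algebraMap K F c) = 0 := by
  refine v.differentialCoeff_unique ?_
  rw [Derivation.map_algebraMap, zero_smul]

theorem dcoeff_zero : dcoeff v 0 = 0 := by
  have := dcoeff_algebraMap v (0 : K)
  rwa [map_zero] at this

theorem dcoeff_one : dcoeff v 1 = 0 := by
  have := dcoeff_algebraMap v (1 : K)
  rwa [map_one] at this

theorem dcoeff_neg (a : F) : dcoeff v (-a) = -dcoeff v a := by
  have h := dcoeff_add v a (-a)
  rw [add_neg_cancel, dcoeff_zero] at h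
  exact eq_neg_of_add_eq_zero_right h.symm

theorem dcoeff_sub (a b : F) : dcoeff v (a - b) = dcoeff v a - dcoeff v b := by
  rw [sub_eq_add_neg, dcoeff_add, dcoeff_neg, ← sub_eq_add_neg]

theorem dcoeff_sub_algebraMap (a : F) (c : K) : dcoeff v (a - algebraMap K F c) = dcoeff v a := by
  rw [dcoeff_sub, dcoeff_algebraMap, sub_zero]

theorem dcoeff_pow (a : F) (n : ℕ) : dcoeff v (a ^ (n + 1)) = (n + 1) * a ^ n * dcoeff v a := by
  induction n with
  | zero => simp
  | succ n ih =>
    rw [pow_succ, dcoeff_mul, ih]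
    push_cast
    ring

theorem dcoeff_inv {a : F} (ha : a ≠ 0) : dcoeff v a⁻¹ = -dcoeff v a / a ^ 2 := by
  have h := dcoeff_mul v a a⁻¹
  rw [mul_inv_cancel₀ ha, dcoeff_one] at h
  have h' : a * dcoeff v a⁻¹ = -(a⁻¹ * dcoeff v a) := by
    linear_combination -h
  rw [eq_div_iff (pow_ne_zero 2 ha)]
  calc dcoeff v a⁻¹ * a ^ 2 = a * (a * dcoeff v a⁻¹) := by ring
    _ = a * (-(a⁻¹ * dcoeff v a)) := by rw [h']
    _ = -dcoeff v a := by
      rw [mul_neg, ← mul_assoc, mul_inv_cancel₀ ha, one_mul]

theorem dcoeff_unif {π : v.toValuationSubring} (hπ : v.dCoord = D K F (π : F)) :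
    dcoeff v (π : F) = 1 := by
  refine v.differentialCoeff_unique ?_
  rw [one_smul, hπ]

end Deriv

end Fermat.Agent.S24.DerivLemma
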