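import Fermat.Agent.S24.PreFinal
import Fermat.Agent.S24.PrincipalDegree

/-!
# S24 — the genus formula from a `Realization N` (no further hypotheses)
-/

set_option autoImplicit false

noncomputable section

open AlgebraicCurve ModularCurve IntermediateField KaehlerDifferential
open scoped MatrixGroups

namespace Fermat.Agent.S24

theorem genus_eq_genusFormula_of_realization (N : ℕ) [NeZero N]
    [HasCanonicalDivisor (K := Kb) (F := FF N)] (R : Realization N) :
    (genus Kb (FF N) : ℚ) = genusFormula N := by
  obtain ⟨htr, hfin, hdeg, hsum⟩ := principal_inputs N R
  haveI := hfin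
  exact genus_of_realization N R
    (fun g hg D hD => degree_principal_eq_zero (jF N) htr hdeg hsum g hg D hD)

end Fermat.Agent.S24
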