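import Fermat.Agent.S24.ModelGamma

/-!
# S24 / P7a part 2 — the fixed field of `SL(2,ℤ)` on `Man N` is `ℚ̄(j)`

Norm trick: an invariant element `m = a / b` of `Man N = Frac (Ban N)` is the quotient of two
invariant elements of `Ban N`; invariant elements of `Ban N` are polynomials in `Jfun`
(hypothesis `hinv`, proved in P7a part 1).
-/

set_option autoImplicit false

noncomputable section

open UpperHalfPlane IntermediateField
open scoped MatrixGroups

namespace Fermat.Agent.S24

attribute [local instance] algKbC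

/-- An element of `Ban N` which is a `ℚ̄`-polynomial in `Jfun` maps into `ℚ̄(j)`. -/
theorem algebraMap_mem_adjoin_jMan_of_mem_adjoin (N : ℕ) (f : Ban N)
    (hf : (f : ℍ → ℂ) ∈ Algebra.adjoin Kb {Jfun}) :
    algebraMap (Ban N) (Man N) f ∈ Kb⟮jMan N⟯ := by
  rw [Algebra.adjoin_singleton_eq_range_aeval] at hf
  obtain ⟨p, hp⟩ := hf
  have h1 : f = Polynomial.aeval (jBan N) p := by
    apply Subtype.ext
    have := Polynomial.aeval_algHom_apply (Ban N).val (jBan N) p
    have h3 : (Ban N).val (jBan N) = Jfun := rfl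
    rw [h3] at this
    exact hp.symm.trans this
  rw [h1]
  have h2 : algebraMap (Ban N) (Man N) (Polynomial.aeval (jBan N) p) =
      Polynomial.aeval (jMan N) p := by
    have := Polynomial.aeval_algHom_apply (IsScalarTower.toAlgHom Kb (Ban N) (Man N)) (jBan N) p
    simpa [jMan] using this.symm
  rw [h2]
  exact IntermediateField.algebra_adjoin_le_adjoin Kb _
    (Polynomial.aeval_mem_adjoin_singleton Kb (jMan N) (p := p))

/-- The norm trick: an element of `Man N` fixed by `SL(2,ℤ)` is a quotient of two elements of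
`Ban N` fixed by `SL(2,ℤ)`. -/
theorem exists_invariant_div (N : ℕ) [NeZero N] (m : Man N) (hm : ∀ γ, act N γ m = m) :
    ∃ a b : Ban N, b ≠ 0 ∧ (∀ γ, actBan N γ a = a) ∧ (∀ γ, actBan N γ b = b) ∧
      m = algebraMap (Ban N) (Man N) a / algebraMap (Ban N) (Man N) b := by
  classical
  have : Finite (act N).range := finite_range_act N
  have : Fintype (act N).range := Fintype.ofFinite _
  obtain ⟨a, b, hb, rfl⟩ := IsFractionRing.div_surjective (A := Ban N) m
  have hb0 : b ≠ 0 := nonZeroDivisors.ne_zero hb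
  have hinj : Function.Injective (algebraMap (Ban N) (Man N)) := IsFractionRing.injective _ _
  -- every `g` in the range maps the image of `Ban N` to itself
  have hrange : ∀ (g : (act N).range) (x : Ban N), ∃ y : Ban N,
      (g : Man N ≃ₐ[Kb] Man N) (algebraMap (Ban N) (Man N) x) = algebraMap (Ban N) (Man N) y := by
    rintro ⟨g, γ, rfl⟩ x
    exact ⟨actBan N γ x, act_algebraMap N γ x⟩
  choose F hF using hrange
  -- the norm and the cofactor, in `Ban N`
  set nb : Ban N := ∏ g : (act N).range, F g b with hnb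
  set cb : Ban N := ∏ g ∈ (Finset.univ : Finset (act N).range).erase 1, F g b with hcb
  have hF1 : F 1 b = b := by
    apply hinj
    rw [← hF 1 b]
    rfl
  have hnb_eq : nb = b * cb := by
    rw [hnb, hcb, ← Finset.mul_prod_erase Finset.univ (fun g => F g b) (Finset.mem_univ 1), hF1]
  have hFne : ∀ g : (act N).range, F g b ≠ 0 := by
    intro g h0
    have h1 := hF g b
    rw [h0, map_zero] at h1
    have h2 : algebraMap (Ban N) (Man N) b = 0 :=
      (map_eq_zero_iff _ (AlgEquiv.injective _)).mp h1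
    exact hb0 (hinj (by rw [h2, map_zero]))
  have hnb0 : nb ≠ 0 := Finset.prod_ne_zero_iff.mpr fun g _ => hFne g
  -- the image of the norm
  have hnbM : algebraMap (Ban N) (Man N) nb =
      ∏ g : (act N).range, (g : Man N ≃ₐ[Kb] Man N) (algebraMap (Ban N) (Man N) b) := by
    rw [hnb, map_prod]
    exact Finset.prod_congr rfl fun g _ => (hF g b).symm
  -- invariance of the norm
  have hnb_inv : ∀ γ, actBan N γ nb = nb := by
    intro γ
    apply hinj
    rw [← act_algebraMap, hnbM, map_prod]
    let h : (act N).range := ⟨act N γ, γ, rfl⟩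
    refine Fintype.prod_equiv (Equiv.mulLeft h) _ _ fun g => ?_
    rfl
  refine ⟨a * cb, nb, hnb0, ?_, hnb_inv, ?_⟩
  · intro γ
    apply hinj
    have key : algebraMap (Ban N) (Man N) (a * cb) =
        (algebraMap (Ban N) (Man N) a / algebraMap (Ban N) (Man N) b) *
          algebraMap (Ban N) (Man N) nb := by
      rw [hnb_eq, map_mul, map_mul]
      have hbM : algebraMap (Ban N) (Man N) b ≠ 0 := fun h => hb0 (hinj (by rw [h, map_zero]))
      rw [div_mul_eq_mul_div, mul_left_comm, mul_div_assoc, mul_div_cancel₀ _ hbM]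
    rw [← act_algebraMap, key, map_mul, hm γ, act_algebraMap, hnb_inv γ]
  · have hbM : algebraMap (Ban N) (Man N) b ≠ 0 := fun h => hb0 (hinj (by rw [h, map_zero]))
    have hcbM : algebraMap (Ban N) (Man N) cb ≠ 0 := by
      intro h
      apply hnb0
      apply hinj
      rw [hnb_eq, map_mul, h, mul_zero, map_zero]
    rw [hnb_eq, map_mul, map_mul, mul_div_mul_right _ _ hcbM]

/-- **P7a, `fixed`**: an element of `Man N` fixed by the action of `SL(2,ℤ)` lies in `ℚ̄(j)`,
given that invariant elements of `Ban N` are polynomials in `Jfun`. -/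
theorem fixed_of_invariant (N : ℕ) [NeZero N]
    (hinv : ∀ f : ℍ → ℂ, f ∈ Ban N → (∀ (γ : SL(2, ℤ)) (τ : ℍ), f (γ • τ) = f τ) →
      f ∈ Algebra.adjoin Kb {Jfun})
    (m : Man N) (hm : ∀ γ, act N γ m = m) : m ∈ Kb⟮jMan N⟯ := by
  obtain ⟨a, b, -, ha, hb, rfl⟩ := exists_invariant_div N m hm
  have hfun : ∀ x : Ban N, (∀ γ, actBan N γ x = x) →
      ∀ (γ : SL(2, ℤ)) (τ : ℍ), (x : ℍ → ℂ) (γ • τ) = (x : ℍ → ℂ) τ := by
    intro x hx γ τ
    have h1 := actBan_apply_apply N γ⁻¹ x τ
    rw [hx γ⁻¹, inv_inv] at h1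
    exact h1.symm
  have hA := algebraMap_mem_adjoin_jMan_of_mem_adjoin N a (hinv _ a.2 (hfun a ha))
  have hB := algebraMap_mem_adjoin_jMan_of_mem_adjoin N b (hinv _ b.2 (hfun b hb))
  exact div_mem hA hB

end Fermat.Agent.S24
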