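import Fermat.Agent.S24.Realization
import Fermat.Agent.S24.GaloisCount
import Fermat.Agent.S24.DegreeCount

/-!
# S24 / P10b (core) — number of places over a point of the `j`-line, from a realization

`card_places_of_loc_of` is `card_places_of_loc` with the two facts of `Places.lean`
(`sum_ord_eq_finrank`, approximation) as hypotheses.
-/

set_option autoImplicit false

open AlgebraicCurve IntermediateField
open scoped MatrixGroups

namespace Fermat.Agent.S24

theorem card_places_of_loc_of (N : ℕ) [NeZero N] (R : Realization N)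
    [FiniteDimensional Kb⟮jF N⟯ (FF N)]
    (x : FF N) (hxj : x ∈ Kb⟮jF N⟯) (hjx : jF N ∈ Kb⟮x⟯)
    (hsumP : ∃ S : Finset (Place Kb (FF N)), (∀ v, v ∈ S ↔ 0 < v.ord x) ∧
      ∑ v ∈ S, v.ord x = (Module.finrank Kb⟮x⟯ (FF N) : ℤ))
    (happrox : ∀ (v : Place Kb (FF N)) (S' : Finset (Place Kb (FF N))), 0 < v.ord x → v ∉ S' →
      (∀ u ∈ S', 0 < u.ord x) → ∃ h : FF N, v.ord h < 0 ∧ ∀ u ∈ S', 0 ≤ u.ord h)
    (ε : SL(2, ℤ)) (hloc : ∃ w : Place Kb R.M, LocalProp (R.φ x) (R.act ε) w) :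
    Nat.card {v : Place Kb (FF N) // 0 < v.ord x} =
        Nat.card (MulAction.orbitRel.Quotient (Subgroup.zpowers ε)
          (SL(2, ℤ) ⧸ CongruenceSubgroup.Gamma0 N)) ∧
      ∃ S : Finset (Place Kb (FF N)), (∀ v, v ∈ S ↔ 0 < v.ord x) ∧
        ∑ v ∈ S, v.ord x = (Nat.card (SL(2, ℤ) ⧸ CongruenceSubgroup.Gamma0 N) : ℤ) := by
  classical
  obtain ⟨S, hS, hsum⟩ := hsumP
  obtain ⟨w, hw, hε, hL⟩ := hloc
  have hKeq : Kb⟮x⟯ = Kb⟮jF N⟯ := by
    apply le_antisymm
    · rw [IntermediateField.adjoin_simple_le_iff]; exact hxj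
    · rw [IntermediateField.adjoin_simple_le_iff]; exact hjx
  have hrank : Module.finrank Kb⟮x⟯ (FF N) = Module.finrank Kb⟮jF N⟯ (FF N) :=
    congrArg (fun E : IntermediateField Kb (FF N) => Module.finrank E (FF N)) hKeq
  have hfin : Finite (R.act.range) := R.finite_range
  have key := card_places_eq_card_orbits R.φ R.act (CongruenceSubgroup.Gamma0 N) R.act_j R.fixed
    R.stab_iff hxj hjx ε w hw hε hL S hS hsum happrox
  refine ⟨?_, S, hS, ?_⟩
  · rw [DegreeCountAux.natCard_eq_card _ S hS]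
    exact key.1
  · rw [hsum, hrank, key.2]

end Fermat.Agent.S24
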