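import Mathlib

/-!
# S24 / P6a — functions on `ℍ` of the form `g ∘ q`, `g` holomorphic on the unit disc

For `g : ℂ → ℂ` differentiable on the open unit disc, `f τ = g (q τ)` (`q = exp (2πiτ)`) is
`1`-periodic, holomorphic, bounded at `i∞`, its cusp function is `g` and its `q`-expansion is the
Taylor series of `g` at `0`.  Also: Taylor coefficients pass to locally uniform limits.
-/

set_option autoImplicit false

noncomputable section

open UpperHalfPlane Function Filter Complex
open scoped Manifold Topology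

namespace Fermat.Agent.S24

local notation "𝕢" => Function.Periodic.qParam

/-- The function `τ ↦ g (q τ)` on the upper half plane. -/
def ofDisc (g : ℂ → ℂ) : ℍ → ℂ := fun τ => g (𝕢 1 τ)

@[simp] lemma ofDisc_apply (g : ℂ → ℂ) (τ : ℍ) : ofDisc g τ = g (𝕢 1 τ) := rfl

lemma norm_qParam_lt_one' (τ : ℍ) : ‖𝕢 1 (τ : ℂ)‖ < 1 :=
  Function.Periodic.norm_qParam_lt_one one_pos τ.im_pos

lemma qParam_mem_ball (τ : ℍ) : 𝕢 1 (τ : ℂ) ∈ Metric.ball (0 : ℂ) 1 := by
  simpa using norm_qParam_lt_one' τ

lemma qParam_one_add_one (w : ℂ) : 𝕢 1 (w + 1) = 𝕢 1 w := by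
  simp only [Function.Periodic.qParam, ofReal_one, div_one]
  rw [mul_add, mul_one, Complex.exp_add, Complex.exp_two_pi_mul_I, mul_one]

lemma ofDisc_periodic (g : ℂ → ℂ) : Function.Periodic (ofDisc g ∘ ofComplex) (1 : ℝ) := by
  intro w
  by_cases hw : 0 < w.im
  · have hw' : 0 < (w + (1 : ℝ)).im := by simpa using hw
    simp only [Function.comp_apply, ofComplex_apply_of_im_pos hw', ofComplex_apply_of_im_pos hw,
      ofDisc_apply]
    congr 1
    simpa using qParam_one_add_one w
  · have hw' : ¬ 0 < (w + (1 : ℝ)).im := by simpa using hw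
    simp only [Function.comp_apply]
    rw [ofComplex_apply_eq_of_im_nonpos (not_lt.mp hw') (not_lt.mp hw)]

/-- On the unit disc, the cusp function of `g ∘ q` is `g` (if `g` is continuous at `0`). -/
lemma cuspFunction_ofDisc {g : ℂ → ℂ} (hg : ContinuousAt g 0) {q : ℂ} (hq : ‖q‖ < 1) :
    cuspFunction 1 (ofDisc g) q = g q := by
  have hne : ∀ {r : ℂ}, r ≠ 0 → ‖r‖ < 1 → cuspFunction 1 (ofDisc g) r = g r := by
    intro r hr hr1
    have him : 0 < (Function.Periodic.invQParam 1 r).im :=
      Function.Periodic.im_invQParam_pos_of_norm_lt_one one_pos hr1 hr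
    rw [cuspFunction, Function.Periodic.cuspFunction_eq_of_nonzero _ _ hr, Function.comp_apply,
      ofComplex_apply_of_im_pos him, ofDisc_apply]
    rw [Function.Periodic.qParam_right_inv one_ne_zero hr]
  rcases eq_or_ne q 0 with rfl | hq0
  · rw [cuspFunction, Function.Periodic.cuspFunction_zero_eq_limUnder_nhds_ne]
    refine Tendsto.limUnder_eq ?_
    have h1 : Tendsto g (𝓝[≠] 0) (𝓝 (g 0)) := hg.tendsto.mono_left nhdsWithin_le_nhds
    refine h1.congr' ?_
    have hball : Metric.ball (0 : ℂ) 1 ∈ 𝓝[≠] (0 : ℂ) :=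
      mem_nhdsWithin_of_mem_nhds (Metric.ball_mem_nhds _ one_pos)
    filter_upwards [hball, self_mem_nhdsWithin] with r hr hr0
    exact (hne hr0 (by simpa using hr)).symm
  · exact hne hq0 hq

lemma cuspFunction_ofDisc_eventuallyEq {g : ℂ → ℂ} (hg : ContinuousAt g 0) :
    cuspFunction 1 (ofDisc g) =ᶠ[𝓝 0] g := by
  filter_upwards [Metric.ball_mem_nhds (0 : ℂ) one_pos] with q hq
  exact cuspFunction_ofDisc hg (by simpa using hq)

lemma continuousAt_zero_of_differentiableOn {g : ℂ → ℂ}
    (hg : DifferentiableOn ℂ g (Metric.ball 0 1)) : ContinuousAt g 0 :=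
  (hg.differentiableAt (Metric.ball_mem_nhds _ one_pos)).continuousAt

lemma analyticAt_of_differentiableOn_ball {g : ℂ → ℂ}
    (hg : DifferentiableOn ℂ g (Metric.ball 0 1)) : AnalyticAt ℂ g 0 :=
  hg.analyticAt (Metric.ball_mem_nhds _ one_pos)

lemma analyticAt_cuspFunction_ofDisc {g : ℂ → ℂ}
    (hg : DifferentiableOn ℂ g (Metric.ball 0 1)) :
    AnalyticAt ℂ (cuspFunction 1 (ofDisc g)) 0 :=
  (analyticAt_of_differentiableOn_ball hg).congr
    (cuspFunction_ofDisc_eventuallyEq (continuousAt_zero_of_differentiableOn hg)).symm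

/-- The `q`-expansion of `g ∘ q` is the Taylor series of `g`. -/
lemma qExpansion_ofDisc_coeff {g : ℂ → ℂ} (hg : DifferentiableOn ℂ g (Metric.ball 0 1))
    (m : ℕ) :
    (qExpansion 1 (ofDisc g)).coeff m = (↑m.factorial)⁻¹ * iteratedDeriv m g 0 := by
  rw [qExpansion_coeff]
  congr 1
  exact (cuspFunction_ofDisc_eventuallyEq
    (continuousAt_zero_of_differentiableOn hg)).iteratedDeriv_eq m

lemma ofDisc_mdifferentiable {g : ℂ → ℂ} (hg : DifferentiableOn ℂ g (Metric.ball 0 1)) :
    MDiff (ofDisc g) := by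
  rw [UpperHalfPlane.mdifferentiable_iff]
  intro z hz
  have hz' : 0 < z.im := hz
  have h1 : DifferentiableAt ℂ (fun w : ℂ => g (𝕢 1 w)) z := by
    have hq : 𝕢 1 z ∈ Metric.ball (0 : ℂ) 1 := by
      simpa using Function.Periodic.norm_qParam_lt_one one_pos hz'
    exact (hg.differentiableAt (Metric.isOpen_ball.mem_nhds hq)).comp z
      (Function.Periodic.differentiable_qParam z)
  refine (h1.differentiableWithinAt).congr_of_eventuallyEq ?_ ?_
  · filter_upwards [self_mem_nhdsWithin] with w hw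
    have hw' : 0 < w.im := hw
    simp [Function.comp_apply, ofComplex_apply_of_im_pos hw']
  · simp [Function.comp_apply, ofComplex_apply_of_im_pos hz']

lemma ofDisc_tendsto_atImInfty {g : ℂ → ℂ} (hg : ContinuousAt g 0) :
    Tendsto (ofDisc g) atImInfty (𝓝 (g 0)) :=
  hg.tendsto.comp (UpperHalfPlane.qParam_tendsto_atImInfty one_pos)

lemma ofDisc_isBoundedAtImInfty {g : ℂ → ℂ} (hg : ContinuousAt g 0) :
    IsBoundedAtImInfty (ofDisc g) :=
  (ofDisc_tendsto_atImInfty hg).isBigO_one ℝ

/-- Every holomorphic periodic bounded function is of the form `ofDisc g`. -/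
lemma eq_ofDisc_cuspFunction {f : ℍ → ℂ} (hper : Function.Periodic (f ∘ ofComplex) (1 : ℝ)) :
    f = ofDisc (cuspFunction 1 f) := by
  funext τ
  exact (UpperHalfPlane.eq_cuspFunction τ one_ne_zero hper).symm

/-- Weierstrass: Taylor coefficients at `0` pass to locally uniform limits of holomorphic
functions. -/
lemma tendsto_iteratedDeriv_of_tendstoLocallyUniformlyOn {ι : Type*} {φ : Filter ι} [φ.NeBot]
    {U : Set ℂ} (hU : IsOpen U) {z : ℂ} (hz : z ∈ U) (m : ℕ) :
    ∀ {F : ι → ℂ → ℂ} {f : ℂ → ℂ}, TendstoLocallyUniformlyOn F f φ U →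
      (∀ᶠ i in φ, DifferentiableOn ℂ (F i) U) →
      Tendsto (fun i => iteratedDeriv m (F i) z) φ (𝓝 (iteratedDeriv m f z)) := by
  induction m with
  | zero =>
    intro F f hF _
    simpa using hF.tendsto_at hz
  | succ m ih =>
    intro F f hF hdiff
    simp only [iteratedDeriv_succ']
    refine ih (F := fun i => deriv (F i)) (f := deriv f) (hF.deriv hdiff hU) ?_
    filter_upwards [hdiff] with i hi
    exact hi.deriv hU

end Fermat.Agent.S24
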