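import Fermat.Agent.S24.ModelGamma
import Fermat.Agent.S24.Realization

/-!
# S24 — assembling the analytic realization from the pieces P5a/b/c, P6b, P7a/b

`realization_of_pieces` takes the deliverables of the pieces as hypotheses, stated for the model
`Man N`, `act N`, `jMan N` of `Model.lean` / `ModelGamma.lean`.
-/

set_option autoImplicit false

noncomputable section

open AlgebraicCurve ModularCurve IntermediateField UpperHalfPlane
open scoped MatrixGroups

namespace Fermat.Agent.S24

attribute [local instance] algKbC

/-- The realization, from the pieces. -/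
theorem realization_of_pieces (N : ℕ) [NeZero N]
    (φ : FF N →ₐ[Kb] Man N) (hφj : φ (jF N) = jMan N)
    (hfixed : ∀ m : Man N, (∀ γ, act N γ m = m) → m ∈ Kb⟮jMan N⟯)
    (hstab : ∀ γ, (∀ f, act N γ (φ f) = φ f) ↔ γ ∈ CongruenceSubgroup.Gamma0 N)
    (hinf : ∃ w : Place Kb (Man N), LocalProp (jMan N)⁻¹ (act N ModularGroup.T) w)
    (hzero : ∃ w : Place Kb (Man N),
      LocalProp (jMan N) (act N (ModularGroup.S * ModularGroup.T)) w)
    (h1728 : ∃ w : Place Kb (Man N),
      LocalProp (jMan N - algebraMap Kb (Man N) 1728) (act N ModularGroup.S) w)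
    (hgen : ∀ c : Kb, c ≠ 0 → c ≠ 1728 → ∃ w : Place Kb (Man N),
      LocalProp (jMan N - algebraMap Kb (Man N) c) (act N 1) w) :
    Nonempty (Realization N) := by
  refine ⟨{
    M := Man N
    φ := φ
    act := act N
    finite_range := finite_range_act N
    act_j := fun γ => by rw [hφj]; exact act_jMan N γ
    fixed := fun m hm => by rw [hφj]; exact hfixed m hm
    stab_iff := hstab
    loc_inf := by rw [map_inv₀, hφj]; exact hinf
    loc_zero := by rw [hφj]; exact hzero
    loc_1728 := by
      rw [map_sub, hφj, AlgHom.commutes]; exact h1728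
    loc_gen := fun c hc0 hc1 => by
      rw [map_sub, hφj, AlgHom.commutes]; exact hgen c hc0 hc1 }⟩

end Fermat.Agent.S24
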