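import Mathlib

/-!
# Scott's lemma for permutation representations (piece P9 of S24)

For a group `G = ⟨a, b⟩` acting transitively on a finite set `Q`, with `z g` the number of orbits
of the cyclic group generated by `g`:

* `z a + z b + z (a * b) ≤ card Q + 2`;
* `card Q + z a + z b + z (a * b)` is even.
-/

set_option autoImplicit false
set_option linter.style.haveILetI false

namespace Fermat.Agent.S24

open Module LinearMap

section Abstract

variable {k V : Type*} [Field k] [AddCommGroup V] [Module k V] [FiniteDimensional k V]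

/-- Scott's lemma, abstract linear-algebra form (no invertibility needed). -/
theorem scott_abstract (g₁ g₂ : V →ₗ[k] V) :
    finrank k V + finrank k ↥(range (1 - g₁) ⊔ range (1 - g₂)) ≤
      finrank k ↥(range (1 - g₁)) + finrank k ↥(range (1 - g₂)) +
        finrank k ↥(range (1 - g₁ * g₂)) +
        finrank k ↥(ker (1 - g₁) ⊓ ker (1 - g₂)) := by
  -- the middle term of the complex
  let β : V →ₗ[k] ((↥(range (1 - g₁)) × ↥(range (1 - g₂))) × ↥(range (1 - g₁ * g₂))) :=
    ((1 - g₁).rangeRestrict.prod (1 - g₂).rangeRestrict).prod (1 - g₁ * g₂).rangeRestrict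
  have hβ_apply : ∀ v, β v = ((⟨(1 - g₁) v, LinearMap.mem_range_self _ v⟩,
        ⟨(1 - g₂) v, LinearMap.mem_range_self _ v⟩),
        ⟨(1 - g₁ * g₂) v, LinearMap.mem_range_self _ v⟩) := fun v => rfl
  let δ : ((↥(range (1 - g₁)) × ↥(range (1 - g₂))) × ↥(range (1 - g₁ * g₂))) →ₗ[k] V :=
    { toFun := fun c => (c.1.1 : V) + g₁ (c.1.2 : V) - (c.2 : V)
      map_add' := by
        intro x y
        simp only [Prod.fst_add, Prod.snd_add, Submodule.coe_add, map_add]
        abel
      map_smul' := by
        intro r x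
        simp only [Prod.smul_fst, Prod.smul_snd, Submodule.coe_smul, map_smul, RingHom.id_apply,
          smul_sub, smul_add] }
  have hδβ : ∀ v, δ (β v) = 0 := by
    intro v
    rw [hβ_apply]
    show ((1 - g₁) v : V) + g₁ ((1 - g₂) v) - (1 - g₁ * g₂) v = 0
    simp only [LinearMap.sub_apply, Module.End.one_apply, Module.End.mul_apply, map_sub]
    abel
  have hβker : ker β = ker (1 - g₁) ⊓ ker (1 - g₂) := by
    ext v
    simp only [LinearMap.mem_ker, Submodule.mem_inf]
    constructor
    · intro h
      have h' : ((⟨(1 - g₁) v, LinearMap.mem_range_self _ v⟩,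
        ⟨(1 - g₂) v, LinearMap.mem_range_self _ v⟩), ⟨(1 - g₁ * g₂) v,
          LinearMap.mem_range_self _ v⟩) = (0 : ((↥(range (1 - g₁)) × ↥(range (1 - g₂))) × ↥(range (1 - g₁ * g₂)))) := by rw [← hβ_apply]; exact h
      rw [Prod.ext_iff, Prod.ext_iff] at h'
      exact ⟨congrArg Subtype.val h'.1.1, congrArg Subtype.val h'.1.2⟩
    · rintro ⟨h1, h2⟩
      have e1 : g₁ v = v := by
        have := h1; simp only [LinearMap.sub_apply, Module.End.one_apply, sub_eq_zero] at this
        exact this.symm
      have e2 : g₂ v = v := by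
        have := h2; simp only [LinearMap.sub_apply, Module.End.one_apply, sub_eq_zero] at this
        exact this.symm
      rw [hβ_apply]
      refine Prod.ext (Prod.ext ?_ ?_) ?_
      · apply Subtype.ext; exact h1
      · apply Subtype.ext; exact h2
      · apply Subtype.ext
        show (1 - g₁ * g₂) v = 0
        simp [Module.End.mul_apply, e1, e2]
  have hrange : range (1 - g₁) ⊔ range (1 - g₂) ≤ range δ := by
    refine sup_le ?_ ?_
    · rintro x hx
      refine ⟨((⟨x, hx⟩, 0), 0), ?_⟩
      show (x : V) + g₁ ((0 : ↥(range (1 - g₂))) : V) - ((0 : ↥(range (1 - g₁ * g₂))) : V) = x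
      simp
    · rintro y hy
      refine ⟨((⟨(1 - g₁) y, LinearMap.mem_range_self _ y⟩, ⟨y, hy⟩), 0), ?_⟩
      show ((1 - g₁) y : V) + g₁ y - ((0 : ↥(range (1 - g₁ * g₂))) : V) = y
      simp
  have h1 : finrank k ↥(range β) ≤ finrank k ↥(ker δ) := by
    apply Submodule.finrank_mono
    rintro _ ⟨v, rfl⟩
    exact hδβ v
  have h2 := LinearMap.finrank_range_add_finrank_ker β
  have h3 := LinearMap.finrank_range_add_finrank_ker δ
  have h4 : finrank k ↥(range (1 - g₁) ⊔ range (1 - g₂)) ≤ finrank k ↥(range δ) :=
    Submodule.finrank_mono hrange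
  have h5 : finrank k ((↥(range (1 - g₁)) × ↥(range (1 - g₂))) × ↥(range (1 - g₁ * g₂))) = finrank k ↥(range (1 - g₁)) + finrank k ↥(range (1 - g₂)) +
      finrank k ↥(range (1 - g₁ * g₂)) := by
    simp only [Module.finrank_prod]
  rw [hβker] at h2
  omega

end Abstract

section Perm

variable {G : Type*} [Group G] {Q : Type*} [MulAction G Q]

/-- The operator `f ↦ f ∘ (g • ·)` on `Q → ℚ`. -/
noncomputable def permOp (g : G) : (Q → ℚ) →ₗ[ℚ] (Q → ℚ) :=
  LinearMap.funLeft ℚ ℚ (fun x : Q => g • x)

theorem permOp_apply (g : G) (f : Q → ℚ) (x : Q) : permOp g f x = f (g • x) := rfl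

theorem permOp_mul (a b : G) : permOp (Q := Q) (a * b) = permOp b * permOp a := by
  apply LinearMap.ext
  intro f
  funext x
  simp only [Module.End.mul_apply, permOp_apply, mul_smul]

theorem mem_ker_one_sub_permOp (g : G) (f : Q → ℚ) :
    f ∈ ker (1 - permOp (Q := Q) g) ↔ ∀ x, f (g • x) = f x := by
  rw [LinearMap.mem_ker, LinearMap.sub_apply, Module.End.one_apply, sub_eq_zero]
  constructor
  · intro h x
    have := congrFun h x
    rw [permOp_apply] at this
    exact this.symm
  · intro h
    funext x
    rw [permOp_apply]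
    exact (h x).symm

theorem zpow_invariant_of_invariant (g : G) (f : Q → ℚ) (h : ∀ x, f (g • x) = f x)
    (n : ℤ) (x : Q) : f (g ^ n • x) = f x := by
  have hinv : ∀ x, f (g⁻¹ • x) = f x := by
    intro x
    have := h (g⁻¹ • x)
    rw [smul_inv_smul] at this
    exact this.symm
  induction n using Int.induction_on generalizing x with
  | zero => simp
  | succ m ih =>
    rw [zpow_add_one, mul_smul, ih, h]
  | pred m ih =>
    rw [zpow_sub_one, mul_smul, ih, hinv]

/-- The fixed space of `permOp g` has dimension the number of `⟨g⟩`-orbits. -/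
theorem finrank_ker_one_sub_permOp [Finite Q] (g : G) :
    finrank ℚ ↥(ker (1 - permOp (Q := Q) g)) =
      Nat.card (MulAction.orbitRel.Quotient (Subgroup.zpowers g) Q) := by
  classical
  haveI := Fintype.ofFinite Q
  let π : Q → MulAction.orbitRel.Quotient (Subgroup.zpowers g) Q := Quotient.mk''
  have hπ : Function.Surjective π := Quotient.mk''_surjective
  have hΦinj : Function.Injective (LinearMap.funLeft ℚ ℚ π) :=
    LinearMap.funLeft_injective_of_surjective ℚ ℚ π hπ
  have hrange : range (LinearMap.funLeft ℚ ℚ π) = ker (1 - permOp (Q := Q) g) := by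
    ext f
    rw [mem_ker_one_sub_permOp]
    constructor
    · rintro ⟨h, rfl⟩ x
      simp only [LinearMap.funLeft_apply]
      congr 1
      apply Quotient.sound'
      exact ⟨⟨g, Subgroup.mem_zpowers g⟩, rfl⟩
    · intro hf
      refine ⟨fun o => Quotient.liftOn' o f ?_, ?_⟩
      · rintro x y ⟨⟨t, ht⟩, hxy⟩
        obtain ⟨n, rfl⟩ := Subgroup.mem_zpowers_iff.mp ht
        have hxy' : g ^ n • y = x := hxy
        rw [← hxy', zpow_invariant_of_invariant g f hf]
      · funext x
        rfl
  rw [← hrange, LinearMap.finrank_range_of_inj hΦinj, Module.finrank_fintype_fun_eq_card,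
    Nat.card_eq_fintype_card]

theorem finrank_range_one_sub_permOp [Finite Q] (g : G) :
    finrank ℚ ↥(range (1 - permOp (Q := Q) g)) +
      Nat.card (MulAction.orbitRel.Quotient (Subgroup.zpowers g) Q) = Nat.card Q := by
  classical
  haveI := Fintype.ofFinite Q
  have h := LinearMap.finrank_range_add_finrank_ker (1 - permOp (Q := Q) g)
  rw [finrank_ker_one_sub_permOp, Module.finrank_fintype_fun_eq_card] at h
  rw [h, Nat.card_eq_fintype_card]

/-- A function invariant under two generators of a transitive group is constant. -/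
theorem const_of_invariant [MulAction.IsPretransitive G Q] (a b : G)
    (hab : Subgroup.closure {a, b} = ⊤) (f : Q → ℚ)
    (ha : ∀ x, f (a • x) = f x) (hb : ∀ x, f (b • x) = f x) (x y : Q) : f x = f y := by
  let H : Subgroup G :=
    { carrier := {g | ∀ x, f (g • x) = f x}
      one_mem' := fun x => by rw [one_smul]
      mul_mem' := fun {g h} hg hh x => by rw [mul_smul, hg, hh]
      inv_mem' := fun {g} hg x => by
        have := hg (g⁻¹ • x)
        rw [smul_inv_smul] at this
        exact this.symm }
  have hH : Subgroup.closure {a, b} ≤ H := by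
    rw [Subgroup.closure_le]
    rintro g (rfl | rfl)
    · exact ha
    · exact hb
  rw [hab] at hH
  obtain ⟨g, rfl⟩ := MulAction.exists_smul_eq G x y
  exact ((hH (Subgroup.mem_top g)) x).symm

theorem finrank_common_fixed_le_one [Finite Q] [MulAction.IsPretransitive G Q] (a b : G)
    (hab : Subgroup.closure {a, b} = ⊤) :
    finrank ℚ ↥(ker (1 - permOp (Q := Q) b) ⊓ ker (1 - permOp (Q := Q) a)) ≤ 1 := by
  classical
  have hle : ker (1 - permOp (Q := Q) b) ⊓ ker (1 - permOp (Q := Q) a) ≤
      Submodule.span ℚ {(fun _ : Q => (1 : ℚ))} := by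
    intro f hf
    rw [Submodule.mem_inf, mem_ker_one_sub_permOp, mem_ker_one_sub_permOp] at hf
    rcases isEmpty_or_nonempty Q with hQ | ⟨⟨x₀⟩⟩
    · have : f = 0 := funext fun x => (hQ.false x).elim
      rw [this]; exact Submodule.zero_mem _
    · rw [Submodule.mem_span_singleton]
      refine ⟨f x₀, ?_⟩
      funext x
      simp only [Pi.smul_apply, smul_eq_mul, mul_one]
      exact const_of_invariant a b hab f hf.2 hf.1 x₀ x
  calc finrank ℚ ↥(ker (1 - permOp (Q := Q) b) ⊓ ker (1 - permOp (Q := Q) a))
      ≤ finrank ℚ ↥(Submodule.span ℚ {(fun _ : Q => (1 : ℚ))}) := Submodule.finrank_mono hle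
    _ ≤ 1 := by
      have := finrank_span_le_card (R := ℚ) ({(fun _ : Q => (1 : ℚ))} : Set (Q → ℚ))
      simpa using this

/-- The indicator function of a point. -/
noncomputable def dirac [DecidableEq Q] (x : Q) : Q → ℚ := Pi.single x 1

theorem dirac_apply [DecidableEq Q] (x t : Q) : dirac x t = if t = x then 1 else 0 := by
  unfold dirac
  rw [Pi.single_apply]

theorem one_sub_permOp_single [DecidableEq Q] (g : G) (x : Q) :
    (1 - permOp (Q := Q) g) (dirac (g • x)) = dirac (g • x) - dirac x := by
  funext t
  simp only [LinearMap.sub_apply, Module.End.one_apply, Pi.sub_apply, permOp_apply]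
  congr 1
  rw [dirac_apply, dirac_apply]
  by_cases h : t = x
  · subst h; simp
  · have h' : g • t ≠ g • x := fun e => h (MulAction.injective g e)
    simp [h, h']

theorem card_le_finrank_range_sup_add_one [Finite Q] [MulAction.IsPretransitive G Q] (a b : G)
    (hab : Subgroup.closure {a, b} = ⊤) :
    Nat.card Q ≤
      finrank ℚ ↥(range (1 - permOp (Q := Q) b) ⊔ range (1 - permOp (Q := Q) a)) + 1 := by
  classical
  haveI := Fintype.ofFinite Q
  rcases isEmpty_or_nonempty Q with hQ | ⟨⟨x₀⟩⟩
  · simp
  set I : Submodule ℚ (Q → ℚ) := range (1 - permOp (Q := Q) b) ⊔ range (1 - permOp (Q := Q) a)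
    with hI
  let H : Subgroup G :=
    { carrier := {g | ∀ x : Q, dirac (g • x) - dirac x ∈ I}
      one_mem' := fun x => by rw [one_smul, sub_self]; exact I.zero_mem
      mul_mem' := fun {g h} hg hh x => by
        have e : dirac ((g * h) • x) - dirac x =
            (dirac (g • (h • x)) - dirac (h • x)) +
              (dirac (h • x) - dirac x) := by
          rw [mul_smul]; abel
        rw [e]
        exact I.add_mem (hg (h • x)) (hh x)
      inv_mem' := fun {g} hg x => by
        have e : dirac (g⁻¹ • x) - dirac x =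
            -(dirac (g • (g⁻¹ • x)) - dirac (g⁻¹ • x)) := by
          rw [smul_inv_smul]; abel
        rw [e]
        exact I.neg_mem (hg (g⁻¹ • x)) }
  have hH : Subgroup.closure {a, b} ≤ H := by
    rw [Subgroup.closure_le]
    rintro g (rfl | rfl)
    · intro x
      rw [← one_sub_permOp_single]
      exact (le_sup_right : range (1 - permOp (Q := Q) g) ≤ I) (LinearMap.mem_range_self _ _)
    · intro x
      rw [← one_sub_permOp_single]
      exact (le_sup_left : range (1 - permOp (Q := Q) g) ≤ I) (LinearMap.mem_range_self _ _)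
  rw [hab] at hH
  have hsingle : ∀ x : Q, dirac x ∈ I ⊔ Submodule.span ℚ {dirac x₀} := by
    intro x
    obtain ⟨g, rfl⟩ := MulAction.exists_smul_eq G x₀ x
    have h1 := (hH (Subgroup.mem_top g)) x₀
    have e : dirac (g • x₀) =
        (dirac (g • x₀) - dirac x₀) + dirac x₀ := by abel
    rw [e]
    exact Submodule.add_mem _ (Submodule.mem_sup_left h1)
      (Submodule.mem_sup_right (Submodule.mem_span_singleton_self _))
  have htop : (⊤ : Submodule ℚ (Q → ℚ)) ≤ I ⊔ Submodule.span ℚ {dirac x₀} := by
    intro f _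
    have hf : f = ∑ x, f x • dirac x := by
      funext t
      simp [Finset.sum_apply, dirac_apply]
    rw [hf]
    exact Submodule.sum_mem _ fun x _ => Submodule.smul_mem _ _ (hsingle x)
  have h1 : finrank ℚ (Q → ℚ) ≤ finrank ℚ ↥(I ⊔ Submodule.span ℚ {dirac x₀}) := by
    rw [← finrank_top ℚ (Q → ℚ)]
    exact Submodule.finrank_mono htop
  have h2 := Submodule.finrank_add_le_finrank_add_finrank I
    (Submodule.span ℚ {dirac x₀})
  have h3 : finrank ℚ ↥(Submodule.span ℚ {dirac x₀}) ≤ 1 := by
    have := finrank_span_le_card (R := ℚ) ({dirac x₀} : Set (Q → ℚ))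
    simpa using this
  rw [Module.finrank_fintype_fun_eq_card] at h1
  rw [Nat.card_eq_fintype_card]
  omega

/-- **Scott's inequality** for a transitive permutation action of a two-generator group. -/
theorem scott_orbit_bound [Finite Q] [MulAction.IsPretransitive G Q] (a b : G)
    (hab : Subgroup.closure {a, b} = ⊤) :
    Nat.card (MulAction.orbitRel.Quotient (Subgroup.zpowers a) Q) +
      Nat.card (MulAction.orbitRel.Quotient (Subgroup.zpowers b) Q) +
      Nat.card (MulAction.orbitRel.Quotient (Subgroup.zpowers (a * b)) Q) ≤ Nat.card Q + 2 := by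
  classical
  haveI := Fintype.ofFinite Q
  have h := scott_abstract (k := ℚ) (permOp (Q := Q) b) (permOp (Q := Q) a)
  rw [← permOp_mul] at h
  have ha := finrank_range_one_sub_permOp (Q := Q) a
  have hb := finrank_range_one_sub_permOp (Q := Q) b
  have hc := finrank_range_one_sub_permOp (Q := Q) (a * b)
  have h2 := finrank_common_fixed_le_one (Q := Q) a b hab
  have h3 := card_le_finrank_range_sup_add_one (Q := Q) a b hab
  rw [Module.finrank_fintype_fun_eq_card, ← Nat.card_eq_fintype_card] at h
  omega

end Perm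

section Parity

open Equiv Equiv.Perm

variable {Q : Type*} [Fintype Q] [DecidableEq Q]

/-- The number of cycles (including fixed points) of a permutation. -/
theorem card_quotient_sameCycle (σ : Equiv.Perm Q) :
    Nat.card (Quotient (Equiv.Perm.SameCycle.setoid σ)) + σ.cycleType.sum =
      Fintype.card Q + Multiset.card σ.cycleType := by
  classical
  let φ : Q → (Function.fixedPoints σ) ⊕ σ.cycleFactorsFinset := fun x =>
    if h : σ x = x then Sum.inl ⟨x, h⟩
    else Sum.inr ⟨σ.cycleOf x,
      Equiv.Perm.cycleOf_mem_cycleFactorsFinset_iff.mpr (Equiv.Perm.mem_support.mpr h)⟩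
  have hφ : ∀ x y, σ.SameCycle x y ↔ φ x = φ y := by
    intro x y
    constructor
    · intro h
      by_cases hx : σ x = x
      · have hxy : x = y := h.eq_of_left hx
        subst hxy
        rfl
      · have hy : σ y ≠ y := fun hy => hx (h.apply_eq_self_iff.mpr hy)
        simp only [φ, dif_neg hx, dif_neg hy]
        congr 2
        exact h.cycleOf_eq
    · intro h
      by_cases hx : σ x = x
      · by_cases hy : σ y = y
        · simp only [φ, dif_pos hx, dif_pos hy, Sum.inl.injEq, Subtype.mk.injEq] at h
          subst h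
          exact Equiv.Perm.SameCycle.refl σ x
        · simp only [φ, dif_pos hx, dif_neg hy] at h
          exact absurd h (by simp)
      · by_cases hy : σ y = y
        · simp only [φ, dif_neg hx, dif_pos hy] at h
          exact absurd h (by simp)
        · simp only [φ, dif_neg hx, dif_neg hy, Sum.inr.injEq, Subtype.mk.injEq] at h
          exact (Equiv.Perm.sameCycle_iff_cycleOf_eq_of_mem_support
            (Equiv.Perm.mem_support.mpr hx) (Equiv.Perm.mem_support.mpr hy)).mpr h
  have hsurj : Function.Surjective φ := by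
    rintro (⟨x, hx⟩ | ⟨c, hc⟩)
    · refine ⟨x, ?_⟩
      have hx' : σ x = x := hx
      simp only [φ, dif_pos hx']
    · have hcyc : c.IsCycle := (Equiv.Perm.mem_cycleFactorsFinset_iff.mp hc).1
      obtain ⟨x, hx, -⟩ := hcyc
      have hxs : x ∈ c.support := Equiv.Perm.mem_support.mpr hx
      have hxσ : σ x ≠ x :=
        Equiv.Perm.mem_support.mp (Equiv.Perm.mem_cycleFactorsFinset_support_le hc hxs)
      refine ⟨x, ?_⟩
      simp only [φ, dif_neg hxσ]
      congr 2
      exact (Equiv.Perm.cycle_is_cycleOf hxs hc).symm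
  have hker : Equiv.Perm.SameCycle.setoid σ = Setoid.ker φ := by
    ext x y
    exact hφ x y
  have hcard : Nat.card (Quotient (Equiv.Perm.SameCycle.setoid σ)) =
      Fintype.card (Function.fixedPoints σ) + σ.cycleFactorsFinset.card := by
    rw [hker, Nat.card_congr (Setoid.quotientKerEquivOfSurjective φ hsurj),
      Nat.card_eq_fintype_card, Fintype.card_sum, Fintype.card_coe]
  have h1 := Equiv.Perm.card_fixedPoints σ
  have h2 := Equiv.Perm.sum_cycleType_le σ
  have h3 : Multiset.card σ.cycleType = σ.cycleFactorsFinset.card := by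
    rw [Equiv.Perm.cycleType_def, Multiset.card_map]
    rfl
  rw [hcard, h1, h3]
  omega

variable {G : Type*} [Group G] [MulAction G Q]

omit [Fintype Q] [DecidableEq Q] in
theorem toPerm_zpow_apply (g : G) (n : ℤ) (x : Q) :
    ((MulAction.toPerm g : Equiv.Perm Q) ^ n) x = g ^ n • x := by
  have h : (MulAction.toPerm g : Equiv.Perm Q) ^ n = MulAction.toPerm (g ^ n) := by
    rw [← MulAction.coe_toPermHom, ← map_zpow]
  rw [h]
  rfl

omit [Fintype Q] [DecidableEq Q] in
/-- Orbits of `⟨g⟩` are the cycles of the permutation induced by `g`. -/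
theorem card_orbits_zpowers_eq (g : G) :
    Nat.card (MulAction.orbitRel.Quotient (Subgroup.zpowers g) Q) =
      Nat.card (Quotient (Equiv.Perm.SameCycle.setoid (MulAction.toPerm g : Equiv.Perm Q))) := by
  apply Nat.card_congr
  refine Quotient.congr (Equiv.refl Q) ?_
  intro x y
  show x ∈ MulAction.orbit (Subgroup.zpowers g) y ↔
    (MulAction.toPerm g : Equiv.Perm Q).SameCycle x y
  constructor
  · rintro ⟨⟨t, ht⟩, hxy⟩
    obtain ⟨n, rfl⟩ := Subgroup.mem_zpowers_iff.mp ht
    have hxy' : g ^ n • y = x := hxy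
    refine (Equiv.Perm.SameCycle.symm ?_)
    exact ⟨n, by rw [toPerm_zpow_apply, hxy']⟩
  · intro h
    obtain ⟨n, hn⟩ := h.symm
    rw [toPerm_zpow_apply] at hn
    exact ⟨⟨g ^ n, Subgroup.zpow_mem_zpowers g n⟩, hn⟩

theorem sign_toPerm (g : G) :
    ((Equiv.Perm.sign (MulAction.toPerm g : Equiv.Perm Q) : ℤˣ) : ℤ) =
      (-1 : ℤ) ^ (Nat.card Q + Nat.card (MulAction.orbitRel.Quotient (Subgroup.zpowers g) Q)) := by
  have h := card_quotient_sameCycle (MulAction.toPerm g : Equiv.Perm Q)
  rw [← card_orbits_zpowers_eq] at h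
  rw [Equiv.Perm.sign_of_cycleType, Nat.card_eq_fintype_card]
  have h2 := Equiv.Perm.sum_cycleType_le (MulAction.toPerm g : Equiv.Perm Q)
  set z := Nat.card (MulAction.orbitRel.Quotient (Subgroup.zpowers g) Q)
  set s := (MulAction.toPerm g : Equiv.Perm Q).cycleType.sum
  set c := Multiset.card (MulAction.toPerm g : Equiv.Perm Q).cycleType
  set n := Fintype.card Q
  push_cast
  have e : n + z = (s + c) + 2 * (n - s) := by omega
  rw [e, pow_add (-1 : ℤ) (s + c), pow_mul, pow_add]
  simp

/-- Parity statement accompanying Scott's inequality. -/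
theorem scott_orbit_parity (a b : G) :
    Even (Nat.card Q + Nat.card (MulAction.orbitRel.Quotient (Subgroup.zpowers a) Q) +
      Nat.card (MulAction.orbitRel.Quotient (Subgroup.zpowers b) Q) +
      Nat.card (MulAction.orbitRel.Quotient (Subgroup.zpowers (a * b)) Q)) := by
  have hmul : (MulAction.toPerm (a * b) : Equiv.Perm Q) =
      MulAction.toPerm a * MulAction.toPerm b := by
    ext x
    simp [mul_smul]
  have h := sign_toPerm (Q := Q) (a * b)
  rw [hmul, map_mul, Units.val_mul, sign_toPerm a, sign_toPerm b, ← pow_add] at h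
  set n := Nat.card Q
  set za := Nat.card (MulAction.orbitRel.Quotient (Subgroup.zpowers a) Q)
  set zb := Nat.card (MulAction.orbitRel.Quotient (Subgroup.zpowers b) Q)
  set zc := Nat.card (MulAction.orbitRel.Quotient (Subgroup.zpowers (a * b)) Q)
  have h1 : (-1 : ℤ) ^ ((n + za + (n + zb)) + (n + zc)) = 1 := by
    rw [pow_add, ← h, ← pow_add, ← two_mul, pow_mul]
    simp
  have h2 : Even ((n + za + (n + zb)) + (n + zc)) :=
    (neg_one_pow_eq_one_iff_even (by norm_num)).mp h1
  rcases h2 with ⟨m, hm⟩
  exact ⟨m - n, by omega⟩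

end Parity

section Final

variable {G : Type*} [Group G] {Q : Type*} [MulAction G Q]

/-- **Scott's lemma with parity** (piece P9 of S24): for a group `G = ⟨a, b⟩` acting transitively
on a finite set `Q`, with `z g` the number of orbits of `⟨g⟩` on `Q`,
`z a + z b + z (a * b) ≤ card Q + 2` and `card Q + z a + z b + z (a * b)` is even. -/
theorem scott_orbit_bound_and_parity [Finite Q] [MulAction.IsPretransitive G Q] (a b : G)
    (hab : Subgroup.closure {a, b} = ⊤) :
    Nat.card (MulAction.orbitRel.Quotient (Subgroup.zpowers a) Q) +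
        Nat.card (MulAction.orbitRel.Quotient (Subgroup.zpowers b) Q) +
        Nat.card (MulAction.orbitRel.Quotient (Subgroup.zpowers (a * b)) Q) ≤ Nat.card Q + 2 ∧
      Even (Nat.card Q + Nat.card (MulAction.orbitRel.Quotient (Subgroup.zpowers a) Q) +
        Nat.card (MulAction.orbitRel.Quotient (Subgroup.zpowers b) Q) +
        Nat.card (MulAction.orbitRel.Quotient (Subgroup.zpowers (a * b)) Q)) := by
  classical
  haveI := Fintype.ofFinite Q
  exact ⟨scott_orbit_bound a b hab, scott_orbit_parity a b⟩

/-- Consequence: the "genus" `(card Q + 2 - z a - z b - z (a * b)) / 2` is a natural number `γ`. -/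
theorem scott_exists_genus [Finite Q] [MulAction.IsPretransitive G Q] (a b : G)
    (hab : Subgroup.closure {a, b} = ⊤) :
    ∃ γ : ℕ, Nat.card (MulAction.orbitRel.Quotient (Subgroup.zpowers a) Q) +
        Nat.card (MulAction.orbitRel.Quotient (Subgroup.zpowers b) Q) +
        Nat.card (MulAction.orbitRel.Quotient (Subgroup.zpowers (a * b)) Q) + 2 * γ =
      Nat.card Q + 2 := by
  obtain ⟨h1, ⟨m, hm⟩⟩ := scott_orbit_bound_and_parity (Q := Q) a b hab
  exact ⟨Nat.card Q + 1 - m, by omega⟩

/-- Scott's lemma for finite transitive `SL(2,ℤ)`-sets and the standard generators `S`, `T`. -/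
theorem scott_SL2Z {Q : Type*} [MulAction (Matrix.SpecialLinearGroup (Fin 2) ℤ) Q] [Finite Q]
    [MulAction.IsPretransitive (Matrix.SpecialLinearGroup (Fin 2) ℤ) Q] :
    Nat.card (MulAction.orbitRel.Quotient (Subgroup.zpowers ModularGroup.S) Q) +
        Nat.card (MulAction.orbitRel.Quotient (Subgroup.zpowers ModularGroup.T) Q) +
        Nat.card (MulAction.orbitRel.Quotient
          (Subgroup.zpowers (ModularGroup.S * ModularGroup.T)) Q) ≤ Nat.card Q + 2 ∧
      Even (Nat.card Q +
        Nat.card (MulAction.orbitRel.Quotient (Subgroup.zpowers ModularGroup.S) Q) +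
        Nat.card (MulAction.orbitRel.Quotient (Subgroup.zpowers ModularGroup.T) Q) +
        Nat.card (MulAction.orbitRel.Quotient
          (Subgroup.zpowers (ModularGroup.S * ModularGroup.T)) Q)) :=
  scott_orbit_bound_and_parity ModularGroup.S ModularGroup.T
    SpecialLinearGroup.SL2Z_generators

end Final

end Fermat.Agent.S24
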